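import Mathlib
import Fermat.Prelude.Def_GaloisRep_Flat

/-!
# S28 / Igusa: basics on `ℤ_(ℓ) = GaloisRep.ratLocalizedAt ℓ`

* `zlResidue ℓ : ℤ_(ℓ) →+* ZMod ℓ`, surjective, kernel generated by `ℓ`;
* ring homomorphisms out of `ℤ_(ℓ)` are unique;
* for a field `K` of characteristic `ℓ` with an `ℤ_(ℓ)`-algebra structure, the structure map
  factors through `ZMod ℓ`.
-/

set_option autoImplicit false

noncomputable section
namespace Fermat.Agent.Igusa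

variable (ℓ : ℕ) [Fact ℓ.Prime]

set_option quotPrecheck false in
local notation "ℤℓ" => ↥(GaloisRep.ratLocalizedAt ℓ)

theorem zl_den_ne_zero (q : ℤℓ) : ((q : ℚ).den : ZMod ℓ) ≠ 0 := by
  have hq : (q : ℚ).den.Coprime ℓ := q.2
  intro h
  rw [ZMod.natCast_eq_zero_iff] at h
  have := Nat.Coprime.eq_one_of_dvd hq.symm h
  exact (Fact.out : ℓ.Prime).one_lt.ne' this

/-- The residue map `ℤ_(ℓ) → 𝔽_ℓ`. -/
def zlResidue : ℤℓ →+* ZMod ℓ where
  toFun q := ((q : ℚ) : ZMod ℓ)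
  map_one' := by simp
  map_zero' := by simp
  map_add' a b := by
    show (((a + b : ℤℓ) : ℚ) : ZMod ℓ) = _
    rw [Subring.coe_add]
    exact Rat.cast_add_of_ne_zero (zl_den_ne_zero ℓ a) (zl_den_ne_zero ℓ b)
  map_mul' a b := by
    show (((a * b : ℤℓ) : ℚ) : ZMod ℓ) = _
    rw [Subring.coe_mul]
    exact Rat.cast_mul_of_ne_zero (zl_den_ne_zero ℓ a) (zl_den_ne_zero ℓ b)

theorem zlResidue_apply (q : ℤℓ) : zlResidue ℓ q = ((q : ℚ) : ZMod ℓ) := rfl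

omit [Fact ℓ.Prime] in
theorem intCast_mem_zl (n : ℤ) : (n : ℚ) ∈ GaloisRep.ratLocalizedAt ℓ := by
  show ((n : ℚ).den).Coprime ℓ
  simp

theorem zlResidue_surjective : Function.Surjective (zlResidue ℓ) := by
  intro a
  refine ⟨⟨((a.val : ℤ) : ℚ), intCast_mem_zl ℓ _⟩, ?_⟩
  rw [zlResidue_apply]
  show (((a.val : ℤ) : ℚ) : ZMod ℓ) = a
  rw [Rat.cast_intCast, Int.cast_natCast, ZMod.natCast_zmod_val]


/-- `ℓ` as an element of `ℤ_(ℓ)`. -/
def zlPrime : ℤℓ := ⟨((ℓ : ℤ) : ℚ), intCast_mem_zl ℓ _⟩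

omit [Fact ℓ.Prime] in
theorem coe_zlPrime : ((zlPrime ℓ : ℤℓ) : ℚ) = (ℓ : ℚ) := by simp [zlPrime]

omit [Fact ℓ.Prime] in
theorem zlPrime_eq_natCast : zlPrime ℓ = ((ℓ : ℕ) : ℤℓ) := by
  apply Subtype.ext
  rw [coe_zlPrime]
  simp

theorem zlResidue_zlPrime : zlResidue ℓ (zlPrime ℓ) = 0 := by
  rw [zlPrime_eq_natCast, map_natCast]
  exact ZMod.natCast_self ℓ

/-- The kernel of the residue map is generated by `ℓ`. -/
theorem exists_eq_mul_of_zlResidue_eq_zero {q : ℤℓ} (hq : zlResidue ℓ q = 0) :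
    ∃ r : ℤℓ, q = zlPrime ℓ * r := by
  have hℓ : (ℓ : ℚ) ≠ 0 := by exact_mod_cast (Fact.out : ℓ.Prime).ne_zero
  rw [zlResidue_apply, Rat.cast_def, div_eq_zero_iff] at hq
  rcases hq with hq | hq
  · -- ℓ ∣ num
    rw [ZMod.intCast_zmod_eq_zero_iff_dvd] at hq
    obtain ⟨m, hm⟩ := hq
    have hmem : ((m : ℚ) / ((q : ℚ).den : ℚ)) ∈ GaloisRep.ratLocalizedAt ℓ := by
      show ((m : ℚ) / ((q : ℚ).den : ℚ)).den.Coprime ℓ
      have hdvd : ((m : ℚ) / ((q : ℚ).den : ℚ)).den ∣ (q : ℚ).den := by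
        have h := Rat.den_dvd m ((q : ℚ).den : ℤ)
        rw [Rat.divInt_eq_div] at h
        have h' : ((((m : ℚ) / (((q : ℚ).den : ℤ) : ℚ)).den : ℤ)) ∣ (((q : ℚ).den : ℕ) : ℤ) := h
        rw [Int.cast_natCast] at h'
        exact Int.natCast_dvd_natCast.mp h'
      exact Nat.Coprime.coprime_dvd_left hdvd q.2
    refine ⟨⟨_, hmem⟩, Subtype.ext ?_⟩
    rw [Subring.coe_mul, coe_zlPrime]
    have hden : ((q : ℚ).den : ℚ) ≠ 0 := by exact_mod_cast (q : ℚ).den_ne_zero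
    calc (q : ℚ) = ((q : ℚ).num : ℚ) / ((q : ℚ).den : ℚ) := (Rat.num_div_den _).symm
      _ = ((ℓ : ℤ) * m : ℤ) / ((q : ℚ).den : ℚ) := by rw [hm]
      _ = (ℓ : ℚ) * ((m : ℚ) / ((q : ℚ).den : ℚ)) := by push_cast; ring
  · exact absurd hq (zl_den_ne_zero ℓ q)

theorem ker_zlResidue : RingHom.ker (zlResidue ℓ) = Ideal.span {zlPrime ℓ} := by
  ext q
  rw [RingHom.mem_ker, Ideal.mem_span_singleton']
  constructor
  · intro h
    obtain ⟨r, rfl⟩ := exists_eq_mul_of_zlResidue_eq_zero ℓ h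
    exact ⟨r, mul_comm _ _⟩
  · rintro ⟨r, rfl⟩
    rw [map_mul, zlResidue_zlPrime, mul_zero]

omit [Fact ℓ.Prime] in
/-- Ring homomorphisms out of `ℤ_(ℓ)` are unique. -/
theorem zl_ringHom_ext {S : Type*} [CommRing S] (f g : ℤℓ →+* S) : f = g := by
  ext q
  -- q * den = num, and den is a unit of ℤ_(ℓ)
  let d : ℤℓ := ⟨(((q : ℚ).den : ℤ) : ℚ), intCast_mem_zl ℓ _⟩
  let n : ℤℓ := ⟨(((q : ℚ).num : ℤ) : ℚ), intCast_mem_zl ℓ _⟩
  have hden : ((q : ℚ).den : ℚ) ≠ 0 := by exact_mod_cast (q : ℚ).den_ne_zero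
  have hdinv : ((((q : ℚ).den : ℚ))⁻¹) ∈ GaloisRep.ratLocalizedAt ℓ := by
    show ((((q : ℚ).den : ℚ))⁻¹).den.Coprime ℓ
    have : ((((q : ℚ).den : ℚ))⁻¹).den = (q : ℚ).den := by
      exact Rat.inv_natCast_den_of_pos (q : ℚ).den_pos
    rw [this]; exact q.2
  let dinv : ℤℓ := ⟨_, hdinv⟩
  have h1 : d * dinv = 1 := Subtype.ext (by
    show (((q : ℚ).den : ℤ) : ℚ) * (((q : ℚ).den : ℚ))⁻¹ = 1
    rw [Int.cast_natCast]; exact mul_inv_cancel₀ hden)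
  have h2 : q * d = n := Subtype.ext (by
    show (q : ℚ) * (((q : ℚ).den : ℤ) : ℚ) = (((q : ℚ).num : ℤ) : ℚ)
    rw [Int.cast_natCast]; exact Rat.mul_den_eq_num _)
  have hd : d = (((q : ℚ).den : ℤ) : ℤℓ) := Subtype.ext (by simp [d])
  have hn : n = (((q : ℚ).num : ℤ) : ℤℓ) := Subtype.ext (by simp [n])
  have hfd : f d = g d := by rw [hd, map_intCast, map_intCast]
  have hfn : f n = g n := by rw [hn, map_intCast, map_intCast]
  have hu : IsUnit (f d) := IsUnit.of_mul_eq_one _ (by rw [← map_mul, h1, map_one])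
  have : f q * f d = g q * f d := by
    rw [← map_mul, h2, hfn, ← h2, map_mul, hfd]
  exact hu.mul_right_cancel this

/-- For a field `K` of characteristic `ℓ`, any `ℤ_(ℓ)`-algebra structure factors through
`ZMod ℓ` (with the canonical `ZMod ℓ`-algebra structure `ZMod.algebra`). -/
theorem zl_algebraMap_eq (K : Type*) [Field K] [CharP K ℓ] [Algebra ℤℓ K] :
    algebraMap ℤℓ K =
      (@algebraMap (ZMod ℓ) K _ _ (ZMod.algebra K ℓ)).comp (zlResidue ℓ) :=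
  zl_ringHom_ext ℓ _ _

end Fermat.Agent.Igusa
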