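import Mathlib
import Fermat.Prelude.Def_ModularCurve_LaurentCoeff
import Fermat.Agent.Igusa.ZlBasics
import Fermat.Prelude.Def_ModularCurve_X0ModL

/-!
# S28 / Igusa, node N-VAL: the Gauss (content) valuation ring of `ℚ((q))` over `ℤ_(ℓ)((q))`

`Λ = ℤ_(ℓ)((q))`, `ι : Λ → ℚ((q))`, `red : Λ → 𝔽_ℓ((q))`.
`gaussSubring ℓ = {x ∈ ℚ((q)) | ∃ a b ∈ Λ, red b ≠ 0, x · ι b = ι a}` with the residue map
`gaussRes ℓ : gaussSubring ℓ → 𝔽_ℓ((q))`, `x ↦ red a / red b`, whose kernel is `ℓ · gaussSubring`.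
Elements of `Frac(ι Λ)` that are integral over `gaussSubring` lie in it.
-/

set_option autoImplicit false
open ModularCurve

noncomputable section
namespace Fermat.Agent.Igusa

variable (ℓ : ℕ) [Fact ℓ.Prime]

set_option quotPrecheck false in
local notation "ℤℓ" => ↥(GaloisRep.ratLocalizedAt ℓ)

/-- `ℤ_(ℓ)((q)) → ℚ((q))`. -/
def zlIota : LaurentSeries ℤℓ →+* LaurentSeries ℚ :=
  coeffMap (GaloisRep.ratLocalizedAt ℓ).subtype

/-- `ℤ_(ℓ)((q)) → 𝔽_ℓ((q))`. -/
def zlRed : LaurentSeries ℤℓ →+* LaurentSeries (ZMod ℓ) :=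
  coeffMap (zlResidue ℓ)

omit [Fact ℓ.Prime] in
@[simp] theorem zlIota_coeff (a : LaurentSeries ℤℓ) (n : ℤ) :
    (zlIota ℓ a).coeff n = ((a.coeff n : ℤℓ) : ℚ) := rfl

@[simp] theorem zlRed_coeff (a : LaurentSeries ℤℓ) (n : ℤ) :
    (zlRed ℓ a).coeff n = zlResidue ℓ (a.coeff n) := rfl

omit [Fact ℓ.Prime] in
theorem zlIota_injective : Function.Injective (zlIota ℓ) := by
  intro a b h
  apply HahnSeries.ext
  funext n
  have := congrArg (fun x => x.coeff n) h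
  exact Subtype.ext this

/-- A coefficientwise construction with controlled support. -/
def hahnOfFun {R S : Type*} [Zero R] [Zero S] (a : HahnSeries ℤ R) (g : ℤ → S)
    (hg : ∀ n, a.coeff n = 0 → g n = 0) : HahnSeries ℤ S where
  coeff := g
  isPWO_support' := a.isPWO_support.mono fun n hn => by
    simp only [Function.mem_support, ne_eq] at hn ⊢
    exact fun h => hn (hg n h)

/-- (G1) the kernel of `zlRed` is generated by `ℓ`. -/
theorem exists_eq_mul_of_zlRed_eq_zero {a : LaurentSeries ℤℓ} (h : zlRed ℓ a = 0) :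
    ∃ a' : LaurentSeries ℤℓ, a = HahnSeries.C (zlPrime ℓ) * a' := by
  classical
  have hc : ∀ n, ∃ r : ℤℓ, a.coeff n = zlPrime ℓ * r := fun n =>
    exists_eq_mul_of_zlResidue_eq_zero ℓ (by
      have := congrArg (fun x => x.coeff n) h
      simpa using this)
  choose r hr using hc
  have hℓ0 : zlPrime ℓ ≠ 0 := by
    intro h0
    have := congrArg (fun x : ℤℓ => (x : ℚ)) h0
    simp only [coe_zlPrime] at this
    have hℓ : (ℓ : ℚ) ≠ 0 := by exact_mod_cast (Fact.out : ℓ.Prime).ne_zero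
    exact hℓ (by simpa using this)
  refine ⟨hahnOfFun a r fun n hn => ?_, ?_⟩
  · have := hr n
    rw [hn] at this
    exact (mul_eq_zero.mp this.symm).resolve_left hℓ0
  · apply HahnSeries.ext
    funext n
    rw [HahnSeries.C_mul_eq_smul, HahnSeries.coeff_smul, smul_eq_mul]
    exact hr n


theorem zlPrime_ne_zero : zlPrime ℓ ≠ 0 := by
  intro h0
  have := congrArg (fun x : ℤℓ => (x : ℚ)) h0
  simp only [coe_zlPrime] at this
  have hℓ : (ℓ : ℚ) ≠ 0 := by exact_mod_cast (Fact.out : ℓ.Prime).ne_zero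
  exact hℓ (by simpa using this)

theorem padicValRat_zl_nonneg (c : ℤℓ) : 0 ≤ padicValRat ℓ (c : ℚ) := by
  have hden : ¬ ℓ ∣ (c : ℚ).den := by
    intro h
    have hq : (c : ℚ).den.Coprime ℓ := c.2
    have := Nat.Coprime.eq_one_of_dvd hq.symm h
    exact (Fact.out : ℓ.Prime).one_lt.ne' this
  unfold padicValRat
  rw [padicValNat.eq_zero_of_not_dvd hden]
  simp

theorem padicValRat_zlPrime_mul {c : ℤℓ} (hc : c ≠ 0) :
    padicValRat ℓ ((zlPrime ℓ * c : ℤℓ) : ℚ) = 1 + padicValRat ℓ (c : ℚ) := by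
  have hℓ : (ℓ : ℚ) ≠ 0 := by exact_mod_cast (Fact.out : ℓ.Prime).ne_zero
  have hc' : (c : ℚ) ≠ 0 := fun h => hc (Subtype.ext h)
  rw [Subring.coe_mul, coe_zlPrime, padicValRat.mul hℓ hc',
    padicValRat.self (Fact.out : ℓ.Prime).one_lt]

/-- (G2) every nonzero `a ∈ ℤ_(ℓ)((q))` is `ℓ^m a'` with `a'` nonzero mod `ℓ`. -/
theorem exists_eq_pow_mul_of_ne_zero {a : LaurentSeries ℤℓ} (ha : a ≠ 0) :
    ∃ (m : ℕ) (a' : LaurentSeries ℤℓ),
      a = HahnSeries.C (zlPrime ℓ) ^ m * a' ∧ zlRed ℓ a' ≠ 0 := by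
  obtain ⟨n₀, hn₀⟩ : ∃ n, a.coeff n ≠ 0 := by
    by_contra h
    simp only [not_exists, not_not] at h
    exact ha (HahnSeries.ext (funext h))
  have key : ∀ k : ℕ, ∀ a : LaurentSeries ℤℓ, a.coeff n₀ ≠ 0 →
      padicValRat ℓ ((a.coeff n₀ : ℤℓ) : ℚ) = k →
      ∃ (m : ℕ) (a' : LaurentSeries ℤℓ),
        a = HahnSeries.C (zlPrime ℓ) ^ m * a' ∧ zlRed ℓ a' ≠ 0 := by
    intro k
    induction k with
    | zero =>
      intro a hn hval
      refine ⟨0, a, by simp, fun hred => ?_⟩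
      obtain ⟨a₁, rfl⟩ := exists_eq_mul_of_zlRed_eq_zero ℓ hred
      rw [HahnSeries.C_mul_eq_smul, HahnSeries.coeff_smul, smul_eq_mul] at hn hval
      have h1 : a₁.coeff n₀ ≠ 0 := fun h => hn (by rw [h, mul_zero])
      rw [padicValRat_zlPrime_mul ℓ h1] at hval
      have := padicValRat_zl_nonneg ℓ (a₁.coeff n₀)
      simp only [Nat.cast_zero] at hval
      omega
    | succ k ih =>
      intro a hn hval
      by_cases hred : zlRed ℓ a = 0
      · obtain ⟨a₁, rfl⟩ := exists_eq_mul_of_zlRed_eq_zero ℓ hred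
        rw [HahnSeries.C_mul_eq_smul, HahnSeries.coeff_smul, smul_eq_mul] at hn hval
        have h1 : a₁.coeff n₀ ≠ 0 := fun h => hn (by rw [h, mul_zero])
        rw [padicValRat_zlPrime_mul ℓ h1] at hval
        obtain ⟨m, a', rfl, ha'⟩ := ih a₁ h1 (by push_cast at hval ⊢; omega)
        exact ⟨m + 1, a', by rw [pow_succ', mul_assoc], ha'⟩
      · exact ⟨0, a, by simp, hred⟩
  have hnn := padicValRat_zl_nonneg ℓ (a.coeff n₀)
  exact key (padicValRat ℓ ((a.coeff n₀ : ℤℓ) : ℚ)).toNat a hn₀ (Int.toNat_of_nonneg hnn).symm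


/-! ### The Gauss valuation ring and its residue map -/

/-- `x ∈ ℚ((q))` is *Gauss integral* if `x = ι a / ι b` with `b` nonzero mod `ℓ`. -/
def IsGaussIntegral (x : LaurentSeries ℚ) : Prop :=
  ∃ a b : LaurentSeries ℤℓ, zlRed ℓ b ≠ 0 ∧ x * zlIota ℓ b = zlIota ℓ a

theorem zlIota_ne_zero_of_zlRed_ne_zero {b : LaurentSeries ℤℓ} (hb : zlRed ℓ b ≠ 0) :
    zlIota ℓ b ≠ 0 := by
  intro h
  apply hb
  have : b = 0 := zlIota_injective ℓ (by rw [h, map_zero])
  rw [this, map_zero]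

/-- The Gauss valuation ring inside `ℚ((q))`. -/
def gaussSubring : Subring (LaurentSeries ℚ) where
  carrier := {x | IsGaussIntegral ℓ x}
  mul_mem' := by
    rintro x y ⟨a, b, hb, hab⟩ ⟨a', b', hb', hab'⟩
    refine ⟨a * a', b * b', ?_, ?_⟩
    · rw [map_mul]; exact mul_ne_zero hb hb'
    · rw [map_mul, map_mul, ← hab, ← hab']; ring
  one_mem' := ⟨1, 1, by rw [map_one]; exact one_ne_zero, by simp⟩
  add_mem' := by
    rintro x y ⟨a, b, hb, hab⟩ ⟨a', b', hb', hab'⟩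
    refine ⟨a * b' + a' * b, b * b', ?_, ?_⟩
    · rw [map_mul]; exact mul_ne_zero hb hb'
    · rw [map_add, map_mul, map_mul, map_mul, ← hab, ← hab']; ring
  zero_mem' := ⟨0, 1, by rw [map_one]; exact one_ne_zero, by simp⟩
  neg_mem' := by
    rintro x ⟨a, b, hb, hab⟩
    exact ⟨-a, b, hb, by rw [map_neg, ← hab]; ring⟩

theorem mem_gaussSubring_iff {x : LaurentSeries ℚ} :
    x ∈ gaussSubring ℓ ↔ ∃ a b : LaurentSeries ℤℓ,
      zlRed ℓ b ≠ 0 ∧ x * zlIota ℓ b = zlIota ℓ a := Iff.rfl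

theorem zlIota_mem_gaussSubring (a : LaurentSeries ℤℓ) : zlIota ℓ a ∈ gaussSubring ℓ :=
  ⟨a, 1, by rw [map_one]; exact one_ne_zero, by simp⟩

/-- the residue of a Gauss-integral element (auxiliary function) -/
def gaussResFun (x : gaussSubring ℓ) : LaurentSeries (ZMod ℓ) :=
  zlRed ℓ (Classical.choose x.2) / zlRed ℓ (Classical.choose (Classical.choose_spec x.2))

theorem gaussResFun_eq (x : gaussSubring ℓ) {a b : LaurentSeries ℤℓ} (hb : zlRed ℓ b ≠ 0)
    (hab : (x : LaurentSeries ℚ) * zlIota ℓ b = zlIota ℓ a) :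
    gaussResFun ℓ x = zlRed ℓ a / zlRed ℓ b := by
  obtain ⟨hb₀, hab₀⟩ := Classical.choose_spec (Classical.choose_spec x.2)
  set a₀ := Classical.choose x.2
  set b₀ := Classical.choose (Classical.choose_spec x.2)
  show zlRed ℓ a₀ / zlRed ℓ b₀ = _
  rw [div_eq_div_iff hb₀ hb]
  have h : a₀ * b = a * b₀ := by
    apply zlIota_injective ℓ
    rw [map_mul, map_mul, ← hab₀, ← hab]; ring
  rw [← map_mul, ← map_mul, h]

/-- **The residue map** of the Gauss valuation ring. -/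
def gaussRes : gaussSubring ℓ →+* LaurentSeries (ZMod ℓ) where
  toFun := gaussResFun ℓ
  map_one' := by
    rw [gaussResFun_eq ℓ 1 (a := 1) (b := 1) (by rw [map_one]; exact one_ne_zero) (by simp)]
    simp
  map_zero' := by
    rw [gaussResFun_eq ℓ 0 (a := 0) (b := 1) (by rw [map_one]; exact one_ne_zero) (by simp)]
    simp
  map_mul' := by
    intro x y
    obtain ⟨a, b, hb, hab⟩ := (mem_gaussSubring_iff ℓ).mp x.2
    obtain ⟨a', b', hb', hab'⟩ := (mem_gaussSubring_iff ℓ).mp y.2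
    rw [gaussResFun_eq ℓ x hb hab, gaussResFun_eq ℓ y hb' hab',
      gaussResFun_eq ℓ (x * y) (a := a * a') (b := b * b')
        (by rw [map_mul]; exact mul_ne_zero hb hb')
        (by rw [Subring.coe_mul, map_mul, map_mul, ← hab, ← hab']; ring),
      map_mul, map_mul, div_mul_div_comm]
  map_add' := by
    intro x y
    obtain ⟨a, b, hb, hab⟩ := (mem_gaussSubring_iff ℓ).mp x.2
    obtain ⟨a', b', hb', hab'⟩ := (mem_gaussSubring_iff ℓ).mp y.2
    rw [gaussResFun_eq ℓ x hb hab, gaussResFun_eq ℓ y hb' hab',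
      gaussResFun_eq ℓ (x + y) (a := a * b' + a' * b) (b := b * b')
        (by rw [map_mul]; exact mul_ne_zero hb hb')
        (by rw [Subring.coe_add, map_add, map_mul, map_mul, map_mul, ← hab, ← hab']; ring),
      map_add, map_mul, map_mul, map_mul, div_add_div _ _ hb hb', mul_comm (zlRed ℓ a') (zlRed ℓ b)]

theorem gaussRes_eq (x : gaussSubring ℓ) {a b : LaurentSeries ℤℓ} (hb : zlRed ℓ b ≠ 0)
    (hab : (x : LaurentSeries ℚ) * zlIota ℓ b = zlIota ℓ a) :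
    gaussRes ℓ x = zlRed ℓ a / zlRed ℓ b :=
  gaussResFun_eq ℓ x hb hab

theorem gaussRes_zlIota (a : LaurentSeries ℤℓ) :
    gaussRes ℓ ⟨zlIota ℓ a, zlIota_mem_gaussSubring ℓ a⟩ = zlRed ℓ a := by
  rw [gaussRes_eq ℓ _ (a := a) (b := 1) (by rw [map_one]; exact one_ne_zero) (by simp)]
  simp


/-- `ℓ`, as a constant series, in the Gauss ring. -/
def gaussPrime : gaussSubring ℓ :=
  ⟨zlIota ℓ (HahnSeries.C (zlPrime ℓ)), zlIota_mem_gaussSubring ℓ _⟩

theorem coe_gaussPrime : ((gaussPrime ℓ : gaussSubring ℓ) : LaurentSeries ℚ) = HahnSeries.C (ℓ : ℚ) := by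
  show zlIota ℓ (HahnSeries.C (zlPrime ℓ)) = _
  rw [zlIota, HahnSeries.C_apply, coeffMap_single, HahnSeries.C_apply]
  exact congrArg _ (coe_zlPrime ℓ)

theorem gaussRes_gaussPrime : gaussRes ℓ (gaussPrime ℓ) = 0 := by
  rw [gaussPrime, gaussRes_zlIota, zlRed, HahnSeries.C_apply, coeffMap_single, zlResidue_zlPrime,
    HahnSeries.single_eq_zero]

/-- The kernel of the residue map is `ℓ · gaussSubring`. -/
theorem gaussRes_eq_zero_iff (x : gaussSubring ℓ) :
    gaussRes ℓ x = 0 ↔ ∃ y : gaussSubring ℓ, x = gaussPrime ℓ * y := by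
  constructor
  · intro h
    obtain ⟨a, b, hb, hab⟩ := (mem_gaussSubring_iff ℓ).mp x.2
    rw [gaussRes_eq ℓ x hb hab, div_eq_zero_iff] at h
    have ha0 : zlRed ℓ a = 0 := h.resolve_right hb
    obtain ⟨a', rfl⟩ := exists_eq_mul_of_zlRed_eq_zero ℓ ha0
    have hb0 := zlIota_ne_zero_of_zlRed_ne_zero ℓ hb
    refine ⟨⟨zlIota ℓ a' / zlIota ℓ b, a', b, hb, div_mul_cancel₀ _ hb0⟩, Subtype.ext ?_⟩
    rw [Subring.coe_mul]
    show (x : LaurentSeries ℚ) = zlIota ℓ (HahnSeries.C (zlPrime ℓ)) * (zlIota ℓ a' / zlIota ℓ b)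
    rw [map_mul] at hab
    field_simp
    exact hab
  · rintro ⟨y, rfl⟩
    rw [map_mul, gaussRes_gaussPrime, zero_mul]


/-! ### Integral closedness inside `Frac (ι Λ)` -/

/-- `x ∈ ℚ((q))` has *bounded denominators* if it is a quotient of two series over `ℤ_(ℓ)`. -/
def IsZlFraction (x : LaurentSeries ℚ) : Prop :=
  ∃ a b : LaurentSeries ℤℓ, b ≠ 0 ∧ x * zlIota ℓ b = zlIota ℓ a

theorem zlIota_C_zlPrime_ne_zero : zlIota ℓ (HahnSeries.C (zlPrime ℓ)) ≠ 0 := by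
  intro h
  have : HahnSeries.C (zlPrime ℓ) = (0 : LaurentSeries ℤℓ) :=
    zlIota_injective ℓ (by rw [h, map_zero])
  rw [HahnSeries.C_apply, HahnSeries.single_eq_zero_iff] at this
  exact zlPrime_ne_zero ℓ this

/-- A nonzero fraction is Gauss integral or its inverse is. -/
theorem mem_or_inv_mem_gaussSubring {x : LaurentSeries ℚ} (hx : IsZlFraction ℓ x) :
    x ∈ gaussSubring ℓ ∨ x⁻¹ ∈ gaussSubring ℓ := by
  obtain ⟨a, b, hb, hab⟩ := hx
  by_cases hx0 : x = 0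
  · left; rw [hx0]; exact (gaussSubring ℓ).zero_mem
  have hb0 : zlIota ℓ b ≠ 0 := fun h => hb (zlIota_injective ℓ (by rw [h, map_zero]))
  have ha : a ≠ 0 := by
    rintro rfl
    rw [map_zero] at hab
    exact (mul_ne_zero hx0 hb0) hab
  obtain ⟨m, a', rfl, ha'⟩ := exists_eq_pow_mul_of_ne_zero ℓ ha
  obtain ⟨n, b', rfl, hb'⟩ := exists_eq_pow_mul_of_ne_zero ℓ hb
  set π := zlIota ℓ (HahnSeries.C (zlPrime ℓ)) with hπ
  have hπ0 : π ≠ 0 := zlIota_C_zlPrime_ne_zero ℓ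
  rw [map_mul, map_mul, map_pow, map_pow, ← hπ] at hab
  rcases le_total n m with hnm | hmn
  · left
    refine ⟨HahnSeries.C (zlPrime ℓ) ^ (m - n) * a', b', hb', ?_⟩
    rw [map_mul, map_pow, ← hπ]
    apply mul_left_cancel₀ (pow_ne_zero n hπ0)
    calc π ^ n * (x * zlIota ℓ b') = x * (π ^ n * zlIota ℓ b') := by ring
      _ = π ^ m * zlIota ℓ a' := hab
      _ = π ^ n * (π ^ (m - n) * zlIota ℓ a') := by
          rw [← mul_assoc, ← pow_add, Nat.add_sub_cancel' hnm]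
  · right
    refine ⟨HahnSeries.C (zlPrime ℓ) ^ (n - m) * b', a', ha', ?_⟩
    rw [map_mul, map_pow, ← hπ]
    apply mul_left_cancel₀ (pow_ne_zero m hπ0)
    apply mul_left_cancel₀ hx0
    calc x * (π ^ m * (x⁻¹ * zlIota ℓ a')) = (x * x⁻¹) * (π ^ m * zlIota ℓ a') := by ring
      _ = π ^ m * zlIota ℓ a' := by rw [mul_inv_cancel₀ hx0, one_mul]
      _ = x * (π ^ n * zlIota ℓ b') := hab.symm
      _ = x * (π ^ m * (π ^ (n - m) * zlIota ℓ b')) := by
          rw [← mul_assoc (π ^ m), ← pow_add, Nat.add_sub_cancel' hmn]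

/-- **Integral closedness.** A fraction which is integral over the Gauss ring lies in it. -/
theorem mem_gaussSubring_of_isIntegral {x : LaurentSeries ℚ} (hx : IsZlFraction ℓ x)
    (hint : IsIntegral (gaussSubring ℓ) x) : x ∈ gaussSubring ℓ := by
  rcases mem_or_inv_mem_gaussSubring ℓ hx with h | h
  · exact h
  by_cases hx0 : x = 0
  · rw [hx0]; exact (gaussSubring ℓ).zero_mem
  obtain ⟨p, hp, hpx⟩ := hint
  set d := p.natDegree with hd
  have hd1 : 1 ≤ d := by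
    by_contra hlt
    have h0 : p.natDegree = 0 := by omega
    have : p = 1 := hp.natDegree_eq_zero.mp h0
    rw [this, Polynomial.eval₂_one] at hpx
    exact one_ne_zero hpx
  rw [Polynomial.eval₂_eq_sum_range, Finset.sum_range_succ, ← hd, hp.coeff_natDegree, map_one,
    one_mul] at hpx
  -- multiply by `x⁻¹ ^ (d - 1)`
  have hkey : x = - ∑ i ∈ Finset.range d,
      algebraMap (gaussSubring ℓ) (LaurentSeries ℚ) (p.coeff i) * x⁻¹ ^ (d - 1 - i) := by
    have h1 : x ^ d * x⁻¹ ^ (d - 1) = x := by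
      obtain ⟨e, he⟩ : ∃ e, d = e + 1 := ⟨d - 1, by omega⟩
      rw [he, Nat.add_sub_cancel, pow_succ, mul_assoc, mul_comm x, ← mul_assoc, ← mul_pow,
        mul_inv_cancel₀ hx0, one_pow, one_mul]
    have h2 : ∀ i ∈ Finset.range d, algebraMap (gaussSubring ℓ) (LaurentSeries ℚ) (p.coeff i) * x ^ i *
        x⁻¹ ^ (d - 1) =
        algebraMap (gaussSubring ℓ) (LaurentSeries ℚ) (p.coeff i) * x⁻¹ ^ (d - 1 - i) := by
      intro i hi
      have hi' : i ≤ d - 1 := by have := Finset.mem_range.mp hi; omega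
      rw [mul_assoc]
      congr 1
      conv_lhs => rw [← Nat.sub_add_cancel hi', pow_add, ← mul_assoc, mul_comm (x ^ i),
        mul_assoc, ← mul_pow, mul_inv_cancel₀ hx0, one_pow, mul_one]
    have h3 := congrArg (· * x⁻¹ ^ (d - 1)) hpx
    simp only [zero_mul, add_mul, Finset.sum_mul] at h3
    rw [h1, Finset.sum_congr rfl h2] at h3
    exact eq_neg_of_add_eq_zero_right h3
  rw [hkey]
  refine (gaussSubring ℓ).neg_mem ((gaussSubring ℓ).sum_mem fun i _ => ?_)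
  exact (gaussSubring ℓ).mul_mem (p.coeff i).2 ((gaussSubring ℓ).pow_mem h _)


/-! ### The subfield of fractions and the modular function field -/

omit [Fact ℓ.Prime] in
theorem isZlFraction_zlIota (a : LaurentSeries ℤℓ) : IsZlFraction ℓ (zlIota ℓ a) :=
  ⟨a, 1, one_ne_zero, by simp⟩

/-- The fractions of `ι (ℤ_(ℓ)((q)))` form a subfield of `ℚ((q))`. -/
def zlFractionSubfield : Subfield (LaurentSeries ℚ) where
  carrier := {x | IsZlFraction ℓ x}
  mul_mem' := by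
    rintro x y ⟨a, b, hb, hab⟩ ⟨a', b', hb', hab'⟩
    exact ⟨a * a', b * b', mul_ne_zero hb hb', by
      rw [map_mul, map_mul, ← hab, ← hab']; ring⟩
  one_mem' := ⟨1, 1, one_ne_zero, by simp⟩
  add_mem' := by
    rintro x y ⟨a, b, hb, hab⟩ ⟨a', b', hb', hab'⟩
    exact ⟨a * b' + a' * b, b * b', mul_ne_zero hb hb', by
      rw [map_add, map_mul, map_mul, map_mul, ← hab, ← hab']; ring⟩
  zero_mem' := ⟨0, 1, one_ne_zero, by simp⟩
  neg_mem' := by
    rintro x ⟨a, b, hb, hab⟩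
    exact ⟨-a, b, hb, by rw [map_neg, ← hab]; ring⟩
  inv_mem' := by
    rintro x ⟨a, b, hb, hab⟩
    by_cases hx0 : x = 0
    · rw [hx0, inv_zero]; exact ⟨0, 1, one_ne_zero, by simp⟩
    have hb0 : zlIota ℓ b ≠ 0 := fun h => hb (zlIota_injective ℓ (by rw [h, map_zero]))
    have ha : a ≠ 0 := by
      rintro rfl
      rw [map_zero] at hab
      exact (mul_ne_zero hx0 hb0) hab
    refine ⟨b, a, ha, ?_⟩
    rw [← hab]
    field_simp

omit [Fact ℓ.Prime] in
theorem mem_zlFractionSubfield_iff {x : LaurentSeries ℚ} :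
    x ∈ zlFractionSubfield ℓ ↔ IsZlFraction ℓ x := Iff.rfl

omit [Fact ℓ.Prime] in
/-- The full modular function field consists of fractions. -/
theorem isZlFraction_of_mem_full (N : ℕ) [NeZero N] {x : LaurentSeries ℚ}
    (hx : x ∈ modularFunctionFieldFull N) : IsZlFraction ℓ x := by
  let T : IntermediateField ℚ (LaurentSeries ℚ) :=
    (zlFractionSubfield ℓ).toIntermediateField fun r => by
      rw [eq_ratCast]; exact SubfieldClass.ratCast_mem _ r
  have hle : modularFunctionFieldFull N ≤ T := by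
    rw [modularFunctionFieldFull, IntermediateField.adjoin_le_iff]
    rintro y ⟨d, hd, -, rfl⟩
    have := hd
    show IsZlFraction ℓ (qExpand ℚ d jq)
    have : qExpand ℚ d jq = zlIota ℓ (jqNModC ℤℓ d) := by
      rw [zlIota, coeffMap_jqNModC]; rfl
    rw [this]
    exact isZlFraction_zlIota ℓ _
  exact hle hx

/-- Reduction of the level-`d` `j`-expansion. -/
theorem gaussRes_jqN (d : ℕ) [NeZero d] :
    ∃ h : qExpand ℚ d jq ∈ gaussSubring ℓ,
      gaussRes ℓ ⟨qExpand ℚ d jq, h⟩ = jqNModC (ZMod ℓ) d := by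
  have h1 : qExpand ℚ d jq = zlIota ℓ (jqNModC ℤℓ d) := by
    rw [zlIota, coeffMap_jqNModC]; rfl
  refine ⟨h1 ▸ zlIota_mem_gaussSubring ℓ _, ?_⟩
  have h2 : (⟨qExpand ℚ d jq, h1 ▸ zlIota_mem_gaussSubring ℓ _⟩ : gaussSubring ℓ) =
      ⟨zlIota ℓ (jqNModC ℤℓ d), zlIota_mem_gaussSubring ℓ _⟩ := Subtype.ext h1
  rw [h2, gaussRes_zlIota, zlRed, coeffMap_jqNModC]

/-- Constants: `r ∈ ℤ_(ℓ)` reduces to its residue. -/
theorem gaussRes_C (r : ℤℓ) :
    ∃ h : HahnSeries.C ((r : ℤℓ) : ℚ) ∈ gaussSubring ℓ,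
      gaussRes ℓ ⟨HahnSeries.C ((r : ℤℓ) : ℚ), h⟩ = HahnSeries.C (zlResidue ℓ r) := by
  have h1 : (HahnSeries.C ((r : ℤℓ) : ℚ) : LaurentSeries ℚ) = zlIota ℓ (HahnSeries.C r) := by
    rw [zlIota, HahnSeries.C_apply, HahnSeries.C_apply, coeffMap_single]; rfl
  refine ⟨h1 ▸ zlIota_mem_gaussSubring ℓ _, ?_⟩
  have h2 : (⟨HahnSeries.C ((r : ℤℓ) : ℚ), h1 ▸ zlIota_mem_gaussSubring ℓ _⟩ : gaussSubring ℓ) =
      ⟨zlIota ℓ (HahnSeries.C r), zlIota_mem_gaussSubring ℓ _⟩ := Subtype.ext h1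
  rw [h2, gaussRes_zlIota, zlRed, HahnSeries.C_apply, coeffMap_single, HahnSeries.C_apply]


/-- Elements with nonzero residue are units of the Gauss ring. -/
theorem inv_mem_gaussSubring_of_gaussRes_ne_zero (x : gaussSubring ℓ) (hx : gaussRes ℓ x ≠ 0) :
    (x : LaurentSeries ℚ)⁻¹ ∈ gaussSubring ℓ := by
  obtain ⟨a, b, hb, hab⟩ := (mem_gaussSubring_iff ℓ).mp x.2
  rw [gaussRes_eq ℓ x hb hab] at hx
  have ha : zlRed ℓ a ≠ 0 := fun h => hx (by rw [h, zero_div])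
  have hb0 := zlIota_ne_zero_of_zlRed_ne_zero ℓ hb
  have ha0 := zlIota_ne_zero_of_zlRed_ne_zero ℓ ha
  have hx0 : (x : LaurentSeries ℚ) ≠ 0 := by
    intro h
    rw [h, zero_mul] at hab
    exact ha0 hab.symm
  refine ⟨b, a, ha, ?_⟩
  rw [← hab]
  field_simp

theorem gaussRes_inv (x : gaussSubring ℓ) (hx : gaussRes ℓ x ≠ 0) :
    gaussRes ℓ ⟨(x : LaurentSeries ℚ)⁻¹, inv_mem_gaussSubring_of_gaussRes_ne_zero ℓ x hx⟩ =
      (gaussRes ℓ x)⁻¹ := by
  have hx0 : (x : LaurentSeries ℚ) ≠ 0 := by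
    intro h
    apply hx
    have : x = 0 := Subtype.ext h
    rw [this, map_zero]
  have h1 : x * ⟨(x : LaurentSeries ℚ)⁻¹, inv_mem_gaussSubring_of_gaussRes_ne_zero ℓ x hx⟩ = 1 :=
    Subtype.ext (by rw [Subring.coe_mul, Subring.coe_one]; exact mul_inv_cancel₀ hx0)
  have h2 := congrArg (gaussRes ℓ) h1
  rw [map_mul, map_one] at h2
  exact eq_inv_of_mul_eq_one_right h2

end Fermat.Agent.Igusa
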