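import Mathlib
import Fermat.Prelude.Def_ModularCurve_IgusaScheme
import Fermat.Agent.Igusa.GaussVal

/-!
# S28 / Igusa, node N-CHART (part 1): reduction maps on the chart algebras

For `S ⊆ F_N` consisting of Gauss-integral elements (e.g. `S ⊆ {j, 1/j}`), every element of
`chartAlg N ℓ S` (integral closure of `ℤ_(ℓ)[S]` in `F_N`) is Gauss integral, which gives
`chartRes : chartAlg N ℓ S →+* 𝔽_ℓ((q))`, the reduction of `q`-expansions.
-/

set_option autoImplicit false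
set_option linter.unusedSectionVars false
open ModularCurve ModularCurve.IgusaScheme

noncomputable section
namespace Fermat.Agent.Igusa

variable (N : ℕ) [NeZero N] (ℓ : ℕ) [Fact ℓ.Prime]

set_option quotPrecheck false in
local notation "ℤℓ" => ↥(GaloisRep.ratLocalizedAt ℓ)

set_option quotPrecheck false in
local notation "F" => ↥(modularFunctionFieldFull N)

/-- the coercion `F_N → ℚ((q))` as a ring hom -/
def fullVal : F →+* LaurentSeries ℚ where
  toFun x := (x : LaurentSeries ℚ)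
  map_one' := rfl
  map_mul' _ _ := rfl
  map_zero' := rfl
  map_add' _ _ := rfl

@[simp] theorem fullVal_apply (x : F) : fullVal N x = (x : LaurentSeries ℚ) := rfl

/-- the constants of `F_N` coming from `ℤ_(ℓ)`, as Laurent series -/
theorem coe_algebraMap_zl (r : ℤℓ) :
    ((algebraMap ℤℓ F r : F) : LaurentSeries ℚ) = HahnSeries.C ((r : ℤℓ) : ℚ) := by
  have h1 : algebraMap ℤℓ F r = algebraMap ℚ F ((r : ℤℓ) : ℚ) := rfl
  rw [h1, eq_ratCast]
  have h2 : (((((r : ℤℓ) : ℚ) : F)) : LaurentSeries ℚ) = ((((r : ℤℓ) : ℚ)) : LaurentSeries ℚ) :=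
    map_ratCast (fullVal N) _
  rw [h2, ← eq_ratCast (algebraMap ℚ (LaurentSeries ℚ)), algebraMap_laurentSeries_eq_single]
  rfl

/-- Elements of `ℤ_(ℓ)[S]` are Gauss integral if those of `S` are. -/
theorem coe_mem_gaussSubring_of_mem_adjoin {S : Set F}
    (hS : ∀ s ∈ S, ((s : F) : LaurentSeries ℚ) ∈ gaussSubring ℓ) {x : F}
    (hx : x ∈ Algebra.adjoin ℤℓ S) : ((x : F) : LaurentSeries ℚ) ∈ gaussSubring ℓ := by
  induction hx using Algebra.adjoin_induction with
  | mem y hy => exact hS y hy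
  | algebraMap r =>
    rw [coe_algebraMap_zl]
    exact (gaussRes_C ℓ r).1
  | add y z _ _ hy hz => exact (gaussSubring ℓ).add_mem hy hz
  | mul y z _ _ hy hz => exact (gaussSubring ℓ).mul_mem hy hz

/-- Elements of the chart algebra are Gauss integral. -/
theorem coe_mem_gaussSubring_of_mem_chartAlg {S : Set F}
    (hS : ∀ s ∈ S, ((s : F) : LaurentSeries ℚ) ∈ gaussSubring ℓ) {x : F}
    (hx : x ∈ chartAlg N ℓ S) : ((x : F) : LaurentSeries ℚ) ∈ gaussSubring ℓ := by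
  refine mem_gaussSubring_of_isIntegral ℓ (isZlFraction_of_mem_full ℓ N x.2) ?_
  have hint : IsIntegral (Algebra.adjoin ℤℓ S) x := (mem_chartAlg_iff N ℓ).mp hx
  let φ : Algebra.adjoin ℤℓ S →+* gaussSubring ℓ :=
    { toFun := fun a => ⟨((a : F) : LaurentSeries ℚ),
        coe_mem_gaussSubring_of_mem_adjoin N ℓ hS a.2⟩
      map_one' := rfl
      map_mul' := fun _ _ => rfl
      map_zero' := rfl
      map_add' := fun _ _ => rfl }
  exact hint.map_of_comp_eq φ (fullVal N) (by ext; rfl)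

/-- The inclusion of a chart algebra into the Gauss ring. -/
def chartToGauss {S : Set F} (hS : ∀ s ∈ S, ((s : F) : LaurentSeries ℚ) ∈ gaussSubring ℓ) :
    chartAlg N ℓ S →+* gaussSubring ℓ where
  toFun x := ⟨(((x : chartAlg N ℓ S) : F) : LaurentSeries ℚ),
    coe_mem_gaussSubring_of_mem_chartAlg N ℓ hS x.2⟩
  map_one' := rfl
  map_mul' _ _ := rfl
  map_zero' := rfl
  map_add' _ _ := rfl

/-- **Reduction of `q`-expansions** on a chart algebra. -/
def chartRes {S : Set F} (hS : ∀ s ∈ S, ((s : F) : LaurentSeries ℚ) ∈ gaussSubring ℓ) :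
    chartAlg N ℓ S →+* LaurentSeries (ZMod ℓ) :=
  (gaussRes ℓ).comp (chartToGauss N ℓ hS)

theorem chartRes_apply {S : Set F}
    (hS : ∀ s ∈ S, ((s : F) : LaurentSeries ℚ) ∈ gaussSubring ℓ) (x : chartAlg N ℓ S) :
    chartRes N ℓ hS x = gaussRes ℓ ⟨(((x : chartAlg N ℓ S) : F) : LaurentSeries ℚ),
      coe_mem_gaussSubring_of_mem_chartAlg N ℓ hS x.2⟩ := rfl

/-- If the `q`-expansion of `x` is `ι a` with `a ∈ ℤ_(ℓ)((q))`, its reduction is `red a`. -/
theorem chartRes_eq_zlRed {S : Set F}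
    (hS : ∀ s ∈ S, ((s : F) : LaurentSeries ℚ) ∈ gaussSubring ℓ) (x : chartAlg N ℓ S)
    (a : LaurentSeries ℤℓ)
    (hxa : (((x : chartAlg N ℓ S) : F) : LaurentSeries ℚ) = zlIota ℓ a) :
    chartRes N ℓ hS x = zlRed ℓ a := by
  rw [chartRes_apply, ← gaussRes_zlIota]
  congr 1
  exact Subtype.ext hxa

theorem chartRes_algebraMap {S : Set F}
    (hS : ∀ s ∈ S, ((s : F) : LaurentSeries ℚ) ∈ gaussSubring ℓ) (r : ℤℓ) :
    chartRes N ℓ hS (algebraMap ℤℓ (chartAlg N ℓ S) r) = HahnSeries.C (zlResidue ℓ r) := by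
  obtain ⟨hmem, hC⟩ := gaussRes_C ℓ r
  rw [chartRes_apply, ← hC]
  have h : (⟨(((algebraMap ℤℓ (chartAlg N ℓ S) r : chartAlg N ℓ S) : F) : LaurentSeries ℚ),
      coe_mem_gaussSubring_of_mem_chartAlg N ℓ hS (algebraMap ℤℓ (chartAlg N ℓ S) r).2⟩ :
      gaussSubring ℓ) = ⟨HahnSeries.C ((r : ℤℓ) : ℚ), hmem⟩ :=
    Subtype.ext (coe_algebraMap_zl N ℓ r)
  rw [h]

/-- The kernel of the reduction: `q`-expansion divisible by `ℓ` inside the Gauss ring. -/
theorem chartRes_eq_zero_iff {S : Set F}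
    (hS : ∀ s ∈ S, ((s : F) : LaurentSeries ℚ) ∈ gaussSubring ℓ) (x : chartAlg N ℓ S) :
    chartRes N ℓ hS x = 0 ↔ ∃ y ∈ gaussSubring ℓ,
      (((x : chartAlg N ℓ S) : F) : LaurentSeries ℚ) = HahnSeries.C (ℓ : ℚ) * y := by
  rw [chartRes_apply, gaussRes_eq_zero_iff]
  constructor
  · rintro ⟨y, hy⟩
    refine ⟨y, y.2, ?_⟩
    have := congrArg (fun z : gaussSubring ℓ => (z : LaurentSeries ℚ)) hy
    simpa [coe_gaussPrime] using this
  · rintro ⟨y, hy, hxy⟩
    exact ⟨⟨y, hy⟩, Subtype.ext (by rw [Subring.coe_mul, coe_gaussPrime]; exact hxy)⟩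

end Fermat.Agent.Igusa
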