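import Mathlib
import Fermat.Prelude.Def_ModularCurve_LaurentCoeff

/-!
# S28 / N-DEG (abstract part): descent of linear independence along `ℚ((q)) → L((q))`

* `coeffFun φ` : coefficientwise application of a `ℚ`-linear functional `φ : L → ℚ` to a Laurent
  series over `L`; `polyCoeff φ` the same for polynomials;
* `coeffFun_aeval_mul` : `φ_*(P(x_L) · y_L) = (φ_* P)(x) · y` for `x y : ℚ((q))`;
* `forall_poly_eq_zero_of_coeffEmb` : if `∑ Q_i(x) y_i = 0` forces `Q_i = 0` over `ℚ`, then
  `∑ P_i(x_L) (y_i)_L = 0` forces `P_i = 0` over `L`;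
* `linearIndependent_adjoin_simple_of_forall_poly` : independence over `K[x]` implies independence
  over `K(x)`.
-/

set_option autoImplicit false

noncomputable section

namespace Fermat.Agent.Igusa

open ModularCurve HahnSeries Polynomial

section CoeffFun

variable {L : Type*} [Field L] [Algebra ℚ L] (φ : L →ₗ[ℚ] ℚ)

/-- Coefficientwise application of a `ℚ`-linear functional to a Laurent series. -/
def coeffFun : LaurentSeries L →+ LaurentSeries ℚ where
  toFun z := z.map φ
  map_zero' := by
    ext k
    simp
  map_add' x y := by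
    ext k
    simp

@[simp]
theorem coeffFun_coeff (z : LaurentSeries L) (k : ℤ) : (coeffFun φ z).coeff k = φ (z.coeff k) :=
  rfl

theorem algebraMap_laurent_eq_single {K : Type*} [Field K] (c : K) :
    algebraMap K (LaurentSeries K) c = HahnSeries.single 0 c := by
  rw [HahnSeries.algebraMap_apply', (by simp : algebraMap K (PowerSeries K) c = PowerSeries.C c),
    HahnSeries.ofPowerSeries_C]
  rfl

theorem coeffFun_algebraMap_mul_coeffEmb (l : L) (z : LaurentSeries ℚ) :
    coeffFun φ (algebraMap L (LaurentSeries L) l * coeffEmb L z) =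
      algebraMap ℚ (LaurentSeries ℚ) (φ l) * z := by
  ext k
  rw [coeffFun_coeff, algebraMap_laurent_eq_single, algebraMap_laurent_eq_single,
    HahnSeries.coeff_single_mul, HahnSeries.coeff_single_mul, sub_zero, coeffEmb_coeff]
  have h : l * algebraMap ℚ L (z.coeff k) = z.coeff k • l := by
    rw [Algebra.smul_def, mul_comm]
  rw [h, map_smul, smul_eq_mul, mul_comm]

/-- Coefficientwise application of a `ℚ`-linear functional to a polynomial. -/
def polyCoeff : L[X] →+ ℚ[X] where
  toFun P := P.sum fun n a => monomial n (φ a)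
  map_zero' := by simp
  map_add' P Q := by
    rw [Polynomial.sum_add_index]
    · intro n
      simp
    · intro n a b
      simp

theorem polyCoeff_monomial (n : ℕ) (a : L) : polyCoeff φ (monomial n a) = monomial n (φ a) := by
  show (monomial n a).sum (fun n a => monomial n (φ a)) = _
  rw [Polynomial.sum_monomial_index]
  simp

theorem polyCoeff_coeff (P : L[X]) (n : ℕ) : (polyCoeff φ P).coeff n = φ (P.coeff n) := by
  induction P using Polynomial.induction_on' with
  | add P Q hP hQ => rw [map_add, Polynomial.coeff_add, Polynomial.coeff_add, map_add, hP, hQ]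
  | monomial m a =>
    rw [polyCoeff_monomial, coeff_monomial, coeff_monomial]
    split_ifs
    · rfl
    · simp

/-- `φ_*(P(x_L) · y_L) = (φ_* P)(x) · y`. -/
theorem coeffFun_aeval_mul (P : L[X]) (x y : LaurentSeries ℚ) :
    coeffFun φ (aeval (coeffEmb L x) P * coeffEmb L y) = aeval x (polyCoeff φ P) * y := by
  induction P using Polynomial.induction_on' with
  | add P Q hP hQ =>
    rw [map_add, add_mul, map_add, hP, hQ, map_add, map_add, add_mul]
  | monomial m a =>
    rw [polyCoeff_monomial, aeval_monomial, aeval_monomial, ← map_pow, mul_assoc, ← map_mul,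
      coeffFun_algebraMap_mul_coeffEmb, mul_assoc]

end CoeffFun

section Descent

variable (L : Type*) [Field L] [Algebra ℚ L]

/-- **Descent of polynomial independence**: if `∑ Q_i(x) y_i = 0` forces all `Q_i = 0` for rational
polynomials, the same holds after extending the coefficients to `L`. -/
theorem forall_poly_eq_zero_of_coeffEmb {ι : Type*} [Fintype ι] (x : LaurentSeries ℚ)
    (y : ι → LaurentSeries ℚ)
    (h : ∀ Q : ι → ℚ[X], ∑ i, aeval x (Q i) * y i = 0 → ∀ i, Q i = 0)
    (P : ι → L[X]) (hP : ∑ i, aeval (coeffEmb L x) (P i) * coeffEmb L (y i) = 0) :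
    ∀ i, P i = 0 := by
  classical
  let b := Module.Basis.ofVectorSpace ℚ L
  have hk : ∀ k, ∀ i, polyCoeff (b.coord k) (P i) = 0 := by
    intro k
    apply h
    have h1 := congrArg (coeffFun (b.coord k)) hP
    rw [map_sum, map_zero] at h1
    rw [← h1]
    exact Finset.sum_congr rfl fun i _ => (coeffFun_aeval_mul (b.coord k) (P i) x (y i)).symm
  intro i
  ext n
  rw [Polynomial.coeff_zero, ← b.forall_coord_eq_zero_iff]
  intro k
  rw [← polyCoeff_coeff, hk k i, Polynomial.coeff_zero]

end Descent

section Fraction

variable {K F : Type*} [Field K] [Field F] [Algebra K F]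

/-- **From `K[x]` to `K(x)`**: a finite family which is independent over the polynomials in `x` is
linearly independent over the field `K(x)`. -/
theorem linearIndependent_adjoin_simple_of_forall_poly {ι : Type*} [Fintype ι] (x : F) (Y : ι → F)
    (h : ∀ P : ι → K[X], ∑ i, aeval x (P i) * Y i = 0 → ∀ i, P i = 0) :
    LinearIndependent (IntermediateField.adjoin K {x}) Y := by
  classical
  rw [Fintype.linearIndependent_iff]
  intro g hg
  -- numerators and denominators
  have hex : ∀ i, ∃ r s : K[X], aeval x s ≠ 0 ∧ ((g i : IntermediateField.adjoin K {x}) : F) =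
      aeval x r / aeval x s := by
    intro i
    obtain ⟨r, s, hrs⟩ := (IntermediateField.mem_adjoin_simple_iff K ((g i : _) : F)).1 (g i).2
    by_cases hs : aeval x s = 0
    · refine ⟨0, 1, by simp, ?_⟩
      rw [hrs, hs, div_zero, map_zero, zero_div]
    · exact ⟨r, s, hs, hrs⟩
  choose r s hs hrs using hex
  set D : K[X] := ∏ i, s i with hD
  have hD0 : aeval x D ≠ 0 := by
    rw [hD, map_prod]
    exact Finset.prod_ne_zero_iff.2 fun i _ => hs i
  let P : ι → K[X] := fun i => r i * ∏ k ∈ Finset.univ.erase i, s k
  have hPi : ∀ i, aeval x (P i) = ((g i : IntermediateField.adjoin K {x}) : F) * aeval x D := by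
    intro i
    have hprod : D = s i * ∏ k ∈ Finset.univ.erase i, s k := by
      rw [hD, Finset.mul_prod_erase _ _ (Finset.mem_univ i)]
    rw [hrs i, hprod, map_mul, map_mul]
    field_simp [hs i]
  have hsum : ∑ i, aeval x (P i) * Y i = 0 := by
    have h1 : ∑ i, aeval x (P i) * Y i =
        aeval x D * ∑ i, ((g i : IntermediateField.adjoin K {x}) : F) * Y i := by
      rw [Finset.mul_sum]
      exact Finset.sum_congr rfl fun i _ => by rw [hPi i]; ring
    rw [h1]
    have h2 : ∑ i, ((g i : IntermediateField.adjoin K {x}) : F) * Y i = ∑ i, g i • Y i :=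
      Finset.sum_congr rfl fun i _ => rfl
    rw [h2, hg, mul_zero]
  have hP0 := h P hsum
  intro i
  have h3 := hPi i
  rw [hP0 i, map_zero] at h3
  have h4 : ((g i : IntermediateField.adjoin K {x}) : F) = 0 := by
    rcases mul_eq_zero.1 h3.symm with h5 | h5
    · exact h5
    · exact absurd h5 hD0
  exact Subtype.ext h4

end Fraction

end Fermat.Agent.Igusa
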