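import Mathlib
import Fermat.Agent.Igusa.DegQAbstract
import Fermat.Agent.X0.ModDeg
import Fermat.Prelude.Def_ModularCurve_IgusaScheme

/-!
# S28 / N-DEG: `[ℚ(j(q^d) : d ∣ N) : ℚ(j)] ≤ ψ(N)`

For `F := ↥(modularFunctionFieldFull N)` and `jFull N : F`:

* `transcendental_jq_rat` : `jq` is transcendental over `ℚ`;
* `card_le_dedekindPsi_of_linearIndependent` : a finite `ℚ(j)`-independent family in `F` has at
  most `ψ(N)` members (descent to `ℚ̄` and `X0.jBar_isSepVar`);
* `rank_full_le_dedekindPsi`, `finiteDimensional_full`, `finrank_full_le_dedekindPsi`.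
-/

set_option autoImplicit false

noncomputable section

namespace Fermat.Agent.Igusa

open ModularCurve ModularCurve.IgusaScheme Polynomial IntermediateField Fermat.Agent.X0

/-- `j` is transcendental over `ℚ`. -/
theorem transcendental_jq_rat : Transcendental ℚ jq := by
  have h := transcendental_coeffEmb_jq
  rw [transcendental_iff] at h ⊢
  intro p hp
  have h2 : aeval (coeffEmb Kb jq) (p.map (algebraMap ℚ Kb)) = coeffEmb Kb (aeval jq p) := by
    rw [aeval_def, aeval_def, eval₂_map, hom_eval₂]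
    congr 1
    exact Subsingleton.elim _ _
  have h1 : aeval (coeffEmb Kb jq) (p.map (algebraMap ℚ Kb)) = 0 := by
    rw [h2, hp, map_zero]
  have h3 := h _ h1
  exact Polynomial.map_injective _ (algebraMap ℚ Kb).injective (by rw [h3, Polynomial.map_zero])

variable (N : ℕ) [NeZero N]

omit [NeZero N] in
theorem coe_aeval_full (x : ↥(modularFunctionFieldFull N)) (P : ℚ[X]) :
    ((aeval x P : ↥(modularFunctionFieldFull N)) : LaurentSeries ℚ) =
      aeval (x : LaurentSeries ℚ) P := by
  rw [aeval_def, aeval_def]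
  have h := hom_eval₂ P (algebraMap ℚ ↥(modularFunctionFieldFull N))
    (algebraMap ↥(modularFunctionFieldFull N) (LaurentSeries ℚ)) x
  rw [IntermediateField.algebraMap_apply, IntermediateField.algebraMap_apply] at h
  rw [h]
  congr 1
  exact Subsingleton.elim _ _

omit [NeZero N] in
theorem coe_aeval_bar (x : Fb N) (P : Kb[X]) :
    ((aeval x P : Fb N) : LaurentSeries Kb) = aeval (x : LaurentSeries Kb) P := by
  rw [← IntermediateField.algebraMap_apply, ← Polynomial.aeval_algebraMap_apply]
  rfl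

/-- A finite family in `ℚ(j(q^d) : d ∣ N)` which is linearly independent over `ℚ(j)` has at most
`ψ(N)` members. -/
theorem card_le_dedekindPsi_of_linearIndependent {ι : Type*} [Fintype ι]
    (y : ι → ↥(modularFunctionFieldFull N)) (hy : LinearIndependent ℚ⟮jFull N⟯ y) :
    Fintype.card ι ≤ dedekindPsi N := by
  classical
  -- Step 1: independence over `ℚ[j]` inside `ℚ((q))`
  have hQ : ∀ Q : ι → ℚ[X],
      ∑ i, aeval jq (Q i) * ((y i : ↥(modularFunctionFieldFull N)) : LaurentSeries ℚ) = 0 →
        ∀ i, Q i = 0 := by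
    intro Q hsum
    rw [Fintype.linearIndependent_iff] at hy
    have hmem : ∀ i, aeval (jFull N) (Q i) ∈ ℚ⟮jFull N⟯ := by
      intro i
      rw [IntermediateField.mem_adjoin_simple_iff]
      exact ⟨Q i, 1, by simp⟩
    let g : ι → ℚ⟮jFull N⟯ := fun i => ⟨aeval (jFull N) (Q i), hmem i⟩
    have hg : ∑ i, g i • y i = 0 := by
      have h1 : ∀ i, g i • y i = aeval (jFull N) (Q i) * y i := fun i => rfl
      rw [Finset.sum_congr rfl fun i _ => h1 i]
      apply Subtype.ext
      rw [AddSubmonoidClass.coe_finsetSum, ZeroMemClass.coe_zero, ← hsum]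
      refine Finset.sum_congr rfl fun i _ => ?_
      rw [MulMemClass.coe_mul, coe_aeval_full, coe_jFull]
    intro i
    have h2 := hy g hg i
    have h3 : aeval (jFull N) (Q i) = 0 := congrArg Subtype.val h2
    have h4 : aeval jq (Q i) = 0 := by
      have h5 := congrArg (fun z : ↥(modularFunctionFieldFull N) => (z : LaurentSeries ℚ)) h3
      simp only [coe_aeval_full, coe_jFull] at h5
      exact h5
    exact (transcendental_iff.1 transcendental_jq_rat) _ h4
  -- Step 2: descent to `ℚ̄`
  have hK := forall_poly_eq_zero_of_coeffEmb Kb jq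
    (fun i => ((y i : ↥(modularFunctionFieldFull N)) : LaurentSeries ℚ)) hQ
  -- Step 3: transfer into `Fb N`
  let Y : ι → Fb N := fun i =>
    ⟨coeffEmb Kb ((y i : ↥(modularFunctionFieldFull N)) : LaurentSeries ℚ),
      coeffEmb_mem_laurentBaseChange Kb (y i).2⟩
  have hB : ∀ P : ι → Kb[X], ∑ i, aeval (jBar N) (P i) * Y i = 0 → ∀ i, P i = 0 := by
    intro P hsum
    apply hK P
    have h1 := congrArg (fun z : Fb N => (z : LaurentSeries Kb)) hsum
    change ((∑ i, aeval (jBar N) (P i) * Y i : Fb N) : LaurentSeries Kb) = ((0 : Fb N) : _) at h1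
    rw [AddSubmonoidClass.coe_finsetSum, ZeroMemClass.coe_zero] at h1
    rw [← h1]
    refine Finset.sum_congr rfl fun i _ => ?_
    rw [MulMemClass.coe_mul, coe_aeval_bar, coe_jBar]
  -- Step 4: independence over `ℚ̄(j)`
  have hLI : LinearIndependent Kb⟮jBar N⟯ Y :=
    linearIndependent_adjoin_simple_of_forall_poly (jBar N) Y hB
  -- Step 5: count
  have hsep := jBar_isSepVar N
  have hfin : FiniteDimensional Kb⟮jBar N⟯ (Fb N) := hsep.finite
  have h6 := hLI.fintype_card_le_finrank
  rw [hsep.finrank_eq] at h6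
  exact h6

/-- **N-DEG**: `dim_{ℚ(j)} ℚ(j(q^d) : d ∣ N) ≤ ψ(N)`. -/
theorem rank_full_le_dedekindPsi :
    Module.rank ℚ⟮jFull N⟯ ↥(modularFunctionFieldFull N) ≤ (dedekindPsi N : Cardinal) := by
  apply rank_le
  intro s hs
  have h := card_le_dedekindPsi_of_linearIndependent N (fun i : s => (i : ↥(modularFunctionFieldFull N))) hs
  rwa [Fintype.card_coe] at h

/-- `ℚ(j(q^d) : d ∣ N)` is finite over `ℚ(j)`. -/
theorem finiteDimensional_full :
    FiniteDimensional ℚ⟮jFull N⟯ ↥(modularFunctionFieldFull N) := by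
  rw [FiniteDimensional, ← Module.rank_lt_aleph0_iff]
  exact lt_of_le_of_lt (rank_full_le_dedekindPsi N) Cardinal.natCast_lt_aleph0

/-- `[ℚ(j(q^d) : d ∣ N) : ℚ(j)] ≤ ψ(N)`. -/
theorem finrank_full_le_dedekindPsi :
    Module.finrank ℚ⟮jFull N⟯ ↥(modularFunctionFieldFull N) ≤ dedekindPsi N :=
  Module.finrank_le_of_rank_le (rank_full_le_dedekindPsi N)

end Fermat.Agent.Igusa
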