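import Mathlib
import Fermat.Agent.Igusa.DegQ

/-!
# S28 / N-DEG (D2): `ℚ(j)` is the fraction field of `ℤ_(ℓ)[S]` for `S = {j}, {j⁻¹}, {j, j⁻¹}`

For `S : Set F_N` with `S ⊆ ℚ(j)` and `A_S := Algebra.adjoin ℤ_(ℓ) S`:

* `adjoinToQj` / `adjoinAlgebraQj` : the inclusion `A_S → ℚ(j)` as a ring hom / algebra structure;
* `adjoinQj_isScalarTower` : `IsScalarTower A_S ℚ(j) F_N`;
* `adjoinQj_isFractionRing` : `IsFractionRing A_S ℚ(j)` when `j ∈ A_S` or `j⁻¹ ∈ A_S`;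
* the three special cases `S = {j}`, `{j⁻¹}`, `{j, j⁻¹}`.
-/

set_option autoImplicit false
set_option linter.unusedSectionVars false

noncomputable section

namespace Fermat.Agent.Igusa

open ModularCurve ModularCurve.IgusaScheme Polynomial IntermediateField

variable (N : ℕ) [NeZero N] (ℓ : ℕ) [Fact ℓ.Prime]

theorem adjoin_le_Qj {S : Set ↥(modularFunctionFieldFull N)}
    (hS : S ⊆ (ℚ⟮jFull N⟯ : Set ↥(modularFunctionFieldFull N))) :
    Algebra.adjoin ↥(GaloisRep.ratLocalizedAt ℓ) S ≤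
      (ℚ⟮jFull N⟯.toSubalgebra.restrictScalars ↥(GaloisRep.ratLocalizedAt ℓ)) :=
  Algebra.adjoin_le hS

theorem mem_Qj_of_mem_adjoin {S : Set ↥(modularFunctionFieldFull N)}
    (hS : S ⊆ (ℚ⟮jFull N⟯ : Set ↥(modularFunctionFieldFull N)))
    {x : ↥(modularFunctionFieldFull N)}
    (hx : x ∈ Algebra.adjoin ↥(GaloisRep.ratLocalizedAt ℓ) S) : x ∈ ℚ⟮jFull N⟯ :=
  adjoin_le_Qj N ℓ hS hx

/-- The inclusion `ℤ_(ℓ)[S] → ℚ(j)`. -/
def adjoinToQj {S : Set ↥(modularFunctionFieldFull N)}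
    (hS : S ⊆ (ℚ⟮jFull N⟯ : Set ↥(modularFunctionFieldFull N))) :
    ↥(Algebra.adjoin ↥(GaloisRep.ratLocalizedAt ℓ) S) →+* ↥ℚ⟮jFull N⟯ :=
  (algebraMap ↥(Algebra.adjoin ↥(GaloisRep.ratLocalizedAt ℓ) S)
    ↥(modularFunctionFieldFull N)).codRestrict ℚ⟮jFull N⟯
      (fun x => mem_Qj_of_mem_adjoin N ℓ hS x.2)

@[simp]
theorem coe_adjoinToQj {S : Set ↥(modularFunctionFieldFull N)}
    (hS : S ⊆ (ℚ⟮jFull N⟯ : Set ↥(modularFunctionFieldFull N)))
    (x : ↥(Algebra.adjoin ↥(GaloisRep.ratLocalizedAt ℓ) S)) :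
    ((adjoinToQj N ℓ hS x : ↥ℚ⟮jFull N⟯) : ↥(modularFunctionFieldFull N)) = x :=
  rfl

/-- The algebra structure `ℤ_(ℓ)[S] → ℚ(j)` (inclusion); use with `letI`. -/
@[reducible]
def adjoinAlgebraQj {S : Set ↥(modularFunctionFieldFull N)}
    (hS : S ⊆ (ℚ⟮jFull N⟯ : Set ↥(modularFunctionFieldFull N))) :
    Algebra ↥(Algebra.adjoin ↥(GaloisRep.ratLocalizedAt ℓ) S) ↥ℚ⟮jFull N⟯ :=
  (adjoinToQj N ℓ hS).toAlgebra

theorem adjoinQj_isScalarTower {S : Set ↥(modularFunctionFieldFull N)}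
    (hS : S ⊆ (ℚ⟮jFull N⟯ : Set ↥(modularFunctionFieldFull N))) :
    letI := adjoinAlgebraQj N ℓ hS
    IsScalarTower ↥(Algebra.adjoin ↥(GaloisRep.ratLocalizedAt ℓ) S) ↥ℚ⟮jFull N⟯
      ↥(modularFunctionFieldFull N) := by
  let _ := adjoinAlgebraQj N ℓ hS
  exact IsScalarTower.of_algebraMap_eq fun x => rfl

theorem adjoinToQj_injective {S : Set ↥(modularFunctionFieldFull N)}
    (hS : S ⊆ (ℚ⟮jFull N⟯ : Set ↥(modularFunctionFieldFull N))) :
    Function.Injective (adjoinToQj N ℓ hS) := by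
  intro x y hxy
  apply Subtype.ext
  have h := congrArg (fun z : ↥ℚ⟮jFull N⟯ => (z : ↥(modularFunctionFieldFull N))) hxy
  exact h

/-- Every element of `ℚ(j)` is a quotient of two elements of `ℤ_(ℓ)[S]` as soon as `j` or `j⁻¹`
lies in `ℤ_(ℓ)[S]`. -/
theorem exists_div_of_mem_Qj {S : Set ↥(modularFunctionFieldFull N)}
    (hj : jFull N ∈ Algebra.adjoin ↥(GaloisRep.ratLocalizedAt ℓ) S ∨
      (jFull N)⁻¹ ∈ Algebra.adjoin ↥(GaloisRep.ratLocalizedAt ℓ) S)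
    {z : ↥(modularFunctionFieldFull N)} (hz : z ∈ ℚ⟮jFull N⟯) :
    ∃ x ∈ Algebra.adjoin ↥(GaloisRep.ratLocalizedAt ℓ) S,
      ∃ y ∈ Algebra.adjoin ↥(GaloisRep.ratLocalizedAt ℓ) S, x / y = z := by
  set A := Algebra.adjoin ↥(GaloisRep.ratLocalizedAt ℓ) S with hA
  have hcl : z ∈ Subfield.closure (A : Set ↥(modularFunctionFieldFull N)) := by
    have h1 : ℚ⟮jFull N⟯.toSubfield ≤ Subfield.closure (A : Set ↥(modularFunctionFieldFull N)) := by
      rw [IntermediateField.adjoin_toSubfield, Subfield.closure_le]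
      rintro w (⟨q, rfl⟩ | hw)
      · rw [eq_ratCast]
        exact SubfieldClass.ratCast_mem _ q
      · rw [Set.mem_singleton_iff] at hw
        subst hw
        rcases hj with hj | hj
        · exact Subfield.subset_closure hj
        · have := (Subfield.closure (A : Set ↥(modularFunctionFieldFull N))).inv_mem
            (Subfield.subset_closure hj)
          rwa [inv_inv] at this
    exact h1 hz
  rw [Subfield.mem_closure_iff] at hcl
  obtain ⟨x, hx, y, hy, hxy⟩ := hcl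
  have hsub : Subring.closure (A : Set ↥(modularFunctionFieldFull N)) = A.toSubring :=
    Subring.closure_eq A.toSubring
  rw [hsub] at hx hy
  exact ⟨x, hx, y, hy, hxy⟩

theorem adjoinQj_isFractionRing {S : Set ↥(modularFunctionFieldFull N)}
    (hS : S ⊆ (ℚ⟮jFull N⟯ : Set ↥(modularFunctionFieldFull N)))
    (hj : jFull N ∈ Algebra.adjoin ↥(GaloisRep.ratLocalizedAt ℓ) S ∨
      (jFull N)⁻¹ ∈ Algebra.adjoin ↥(GaloisRep.ratLocalizedAt ℓ) S) :
    letI := adjoinAlgebraQj N ℓ hS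
    IsFractionRing ↥(Algebra.adjoin ↥(GaloisRep.ratLocalizedAt ℓ) S) ↥ℚ⟮jFull N⟯ := by
  let _ := adjoinAlgebraQj N ℓ hS
  have hfaith : FaithfulSMul ↥(Algebra.adjoin ↥(GaloisRep.ratLocalizedAt ℓ) S) ↥ℚ⟮jFull N⟯ :=
    (faithfulSMul_iff_algebraMap_injective _ _).2 (adjoinToQj_injective N ℓ hS)
  apply IsFractionRing.of_field
  intro z
  obtain ⟨x, hx, y, hy, hxy⟩ := exists_div_of_mem_Qj N ℓ hj z.2
  refine ⟨⟨x, hx⟩, ⟨y, hy⟩, ?_⟩
  apply Subtype.ext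
  rw [← hxy]
  rfl

/-! ### The three charts -/

theorem jFull_mem_Qj : jFull N ∈ ℚ⟮jFull N⟯ := IntermediateField.mem_adjoin_simple_self ℚ _

theorem singleton_jFull_subset_Qj :
    ({jFull N} : Set ↥(modularFunctionFieldFull N)) ⊆
      (ℚ⟮jFull N⟯ : Set ↥(modularFunctionFieldFull N)) := by
  rintro x hx
  rw [Set.mem_singleton_iff] at hx
  subst hx
  exact jFull_mem_Qj N

theorem singleton_jFull_inv_subset_Qj :
    ({(jFull N)⁻¹} : Set ↥(modularFunctionFieldFull N)) ⊆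
      (ℚ⟮jFull N⟯ : Set ↥(modularFunctionFieldFull N)) := by
  rintro x hx
  rw [Set.mem_singleton_iff] at hx
  subst hx
  exact ℚ⟮jFull N⟯.inv_mem (jFull_mem_Qj N)

theorem pair_jFull_subset_Qj :
    ({jFull N, (jFull N)⁻¹} : Set ↥(modularFunctionFieldFull N)) ⊆
      (ℚ⟮jFull N⟯ : Set ↥(modularFunctionFieldFull N)) := by
  rintro x hx
  rcases hx with hx | hx
  · subst hx
    exact jFull_mem_Qj N
  · rw [Set.mem_singleton_iff] at hx
    subst hx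
    exact ℚ⟮jFull N⟯.inv_mem (jFull_mem_Qj N)

/-- Chart `Fin`: `Frac ℤ_(ℓ)[j] = ℚ(j)`. -/
theorem isFractionRing_adjoin_jFull :
    letI := adjoinAlgebraQj N ℓ (singleton_jFull_subset_Qj N)
    IsFractionRing ↥(Algebra.adjoin ↥(GaloisRep.ratLocalizedAt ℓ)
      ({jFull N} : Set ↥(modularFunctionFieldFull N))) ↥ℚ⟮jFull N⟯ :=
  adjoinQj_isFractionRing N ℓ (singleton_jFull_subset_Qj N)
    (Or.inl (Algebra.subset_adjoin rfl))

/-- Chart `Inf`: `Frac ℤ_(ℓ)[j⁻¹] = ℚ(j)`. -/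
theorem isFractionRing_adjoin_jFull_inv :
    letI := adjoinAlgebraQj N ℓ (singleton_jFull_inv_subset_Qj N)
    IsFractionRing ↥(Algebra.adjoin ↥(GaloisRep.ratLocalizedAt ℓ)
      ({(jFull N)⁻¹} : Set ↥(modularFunctionFieldFull N))) ↥ℚ⟮jFull N⟯ :=
  adjoinQj_isFractionRing N ℓ (singleton_jFull_inv_subset_Qj N)
    (Or.inr (Algebra.subset_adjoin rfl))

/-- Chart `Mid`: `Frac ℤ_(ℓ)[j, j⁻¹] = ℚ(j)`. -/
theorem isFractionRing_adjoin_jFull_pair :
    letI := adjoinAlgebraQj N ℓ (pair_jFull_subset_Qj N)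
    IsFractionRing ↥(Algebra.adjoin ↥(GaloisRep.ratLocalizedAt ℓ)
      ({jFull N, (jFull N)⁻¹} : Set ↥(modularFunctionFieldFull N))) ↥ℚ⟮jFull N⟯ :=
  adjoinQj_isFractionRing N ℓ (pair_jFull_subset_Qj N)
    (Or.inl (Algebra.subset_adjoin (Set.mem_insert _ _)))

end Fermat.Agent.Igusa
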