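import Mathlib
import Fermat.Agent.Igusa.DegQFrac
import Fermat.Agent.Igusa.ChartBaseDef

/-!
# S28 / N-CHART: the `clear` field of `ChartBase` for `t = j` and `t = 1/j`

Every element of `ℚ(j)` is a fraction of two elements of `ℤ_(ℓ)[t]` (`t = j` or `t = 1/j`), in
exactly the form of the field `ChartBase.clear`.
-/

set_option autoImplicit false
set_option linter.unusedSectionVars false

noncomputable section

namespace Fermat.Agent.Igusa

open ModularCurve ModularCurve.IgusaScheme IntermediateField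

variable (N : ℕ) [NeZero N] (ℓ : ℕ) [Fact ℓ.Prime]

/-- General form: if `j` or `1/j` lies in `ℤ_(ℓ)[S]`, every element of `ℚ(j)` is a fraction of
elements of `ℤ_(ℓ)[S]`. -/
theorem chartClear_of_mem {S : Set ↥(modularFunctionFieldFull N)}
    (hj : jFull N ∈ Algebra.adjoin ↥(GaloisRep.ratLocalizedAt ℓ) S ∨
      (jFull N)⁻¹ ∈ Algebra.adjoin ↥(GaloisRep.ratLocalizedAt ℓ) S)
    (g : ↥(modularFunctionFieldFull N)) (hg : g ∈ ℚ⟮jFull N⟯) :
    ∃ a d : ↥(Algebra.adjoin ↥(GaloisRep.ratLocalizedAt ℓ) S), d ≠ 0 ∧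
      (d : ↥(modularFunctionFieldFull N)) * g = (a : ↥(modularFunctionFieldFull N)) := by
  obtain ⟨x, hx, y, hy, hxy⟩ := exists_div_of_mem_Qj N ℓ hj hg
  by_cases hy0 : y = 0
  · refine ⟨0, 1, one_ne_zero, ?_⟩
    rw [← hxy, hy0, div_zero, mul_zero]
    rfl
  · refine ⟨⟨x, hx⟩, ⟨y, hy⟩, fun h => hy0 (congrArg Subtype.val h), ?_⟩
    rw [← hxy]
    exact mul_div_cancel₀ x hy0

/-- The `clear` field of `ChartBase N ℓ (jFull N)`. -/
theorem chartClear_j (g : ↥(modularFunctionFieldFull N)) (hg : g ∈ ℚ⟮jFull N⟯) :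
    ∃ a d : ↥(Algebra.adjoin ↥(GaloisRep.ratLocalizedAt ℓ)
        ({jFull N} : Set ↥(modularFunctionFieldFull N))), d ≠ 0 ∧
      (d : ↥(modularFunctionFieldFull N)) * g = (a : ↥(modularFunctionFieldFull N)) :=
  chartClear_of_mem N ℓ (S := {jFull N}) (Or.inl (Algebra.subset_adjoin (Set.mem_singleton _))) g hg

/-- The `clear` field of `ChartBase N ℓ (jFull N)⁻¹`. -/
theorem chartClear_jInv (g : ↥(modularFunctionFieldFull N)) (hg : g ∈ ℚ⟮jFull N⟯) :
    ∃ a d : ↥(Algebra.adjoin ↥(GaloisRep.ratLocalizedAt ℓ)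
        ({(jFull N)⁻¹} : Set ↥(modularFunctionFieldFull N))), d ≠ 0 ∧
      (d : ↥(modularFunctionFieldFull N)) * g = (a : ↥(modularFunctionFieldFull N)) :=
  chartClear_of_mem N ℓ (S := {(jFull N)⁻¹})
    (Or.inr (Algebra.subset_adjoin (Set.mem_singleton _))) g hg

/-- Check: the statements have exactly the form of the field `ChartBase.clear`. -/
theorem chartBase_of_clear_j
    (h1 : IsIntegrallyClosed ↥(Algebra.adjoin ↥(GaloisRep.ratLocalizedAt ℓ)
      ({jFull N} : Set ↥(modularFunctionFieldFull N))))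
    (h2 : WfDvdMonoid ↥(Algebra.adjoin ↥(GaloisRep.ratLocalizedAt ℓ)
      ({jFull N} : Set ↥(modularFunctionFieldFull N))))
    (h3 : Prime (algebraMap ↥(GaloisRep.ratLocalizedAt ℓ) ↥(Algebra.adjoin
      ↥(GaloisRep.ratLocalizedAt ℓ) ({jFull N} : Set ↥(modularFunctionFieldFull N))) (zlPrime ℓ)))
    (h5 : ∀ a : ↥(Algebra.adjoin ↥(GaloisRep.ratLocalizedAt ℓ)
        ({jFull N} : Set ↥(modularFunctionFieldFull N))),
      (∃ y ∈ gaussSubring ℓ, (((a : ↥(Algebra.adjoin ↥(GaloisRep.ratLocalizedAt ℓ)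
        ({jFull N} : Set ↥(modularFunctionFieldFull N)))) : ↥(modularFunctionFieldFull N)) :
          LaurentSeries ℚ) = HahnSeries.C (ℓ : ℚ) * y) →
      algebraMap ↥(GaloisRep.ratLocalizedAt ℓ) ↥(Algebra.adjoin ↥(GaloisRep.ratLocalizedAt ℓ)
        ({jFull N} : Set ↥(modularFunctionFieldFull N))) (zlPrime ℓ) ∣ a) :
    ChartBase N ℓ (jFull N) :=
  ⟨h1, h2, h3, chartClear_j N ℓ, h5⟩

theorem chartBase_of_clear_jInv
    (h1 : IsIntegrallyClosed ↥(Algebra.adjoin ↥(GaloisRep.ratLocalizedAt ℓ)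
      ({(jFull N)⁻¹} : Set ↥(modularFunctionFieldFull N))))
    (h2 : WfDvdMonoid ↥(Algebra.adjoin ↥(GaloisRep.ratLocalizedAt ℓ)
      ({(jFull N)⁻¹} : Set ↥(modularFunctionFieldFull N))))
    (h3 : Prime (algebraMap ↥(GaloisRep.ratLocalizedAt ℓ) ↥(Algebra.adjoin
      ↥(GaloisRep.ratLocalizedAt ℓ) ({(jFull N)⁻¹} : Set ↥(modularFunctionFieldFull N)))
        (zlPrime ℓ)))
    (h5 : ∀ a : ↥(Algebra.adjoin ↥(GaloisRep.ratLocalizedAt ℓ)
        ({(jFull N)⁻¹} : Set ↥(modularFunctionFieldFull N))),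
      (∃ y ∈ gaussSubring ℓ, (((a : ↥(Algebra.adjoin ↥(GaloisRep.ratLocalizedAt ℓ)
        ({(jFull N)⁻¹} : Set ↥(modularFunctionFieldFull N)))) : ↥(modularFunctionFieldFull N)) :
          LaurentSeries ℚ) = HahnSeries.C (ℓ : ℚ) * y) →
      algebraMap ↥(GaloisRep.ratLocalizedAt ℓ) ↥(Algebra.adjoin ↥(GaloisRep.ratLocalizedAt ℓ)
        ({(jFull N)⁻¹} : Set ↥(modularFunctionFieldFull N))) (zlPrime ℓ) ∣ a) :
    ChartBase N ℓ (jFull N)⁻¹ :=
  ⟨h1, h2, h3, chartClear_jInv N ℓ, h5⟩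

end Fermat.Agent.Igusa
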