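import Mathlib
import Fermat.Agent.Igusa.ZlBasics

/-!
# S28 / Igusa, node N-CHART-A (part 0): `ℤ_(ℓ)` is a discrete valuation ring

`ℤ_(ℓ) = GaloisRep.ratLocalizedAt ℓ ⊆ ℚ` is the localization of `ℤ` at the prime `(ℓ)`, hence a
DVR (so a PID, UFD, Noetherian, integrally closed); `zlPrime ℓ` is a prime element.
-/

set_option autoImplicit false

noncomputable section
namespace Fermat.Agent.Igusa.ZlDvr

variable (ℓ : ℕ) [Fact ℓ.Prime]

set_option quotPrecheck false in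
local notation "ℤℓ" => ↥(GaloisRep.ratLocalizedAt ℓ)

instance span_ell_isPrime : (Ideal.span {(ℓ : ℤ)}).IsPrime :=
  (Ideal.span_singleton_prime (by exact_mod_cast (Fact.out : ℓ.Prime).ne_zero)).mpr
    (Nat.prime_iff_prime_int.mp Fact.out)

theorem span_ell_ne_bot : (Ideal.span {(ℓ : ℤ)}) ≠ ⊥ := by
  rw [Ne, Ideal.span_singleton_eq_bot]
  exact_mod_cast (Fact.out : ℓ.Prime).ne_zero

theorem not_dvd_of_mem_primeCompl {y : ℤ} (hy : y ∈ (Ideal.span {(ℓ : ℤ)}).primeCompl) :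
    ¬ (ℓ : ℤ) ∣ y := by
  intro h
  exact hy (Ideal.mem_span_singleton.mpr h)

omit [Fact ℓ.Prime] in
theorem coe_algebraMap_int (y : ℤ) : ((algebraMap ℤ ℤℓ y : ℤℓ) : ℚ) = (y : ℚ) := by
  rw [eq_intCast]
  simp

/-- `ℤ_(ℓ)` (as a subring of `ℚ`) is the localization of `ℤ` at the prime `(ℓ)`. -/
instance zl_isLocalization : IsLocalization.AtPrime ℤℓ (Ideal.span {(ℓ : ℤ)}) := by
  refine (isLocalization_iff _ _).mpr ⟨?_, ?_, ?_⟩
  · rintro ⟨y, hy⟩
    have hnd := not_dvd_of_mem_primeCompl ℓ hy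
    have hy0 : y ≠ 0 := by
      rintro rfl
      exact hnd (dvd_zero _)
    have hmem : ((y : ℚ))⁻¹ ∈ GaloisRep.ratLocalizedAt ℓ := by
      show ((y : ℚ))⁻¹.den.Coprime ℓ
      rw [Rat.inv_intCast_den, if_neg hy0]
      refine ((Nat.Prime.coprime_iff_not_dvd Fact.out).mpr ?_).symm
      intro h
      exact hnd (Int.natCast_dvd.mpr h)
    refine IsUnit.of_mul_eq_one ⟨_, hmem⟩ (Subtype.ext ?_)
    rw [Subring.coe_mul, coe_algebraMap_int, Subring.coe_one]
    exact mul_inv_cancel₀ (by exact_mod_cast hy0)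
  · intro z
    have hd : ((z : ℚ).den : ℤ) ∈ (Ideal.span {(ℓ : ℤ)}).primeCompl := by
      intro h
      have h' : ((z : ℚ).den : ℤ) ∈ Ideal.span {(ℓ : ℤ)} := h
      rw [Ideal.mem_span_singleton] at h'
      have h1 : ℓ ∣ (z : ℚ).den := Int.natCast_dvd_natCast.mp h'
      have hq : (z : ℚ).den.Coprime ℓ := z.2
      exact (Fact.out : ℓ.Prime).one_lt.ne' (Nat.Coprime.eq_one_of_dvd hq.symm h1)
    refine ⟨((z : ℚ).num, ⟨_, hd⟩), Subtype.ext ?_⟩
    rw [Subring.coe_mul, coe_algebraMap_int, coe_algebraMap_int, Int.cast_natCast]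
    exact Rat.mul_den_eq_num _
  · intro x y h
    refine ⟨1, ?_⟩
    have h1 := congrArg (fun t : ℤℓ => (t : ℚ)) h
    simp only [coe_algebraMap_int] at h1
    have : x = y := by exact_mod_cast h1
    rw [this]

instance zl_isDVR : IsDiscreteValuationRing ℤℓ :=
  IsLocalization.AtPrime.isDiscreteValuationRing_of_dedekind_domain ℤ (span_ell_ne_bot ℓ) ℤℓ

/-- `ℓ` is a prime element of `ℤ_(ℓ)`. -/
theorem zlPrime_prime : Prime (zlPrime ℓ) := by
  have hne : zlPrime ℓ ≠ 0 := by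
    intro h
    have := congrArg (fun t : ℤℓ => (t : ℚ)) h
    simp only [coe_zlPrime] at this
    have hℓ : (ℓ : ℚ) ≠ 0 := by exact_mod_cast (Fact.out : ℓ.Prime).ne_zero
    exact hℓ (by simpa using this)
  rw [← Ideal.span_singleton_prime hne, ← ker_zlResidue]
  exact RingHom.ker_isPrime _

end Fermat.Agent.Igusa.ZlDvr
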