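/-
S28 (Igusa), node N-SUB: the Puiseux model.

For a commutative ring `C`, a unit `c : Cˣ` and `m ≥ 1` we construct the substitution ring
homomorphism `subst c m : C((s)) → C((s))`, `f(s) ↦ f(c s^m)` (coefficientwise, no topology), as the
composition of the scaling automorphism `scale c : f(s) ↦ f(c s)` and the Prelude map
`ModularCurve.qExpand C m : f(s) ↦ f(s^m)`.  We record the composition law, compatibility with
`ModularCurve.coeffMap`, injectivity and the behaviour of orders / leading coefficients.

Then `J c m := subst c m (jqModC C) = j(c s^m)`, of order `-m` and leading coefficient `c⁻¹`, and the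
series `DeltaC C = Δ(s)`, `DeltaInvC C = Δ(s)⁻¹`.
-/
import Mathlib
import Fermat.Prelude.Def_ModularCurve_X0ModL
import Fermat.Prelude.Def_ModularCurve_ModularUnit

set_option autoImplicit false

noncomputable section

namespace Fermat.Agent.Igusa

open HahnSeries ModularCurve

/-! ### Orders of Laurent series -/

section Order

variable {C : Type*} [CommRing C]

/-- The order of a Laurent series is `n` if the `n`-th coefficient is nonzero and all the lower
ones vanish. -/
theorem order_eq_of_coeff {x : LaurentSeries C} {n : ℤ} (h1 : x.coeff n ≠ 0)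
    (h2 : ∀ k < n, x.coeff k = 0) : x.order = n := by
  have hne : x ≠ 0 := HahnSeries.ne_zero_of_coeff_ne_zero h1
  refine le_antisymm (HahnSeries.order_le_of_coeff_ne_zero h1) ?_
  by_contra hlt
  rw [not_le] at hlt
  exact hne (HahnSeries.coeff_order_eq_zero.mp (h2 _ hlt))

/-- The coefficient at the order of a nonzero series is nonzero. -/
theorem coeff_order_ne_zero_of_ne_zero {x : LaurentSeries C} (hx : x ≠ 0) :
    x.coeff x.order ≠ 0 := fun h => hx (HahnSeries.coeff_order_eq_zero.mp h)

theorem coeff_single_mul_ofPowerSeries_self (n : ℤ) (P : PowerSeries C) :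
    (HahnSeries.single n (1 : C) * HahnSeries.ofPowerSeries ℤ C P).coeff n =
      PowerSeries.constantCoeff P := by
  rw [HahnSeries.coeff_single_mul, one_mul, sub_self, show (0 : ℤ) = ((0 : ℕ) : ℤ) from rfl,
    HahnSeries.ofPowerSeries_apply_coeff, PowerSeries.coeff_zero_eq_constantCoeff]

theorem coeff_single_mul_ofPowerSeries_of_lt {n k : ℤ} (P : PowerSeries C) (hk : k < n) :
    (HahnSeries.single n (1 : C) * HahnSeries.ofPowerSeries ℤ C P).coeff k = 0 := by
  rw [HahnSeries.coeff_single_mul, one_mul]
  exact ofPowerSeries_coeff_of_neg _ (by omega)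

theorem order_single_mul_ofPowerSeries [Nontrivial C] (n : ℤ) {P : PowerSeries C}
    (hP : PowerSeries.constantCoeff P = 1) :
    (HahnSeries.single n (1 : C) * HahnSeries.ofPowerSeries ℤ C P).order = n :=
  order_eq_of_coeff (by rw [coeff_single_mul_ofPowerSeries_self, hP]; exact one_ne_zero)
    fun _ hk => coeff_single_mul_ofPowerSeries_of_lt P hk

theorem constantCoeff_map_intCast {P : PowerSeries ℤ} (hP : PowerSeries.constantCoeff P = 1) :
    PowerSeries.constantCoeff (P.map (Int.castRingHom C)) = 1 := by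
  rw [← PowerSeries.coeff_zero_eq_constantCoeff, PowerSeries.coeff_map,
    PowerSeries.coeff_zero_eq_constantCoeff, hP]
  simp

end Order

/-! ### The scaling automorphism `f(s) ↦ f(c s)` -/

section Scale

variable {C : Type*} [CommRing C]

/-- The scaling `f(s) ↦ f(c s)`, as a function. -/
def scaleFun (c : Cˣ) (f : LaurentSeries C) : LaurentSeries C where
  coeff k := ((c ^ k : Cˣ) : C) * f.coeff k
  isPWO_support' := f.isPWO_support.mono fun k hk => by
    rw [Function.mem_support] at hk
    rw [HahnSeries.mem_support]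
    exact fun h => hk (by rw [h, mul_zero])

@[simp]
theorem scaleFun_coeff (c : Cˣ) (f : LaurentSeries C) (k : ℤ) :
    (scaleFun c f).coeff k = ((c ^ k : Cˣ) : C) * f.coeff k := rfl

theorem support_scaleFun (c : Cˣ) (f : LaurentSeries C) : (scaleFun c f).support = f.support := by
  ext k
  rw [HahnSeries.mem_support, HahnSeries.mem_support, scaleFun_coeff, Ne, Units.mul_right_eq_zero]

/-- The scaling `f(s) ↦ f(c s)` for a unit `c`, as a ring homomorphism. -/
def scale (c : Cˣ) : LaurentSeries C →+* LaurentSeries C where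
  toFun := scaleFun c
  map_zero' := by
    ext k
    simp
  map_one' := by
    ext k
    rw [scaleFun_coeff, HahnSeries.coeff_one]
    split_ifs with h
    · subst h
      simp
    · simp
  map_add' x y := by
    ext k
    simp [mul_add]
  map_mul' x y := by
    ext k
    rw [scaleFun_coeff, HahnSeries.coeff_mul, HahnSeries.coeff_mul, Finset.mul_sum]
    have hanti : Finset.antidiagonal (scaleFun c x).isPWO_support (scaleFun c y).isPWO_support k =
        Finset.antidiagonal x.isPWO_support y.isPWO_support k := by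
      ext ij
      simp only [Finset.mem_antidiagonal, support_scaleFun]
    rw [hanti]
    refine Finset.sum_congr rfl fun ij hij => ?_
    obtain ⟨-, -, h⟩ := Finset.mem_antidiagonal.1 hij
    rw [scaleFun_coeff, scaleFun_coeff, ← h, zpow_add, Units.val_mul]
    ring

@[simp]
theorem scale_coeff (c : Cˣ) (f : LaurentSeries C) (k : ℤ) :
    (scale c f).coeff k = ((c ^ k : Cˣ) : C) * f.coeff k := rfl

theorem support_scale (c : Cˣ) (f : LaurentSeries C) : (scale c f).support = f.support :=
  support_scaleFun c f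

@[simp]
theorem scale_one_apply (f : LaurentSeries C) : scale (1 : Cˣ) f = f := by
  ext k
  simp

theorem scale_scale (c c' : Cˣ) (f : LaurentSeries C) :
    scale c (scale c' f) = scale (c * c') f := by
  ext k
  rw [scale_coeff, scale_coeff, scale_coeff, mul_zpow, Units.val_mul, mul_assoc]

theorem scale_injective (c : Cˣ) : Function.Injective (scale (C := C) c) := by
  intro x y h
  ext k
  have := congrArg (fun z => z.coeff k) h
  simp only [scale_coeff] at this
  exact (Units.mul_right_inj _).1 this

/-- Scaling as a ring automorphism. -/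
def scaleEquiv (c : Cˣ) : LaurentSeries C ≃+* LaurentSeries C :=
  { scale c with
    invFun := scale c⁻¹
    left_inv := fun f => by
      show scale c⁻¹ (scale c f) = f
      rw [scale_scale, inv_mul_cancel, scale_one_apply]
    right_inv := fun f => by
      show scale c (scale c⁻¹ f) = f
      rw [scale_scale, mul_inv_cancel, scale_one_apply] }

@[simp]
theorem scaleEquiv_apply (c : Cˣ) (f : LaurentSeries C) : scaleEquiv c f = scale c f := rfl

theorem scale_single (c : Cˣ) (k : ℤ) (r : C) :
    scale c (HahnSeries.single k r) = HahnSeries.single k (((c ^ k : Cˣ) : C) * r) := by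
  ext j
  rw [scale_coeff]
  rcases eq_or_ne j k with rfl | hj
  · rw [HahnSeries.coeff_single_same, HahnSeries.coeff_single_same]
  · rw [HahnSeries.coeff_single_of_ne hj, HahnSeries.coeff_single_of_ne hj, mul_zero]

theorem scale_C (c : Cˣ) (r : C) : scale c (HahnSeries.C r) = HahnSeries.C r := by
  rw [HahnSeries.C_apply, scale_single, zpow_zero, Units.val_one, one_mul]

theorem scale_qExpand (c : Cˣ) (m : ℕ) [NeZero m] (f : LaurentSeries C) :
    scale c (qExpand C m f) = qExpand C m (scale (c ^ m) f) := by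
  ext k
  rw [scale_coeff]
  by_cases hk : (m : ℤ) ∣ k
  · obtain ⟨j, rfl⟩ := hk
    rw [qExpand_coeff_mul, qExpand_coeff_mul, scale_coeff, zpow_mul, zpow_natCast]
  · rw [qExpand_coeff_of_not_dvd m _ hk, qExpand_coeff_of_not_dvd m _ hk, mul_zero]

theorem coeffMap_scale {D : Type*} [CommRing D] (φ : C →+* D) (c : Cˣ) (x : LaurentSeries C) :
    coeffMap φ (scale c x) = scale (Units.map (φ : C →* D) c) (coeffMap φ x) := by
  ext k
  rw [coeffMap_coeff, scale_coeff, scale_coeff, coeffMap_coeff, map_mul, ← map_zpow,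
    Units.coe_map]
  rfl

theorem order_scale (c : Cˣ) (f : LaurentSeries C) : (scale c f).order = f.order := by
  rcases eq_or_ne f 0 with rfl | hf
  · rw [map_zero]
  · refine order_eq_of_coeff ?_ fun k hk => ?_
    · rw [scale_coeff, Ne, Units.mul_right_eq_zero]
      exact coeff_order_ne_zero_of_ne_zero hf
    · rw [scale_coeff, HahnSeries.coeff_eq_zero_of_lt_order hk, mul_zero]

end Scale

/-! ### The substitution `f(s) ↦ f(c s^m)` -/

section Subst

variable {C : Type*} [CommRing C]

/-- The substitution `f(s) ↦ f(c s^m)` for a unit `c` and `m ≥ 1`, as a ring homomorphism. -/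
def subst (c : Cˣ) (m : ℕ) [NeZero m] : LaurentSeries C →+* LaurentSeries C :=
  (qExpand C m).comp (scale c)

variable (c : Cˣ) (m : ℕ) [NeZero m]

theorem subst_apply (f : LaurentSeries C) : subst c m f = qExpand C m (scale c f) := rfl

@[simp]
theorem subst_coeff_mul (f : LaurentSeries C) (k : ℤ) :
    (subst c m f).coeff ((m : ℤ) * k) = ((c ^ k : Cˣ) : C) * f.coeff k := by
  rw [subst_apply, qExpand_coeff_mul, scale_coeff]

theorem subst_coeff_of_not_dvd (f : LaurentSeries C) {k : ℤ} (hk : ¬ (m : ℤ) ∣ k) :
    (subst c m f).coeff k = 0 :=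
  qExpand_coeff_of_not_dvd m _ hk

theorem subst_single (k : ℤ) (r : C) :
    subst c m (HahnSeries.single k r) =
      HahnSeries.single ((m : ℤ) * k) (((c ^ k : Cˣ) : C) * r) := by
  rw [subst_apply, scale_single, qExpand_single]

@[simp]
theorem subst_C (r : C) : subst c m (HahnSeries.C r) = HahnSeries.C r := by
  rw [subst_apply, scale_C, qExpand_C]

theorem subst_one_unit (f : LaurentSeries C) : subst (1 : Cˣ) m f = qExpand C m f := by
  rw [subst_apply, scale_one_apply]

theorem subst_one_unit_eq : subst (1 : Cˣ) m = qExpand C m :=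
  RingHom.ext fun f => subst_one_unit m f

theorem subst_one_nat (f : LaurentSeries C) : subst c 1 f = scale c f := by
  rw [subst_apply, qExpand_one_apply]

/-- Composition law: `f(c' s^m')` evaluated at `c s^m` is `f(c' c^m' s^(m m'))`. -/
theorem subst_subst (c' : Cˣ) (m' : ℕ) [NeZero m'] (f : LaurentSeries C) :
    subst c m (subst c' m' f) = subst (c' * c ^ m') (m * m') f := by
  rw [subst_apply, subst_apply, subst_apply, scale_qExpand, qExpand_qExpand, scale_scale,
    mul_comm c']

theorem coeffMap_subst {D : Type*} [CommRing D] (φ : C →+* D) (x : LaurentSeries C) :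
    coeffMap φ (subst c m x) = subst (Units.map (φ : C →* D) c) m (coeffMap φ x) := by
  rw [subst_apply, subst_apply, coeffMap_qExpand, coeffMap_scale]

theorem subst_injective : Function.Injective (subst c m) :=
  (qExpand_injective m).comp (scale_injective c)

theorem subst_eq_zero_iff {f : LaurentSeries C} : subst c m f = 0 ↔ f = 0 :=
  map_eq_zero_iff _ (subst_injective c m)

/-- `ord (f(c s^m)) = m · ord f`. -/
theorem order_subst (f : LaurentSeries C) : (subst c m f).order = (m : ℤ) * f.order := by
  rcases eq_or_ne f 0 with rfl | hf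
  · rw [map_zero, HahnSeries.order_zero, mul_zero]
  · have hm : (0 : ℤ) < (m : ℤ) := by exact_mod_cast Nat.pos_of_ne_zero (NeZero.ne m)
    refine order_eq_of_coeff ?_ fun k hk => ?_
    · rw [subst_coeff_mul, Ne, Units.mul_right_eq_zero]
      exact coeff_order_ne_zero_of_ne_zero hf
    · by_cases hdvd : (m : ℤ) ∣ k
      · obtain ⟨j, rfl⟩ := hdvd
        rw [subst_coeff_mul, HahnSeries.coeff_eq_zero_of_lt_order
          (lt_of_mul_lt_mul_left hk hm.le), mul_zero]
      · exact subst_coeff_of_not_dvd c m f hdvd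

/-- The leading coefficient of `f(c s^m)` is `c^(ord f) · lc(f)`. -/
theorem leadingCoeff_subst (f : LaurentSeries C) :
    (subst c m f).leadingCoeff = ((c ^ f.order : Cˣ) : C) * f.leadingCoeff := by
  rw [HahnSeries.leadingCoeff_eq, HahnSeries.leadingCoeff_eq, order_subst, subst_coeff_mul]

end Subst

/-! ### The series `J c m = j(c s^m)` -/

section JSeries

variable {C : Type*} [CommRing C]

/-- `J c m = j(c s^m)`, the `j`-invariant expansion with coefficients in `C` substituted at
`c s^m`. -/
def J (c : Cˣ) (m : ℕ) [NeZero m] : LaurentSeries C := subst c m (jqModC C)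

variable (c : Cˣ) (m : ℕ) [NeZero m]

theorem J_def : J c m = subst c m (jqModC C) := rfl

theorem J_one_unit : J (1 : Cˣ) m = qExpand C m (jqModC C) := subst_one_unit m _

theorem J_one_unit_eq_jqNModC : J (1 : Cˣ) m = jqNModC C m := subst_one_unit m _

theorem J_one_one : J (1 : Cˣ) 1 = jqModC C := by
  rw [J_one_unit, qExpand_one_apply]

/-- The leading coefficient of `J c m` (at `s^(-m)`) is `c⁻¹`. -/
theorem J_coeff_neg : (J c m).coeff (-(m : ℤ)) = ((c⁻¹ : Cˣ) : C) := by
  have h := subst_coeff_mul c m (jqModC C) (-1)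
  rw [mul_neg_one, coeff_jqModC_neg_one, mul_one, zpow_neg_one] at h
  exact h

theorem J_coeff_of_lt {k : ℤ} (hk : k < -(m : ℤ)) : (J c m).coeff k = 0 := by
  have hm : (0 : ℤ) < (m : ℤ) := by exact_mod_cast Nat.pos_of_ne_zero (NeZero.ne m)
  by_cases hdvd : (m : ℤ) ∣ k
  · obtain ⟨j, rfl⟩ := hdvd
    have hj : j < -1 := by
      by_contra hcon
      rw [not_lt] at hcon
      have : (m : ℤ) * (-1) ≤ (m : ℤ) * j := mul_le_mul_of_nonneg_left hcon hm.le
      omega
    rw [J_def, subst_coeff_mul, coeff_jqModC_of_lt C hj, mul_zero]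
  · exact subst_coeff_of_not_dvd c m _ hdvd

theorem J_ne_zero [Nontrivial C] : J c m ≠ 0 := by
  rw [J_def, Ne, subst_eq_zero_iff]
  exact jqModC_ne_zero_of_nontrivial C

theorem order_J [Nontrivial C] : (J c m).order = -(m : ℤ) :=
  order_eq_of_coeff (by rw [J_coeff_neg]; exact (c⁻¹).ne_zero) fun _ hk => J_coeff_of_lt c m hk

theorem leadingCoeff_J [Nontrivial C] : (J c m).leadingCoeff = ((c⁻¹ : Cˣ) : C) := by
  rw [HahnSeries.leadingCoeff_eq, order_J, J_coeff_neg]

theorem subst_J (c' : Cˣ) (m' : ℕ) [NeZero m'] :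
    subst c m (J c' m') = J (c' * c ^ m') (m * m') :=
  subst_subst c m c' m' _

theorem qExpand_J (n : ℕ) [NeZero n] : qExpand C n (J c m) = J c (n * m) := by
  rw [← subst_one_unit, subst_J, one_pow, mul_one]

theorem coeffMap_J {D : Type*} [CommRing D] (φ : C →+* D) :
    coeffMap φ (J c m) = J (Units.map (φ : C →* D) c) m := by
  rw [J_def, coeffMap_subst, coeffMap_jqModC, J_def]

/-- `c ↦ J c m` is injective: the leading coefficient of `J c m` is `c⁻¹`. -/
theorem J_left_injective : Function.Injective fun c : Cˣ => J c m := by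
  intro c c' h
  have h1 := congrArg (fun z => z.coeff (-(m : ℤ))) h
  simp only [J_coeff_neg] at h1
  exact inv_injective (Units.ext h1)

/-- The conjugates `J (ζ^b c) m`, `b < p`, are pairwise distinct when `ζ` is a primitive `p`-th
root of unity. -/
theorem J_zeta_pow_injOn {ζ : Cˣ} {p : ℕ} (hζ : IsPrimitiveRoot ζ p) :
    Set.InjOn (fun b : ℕ => J (ζ ^ b * c) m) (Finset.range p : Set ℕ) := by
  intro a ha b hb h
  have h1 : ζ ^ a * c = ζ ^ b * c := J_left_injective m h
  exact hζ.pow_inj (Finset.mem_range.1 ha) (Finset.mem_range.1 hb) (mul_right_cancel h1)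

theorem J_pow_injOn {ζ : Cˣ} {p : ℕ} (hζ : IsPrimitiveRoot ζ p) :
    Set.InjOn (fun b : ℕ => J (ζ ^ b) m) (Finset.range p : Set ℕ) := by
  intro a ha b hb h
  exact hζ.pow_inj (Finset.mem_range.1 ha) (Finset.mem_range.1 hb) (J_left_injective m h)

theorem J_eq_J_iff {c c' : Cˣ} : J c m = J c' m ↔ c = c' :=
  (J_left_injective m).eq_iff

end JSeries

/-! ### The discriminant series -/

section Delta

variable (C : Type*) [CommRing C]

/-- `Δ(s) = s ∏ (1 - s^n)^24` with coefficients in `C`. -/
def DeltaC : LaurentSeries C :=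
  HahnSeries.single (1 : ℤ) 1 *
    HahnSeries.ofPowerSeries ℤ C (dedekindEtaUnit.map (Int.castRingHom C))

/-- `Δ(s)⁻¹` with coefficients in `C`. -/
def DeltaInvC : LaurentSeries C :=
  HahnSeries.single (-1 : ℤ) 1 *
    HahnSeries.ofPowerSeries ℤ C (dedekindEtaUnitInv.map (Int.castRingHom C))

theorem DeltaC_mul_DeltaInvC : DeltaC C * DeltaInvC C = 1 := by
  rw [DeltaC, DeltaInvC, mul_mul_mul_comm, HahnSeries.single_mul_single, ← map_mul, ← map_mul,
    dedekindEtaUnit_mul_inv, map_one, map_one, mul_one, mul_one]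
  rfl

theorem DeltaInvC_mul_DeltaC : DeltaInvC C * DeltaC C = 1 := by
  rw [mul_comm, DeltaC_mul_DeltaInvC]

theorem isUnit_DeltaC : IsUnit (DeltaC C) :=
  IsUnit.of_mul_eq_one _ (DeltaC_mul_DeltaInvC C)

variable {C} in
theorem coeffMap_DeltaC {D : Type*} [CommRing D] (f : C →+* D) :
    coeffMap f (DeltaC C) = DeltaC D := by
  rw [DeltaC, map_mul, coeffMap_single, map_one, coeffMap_ofPowerSeries,
    ← RingHom.comp_apply (PowerSeries.map f) (PowerSeries.map (Int.castRingHom C)),
    ← PowerSeries.map_comp, RingHom.ext_int (f.comp (Int.castRingHom C)) (Int.castRingHom D)]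
  rfl

variable {C} in
theorem coeffMap_DeltaInvC {D : Type*} [CommRing D] (f : C →+* D) :
    coeffMap f (DeltaInvC C) = DeltaInvC D := by
  rw [DeltaInvC, map_mul, coeffMap_single, map_one, coeffMap_ofPowerSeries,
    ← RingHom.comp_apply (PowerSeries.map f) (PowerSeries.map (Int.castRingHom C)),
    ← PowerSeries.map_comp, RingHom.ext_int (f.comp (Int.castRingHom C)) (Int.castRingHom D)]
  rfl

theorem coeff_DeltaC_one : (DeltaC C).coeff 1 = 1 := by
  rw [DeltaC, coeff_single_mul_ofPowerSeries_self,
    constantCoeff_map_intCast constantCoeff_dedekindEtaUnit]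

theorem coeff_DeltaC_of_lt {k : ℤ} (hk : k < 1) : (DeltaC C).coeff k = 0 :=
  coeff_single_mul_ofPowerSeries_of_lt _ hk

theorem coeff_DeltaInvC_neg_one : (DeltaInvC C).coeff (-1) = 1 := by
  rw [DeltaInvC, coeff_single_mul_ofPowerSeries_self,
    constantCoeff_map_intCast constantCoeff_dedekindEtaUnitInv]

theorem coeff_DeltaInvC_of_lt {k : ℤ} (hk : k < -1) : (DeltaInvC C).coeff k = 0 :=
  coeff_single_mul_ofPowerSeries_of_lt _ hk

theorem order_DeltaC [Nontrivial C] : (DeltaC C).order = 1 :=
  order_single_mul_ofPowerSeries 1 (constantCoeff_map_intCast constantCoeff_dedekindEtaUnit)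

theorem order_DeltaInvC [Nontrivial C] : (DeltaInvC C).order = -1 :=
  order_single_mul_ofPowerSeries (-1)
    (constantCoeff_map_intCast constantCoeff_dedekindEtaUnitInv)

theorem DeltaC_ne_zero [Nontrivial C] : DeltaC C ≠ 0 := (isUnit_DeltaC C).ne_zero

theorem DeltaInvC_ne_zero [Nontrivial C] : DeltaInvC C ≠ 0 :=
  (IsUnit.of_mul_eq_one _ (DeltaInvC_mul_DeltaC C)).ne_zero

theorem DeltaC_rat : DeltaC ℚ = deltaSeries := rfl

end Delta

end Fermat.Agent.Igusa

end
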