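/-
S28 (Igusa), node N-ME, interface file: the structure `ModEqData` (modular equation data for a
prime `p` over a coefficient ring `C`), in the Puiseux model of `Igusa/Subst.lean`.

With `s` the variable of `LaurentSeries C`, `ζ : Cˣ` (a primitive `p`-th root of unity in the
applications) and `pinv : C` (the inverse of `p`):

* `Phi`, `Psi`, `P : C[Y][X]` (outer variable `X`, inner variable `Y = j`);
* (ME1) `Phi(X, j(s^p)) = (X - j(s^{p^2})) ∏_{b<p} (X - j(ζ^b s))`;
* (ME2') `Psi(u_∞, j(s^p)) = 0` with `u_∞ = Δ(s^{p^2})/Δ(s^p)`, `Psi` monic;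
* (ME3') `P(j(s^{p^2}), j(s^p)) = u_∞ ∏_b (j(s^{p^2}) - j(ζ^b s))`.

The existence over a subring of `ℂ` containing `exp(2πi/p)` and `1/p` is proved analytically in
`Igusa/ModEq*.lean`; this file only contains the structure, base change and formal consequences.
-/
import Mathlib
import Fermat.Agent.Igusa.Subst

set_option autoImplicit false

namespace Fermat.Agent.Igusa

open Polynomial HahnSeries ModularCurve

section Defs

variable {C : Type*} [CommRing C]

/-- Evaluate the inner variable of a polynomial in `C[Y][X]` at a Laurent series `y`. -/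
noncomputable def evY (y : LaurentSeries C) : C[X][X] →+* (LaurentSeries C)[X] :=
  Polynomial.mapRingHom (Polynomial.eval₂RingHom (HahnSeries.C : C →+* LaurentSeries C) y)

theorem evY_apply (y : LaurentSeries C) (Φ : C[X][X]) :
    evY y Φ = Φ.map (Polynomial.eval₂RingHom (HahnSeries.C : C →+* LaurentSeries C) y) := rfl

theorem evY_monic (y : LaurentSeries C) {Φ : C[X][X]} (h : Φ.Monic) : (evY y Φ).Monic :=
  h.map _

theorem evY_natDegree [Nontrivial C] (y : LaurentSeries C) {Φ : C[X][X]} (h : Φ.Monic) :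
    (evY y Φ).natDegree = Φ.natDegree := by
  exact h.natDegree_map _

variable (C)

/-- `u_∞ = Δ(s^{p^2})/Δ(s^p)`. -/
noncomputable def uInfS (p : ℕ) [NeZero p] : LaurentSeries C :=
  qExpand C (p * p) (DeltaC C) * qExpand C p (DeltaInvC C)

variable {C}

/-- `u_b = pinv^12 Δ(ζ^b s)/Δ(s^p)`. -/
noncomputable def uFinS (p : ℕ) [NeZero p] (ζ : Cˣ) (pinv : C) (b : ℕ) : LaurentSeries C :=
  HahnSeries.C (pinv ^ 12) * scale (ζ ^ b) (DeltaC C) * qExpand C p (DeltaInvC C)

end Defs

/-- Modular equation data for the prime `p` over the ring `C`. -/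
structure ModEqData (C : Type*) [CommRing C] (p : ℕ) [NeZero p] (ζ : Cˣ) (pinv : C) where
  /-- the modular polynomial `Φ_p(X, Y)` -/
  Phi : C[X][X]
  /-- the polynomial of the modular unit `Δ(pτ)/Δ(τ)` -/
  Psi : C[X][X]
  /-- the interpolation polynomial `∑ u_i ∏_{k ≠ i} (X - x_k)` -/
  P : C[X][X]
  Phi_monic : Phi.Monic
  Phi_natDegree : Phi.natDegree = p + 1
  Psi_monic : Psi.Monic
  Psi_natDegree : Psi.natDegree = p + 1
  me1 : evY (J (1 : Cˣ) p) Phi =
    (X - Polynomial.C (J (1 : Cˣ) (p * p))) *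
      ∏ b ∈ Finset.range p, (X - Polynomial.C (J (ζ ^ b) 1))
  /-- (ME2'): the modular unit `u_∞` is a root of `Psi(X, j(s^p))`. -/
  psi_root : (evY (J (1 : Cˣ) p) Psi).eval (uInfS C p) = 0
  /-- (ME3'): `P(j(s^{p^2}), j(s^p)) = u_∞ ∏_b (j(s^{p^2}) - j(ζ^b s))`. -/
  me3_eval : (evY (J (1 : Cˣ) p) P).eval (J (1 : Cˣ) (p * p)) =
    uInfS C p * ∏ b ∈ Finset.range p, (J (1 : Cˣ) (p * p) - J (ζ ^ b) 1)

section Map

variable {C D : Type*} [CommRing C] [CommRing D] (f : C →+* D)

theorem coeffMap_comp_C : (coeffMap f).comp (HahnSeries.C : C →+* LaurentSeries C) =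
    (HahnSeries.C : D →+* LaurentSeries D).comp f := by
  ext r : 1
  simp only [RingHom.comp_apply, HahnSeries.C_apply]
  exact coeffMap_single f 0 r

theorem coeffMap_HC (r : C) : coeffMap f (HahnSeries.C r) = HahnSeries.C (f r) :=
  congrArg (fun g => g r) (coeffMap_comp_C f)

theorem evY_map (y : LaurentSeries C) (Φ : C[X][X]) :
    evY (coeffMap f y) (Φ.map (Polynomial.mapRingHom f)) = (evY y Φ).map (coeffMap f) := by
  rw [evY_apply, evY_apply, Polynomial.map_map, Polynomial.map_map]
  congr 1
  apply Polynomial.ringHom_ext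
  · intro a
    simp only [RingHom.comp_apply, Polynomial.coe_mapRingHom, Polynomial.map_C,
      Polynomial.coe_eval₂RingHom, Polynomial.eval₂_C]
    exact (congrArg (fun g => g a) (coeffMap_comp_C f)).symm
  · simp

theorem coeffMap_uInfS (p : ℕ) [NeZero p] : coeffMap f (uInfS C p) = uInfS D p := by
  rw [uInfS, uInfS, map_mul, coeffMap_qExpand, coeffMap_qExpand, coeffMap_DeltaC,
    coeffMap_DeltaInvC]

theorem coeffMap_uFinS (p : ℕ) [NeZero p] (ζ : Cˣ) (pinv : C) (b : ℕ) :
    coeffMap f (uFinS p ζ pinv b) = uFinS p (Units.map f ζ) (f pinv) b := by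
  rw [uFinS, uFinS, map_mul, map_mul, coeffMap_qExpand, coeffMap_DeltaInvC, coeffMap_scale,
    coeffMap_DeltaC, coeffMap_HC, map_pow, map_pow]
  simp only [map_pow]

/-- Base change of modular equation data along a ring hom. -/
noncomputable def ModEqData.map [Nontrivial D] {p : ℕ} [NeZero p] {ζ : Cˣ} {pinv : C} (d : ModEqData C p ζ pinv) :
    ModEqData D p (Units.map f ζ) (f pinv) where
  Phi := d.Phi.map (Polynomial.mapRingHom f)
  Psi := d.Psi.map (Polynomial.mapRingHom f)
  P := d.P.map (Polynomial.mapRingHom f)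
  Phi_monic := d.Phi_monic.map _
  Phi_natDegree := by rw [d.Phi_monic.natDegree_map, d.Phi_natDegree]
  Psi_monic := d.Psi_monic.map _
  Psi_natDegree := by rw [d.Psi_monic.natDegree_map, d.Psi_natDegree]
  me1 := by
    have h := congrArg (Polynomial.map (coeffMap f)) d.me1
    rw [← evY_map, coeffMap_J, map_one] at h
    rw [h]
    simp only [Polynomial.map_mul, Polynomial.map_sub, Polynomial.map_X, Polynomial.map_C,
      Polynomial.map_prod, coeffMap_J, map_one, map_pow]
  psi_root := by
    have h := congrArg (coeffMap f) d.psi_root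
    rw [map_zero, ← Polynomial.eval_map_apply, ← evY_map, coeffMap_J, map_one,
      coeffMap_uInfS] at h
    exact h
  me3_eval := by
    have h := congrArg (coeffMap f) d.me3_eval
    rw [← Polynomial.eval_map_apply, ← evY_map, coeffMap_J, map_one, coeffMap_J, map_one,
      map_mul, coeffMap_uInfS, map_prod] at h
    rw [h]
    simp only [map_sub, coeffMap_J, map_one, map_pow]

end Map

section Consequences

variable {C : Type*} [CommRing C]

theorem subst_comp_C (c : Cˣ) (n : ℕ) [NeZero n] :
    (subst c n).comp (HahnSeries.C : C →+* LaurentSeries C) = HahnSeries.C := by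
  ext r : 1
  exact subst_C c n r

/-- Substituting `s ↦ c s^n` in the coefficients commutes with evaluating the inner variable. -/
theorem evY_subst (c : Cˣ) (n : ℕ) [NeZero n] (y : LaurentSeries C) (Φ : C[X][X]) :
    (evY y Φ).map (subst c n) = evY (subst c n y) Φ := by
  rw [evY_apply, evY_apply, Polynomial.map_map]
  congr 1
  apply Polynomial.ringHom_ext
  · intro a
    simp only [RingHom.comp_apply, Polynomial.coe_eval₂RingHom, Polynomial.eval₂_C]
    exact subst_C c n a
  · simp

variable {p : ℕ} [NeZero p] {ζ : Cˣ} {pinv : C} (d : ModEqData C p ζ pinv)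

/-- (ME1) after the substitution `s ↦ c s^n`:
`Phi(X, J(c^p, n p)) = (X - J(c^{p^2}, n p^2)) ∏_b (X - J(ζ^b c, n))`. -/
theorem ModEqData.me1_subst (c : Cˣ) (n : ℕ) [NeZero n] :
    evY (J (c ^ p) (n * p)) d.Phi =
      (X - Polynomial.C (J (c ^ (p * p)) (n * (p * p)))) *
        ∏ b ∈ Finset.range p, (X - Polynomial.C (J (ζ ^ b * c) n)) := by
  have h := congrArg (Polynomial.map (subst c n)) d.me1
  rw [evY_subst, subst_J, one_mul] at h
  rw [h]
  simp only [Polynomial.map_mul, Polynomial.map_sub, Polynomial.map_X, Polynomial.map_C,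
    Polynomial.map_prod, subst_J, one_mul, pow_one, mul_one]

end Consequences

end Fermat.Agent.Igusa
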