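/-
S28 (Igusa), node I2: the ORDER LEMMA (IRR).

Let `K ⊆ L` be fields, `v` a valuation on `L`, and `y_1, …, y_n ∈ L` elements which all have the
same value `γ`, such that `γ ^ k` is not the value of an element of `K` for `0 < k < n`. Then
`∏ (X - y_b)` has no monic factor of degree `0 < k < n` with coefficients in `K`; in particular a
monic polynomial over `K` which becomes `∏ (X - y_b)` over `L` is irreducible over `K`.

(Application: `K = F((q^{1/m}))`, `L = F((q^{1/(pm)}))`, all `y_b` of `q`-order `a/(pm)`, `p ∤ a`.)
-/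
import Mathlib

set_option autoImplicit false

namespace Fermat.Agent.Igusa

open Polynomial

section OrderLemma

variable {K L Γ₀ : Type*} [Field K] [Field L] [LinearOrderedCommGroupWithZero Γ₀]

/-- The value of a product of elements which all have value `γ`. -/
lemma valuation_multiset_prod_eq_pow (v : Valuation L Γ₀) {γ : Γ₀} (t : Multiset L)
    (ht : ∀ y ∈ t, v y = γ) : v t.prod = γ ^ Multiset.card t := by
  induction t using Multiset.induction_on with
  | empty => simp
  | cons a t ih =>
    rw [Multiset.prod_cons, map_mul, Multiset.card_cons, pow_succ', ht a (Multiset.mem_cons_self a t),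
      ih fun y hy => ht y (Multiset.mem_cons_of_mem hy)]

/-- **Order lemma.** A monic factor over `K` of `∏ (X - y_b)` has degree `0` or `n`. -/
theorem natDegree_eq_zero_or_eq_card_of_map_dvd (i : K →+* L) (v : Valuation L Γ₀)
    (s : Multiset L) {γ : Γ₀} (hγ : ∀ y ∈ s, v y = γ)
    (hK : ∀ k : ℕ, 0 < k → k < Multiset.card s → ∀ x : K, v (i x) ≠ γ ^ k)
    (g : K[X]) (hg : g.Monic) (hdvd : g.map i ∣ (s.map fun a => X - C a).prod) :
    g.natDegree = 0 ∨ g.natDegree = Multiset.card s := by
  set P : L[X] := (s.map fun a => X - C a).prod with hP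
  have hPmonic : P.Monic := monic_multiset_prod_of_monic _ _ fun a _ => monic_X_sub_C a
  have hP0 : P ≠ 0 := hPmonic.ne_zero
  have hPsplits : P.Splits := by
    apply Splits.multisetProd
    intro f hf
    obtain ⟨a, -, rfl⟩ := Multiset.mem_map.1 hf
    exact Splits.X_sub_C a
  have hProots : P.roots = s := roots_multiset_prod_X_sub_C s
  have hg' : (g.map i).Monic := hg.map i
  have hgsplits : (g.map i).Splits := hPsplits.of_dvd hP0 hdvd
  have hroots_le : (g.map i).roots ≤ s := hProots ▸ roots.le_of_dvd hP0 hdvd
  have hdeg : (g.map i).natDegree = Multiset.card (g.map i).roots :=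
    hgsplits.natDegree_eq_card_roots
  have hdeg' : g.natDegree = Multiset.card (g.map i).roots := by
    rw [← hdeg, hg.natDegree_map]
  have hcoeff : i (g.coeff 0) = (-1) ^ (g.map i).natDegree * (g.map i).roots.prod := by
    rw [← coeff_map, hgsplits.coeff_zero_eq_prod_roots_of_monic hg']
  have hval : v (i (g.coeff 0)) = γ ^ g.natDegree := by
    rw [hcoeff, map_mul, map_pow, Valuation.map_neg, map_one, one_pow, one_mul, hdeg',
      valuation_multiset_prod_eq_pow v _ fun y hy => hγ y (Multiset.mem_of_le hroots_le hy)]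
  have hle : g.natDegree ≤ Multiset.card s := hdeg' ▸ Multiset.card_le_card hroots_le
  by_contra hcon
  push Not at hcon
  exact hK g.natDegree (Nat.pos_of_ne_zero hcon.1) (lt_of_le_of_ne hle hcon.2) _ hval

/-- **Irreducibility from the order lemma.** -/
theorem irreducible_of_map_eq_prod_X_sub_C (i : K →+* L) (v : Valuation L Γ₀)
    (s : Multiset L) (hs : s ≠ 0) {γ : Γ₀} (hγ : ∀ y ∈ s, v y = γ)
    (hK : ∀ k : ℕ, 0 < k → k < Multiset.card s → ∀ x : K, v (i x) ≠ γ ^ k)
    (P : K[X]) (hP : P.Monic) (hPs : P.map i = (s.map fun a => X - C a).prod) :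
    Irreducible P := by
  have hdegP : P.natDegree = Multiset.card s := by
    rw [← hP.natDegree_map i, hPs,
      natDegree_multiset_prod_of_monic _ fun f hf => by
        obtain ⟨a, -, rfl⟩ := Multiset.mem_map.1 hf
        exact monic_X_sub_C a]
    simp
  rw [hP.irreducible_iff_natDegree]
  refine ⟨fun h1 => ?_, fun f g hf hg hfg => ?_⟩
  · rw [h1, natDegree_one] at hdegP
    exact hs (Multiset.card_eq_zero.1 hdegP.symm)
  · have hdvd : g.map i ∣ (s.map fun a => X - C a).prod := by
      rw [← hPs, ← hfg, Polynomial.map_mul]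
      exact dvd_mul_left _ _
    rcases natDegree_eq_zero_or_eq_card_of_map_dvd i v s hγ hK g hg hdvd with h | h
    · exact Or.inr h
    · left
      have := hf.natDegree_mul hg
      rw [hfg, hdegP, h] at this
      omega

end OrderLemma

end Fermat.Agent.Igusa
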