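/-
S28 (Igusa), node N-SUB, part 2: levels, the `s`-adic valuation and the order lemma in the
Puiseux model.

* `levelSub F g`: the subfield of `F((s))` of series in `s^g` (the range of `qExpand F g`);
* `sVal F`: the `s`-adic valuation of `F((s))` with values in `ℤᵐ⁰`, `sVal F x = exp (- ord x)`;
* `irreducible_of_order`, `irreducible_of_levelSub`: the order lemma (IRR) of the S28 plan, an
  application of `OrderLemma.lean`;
* transfer of polynomial identities along `subst c m` and `coeffMap φ`.
-/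
import Fermat.Agent.Igusa.Subst
import Fermat.Agent.Igusa.OrderLemma

set_option autoImplicit false

noncomputable section

namespace Fermat.Agent.Igusa

open ModularCurve Polynomial

/-! ### Levels -/

section Level

variable (F : Type*) [Field F]

/-- The subfield of `F((s))` of series in `s^g`. -/
def levelSub (g : ℕ) [NeZero g] : Subfield (LaurentSeries F) := (qExpand F g).fieldRange

variable {F}

theorem qExpand_mem_levelSub (g : ℕ) [NeZero g] (x : LaurentSeries F) :
    qExpand F g x ∈ levelSub F g :=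
  RingHom.mem_fieldRange.2 ⟨x, rfl⟩

/-- A series lies in `levelSub F g` iff it is supported on the multiples of `g`. -/
theorem mem_levelSub_iff {g : ℕ} [NeZero g] {x : LaurentSeries F} :
    x ∈ levelSub F g ↔ ∀ k : ℤ, ¬ (g : ℤ) ∣ k → x.coeff k = 0 := by
  constructor
  · intro hx k hk
    obtain ⟨y, rfl⟩ := RingHom.mem_fieldRange.1 hx
    exact qExpand_coeff_of_not_dvd g y hk
  · intro hx
    have hg : (0 : ℤ) < (g : ℤ) := by exact_mod_cast Nat.pos_of_ne_zero (NeZero.ne g)
    have hbdd : BddBelow (Function.support fun k : ℤ => x.coeff ((g : ℤ) * k)) := by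
      refine ⟨min x.order 0, fun k hk => ?_⟩
      rw [Function.mem_support] at hk
      have h1 : x.order ≤ (g : ℤ) * k := HahnSeries.order_le_of_coeff_ne_zero hk
      rcases le_or_gt 0 k with h0 | h0
      · exact (min_le_right _ _).trans h0
      · refine (min_le_left _ _).trans (h1.trans ?_)
        nlinarith
    refine RingHom.mem_fieldRange.2
      ⟨HahnSeries.ofSuppBddBelow (fun k : ℤ => x.coeff ((g : ℤ) * k)) hbdd, ?_⟩
    ext k
    by_cases hk : (g : ℤ) ∣ k
    · obtain ⟨j, rfl⟩ := hk
      rw [qExpand_coeff_mul]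
      rfl
    · rw [qExpand_coeff_of_not_dvd g _ hk, hx k hk]

theorem levelSub_mono {g g' : ℕ} [NeZero g] [NeZero g'] (h : g' ∣ g) :
    levelSub F g ≤ levelSub F g' := by
  intro x hx
  rw [mem_levelSub_iff] at hx ⊢
  intro k hk
  exact hx k fun hgk => hk ((Int.natCast_dvd_natCast.2 h).trans hgk)

theorem levelSub_one : levelSub F 1 = ⊤ := by
  refine top_unique fun x _ => ?_
  rw [mem_levelSub_iff]
  intro k hk
  exact absurd (by simp) hk

theorem subst_mem_levelSub {g m : ℕ} [NeZero g] [NeZero m] (h : g ∣ m) (c : Fˣ)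
    (f : LaurentSeries F) : subst c m f ∈ levelSub F g := by
  rw [mem_levelSub_iff]
  intro k hk
  exact subst_coeff_of_not_dvd c m f fun hmk => hk ((Int.natCast_dvd_natCast.2 h).trans hmk)

theorem J_mem_levelSub {g m : ℕ} [NeZero g] [NeZero m] (h : g ∣ m) (c : Fˣ) :
    J c m ∈ levelSub F g :=
  subst_mem_levelSub h c _

theorem C_mem_levelSub (g : ℕ) [NeZero g] (r : F) : HahnSeries.C r ∈ levelSub F g := by
  rw [← qExpand_C (R := F) g r]
  exact qExpand_mem_levelSub g _

/-- The order of a series in `s^g` is divisible by `g`. -/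
theorem dvd_order_of_mem_levelSub {g : ℕ} [NeZero g] {x : LaurentSeries F}
    (hx : x ∈ levelSub F g) : (g : ℤ) ∣ x.order := by
  rcases eq_or_ne x 0 with rfl | h0
  · rw [HahnSeries.order_zero]
    exact dvd_zero _
  · by_contra hcon
    exact coeff_order_ne_zero_of_ne_zero h0 (mem_levelSub_iff.1 hx _ hcon)

variable (F) in
/-- `levelSub F g` as an intermediate field of `F((s))/F`. -/
def levelField (g : ℕ) [NeZero g] : IntermediateField F (LaurentSeries F) :=
  (qExpandAlgHomC F g).fieldRange

theorem levelField_toSubfield (g : ℕ) [NeZero g] :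
    (levelField F g).toSubfield = levelSub F g := by
  ext x
  rw [IntermediateField.mem_toSubfield, levelField, AlgHom.mem_fieldRange, levelSub,
    RingHom.mem_fieldRange]
  rfl

theorem mem_levelField_iff {g : ℕ} [NeZero g] {x : LaurentSeries F} :
    x ∈ levelField F g ↔ x ∈ levelSub F g := by
  rw [← levelField_toSubfield, IntermediateField.mem_toSubfield]

end Level

/-! ### The `s`-adic valuation -/

section Valuation

variable (F : Type*) [Field F]

/-- The `s`-adic valuation of `F((s))`, with values in `ℤᵐ⁰`: `sVal F x = exp (-ord x)`. -/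
def sVal : Valuation (LaurentSeries F) (WithZero (Multiplicative ℤ)) := Valued.v

variable {F}

theorem sVal_apply_of_ne_zero {x : LaurentSeries F} (hx : x ≠ 0) :
    sVal F x = WithZero.exp (-x.order) := by
  have hv0 : sVal F x ≠ 0 := (Valuation.ne_zero_iff _).2 hx
  have hle : sVal F x ≤ WithZero.exp (-x.order) :=
    (LaurentSeries.valuation_le_iff_coeff_lt_eq_zero F).2 fun n hn =>
      HahnSeries.coeff_eq_zero_of_lt_order hn
  have hnle : ¬ sVal F x ≤ WithZero.exp (-(x.order + 1)) := fun h =>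
    coeff_order_ne_zero_of_ne_zero hx
      ((LaurentSeries.valuation_le_iff_coeff_lt_eq_zero F).1 h _ (lt_add_one _))
  rw [← WithZero.exp_log hv0] at hle hnle ⊢
  rw [WithZero.exp_le_exp] at hle hnle
  rw [WithZero.exp_inj]
  omega

theorem sVal_pow_of_ne_zero {x : LaurentSeries F} (hx : x ≠ 0) (k : ℕ) :
    sVal F x ^ k = WithZero.exp (-((k : ℤ) * x.order)) := by
  rw [sVal_apply_of_ne_zero hx, ← WithZero.exp_nsmul, nsmul_eq_mul, mul_neg]

end Valuation

/-! ### The order lemma in the Puiseux model -/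

section OrderLemmaCor

variable {F K : Type*} [Field F] [Field K]

/-- **Order lemma, degree form.** Let `i : K → F((s))` be such that the orders of all `i x` are
divisible by `d`, and let `y_1, …, y_n` be nonzero series of the same order `o` such that `d ∤ k o`
for `0 < k < n`.  Then every monic factor over `K` of `∏ (X - y_b)` has degree `0` or `n`. -/
theorem natDegree_eq_zero_or_eq_card_of_order (i : K →+* LaurentSeries F) (d : ℤ)
    (hd : ∀ x : K, d ∣ (i x).order) (s : Multiset (LaurentSeries F)) (o : ℤ)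
    (hs : ∀ y ∈ s, y ≠ 0 ∧ y.order = o)
    (hk : ∀ k : ℕ, 0 < k → k < Multiset.card s → ¬ d ∣ (k : ℤ) * o)
    (G : K[X]) (hG : G.Monic) (hdvd : G.map i ∣ (s.map fun a => X - C a).prod) :
    G.natDegree = 0 ∨ G.natDegree = Multiset.card s := by
  refine natDegree_eq_zero_or_eq_card_of_map_dvd i (sVal F) s (γ := WithZero.exp (-o))
    (fun y hy => ?_) (fun k hk0 hkn x hx => ?_) G hG hdvd
  · rw [sVal_apply_of_ne_zero (hs y hy).1, (hs y hy).2]
  · rw [← WithZero.exp_nsmul, nsmul_eq_mul, mul_neg] at hx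
    rcases eq_or_ne (i x) 0 with h0 | h0
    · rw [h0, map_zero] at hx
      exact WithZero.exp_ne_zero hx.symm
    · rw [sVal_apply_of_ne_zero h0, WithZero.exp_inj, neg_inj] at hx
      exact hk k hk0 hkn (hx ▸ hd x)

/-- **Order lemma, irreducibility form.** -/
theorem irreducible_of_order (i : K →+* LaurentSeries F) (d : ℤ)
    (hd : ∀ x : K, d ∣ (i x).order) (s : Multiset (LaurentSeries F)) (hs0 : s ≠ 0) (o : ℤ)
    (hs : ∀ y ∈ s, y ≠ 0 ∧ y.order = o)
    (hk : ∀ k : ℕ, 0 < k → k < Multiset.card s → ¬ d ∣ (k : ℤ) * o)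
    (P : K[X]) (hP : P.Monic) (hPs : P.map i = (s.map fun a => X - C a).prod) :
    Irreducible P := by
  refine irreducible_of_map_eq_prod_X_sub_C i (sVal F) s hs0 (γ := WithZero.exp (-o))
    (fun y hy => ?_) (fun k hk0 hkn x hx => ?_) P hP hPs
  · rw [sVal_apply_of_ne_zero (hs y hy).1, (hs y hy).2]
  · rw [← WithZero.exp_nsmul, nsmul_eq_mul, mul_neg] at hx
    rcases eq_or_ne (i x) 0 with h0 | h0
    · rw [h0, map_zero] at hx
      exact WithZero.exp_ne_zero hx.symm
    · rw [sVal_apply_of_ne_zero h0, WithZero.exp_inj, neg_inj] at hx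
      exact hk k hk0 hkn (hx ▸ hd x)

/-- The arithmetic behind the order lemma: `p g ∤ k a g` for `0 < k < p`, `p ∤ a`. -/
theorem not_dvd_mul_of_lt_prime {p g : ℕ} (hp : p.Prime) (hg : g ≠ 0) {a : ℤ}
    (hpa : ¬ (p : ℤ) ∣ a) {k : ℕ} (hk0 : 0 < k) (hkp : k < p) :
    ¬ (((p * g : ℕ) : ℤ)) ∣ (k : ℤ) * (a * (g : ℤ)) := by
  intro h
  have hg' : (g : ℤ) ≠ 0 := by exact_mod_cast hg
  have h1 : (p : ℤ) * (g : ℤ) ∣ ((k : ℤ) * a) * (g : ℤ) := by
    have : (k : ℤ) * (a * (g : ℤ)) = ((k : ℤ) * a) * (g : ℤ) := by ring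
    rw [← this]
    exact_mod_cast h
  have h2 : (p : ℤ) ∣ (k : ℤ) * a := (mul_dvd_mul_iff_right hg').1 h1
  rcases (Nat.prime_iff_prime_int.1 hp).dvd_or_dvd h2 with h3 | h3
  · have : p ∣ k := Int.natCast_dvd_natCast.1 h3
    exact absurd (Nat.le_of_dvd hk0 this) (not_le.2 hkp)
  · exact hpa h3

/-- **Order lemma (IRR) for levels, degree form.** If `i : K → F((s))` has image in the series in
`s^(p g)` and `y_1, …, y_p` are nonzero of order `a g` with `p ∤ a`, then every monic factor over
`K` of `∏ (X - y_b)` has degree `0` or `p`. -/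
theorem natDegree_eq_zero_or_eq_of_levelSub {p g : ℕ} (hp : p.Prime) [NeZero p] [NeZero g]
    {a : ℤ} (hpa : ¬ (p : ℤ) ∣ a) (i : K →+* LaurentSeries F)
    (hi : ∀ x : K, i x ∈ levelSub F (p * g)) (s : Multiset (LaurentSeries F))
    (hcard : Multiset.card s = p) (hs : ∀ y ∈ s, y ≠ 0 ∧ y.order = a * (g : ℤ))
    (G : K[X]) (hG : G.Monic) (hdvd : G.map i ∣ (s.map fun a => X - C a).prod) :
    G.natDegree = 0 ∨ G.natDegree = p := by
  rw [← hcard]
  refine natDegree_eq_zero_or_eq_card_of_order i ((p * g : ℕ) : ℤ)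
    (fun x => dvd_order_of_mem_levelSub (hi x)) s _ hs (fun k hk0 hkn => ?_) G hG hdvd
  exact not_dvd_mul_of_lt_prime hp (NeZero.ne g) hpa hk0 (hcard ▸ hkn)

/-- **Order lemma (IRR) for levels, irreducibility form.** -/
theorem irreducible_of_levelSub {p g : ℕ} (hp : p.Prime) [NeZero p] [NeZero g]
    {a : ℤ} (hpa : ¬ (p : ℤ) ∣ a) (i : K →+* LaurentSeries F)
    (hi : ∀ x : K, i x ∈ levelSub F (p * g)) (s : Multiset (LaurentSeries F))
    (hcard : Multiset.card s = p) (hs : ∀ y ∈ s, y ≠ 0 ∧ y.order = a * (g : ℤ))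
    (P : K[X]) (hP : P.Monic) (hPs : P.map i = (s.map fun a => X - C a).prod) :
    Irreducible P := by
  have hs0 : s ≠ 0 := by
    intro h
    rw [h, Multiset.card_zero] at hcard
    exact hp.ne_zero hcard.symm
  refine irreducible_of_order i ((p * g : ℕ) : ℤ)
    (fun x => dvd_order_of_mem_levelSub (hi x)) s hs0 _ hs (fun k hk0 hkn => ?_) P hP hPs
  exact not_dvd_mul_of_lt_prime hp (NeZero.ne g) hpa hk0 (hcard ▸ hkn)

end OrderLemmaCor

/-! ### Transfer of polynomial identities -/

section Transfer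

variable {A B : Type*} [CommRing A] [CommRing B]

theorem map_multiset_prod_X_sub_C (φ : A →+* B) (s : Multiset A) :
    ((s.map fun a => X - C a).prod).map φ = ((s.map φ).map fun a => X - C a).prod := by
  rw [Polynomial.map_multiset_prod, Multiset.map_map, Multiset.map_map]
  congr 1
  refine Multiset.map_congr rfl fun a _ => ?_
  simp

theorem map_finset_prod_X_sub_C {ι : Type*} (φ : A →+* B) (s : Finset ι) (f : ι → A) :
    (∏ i ∈ s, (X - C (f i))).map φ = ∏ i ∈ s, (X - C (φ (f i))) := by
  rw [Polynomial.map_prod]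
  refine Finset.prod_congr rfl fun i _ => ?_
  simp

variable {C D : Type*} [CommRing C] [CommRing D]

/-- The structure map `C → C((s))` (for the instance found by inference) is `HahnSeries.C`. -/
theorem algebraMap_laurentSeries_eq_C (r : C) :
    algebraMap C (LaurentSeries C) r = HahnSeries.C r := by
  have h1 : algebraMap C (PowerSeries C) r = PowerSeries.C r := by simp
  rw [HahnSeries.algebraMap_apply', h1, HahnSeries.ofPowerSeries_C]

/-- `subst c m` is `C`-linear. -/
def substAlgHom (c : Cˣ) (m : ℕ) [NeZero m] : LaurentSeries C →ₐ[C] LaurentSeries C where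
  __ := subst c m
  commutes' r := by
    show subst c m (algebraMap C (LaurentSeries C) r) = algebraMap C (LaurentSeries C) r
    rw [algebraMap_laurentSeries_eq_C, subst_C]

@[simp]
theorem substAlgHom_apply (c : Cˣ) (m : ℕ) [NeZero m] (f : LaurentSeries C) :
    substAlgHom c m f = subst c m f := rfl

theorem subst_aeval (c : Cˣ) (m : ℕ) [NeZero m] (y : LaurentSeries C) (P : C[X]) :
    subst c m (aeval y P) = aeval (subst c m y) P :=
  (Polynomial.aeval_algHom_apply (substAlgHom c m) y P).symm

/-- Substituting `s ↦ c s^m` in a two-variable polynomial identity `Φ(X, y) = …`. -/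
theorem map_subst_map_aeval (c : Cˣ) (m : ℕ) [NeZero m] (y : LaurentSeries C)
    (Φ : Polynomial (Polynomial C)) :
    (Φ.map (aeval y).toRingHom).map (subst c m) = Φ.map (aeval (subst c m y)).toRingHom := by
  rw [Polynomial.map_map]
  congr 1
  refine RingHom.ext fun P => ?_
  exact subst_aeval c m y P

theorem coeffMap_aeval (φ : C →+* D) (y : LaurentSeries C) (P : C[X]) :
    coeffMap φ (aeval y P) = aeval (coeffMap φ y) (P.map φ) := by
  refine Polynomial.map_aeval_eq_aeval_map (φ := φ) (ψ := coeffMap φ) ?_ P y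
  refine RingHom.ext fun r => ?_
  rw [RingHom.comp_apply, RingHom.comp_apply, algebraMap_laurentSeries_eq_C,
    algebraMap_laurentSeries_eq_C, HahnSeries.C_apply, HahnSeries.C_apply, coeffMap_single]

/-- Changing coefficients along `φ : C → D` in a two-variable polynomial identity. -/
theorem map_coeffMap_map_aeval (φ : C →+* D) (y : LaurentSeries C)
    (Φ : Polynomial (Polynomial C)) :
    (Φ.map (aeval y).toRingHom).map (coeffMap φ) =
      (Φ.map (Polynomial.mapRingHom φ)).map (aeval (coeffMap φ y)).toRingHom := by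
  rw [Polynomial.map_map, Polynomial.map_map]
  congr 1
  refine RingHom.ext fun P => ?_
  exact coeffMap_aeval φ y P

end Transfer

/-! ### The modular equation at all `(c, m)` -/

section ModEqTransfer

variable {C D : Type*} [CommRing C] [CommRing D]

theorem J_congr (c : Cˣ) {m m' : ℕ} [NeZero m] [NeZero m'] (h : m = m') : J c m = J c m' := by
  subst h
  rfl

theorem subst_congr (c : Cˣ) {m m' : ℕ} [NeZero m] [NeZero m'] (h : m = m')
    (f : LaurentSeries C) : subst c m f = subst c m' f := by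
  subst h
  rfl

/-- If the modular equation `Φ(X, j(s^p)) = (X - j(s^(p²))) ∏_b (X - j(ζ^b s))` holds, then it holds
after the substitution `s ↦ c s^m`:
`Φ(X, j(c^p s^(m p))) = (X - j(c^(p²) s^(m p²))) ∏_b (X - j(ζ^b c s^m))`. -/
theorem modEq_subst {p : ℕ} [NeZero p] {ζ : Cˣ} {Φ : Polynomial (Polynomial C)}
    (h : Φ.map (aeval (J (1 : Cˣ) p)).toRingHom =
      (X - Polynomial.C (J (1 : Cˣ) (p ^ 2))) *
        ∏ b ∈ Finset.range p, (X - Polynomial.C (J (ζ ^ b) 1)))
    (c : Cˣ) (m : ℕ) [NeZero m] :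
    Φ.map (aeval (J (c ^ p) (m * p))).toRingHom =
      (X - Polynomial.C (J (c ^ p ^ 2) (m * p ^ 2))) *
        ∏ b ∈ Finset.range p, (X - Polynomial.C (J (ζ ^ b * c) m)) := by
  have h1 := congrArg (Polynomial.map (subst c m)) h
  rw [map_subst_map_aeval, subst_J, one_mul, Polynomial.map_mul, Polynomial.map_sub,
    Polynomial.map_X, Polynomial.map_C, subst_J, one_mul, map_finset_prod_X_sub_C] at h1
  rw [h1]
  congr 1
  refine Finset.prod_congr rfl fun b _ => ?_
  rw [subst_J, pow_one, J_congr _ (mul_one m)]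

/-- The modular equation is preserved by a change of coefficients. -/
theorem modEq_coeffMap (φ : C →+* D) {p : ℕ} [NeZero p] {ζ : Cˣ}
    {Φ : Polynomial (Polynomial C)}
    (h : Φ.map (aeval (J (1 : Cˣ) p)).toRingHom =
      (X - Polynomial.C (J (1 : Cˣ) (p ^ 2))) *
        ∏ b ∈ Finset.range p, (X - Polynomial.C (J (ζ ^ b) 1))) :
    (Φ.map (Polynomial.mapRingHom φ)).map (aeval (J (1 : Dˣ) p)).toRingHom =
      (X - Polynomial.C (J (1 : Dˣ) (p ^ 2))) *
        ∏ b ∈ Finset.range p, (X - Polynomial.C (J (Units.map (φ : C →* D) ζ ^ b) 1)) := by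
  have h1 := congrArg (Polynomial.map (coeffMap φ)) h
  rw [map_coeffMap_map_aeval, coeffMap_J, map_one, Polynomial.map_mul, Polynomial.map_sub,
    Polynomial.map_X, Polynomial.map_C, coeffMap_J, map_one, map_finset_prod_X_sub_C] at h1
  rw [h1]
  congr 1
  refine Finset.prod_congr rfl fun b _ => ?_
  rw [coeffMap_J, map_pow]

end ModEqTransfer

end Fermat.Agent.Igusa

end
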