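/-
S28 (Igusa), node N-BASE: the base case of the tower.

For a field `F`, `1 < p` and modular equation data `d : ModEqData F p ζ pinv` (in the Puiseux model
of `Igusa/Subst.lean`), the modular polynomial `Φ_p(X, j)` is irreducible over `F(j)` (any fraction
field `k` of `F[Y]`).  Instantiation of `BaseCaseLaurent.lean`: `L = F((s))`, `K = F((s^p))`,
`y = j(s^p)`, `x∞ = j(s^{p^2})`, `x_b = j(ζ^b s)` (order `-1`), `u∞ = Δ(s^{p^2})/Δ(s^p)`
(order `p^2 - p > 0`).
-/
import Fermat.Agent.Igusa.BaseCaseLaurent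
import Fermat.Agent.Igusa.SubstLevel
import Fermat.Agent.Igusa.ModEqData

set_option autoImplicit false

namespace Fermat.Agent.Igusa

open Polynomial ModularCurve

section BaseCase

variable {F : Type*} [Field F]

/-- `evY y` is `Polynomial.map (aeval y)`. -/
theorem evY_eq_map_aeval (y : LaurentSeries F) (Φ : F[X][X]) :
    evY y Φ = Φ.map ((aeval y : F[X] →ₐ[F] LaurentSeries F) : F[X] →+* LaurentSeries F) := by
  rw [evY_apply]
  congr 1
  refine RingHom.ext fun f => ?_
  rw [coe_eval₂RingHom, AlgHom.coe_toRingHom, aeval_def]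
  congr 1
  exact RingHom.ext fun r => (algebraMap_laurentSeries_eq_C r).symm

/-- The order of the modular unit `u∞ = Δ(s^{p^2})/Δ(s^p)`. -/
theorem uInfS_ne_zero (p : ℕ) [NeZero p] : uInfS F p ≠ 0 := by
  rw [uInfS, ← subst_one_unit, ← subst_one_unit]
  exact mul_ne_zero ((subst_eq_zero_iff _ _).not.2 (DeltaC_ne_zero F))
    ((subst_eq_zero_iff _ _).not.2 (DeltaInvC_ne_zero F))

theorem order_uInfS (p : ℕ) [NeZero p] : (uInfS F p).order = (p : ℤ) * p - p := by
  rw [uInfS, ← subst_one_unit, ← subst_one_unit,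
    HahnSeries.order_mul ((subst_eq_zero_iff _ _).not.2 (DeltaC_ne_zero F))
      ((subst_eq_zero_iff _ _).not.2 (DeltaInvC_ne_zero F)),
    order_subst, order_subst, order_DeltaC, order_DeltaInvC]
  push_cast
  ring

/-- **Base case (N-BASE).** Given modular equation data over a field `F` for `p > 1`, the modular
polynomial `Φ_p(X, j)` is irreducible over the rational function field `k = F(j)`. -/
theorem ModEqData.irreducible_Phi_map {p : ℕ} [NeZero p] (hp : 1 < p) {ζ : Fˣ} {pinv : F}
    (d : ModEqData F p ζ pinv) (k : Type*) [Field k] [Algebra F[X] k] [IsFractionRing F[X] k] :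
    Irreducible (d.Phi.map (algebraMap F[X] k)) := by
  classical
  have hpp : (1 : ℤ) < (p : ℤ) := by exact_mod_cast hp
  set xs : Multiset (LaurentSeries F) :=
    (Finset.range p).val.map fun b => J (ζ ^ b) 1 with hxs
  have hcard : Multiset.card xs = p := by
    rw [hxs, Multiset.card_map, Finset.card_val, Finset.card_range]
  refine irreducible_map_of_modEq_laurent k (levelSub F p) (fun c => C_mem_levelSub p c) p
    (fun z hz _ => dvd_order_of_mem_levelSub hz) (J (1 : Fˣ) p)
    (J_mem_levelSub (dvd_refl p) 1) (J_ne_zero 1 p) ?_ d.Phi d.Psi d.P d.Phi_monic d.Psi_monic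
    (J (1 : Fˣ) (p * p)) (uInfS F p) xs (J_mem_levelSub (dvd_mul_right p p) 1) (-1) ?_ ?_ ?_
    (uInfS_ne_zero p) ?_ ?_ ?_ ?_
  · rw [order_J]
    linarith
  · intro b hb
    obtain ⟨b', -, rfl⟩ := Multiset.mem_map.1 hb
    refine ⟨J_ne_zero _ 1, ?_⟩
    rw [order_J]
    norm_num
  · intro j hj0 hj hdvd
    rw [hcard] at hj
    have h1 : (p : ℤ) ∣ (j : ℤ) := by
      have := (dvd_neg (a := (p : ℤ))).2 hdvd
      simpa using this
    exact Nat.not_dvd_of_pos_of_lt hj0 hj (Int.natCast_dvd_natCast.1 h1)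
  · intro b hb heq
    obtain ⟨b', -, rfl⟩ := Multiset.mem_map.1 hb
    have h1 := congrArg HahnSeries.order heq
    rw [order_J, order_J] at h1
    push_cast at h1
    nlinarith
  · rw [order_uInfS]
    nlinarith
  · rw [← evY_eq_map_aeval, d.me1, hxs, Multiset.map_map, Finset.prod_eq_multiset_prod]
    rfl
  · rw [← evY_eq_map_aeval]
    exact d.psi_root
  · rw [← evY_eq_map_aeval, d.me3_eval, hxs, Multiset.map_map, Finset.prod_eq_multiset_prod]
    rfl

end BaseCase

end Fermat.Agent.Igusa
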