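/-
S28 / N-TOWER (abstract form): the tower of explicit embeddings (findings 122, section 2) as pure
field theory.

`k` a field (`= F(jbar_N)`), `Ω` an algebraically closed extension (`= ` an algebraic closure of
`F((t))`).  One prime step: starting from an intermediate field `T₀`, adjoin successively
`x 1, …, x a` (`= x_{p^i}`), where `x (e+1)` is a root of `Φ(X, x e)`; embeddings
`x i ↦ y i` (`= J(1, N / p^i)`) into subfields `Λ i` (`= F((q^{1/p^i}))`) over which the relevant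
factor of `Φ(X, y e)` is irreducible show that the degree is `(p+1) p^(a-1)`.
-/
import Mathlib

set_option autoImplicit false

open Polynomial IntermediateField

namespace Fermat.Agent.Igusa

section Ev

variable {k : Type*} [Field k]

/-- Evaluate the inner variable of a two-variable polynomial. -/
noncomputable def evInner {A : Type*} [CommRing A] [Algebra k A] (z : A)
    (Φ : Polynomial (Polynomial k)) : Polynomial A :=
  Φ.map (Polynomial.aeval z : Polynomial k →ₐ[k] A).toRingHom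

theorem evInner_map {A B : Type*} [CommRing A] [Algebra k A] [CommRing B] [Algebra k B]
    (f : A →ₐ[k] B) (z : A) (Φ : Polynomial (Polynomial k)) :
    (evInner z Φ).map f.toRingHom = evInner (f z) Φ := by
  unfold evInner
  rw [Polynomial.map_map]
  congr 1
  rw [aeval_algHom]
  rfl

theorem evInner_monic {A : Type*} [CommRing A] [Algebra k A] (z : A)
    {Φ : Polynomial (Polynomial k)} (h : Φ.Monic) : (evInner z Φ).Monic :=
  h.map _

theorem evInner_natDegree {A : Type*} [CommRing A] [Nontrivial A] [Algebra k A] (z : A)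
    {Φ : Polynomial (Polynomial k)} (h : Φ.Monic) : (evInner z Φ).natDegree = Φ.natDegree :=
  h.natDegree_map _

theorem evInner_algebraMap {A : Type*} [CommRing A] [Algebra k A] (c : k)
    (Φ : Polynomial (Polynomial k)) :
    evInner (algebraMap k A c) Φ = (Φ.map (Polynomial.evalRingHom c)).map (algebraMap k A) := by
  unfold evInner
  rw [Polynomial.map_map]
  congr 1
  ext q
  · simp
  · simp

end Ev

section Extension

variable {k Ω : Type*} [Field k] [Field Ω] [Algebra k Ω]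

/-- The simple extension `T(z)` of an intermediate field, as an intermediate field of `Ω / k`. -/
noncomputable def adjoinSimpleK (T : IntermediateField k Ω) (z : Ω) : IntermediateField k Ω :=
  (T⟮z⟯).restrictScalars k

theorem mem_adjoinSimpleK {T : IntermediateField k Ω} {z u : Ω} :
    u ∈ adjoinSimpleK T z ↔ u ∈ T⟮z⟯ := Iff.rfl

theorem le_adjoinSimpleK (T : IntermediateField k Ω) (z : Ω) : T ≤ adjoinSimpleK T z := by
  intro t ht
  rw [mem_adjoinSimpleK]
  exact IntermediateField.algebraMap_mem (T⟮z⟯) (⟨t, ht⟩ : T)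

theorem self_mem_adjoinSimpleK (T : IntermediateField k Ω) (z : Ω) : z ∈ adjoinSimpleK T z := by
  rw [mem_adjoinSimpleK]
  exact mem_adjoin_simple_self (↥T) z

theorem finrank_adjoinSimpleK (T : IntermediateField k Ω) {z : Ω} (hz : IsIntegral T z) :
    Module.finrank k (adjoinSimpleK T z) = Module.finrank k T * (minpoly T z).natDegree := by
  have h1 := Module.finrank_mul_finrank k T (T⟮z⟯)
  rw [adjoin.finrank hz] at h1
  exact h1.symm

theorem exists_algHom_adjoinSimpleK {K' : Type*} [Field K'] [Algebra k K']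
    (T : IntermediateField k Ω) (τ : T →ₐ[k] K') {z : Ω} (hz : IsIntegral T z)
    {w : K'} (hw : ((minpoly T z).map τ.toRingHom).eval w = 0) :
    ∃ ψ : adjoinSimpleK T z →ₐ[k] K',
      (∀ (t : T) (h : (t : Ω) ∈ adjoinSimpleK T z), ψ ⟨t, h⟩ = τ t) ∧
        ∀ h : z ∈ adjoinSimpleK T z, ψ ⟨z, h⟩ = w := by
  let _ : Algebra T K' := τ.toRingHom.toAlgebra
  have : IsScalarTower k T K' := IsScalarTower.of_algebraMap_eq fun c => (τ.commutes c).symm
  have hw' : aeval w (minpoly T (adjoin.powerBasis hz).gen) = 0 := by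
    rw [adjoin.powerBasis_gen, minpoly_gen, aeval_def, ← eval_map]
    exact hw
  let φ : ↥(T⟮z⟯) →ₐ[T] K' := (adjoin.powerBasis hz).lift w hw'
  let ψ : adjoinSimpleK T z →ₐ[k] K' :=
    { toFun := fun u => φ ⟨u.1, u.2⟩
      map_one' := φ.map_one
      map_mul' := fun a b => φ.map_mul ⟨a.1, a.2⟩ ⟨b.1, b.2⟩
      map_zero' := φ.map_zero
      map_add' := fun a b => φ.map_add ⟨a.1, a.2⟩ ⟨b.1, b.2⟩
      commutes' := fun c => (φ.restrictScalars k).commutes c }
  refine ⟨ψ, fun t h => ?_, fun h => ?_⟩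
  · exact φ.commutes t
  · have := (adjoin.powerBasis hz).lift_gen w hw'
    rw [adjoin.powerBasis_gen] at this
    exact this

theorem algHom_mem_of_adjoinSimpleK {K' : Type*} [Field K'] [Algebra k K']
    (T : IntermediateField k Ω) {z : Ω} (σ : adjoinSimpleK T z →ₐ[k] K')
    (Λ : IntermediateField k K')
    (hT : ∀ (t : T) (h : (t : Ω) ∈ adjoinSimpleK T z), σ ⟨t, h⟩ ∈ Λ)
    (hz : ∀ h : z ∈ adjoinSimpleK T z, σ ⟨z, h⟩ ∈ Λ) (u : adjoinSimpleK T z) : σ u ∈ Λ := by
  obtain ⟨u, hu⟩ := u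
  have hu' : u ∈ T⟮z⟯ := hu
  induction hu' using adjoin_induction with
  | mem x hx =>
    rw [Set.mem_singleton_iff] at hx
    subst hx
    exact hz _
  | algebraMap t => exact hT t _
  | add x y hx hy ihx ihy =>
    have : (⟨x + y, hu⟩ : adjoinSimpleK T z) = ⟨x, hx⟩ + ⟨y, hy⟩ := rfl
    rw [this, map_add]
    exact add_mem (ihx hx) (ihy hy)
  | inv x hx ih =>
    have : (⟨x⁻¹, hu⟩ : adjoinSimpleK T z) = (⟨x, hx⟩ : adjoinSimpleK T z)⁻¹ := rfl
    rw [this, map_inv₀]
    exact inv_mem (ih hx)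
  | mul x y hx hy ihx ihy =>
    have : (⟨x * y, hu⟩ : adjoinSimpleK T z) = ⟨x, hx⟩ * ⟨y, hy⟩ := rfl
    rw [this, map_mul]
    exact mul_mem (ihx hx) (ihy hy)

/-- Successive simple extensions `T₀ ⊆ T₀(z 1) ⊆ T₀(z 1, z 2) ⊆ …` as intermediate fields of
`Ω / k`. -/
noncomputable def adjoinSeq (T₀ : IntermediateField k Ω) (z : ℕ → Ω) : ℕ → IntermediateField k Ω
  | 0 => T₀
  | (e + 1) => adjoinSimpleK (adjoinSeq T₀ z e) (z (e + 1))

theorem adjoinSeq_zero (T₀ : IntermediateField k Ω) (z : ℕ → Ω) : adjoinSeq T₀ z 0 = T₀ := rfl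

theorem adjoinSeq_succ (T₀ : IntermediateField k Ω) (z : ℕ → Ω) (e : ℕ) :
    adjoinSeq T₀ z (e + 1) = adjoinSimpleK (adjoinSeq T₀ z e) (z (e + 1)) := rfl

theorem adjoinSeq_le_succ (T₀ : IntermediateField k Ω) (z : ℕ → Ω) (e : ℕ) :
    adjoinSeq T₀ z e ≤ adjoinSeq T₀ z (e + 1) :=
  le_adjoinSimpleK _ _

theorem mem_adjoinSeq_succ (T₀ : IntermediateField k Ω) (z : ℕ → Ω) (e : ℕ) :
    z (e + 1) ∈ adjoinSeq T₀ z (e + 1) :=
  self_mem_adjoinSimpleK _ _

theorem adjoinSeq_mono (T₀ : IntermediateField k Ω) (z : ℕ → Ω) {e e' : ℕ} (h : e ≤ e') :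
    adjoinSeq T₀ z e ≤ adjoinSeq T₀ z e' := by
  induction h with
  | refl => exact le_rfl
  | step _ ih => exact ih.trans (adjoinSeq_le_succ T₀ z _)

theorem le_adjoinSeq (T₀ : IntermediateField k Ω) (z : ℕ → Ω) (e : ℕ) :
    T₀ ≤ adjoinSeq T₀ z e :=
  adjoinSeq_mono T₀ z (Nat.zero_le e)

theorem mem_adjoinSeq (T₀ : IntermediateField k Ω) (z : ℕ → Ω) {i e : ℕ} (hi : 1 ≤ i)
    (hie : i ≤ e) : z i ∈ adjoinSeq T₀ z e := by
  obtain ⟨i, rfl⟩ := Nat.exists_eq_succ_of_ne_zero (by omega : i ≠ 0)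
  exact adjoinSeq_mono T₀ z hie (mem_adjoinSeq_succ T₀ z i)

theorem adjoinSimpleK_le {T M : IntermediateField k Ω} {z : Ω} (hT : T ≤ M) (hz : z ∈ M) :
    adjoinSimpleK T z ≤ M := by
  intro t ht
  rw [mem_adjoinSimpleK] at ht
  induction ht using adjoin_induction with
  | mem x hx =>
    rw [Set.mem_singleton_iff] at hx
    subst hx
    exact hz
  | algebraMap t => exact hT t.2
  | add x y _ _ ihx ihy => exact add_mem ihx ihy
  | inv x _ ih => exact inv_mem ih
  | mul x y _ _ ihx ihy => exact mul_mem ihx ihy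

theorem adjoinSeq_le (T₀ : IntermediateField k Ω) (z : ℕ → Ω) (M : IntermediateField k Ω)
    (h0 : T₀ ≤ M) (e : ℕ) (hz : ∀ i, 1 ≤ i → i ≤ e → z i ∈ M) : adjoinSeq T₀ z e ≤ M := by
  induction e with
  | zero => exact h0
  | succ e ih =>
    rw [adjoinSeq_succ]
    exact adjoinSimpleK_le (ih fun i h1 h2 => hz i h1 (by omega)) (hz _ (by omega) le_rfl)

end Extension

section Steps

theorem minpoly_eq_of_first_step {k Ω : Type*} [Field k] [Field Ω] [Algebra k Ω] [IsAlgClosed Ω]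
    (T₀ Λ : IntermediateField k Ω) [FiniteDimensional k T₀] (hT : T₀ ≤ Λ)
    (Φ₀ : k[X]) (hΦm : Φ₀.Monic) (hΦirr : Irreducible Φ₀)
    (x1 y1 : Ω) (hx1Λ : x1 ∈ Λ) (G : Λ[X]) (hGm : G.Monic) (hGirr : Irreducible G)
    (hfac : Φ₀.map (algebraMap k Ω) = (X - C x1) * G.map (algebraMap Λ Ω))
    (hy1 : (G.map (algebraMap Λ Ω)).IsRoot y1)
    (hnc : ∀ σ : T₀ →ₐ[k] Ω, ∀ t, σ t ≠ y1) :
    minpoly T₀ x1 = Φ₀.map (algebraMap k T₀) := by
  -- `x1` and `y1` are roots of `Φ₀`
  have hx1root : aeval x1 Φ₀ = 0 := by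
    rw [aeval_def, ← eval_map, hfac, eval_mul, eval_sub, eval_X, eval_C, sub_self, zero_mul]
  have hy1root : aeval y1 Φ₀ = 0 := by
    rw [aeval_def, ← eval_map, hfac, eval_mul, hy1.eq_zero, mul_zero]
  have hmin : Φ₀ = minpoly k x1 := minpoly.eq_of_irreducible_of_monic hΦirr hx1root hΦm
  have hint : IsIntegral k x1 := ⟨Φ₀, hΦm, hx1root⟩
  have hintT : IsIntegral T₀ x1 := hint.tower_top
  set m := minpoly T₀ x1 with hm
  have hmmonic : m.Monic := minpoly.monic hintT
  have hmdvd : m ∣ Φ₀.map (algebraMap k T₀) := by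
    rw [hmin]
    exact minpoly.dvd_map_of_isScalarTower k T₀ x1
  -- move to `Λ[X]`
  let ι : T₀ →+* Λ := (inclusion hT).toRingHom
  let x1' : Λ := ⟨x1, hx1Λ⟩
  have hιk : ι.comp (algebraMap k T₀) = algebraMap k Λ := by
    ext c
    rfl
  have hvalι : (algebraMap Λ Ω).comp ι = algebraMap T₀ Ω := by
    ext t
    rfl
  have hΦΛ : Φ₀.map (algebraMap k Λ) = (X - C x1') * G := by
    apply Polynomial.map_injective (algebraMap Λ Ω) (algebraMap Λ Ω).injective
    rw [Polynomial.map_map, ← IsScalarTower.algebraMap_eq, hfac, Polynomial.map_mul,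
      Polynomial.map_sub, Polynomial.map_X, Polynomial.map_C]
    rfl
  have hmΛdvd : m.map ι ∣ (X - C x1') * G := by
    rw [← hΦΛ, ← hιk, ← Polynomial.map_map]
    exact Polynomial.map_dvd ι hmdvd
  have hroot : (m.map ι).IsRoot x1' := by
    rw [IsRoot.def, eval_map]
    apply (algebraMap Λ Ω).injective
    rw [hom_eval₂, hvalι, map_zero]
    exact minpoly.aeval T₀ x1
  obtain ⟨r, hr⟩ := dvd_iff_isRoot.2 hroot
  have hmΛmonic : (m.map ι).Monic := hmmonic.map ι
  have hrmonic : r.Monic := by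
    rw [hr] at hmΛmonic
    exact (monic_X_sub_C x1').of_mul_monic_left hmΛmonic
  have hrdvd : r ∣ G := by
    rw [hr] at hmΛdvd
    exact (mul_dvd_mul_iff_left (X_sub_C_ne_zero x1')).1 hmΛdvd
  rcases (hGirr.dvd_iff).1 hrdvd with hunit | hassoc
  · -- degree one: contradiction
    exfalso
    have hr1 : r = 1 := hrmonic.eq_one_of_isUnit hunit
    have hdeg : m.natDegree = 1 := by
      rw [← hmmonic.natDegree_map ι, hr, hr1, mul_one, natDegree_X_sub_C]
    obtain ⟨t, ht⟩ := (minpoly.natDegree_eq_one_iff).1 hdeg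
    have hK : ∀ s : T₀, IsIntegral k s ∧ ((minpoly k s).map (algebraMap k Ω)).Splits :=
      fun s => ⟨Algebra.IsIntegral.isIntegral s, IsAlgClosed.splits _⟩
    have hy : aeval y1 (minpoly k t) = 0 := by
      rw [IntermediateField.minpoly_eq, show ((t : T₀) : Ω) = x1 from ht, ← hmin]
      exact hy1root
    obtain ⟨φ, hφ⟩ := exists_algHom_of_splits_of_aeval hK hy
    exact hnc φ t hφ
  · have hGr : G = r := eq_of_monic_of_associated hGm hrmonic hassoc
    have hdeg : (Φ₀.map (algebraMap k T₀)).natDegree ≤ m.natDegree := by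
      rw [← hmmonic.natDegree_map ι, hr, ← hGr, ← hΦΛ, ← hιk, ← Polynomial.map_map,
        (hΦm.map _).natDegree_map ι]
    exact (eq_of_monic_of_dvd_of_natDegree_le hmmonic (hΦm.map _) hmdvd hdeg).symm

theorem exists_minpoly_of_higher_step {k Ω : Type*} [Field k] [Field Ω] [Algebra k Ω]
    (T Λ : IntermediateField k Ω) (τ : T →ₐ[k] Ω) (hτ : ∀ t, τ t ∈ Λ)
    (Φ : Polynomial (Polynomial k)) (hΦm : Φ.Monic)
    (xe xp : T) (xs : Ω)
    (hrootp : (evInner (xe : Ω) Φ).IsRoot (xp : Ω))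
    (hroots : (evInner (xe : Ω) Φ).IsRoot xs) (hne : xs ≠ xp)
    (P : Λ[X]) (hPirr : Irreducible P)
    (hfac : evInner (τ xe) Φ = (X - C (τ xp)) * P.map (algebraMap Λ Ω)) :
    ∃ H : T[X], H.Monic ∧ IsIntegral T xs ∧ minpoly T xs = H ∧
      H.map τ.toRingHom = P.map (algebraMap Λ Ω) ∧ H.natDegree + 1 = Φ.natDegree := by
  set Q : T[X] := evInner xe Φ with hQ
  have hQmonic : Q.Monic := evInner_monic xe hΦm
  have hQΩ : Q.map (algebraMap T Ω) = evInner (xe : Ω) Φ := evInner_map T.val xe Φ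
  have hQroot : Q.IsRoot xp := by
    rw [IsRoot.def]
    apply (algebraMap T Ω).injective
    rw [← eval_map_apply, hQΩ, map_zero]
    exact hrootp
  set H : T[X] := Q /ₘ (X - C xp) with hH
  have hQH : (X - C xp) * H = Q := mul_divByMonic_eq_iff_isRoot.2 hQroot
  have hHmonic : H.Monic := by
    have := hQmonic
    rw [← hQH] at this
    exact (monic_X_sub_C xp).of_mul_monic_left this
  have hHdeg : H.natDegree + 1 = Φ.natDegree := by
    rw [← evInner_natDegree xe hΦm, ← hQ, ← hQH,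
      (monic_X_sub_C xp).natDegree_mul hHmonic, natDegree_X_sub_C, add_comm]
  -- `xs` is a root of `H`
  have hHroot : aeval xs H = 0 := by
    have h1 : (Q.map (algebraMap T Ω)).eval xs = 0 := by rw [hQΩ]; exact hroots
    rw [← hQH, Polynomial.map_mul, eval_mul, Polynomial.map_sub, Polynomial.map_X,
      Polynomial.map_C, eval_sub, eval_X, eval_C] at h1
    rcases mul_eq_zero.1 h1 with h | h
    · exact absurd (sub_eq_zero.1 h) hne
    · rwa [aeval_def, ← eval_map]
  -- image under `τ`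
  have hQτ : Q.map τ.toRingHom = evInner (τ xe) Φ := evInner_map τ xe Φ
  have hHτ : H.map τ.toRingHom = P.map (algebraMap Λ Ω) := by
    have h1 : (X - C (τ xp)) * H.map τ.toRingHom = (X - C (τ xp)) * P.map (algebraMap Λ Ω) := by
      rw [← hfac, ← hQτ, ← hQH, Polynomial.map_mul, Polynomial.map_sub, Polynomial.map_X,
        Polynomial.map_C]
      rfl
    exact mul_left_cancel₀ (X_sub_C_ne_zero _) h1
  -- irreducibility
  let τc : T →ₐ[k] Λ := τ.codRestrict Λ.toSubalgebra hτ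
  have hHτc : H.map τc.toRingHom = P := by
    apply Polynomial.map_injective (algebraMap Λ Ω) (algebraMap Λ Ω).injective
    rw [Polynomial.map_map, ← hHτ]
    rfl
  have hHirr : Irreducible H :=
    hHmonic.irreducible_of_irreducible_map τc.toRingHom H (hHτc ▸ hPirr)
  have hint : IsIntegral T xs := ⟨H, hHmonic, hHroot⟩
  exact ⟨H, hHmonic, hint, (minpoly.eq_of_irreducible_of_monic hHirr hHroot hHmonic).symm, hHτ,
    hHdeg⟩


end Steps

section PrimeStepSection

variable {k Ω : Type*} [Field k] [Field Ω] [Algebra k Ω]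

/-- The data and hypotheses of one prime step of the tower (findings 122, section 2):
`x i = x_{p^i}`, `y i = J(1, N / p^i)`, `Λ i = F((q^{1/p^i}))`, `Φ = Φ_p`. -/
structure PrimeStep (T₀ : IntermediateField k Ω) (p a : ℕ) where
  x : ℕ → Ω
  y : ℕ → Ω
  Λ : ℕ → IntermediateField k Ω
  Φ : Polynomial (Polynomial k)
  j₀ : k
  x_zero : x 0 = algebraMap k Ω j₀
  y_zero : y 0 = x 0
  Φ_monic : Φ.Monic
  Φ_natDegree : Φ.natDegree = p + 1
  le_Λ : T₀ ≤ Λ 0
  Λ_mono : ∀ e, e < a → Λ e ≤ Λ (e + 1)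
  x_one_mem : x 1 ∈ Λ 0
  y_mem : ∀ e, e ≤ a → y e ∈ Λ e
  base : Irreducible (Φ.map (Polynomial.evalRingHom j₀))
  not_conj : ∀ σ : T₀ →ₐ[k] Ω, ∀ t, σ t ≠ y 1
  root_succ : ∀ e, e < a → (evInner (x e) Φ).IsRoot (x (e + 1))
  root_pred : ∀ e, e + 1 < a → (evInner (x (e + 1)) Φ).IsRoot (x e)
  x_ne : ∀ e, e + 1 < a → x (e + 2) ≠ x e
  factor_zero : 0 < a → ∃ G : Polynomial (Λ 0), G.Monic ∧ Irreducible G ∧
    evInner (y 0) Φ = (X - C (x 1)) * G.map (algebraMap (Λ 0) Ω) ∧
    (G.map (algebraMap (Λ 0) Ω)).IsRoot (y 1)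
  factor_succ : ∀ e, e + 1 < a → ∃ P : Polynomial (Λ (e + 1)), Irreducible P ∧
    evInner (y (e + 1)) Φ = (X - C (y e)) * P.map (algebraMap (Λ (e + 1)) Ω) ∧
    (P.map (algebraMap (Λ (e + 1)) Ω)).IsRoot (y (e + 2))

theorem algHom_mk_eq_algebraMap {K' : Type*} [Field K'] [Algebra k K']
    {M : IntermediateField k Ω} (τ : M →ₐ[k] K') {u : Ω} (hu : u ∈ M) {c : k}
    (huc : u = algebraMap k Ω c) : τ ⟨u, hu⟩ = algebraMap k K' c := by
  subst huc
  exact τ.commutes c

namespace PrimeStep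

variable {T₀ : IntermediateField k Ω} {p a : ℕ} (D : PrimeStep T₀ p a)

/-- The tower `T₀ ⊆ T₀(x 1) ⊆ T₀(x 1, x 2) ⊆ …`. -/
noncomputable def field (e : ℕ) : IntermediateField k Ω := adjoinSeq T₀ D.x e

theorem field_succ (e : ℕ) : D.field (e + 1) = adjoinSimpleK (D.field e) (D.x (e + 1)) := rfl

theorem x_zero_mem (M : IntermediateField k Ω) : D.x 0 ∈ M := by
  rw [D.x_zero]
  exact M.algebraMap_mem _

theorem x_mem_field {i e : ℕ} (h : i ≤ e) : D.x i ∈ D.field e := by
  rcases Nat.eq_zero_or_pos i with rfl | hi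
  · exact D.x_zero_mem _
  · exact mem_adjoinSeq T₀ D.x hi h

/-- The inductive claim at stage `e`. -/
def Claim (e : ℕ) : Prop :=
  Module.finrank k (D.field e) = Module.finrank k T₀ * ((p + 1) * p ^ (e - 1)) ∧
    ∃ τ : D.field e →ₐ[k] Ω, (∀ t, τ t ∈ D.Λ e) ∧
      ∀ i, i ≤ e → ∀ h : D.x i ∈ D.field e, τ ⟨D.x i, h⟩ = D.y i

theorem claim_one [IsAlgClosed Ω] [FiniteDimensional k T₀] (ha : 0 < a) : D.Claim 1 := by
  obtain ⟨G, hGm, hGirr, hfac, hroot⟩ := D.factor_zero ha
  set Φ₀ := D.Φ.map (Polynomial.evalRingHom D.j₀) with hΦ₀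
  have hΦ₀m : Φ₀.Monic := D.Φ_monic.map _
  have hΦ₀deg : Φ₀.natDegree = p + 1 := by
    rw [hΦ₀, D.Φ_monic.natDegree_map, D.Φ_natDegree]
  have hfac' : Φ₀.map (algebraMap k Ω) = (X - C (D.x 1)) * G.map (algebraMap (D.Λ 0) Ω) := by
    rw [hΦ₀, ← evInner_algebraMap, ← D.x_zero, ← D.y_zero]
    exact hfac
  have hmin := minpoly_eq_of_first_step T₀ (D.Λ 0) D.le_Λ Φ₀ hΦ₀m D.base (D.x 1) (D.y 1)
    D.x_one_mem G hGm hGirr hfac' hroot D.not_conj
  have hint : IsIntegral T₀ (D.x 1) :=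
    minpoly.ne_zero_iff.1 (hmin ▸ (hΦ₀m.map _).ne_zero)
  have hy1 : (Φ₀.map (algebraMap k Ω)).eval (D.y 1) = 0 := by
    rw [hfac', eval_mul, hroot.eq_zero, mul_zero]
  refine ⟨?_, ?_⟩
  · rw [D.field_succ, show D.field 0 = T₀ from rfl, finrank_adjoinSimpleK T₀ hint, hmin,
      hΦ₀m.natDegree_map, hΦ₀deg, Nat.sub_self, pow_zero, mul_one]
  · have hw : ((minpoly T₀ (D.x 1)).map T₀.val.toRingHom).eval (D.y 1) = 0 := by
      rw [hmin, Polynomial.map_map]
      exact hy1
    obtain ⟨τ', hτT, hτgen⟩ := exists_algHom_adjoinSimpleK T₀ T₀.val hint hw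
    refine ⟨τ', ?_, ?_⟩
    · refine algHom_mem_of_adjoinSimpleK T₀ τ' (D.Λ 1) (fun t h => ?_) (fun h => ?_)
      · rw [hτT t h]
        exact D.Λ_mono 0 ha (D.le_Λ t.2)
      · rw [hτgen h]
        exact D.y_mem 1 ha
    · intro i hi h
      rcases Nat.eq_zero_or_pos i with rfl | hi0
      · exact (algHom_mk_eq_algebraMap τ' h D.x_zero).trans (by rw [D.y_zero, D.x_zero])
      · obtain rfl : i = 1 := by omega
        exact hτgen h

theorem claim_succ (e : ℕ) (he : e + 1 < a) (h : D.Claim (e + 1)) : D.Claim (e + 2) := by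
  obtain ⟨hfin, τ, hτΛ, hτx⟩ := h
  obtain ⟨P, hPirr, hfac, hroot⟩ := D.factor_succ e he
  let xe : D.field (e + 1) := ⟨D.x (e + 1), D.x_mem_field le_rfl⟩
  let xp : D.field (e + 1) := ⟨D.x e, D.x_mem_field (Nat.le_succ e)⟩
  have hτxe : τ xe = D.y (e + 1) := hτx (e + 1) le_rfl _
  have hτxp : τ xp = D.y e := hτx e (Nat.le_succ e) _
  obtain ⟨H, hHm, hint, hmin, hHτ, hHdeg⟩ := exists_minpoly_of_higher_step (D.field (e + 1)) (D.Λ (e + 1)) τ hτΛ
    D.Φ D.Φ_monic xe xp (D.x (e + 2)) (D.root_pred e he) (D.root_succ (e + 1) he) (D.x_ne e he)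
    P hPirr (by rw [hτxe, hτxp]; exact hfac)
  have hHp : H.natDegree = p := by
    rw [D.Φ_natDegree] at hHdeg
    omega
  refine ⟨?_, ?_⟩
  · rw [D.field_succ, finrank_adjoinSimpleK (D.field (e + 1)) hint, hmin, hHp, hfin,
      show e + 1 + 1 - 1 = e + 1 from rfl, show e + 1 - 1 = e from rfl, pow_succ]
    ring
  · have hw : ((minpoly (D.field (e + 1)) (D.x (e + 2))).map τ.toRingHom).eval (D.y (e + 2)) = 0 := by
      rw [hmin, hHτ]
      exact hroot
    obtain ⟨τ', hτT, hτgen⟩ := exists_algHom_adjoinSimpleK (D.field (e + 1)) τ hint hw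
    refine ⟨τ', ?_, ?_⟩
    · refine algHom_mem_of_adjoinSimpleK (D.field (e + 1)) τ' (D.Λ (e + 2)) (fun t h => ?_) (fun h => ?_)
      · rw [hτT t h]
        exact D.Λ_mono (e + 1) he (hτΛ t)
      · rw [hτgen h]
        exact D.y_mem (e + 2) he
    · intro i hi h
      rcases Nat.lt_or_ge i (e + 2) with hlt | hge
      · have hmem : D.x i ∈ D.field (e + 1) := D.x_mem_field (by omega)
        exact (hτT ⟨D.x i, hmem⟩ h).trans (hτx i (by omega) hmem)
      · obtain rfl : i = e + 2 := by omega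
        exact hτgen h

/-- **One prime step**: the degree of the tower `T₀(x 1, …, x a)` over `k`. -/
theorem finrank_field [IsAlgClosed Ω] [FiniteDimensional k T₀] (ha : 0 < a) :
    Module.finrank k (D.field a) = Module.finrank k T₀ * ((p + 1) * p ^ (a - 1)) := by
  have key : ∀ e, e + 1 ≤ a → D.Claim (e + 1) := by
    intro e
    induction e with
    | zero => exact fun _ => D.claim_one ha
    | succ e ih => exact fun he => D.claim_succ e he (ih (by omega))
  obtain ⟨a, rfl⟩ := Nat.exists_eq_succ_of_ne_zero ha.ne'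
  exact (key a le_rfl).1

end PrimeStep

theorem algHom_adjoinSeq_mem (T₀ : IntermediateField k Ω) (z : ℕ → Ω)
    (Λ : IntermediateField k Ω) (h0 : ∀ σ : T₀ →ₐ[k] Ω, ∀ t, σ t ∈ Λ) (e : ℕ)
    (hz : ∀ i, 1 ≤ i → i ≤ e → ∀ w : Ω, aeval w (minpoly k (z i)) = 0 → w ∈ Λ) :
    ∀ σ : adjoinSeq T₀ z e →ₐ[k] Ω, ∀ t, σ t ∈ Λ := by
  induction e with
  | zero => exact h0
  | succ e ih =>
    intro σ
    have ih' := ih fun i h1 h2 => hz i h1 (by omega)
    refine algHom_mem_of_adjoinSimpleK (adjoinSeq T₀ z e) σ Λ (fun t h => ?_) (fun h => ?_)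
    · exact ih' (σ.comp (inclusion (adjoinSeq_le_succ T₀ z e))) t
    · apply hz (e + 1) (by omega) le_rfl
      have h1 := minpoly.aeval_algHom k σ (⟨z (e + 1), h⟩ : adjoinSeq T₀ z (e + 1))
      rwa [IntermediateField.minpoly_eq] at h1

end PrimeStepSection

section Chain

variable {k Ω : Type*} [Field k] [Field Ω] [Algebra k Ω]

/-- The global data and hypotheses of the tower argument for level `N` (findings 122, section 2):
`lev d = F((q^{1/d}))`, `x d = J(1, d N)`, `y d = J(1, N / d)`, `Φ p = Φ_p`, `j₀ = jbar_N`. -/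
structure TowerData (k Ω : Type*) [Field k] [Field Ω] [Algebra k Ω] (N : ℕ) where
  lev : ℕ → IntermediateField k Ω
  x : ℕ → Ω
  y : ℕ → Ω
  Φ : ℕ → Polynomial (Polynomial k)
  j₀ : k
  lev_mono : ∀ d d', d ∣ d' → d' ∣ N → lev d ≤ lev d'
  x_mem : ∀ d, d ∣ N → x d ∈ lev 1
  y_mem : ∀ d, d ∣ N → y d ∈ lev d
  x_one : x 1 = algebraMap k Ω j₀
  y_one : y 1 = x 1
  y_not_mem : ∀ p A, p.Prime → p ∣ N → A ∣ N → ¬ p ∣ A → y p ∉ lev A
  Φ_monic : ∀ p, p.Prime → p ∣ N → (Φ p).Monic
  Φ_natDegree : ∀ p, p.Prime → p ∣ N → (Φ p).natDegree = p + 1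
  base : ∀ p, p.Prime → p ∣ N → Irreducible ((Φ p).map (Polynomial.evalRingHom j₀))
  root_succ : ∀ p e, p.Prime → p ^ (e + 1) ∣ N →
    (evInner (x (p ^ e)) (Φ p)).IsRoot (x (p ^ (e + 1)))
  root_pred : ∀ p e, p.Prime → p ^ (e + 2) ∣ N →
    (evInner (x (p ^ (e + 1))) (Φ p)).IsRoot (x (p ^ e))
  x_ne : ∀ p e, p.Prime → p ^ (e + 2) ∣ N → x (p ^ (e + 2)) ≠ x (p ^ e)
  factor_zero : ∀ p, p.Prime → p ∣ N → ∃ G : Polynomial (lev 1), G.Monic ∧ Irreducible G ∧
    evInner (x 1) (Φ p) = (X - C (x p)) * G.map (algebraMap (lev 1) Ω) ∧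
    (G.map (algebraMap (lev 1) Ω)).IsRoot (y p)
  factor_succ : ∀ p e, p.Prime → p ^ (e + 2) ∣ N →
    ∃ P : Polynomial (lev (p ^ (e + 1))), Irreducible P ∧
      evInner (y (p ^ (e + 1))) (Φ p) =
        (X - C (y (p ^ e))) * P.map (algebraMap (lev (p ^ (e + 1))) Ω) ∧
      (P.map (algebraMap (lev (p ^ (e + 1))) Ω)).IsRoot (y (p ^ (e + 2)))
  conj_mem : ∀ p i, p.Prime → p ^ i ∣ N → ∀ z : Ω,
    aeval z (minpoly k (x (p ^ i))) = 0 → z ∈ lev (p ^ i)

namespace TowerData

variable {N : ℕ} (D : TowerData k Ω N)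

/-- The prime step attached to the global data. -/
noncomputable def primeStep (T₀ : IntermediateField k Ω) (p a : ℕ) (hp : p.Prime)
    (hpa : p ^ a ∣ N) (ha : 0 < a) (hT₀ : T₀ ≤ D.lev 1)
    (hnc : ∀ σ : T₀ →ₐ[k] Ω, ∀ t, σ t ≠ D.y p) : PrimeStep T₀ p a where
  x e := D.x (p ^ e)
  y e := D.y (p ^ e)
  Λ e := D.lev (p ^ e)
  Φ := D.Φ p
  j₀ := D.j₀
  x_zero := by rw [pow_zero]; exact D.x_one
  y_zero := by rw [pow_zero]; exact D.y_one
  Φ_monic := D.Φ_monic p hp ((dvd_pow_self p ha.ne').trans hpa)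
  Φ_natDegree := D.Φ_natDegree p hp ((dvd_pow_self p ha.ne').trans hpa)
  le_Λ := by rw [pow_zero]; exact hT₀
  Λ_mono e he := D.lev_mono _ _ (pow_dvd_pow p (Nat.le_succ e))
    ((pow_dvd_pow p (by omega : e + 1 ≤ a)).trans hpa)
  x_one_mem := by
    rw [pow_zero]
    exact D.x_mem _ ((pow_dvd_pow p (by omega : 1 ≤ a)).trans hpa)
  y_mem e he := D.y_mem _ ((pow_dvd_pow p he).trans hpa)
  base := D.base p hp ((dvd_pow_self p ha.ne').trans hpa)
  not_conj := by rw [pow_one]; exact hnc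
  root_succ e he := D.root_succ p e hp ((pow_dvd_pow p (by omega : e + 1 ≤ a)).trans hpa)
  root_pred e he := D.root_pred p e hp ((pow_dvd_pow p (by omega : e + 2 ≤ a)).trans hpa)
  x_ne e he := D.x_ne p e hp ((pow_dvd_pow p (by omega : e + 2 ≤ a)).trans hpa)
  factor_zero _ := by
    have key : ∀ m m' : ℕ, m = 1 → m' = p → ∃ G : Polynomial (D.lev m), G.Monic ∧
        Irreducible G ∧ evInner (D.y m) (D.Φ p) =
          (X - C (D.x m')) * G.map (algebraMap (D.lev m) Ω) ∧
        (G.map (algebraMap (D.lev m) Ω)).IsRoot (D.y m') := by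
      rintro m m' rfl rfl
      rw [D.y_one]
      exact D.factor_zero m' hp ((dvd_pow_self m' ha.ne').trans hpa)
    exact key (p ^ 0) (p ^ 1) (pow_zero p) (pow_one p)
  factor_succ e he := D.factor_succ p e hp ((pow_dvd_pow p (by omega : e + 2 ≤ a)).trans hpa)

end TowerData

/-- The level reached after processing the primes of the list. -/
def blockLevel (a : ℕ → ℕ) (L : List ℕ) : ℕ := (L.map fun p => p ^ a p).prod

/-- The degree reached after processing the primes of the list. -/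
def blockDegree (a : ℕ → ℕ) (L : List ℕ) : ℕ := (L.map fun p => (p + 1) * p ^ (a p - 1)).prod

theorem blockLevel_cons (a : ℕ → ℕ) (p : ℕ) (L : List ℕ) :
    blockLevel a (p :: L) = p ^ a p * blockLevel a L := by
  simp [blockLevel]

theorem blockDegree_cons (a : ℕ → ℕ) (p : ℕ) (L : List ℕ) :
    blockDegree a (p :: L) = (p + 1) * p ^ (a p - 1) * blockDegree a L := by
  simp [blockDegree]

theorem blockDegree_pos (a : ℕ → ℕ) (L : List ℕ) (hL : ∀ p ∈ L, p.Prime) :
    0 < blockDegree a L := by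
  induction L with
  | nil => simp [blockDegree]
  | cons p L ih =>
    rw [blockDegree_cons]
    have hp := hL p (List.mem_cons_self ..)
    have h1 := ih fun q hq => hL q (List.mem_cons_of_mem _ hq)
    have h2 : 0 < p ^ (a p - 1) := pow_pos hp.pos _
    exact Nat.mul_pos (Nat.mul_pos (Nat.succ_pos p) h2) h1

theorem not_dvd_blockLevel (a : ℕ → ℕ) (p : ℕ) (L : List ℕ) (hp : p.Prime)
    (hL : ∀ q ∈ L, q.Prime) (hpL : p ∉ L) : ¬ p ∣ blockLevel a L := by
  induction L with
  | nil =>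
    simp only [blockLevel, List.map_nil, List.prod_nil, Nat.dvd_one]
    exact hp.ne_one
  | cons q L ih =>
    rw [blockLevel_cons, hp.dvd_mul]
    rintro (h | h)
    · have h1 := hp.dvd_of_dvd_pow h
      have h2 := (Nat.prime_dvd_prime_iff_eq hp (hL q (List.mem_cons_self ..))).1 h1
      exact hpL (h2 ▸ List.mem_cons_self ..)
    · exact ih (fun r hr => hL r (List.mem_cons_of_mem _ hr))
        (fun hmem => hpL (List.mem_cons_of_mem _ hmem)) h

namespace TowerData

variable {N : ℕ} (D : TowerData k Ω N)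

/-- The tower field after processing the primes of the list. -/
noncomputable def blockField (a : ℕ → ℕ) : List ℕ → IntermediateField k Ω
  | [] => ⊥
  | p :: L => adjoinSeq (blockField a L) (fun i => D.x (p ^ i)) (a p)

theorem blockField_spec [IsAlgClosed Ω] (a : ℕ → ℕ) (L : List ℕ) (hL : L.Nodup)
    (hprime : ∀ p ∈ L, p.Prime) (ha : ∀ p ∈ L, 0 < a p) (hN : blockLevel a L ∣ N) :
    FiniteDimensional k (D.blockField a L) ∧
      Module.finrank k (D.blockField a L) = blockDegree a L ∧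
      D.blockField a L ≤ D.lev 1 ∧
      ∀ σ : D.blockField a L →ₐ[k] Ω, ∀ t, σ t ∈ D.lev (blockLevel a L) := by
  induction L with
  | nil =>
    refine ⟨?_, ?_, bot_le, fun σ t => ?_⟩
    · show FiniteDimensional k (⊥ : IntermediateField k Ω)
      infer_instance
    · show Module.finrank k (⊥ : IntermediateField k Ω) = _
      rw [IntermediateField.finrank_bot]
      simp [blockDegree]
    · obtain ⟨c, hc⟩ := IntermediateField.mem_bot.1 t.2
      have : σ t = algebraMap k Ω c := by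
        have ht : t = ⟨algebraMap k Ω c, hc ▸ t.2⟩ := Subtype.ext hc.symm
        rw [ht]
        exact algHom_mk_eq_algebraMap σ _ rfl
      rw [this]
      exact (D.lev _).algebraMap_mem c
  | cons p L ih =>
    have hp : p.Prime := hprime p (List.mem_cons_self ..)
    have hap : 0 < a p := ha p (List.mem_cons_self ..)
    have hN' : blockLevel a (p :: L) ∣ N := hN
    have hdvd1 : blockLevel a L ∣ blockLevel a (p :: L) := by
      rw [blockLevel_cons]
      exact dvd_mul_left _ _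
    have hdvd2 : ∀ i, i ≤ a p → p ^ i ∣ blockLevel a (p :: L) := by
      intro i hi
      rw [blockLevel_cons]
      exact (pow_dvd_pow p hi).trans (dvd_mul_right _ _)
    rw [blockLevel_cons] at hN
    have hpa : p ^ a p ∣ N := (dvd_mul_right _ _).trans hN
    have hAL : blockLevel a L ∣ N := (dvd_mul_left _ _).trans hN
    have hpN : p ∣ N := (dvd_pow_self p hap.ne').trans hpa
    obtain ⟨hfd, hdeg, hle, hconj⟩ := ih (List.nodup_cons.1 hL).2
      (fun q hq => hprime q (List.mem_cons_of_mem _ hq))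
      (fun q hq => ha q (List.mem_cons_of_mem _ hq)) hAL
    have hpA : ¬ p ∣ blockLevel a L :=
      not_dvd_blockLevel a p L hp (fun q hq => hprime q (List.mem_cons_of_mem _ hq))
        (List.nodup_cons.1 hL).1
    have hnc : ∀ σ : D.blockField a L →ₐ[k] Ω, ∀ t, σ t ≠ D.y p := by
      intro σ t h
      exact D.y_not_mem p _ hp hpN hAL hpA (h ▸ hconj σ t)
    let S := D.primeStep (D.blockField a L) p (a p) hp hpa hap hle hnc
    have hfin : Module.finrank k (D.blockField a (p :: L)) = blockDegree a (p :: L) := by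
      have := S.finrank_field hap
      rw [hdeg] at this
      rw [blockDegree_cons, mul_comm]
      exact this
    refine ⟨?_, hfin, ?_, ?_⟩
    · apply Module.finite_of_finrank_pos
      rw [hfin]
      exact blockDegree_pos a _ hprime
    · exact adjoinSeq_le _ _ _ hle _ fun i _ hi =>
        D.x_mem _ ((pow_dvd_pow p hi).trans hpa)
    · refine algHom_adjoinSeq_mem (D.blockField a L) (fun i => D.x (p ^ i))
        (D.lev (blockLevel a (p :: L))) (fun σ t => ?_) (a p) (fun i _ hi w hw => ?_)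
      · exact D.lev_mono _ _ hdvd1 hN' (hconj σ t)
      · have h1 := D.conj_mem p i hp ((pow_dvd_pow p hi).trans hpa) w hw
        exact D.lev_mono _ _ (hdvd2 i hi) hN' h1

theorem blockField_le (a : ℕ → ℕ) (L : List ℕ) (M : IntermediateField k Ω)
    (hM : ∀ p ∈ L, ∀ i, 1 ≤ i → i ≤ a p → D.x (p ^ i) ∈ M) : D.blockField a L ≤ M := by
  induction L with
  | nil => exact bot_le
  | cons p L ih =>
    exact adjoinSeq_le _ _ _ (ih fun q hq => hM q (List.mem_cons_of_mem _ hq)) _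
      fun i h1 h2 => hM p (List.mem_cons_self ..) i h1 h2

/-- **The tower theorem (abstract form).** Any finite-dimensional intermediate field containing
the `x (p ^ i)`, `p ^ i ∣ N`, has degree at least `∏_{p ∣ N} (p + 1) p ^ (v_p N - 1)` over `k`. -/
theorem le_finrank [IsAlgClosed Ω] (hN : N ≠ 0) (M : IntermediateField k Ω)
    [FiniteDimensional k M] (hM : ∀ p i, p.Prime → 1 ≤ i → p ^ i ∣ N → D.x (p ^ i) ∈ M) :
    ∏ p ∈ N.primeFactors, (p + 1) * p ^ (N.factorization p - 1) ≤ Module.finrank k M := by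
  set L := N.primeFactors.toList with hL
  have hmem : ∀ p ∈ L, p.Prime ∧ p ∣ N := by
    intro p hp
    rw [hL, Finset.mem_toList] at hp
    exact ⟨Nat.prime_of_mem_primeFactors hp, Nat.dvd_of_mem_primeFactors hp⟩
  have hlevel : blockLevel N.factorization L = N := by
    rw [blockLevel, hL, Finset.prod_map_toList,
      ← Nat.prod_factorization_eq_prod_primeFactors (fun p e => p ^ e)]
    exact Nat.prod_factorization_pow_eq_self hN
  have hdegree : blockDegree N.factorization L =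
      ∏ p ∈ N.primeFactors, (p + 1) * p ^ (N.factorization p - 1) := by
    rw [blockDegree, hL, Finset.prod_map_toList]
  obtain ⟨-, hfin, -, -⟩ := D.blockField_spec N.factorization L (Finset.nodup_toList _)
    (fun p hp => (hmem p hp).1)
    (fun p hp => (hmem p hp).1.factorization_pos_of_dvd hN (hmem p hp).2)
    (dvd_of_eq hlevel)
  rw [← hdegree, ← hfin]
  apply IntermediateField.finrank_le_of_le_right
  refine D.blockField_le _ _ M fun p hp i h1 h2 => hM p i (hmem p hp).1 h1 ?_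
  exact (pow_dvd_pow p h2).trans (Nat.ordProj_dvd N p)

end TowerData

end Chain

end Fermat.Agent.Igusa
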