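/-
S28 / N-TOWER, instantiation part 1: the Puiseux model as a `TowerData` set-up.
`k = F(J 1 N)` inside `F((t))`, `Ω` an algebraic closure of `F((t))`, the level fields
`lev d = ` image of `levelSub F (N / d)` in `Ω`, total versions of `J` and `levelSub`.
-/
import Fermat.Agent.Igusa.TowerAbstract
import Fermat.Agent.Igusa.SubstLevel

set_option autoImplicit false

open Polynomial IntermediateField ModularCurve

namespace Fermat.Agent.Igusa

section Model

variable (F : Type*) [Field F] (N : ℕ) [NeZero N]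

/-- Total version of `J c m` (zero for `m = 0`). -/
noncomputable def Jt (c : Fˣ) (m : ℕ) : LaurentSeries F :=
  if h : m = 0 then 0 else @J F _ c m ⟨h⟩

variable {F}

theorem Jt_eq (c : Fˣ) (m : ℕ) [NeZero m] : Jt F c m = J c m := by
  unfold Jt
  rw [dif_neg (NeZero.ne m)]

variable (F)

/-- The base field `k = F(J 1 N)` inside `F((t))`. -/
noncomputable abbrev kN : IntermediateField F (LaurentSeries F) := F⟮J (1 : Fˣ) N⟯

/-- The ambient algebraically closed field. -/
abbrev Om : Type _ := AlgebraicClosure (LaurentSeries F)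

/-- The inclusion `F((t)) → Ω` as a `k`-algebra hom. -/
noncomputable def iotaK : LaurentSeries F →ₐ[kN F N] Om F :=
  IsScalarTower.toAlgHom (kN F N) (LaurentSeries F) (Om F)

theorem iotaK_injective : Function.Injective (iotaK F N) := (iotaK F N).injective

/-- Total version of `levelSub F g`: everything unless `g ∣ N`. -/
def levelSubT (g : ℕ) : Subfield (LaurentSeries F) where
  carrier := {x | ∀ h : g ∣ N, x ∈ @levelSub F _ g ⟨ne_zero_of_dvd_ne_zero (NeZero.ne N) h⟩}
  mul_mem' hx hy h := Subfield.mul_mem _ (hx h) (hy h)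
  one_mem' _ := Subfield.one_mem _
  add_mem' hx hy h := Subfield.add_mem _ (hx h) (hy h)
  zero_mem' _ := Subfield.zero_mem _
  neg_mem' hx h := Subfield.neg_mem _ (hx h)
  inv_mem' _ hx h := Subfield.inv_mem _ (hx h)

variable {F N}

theorem mem_levelSubT_iff {g : ℕ} [NeZero g] (hg : g ∣ N) {x : LaurentSeries F} :
    x ∈ levelSubT F N g ↔ x ∈ levelSub F g :=
  ⟨fun h => h hg, fun h _ => h⟩

variable (F N)

theorem kN_le_levelSubT (g : ℕ) (x : kN F N) :
    algebraMap (kN F N) (LaurentSeries F) x ∈ levelSubT F N g := by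
  intro hg
  have : NeZero g := ⟨ne_zero_of_dvd_ne_zero (NeZero.ne N) hg⟩
  have hle : kN F N ≤ levelField F g := by
    rw [adjoin_le_iff]
    intro z hz
    rw [Set.mem_singleton_iff] at hz
    rw [hz]
    exact mem_levelField_iff.2 (J_mem_levelSub hg 1)
  exact mem_levelField_iff.1 (hle x.2)

/-- `levelSubT` as an intermediate field of `F((t)) / k`. -/
noncomputable def levK (g : ℕ) : IntermediateField (kN F N) (LaurentSeries F) :=
  Subfield.toIntermediateField (levelSubT F N g) (kN_le_levelSubT F N g)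

variable {F N}

theorem mem_levK_iff {g : ℕ} [NeZero g] (hg : g ∣ N) {x : LaurentSeries F} :
    x ∈ levK F N g ↔ x ∈ levelSub F g :=
  mem_levelSubT_iff hg

variable (F N)

/-- The level fields in `Ω`: `lev d` is the image of the series in `t^(N/d)`. -/
noncomputable def lev (d : ℕ) : IntermediateField (kN F N) (Om F) :=
  (levK F N (N / d)).map (iotaK F N)

variable {F N}

theorem iotaK_mem_lev_iff {d : ℕ} [NeZero (N / d)] (hd : d ∣ N) {x : LaurentSeries F} :
    iotaK F N x ∈ lev F N d ↔ x ∈ levelSub F (N / d) := by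
  rw [lev, IntermediateField.mem_map]
  constructor
  · rintro ⟨y, hy, hyx⟩
    rw [← iotaK_injective F N hyx]
    exact (mem_levK_iff (Nat.div_dvd_of_dvd hd)).1 hy
  · intro hx
    exact ⟨x, (mem_levK_iff (Nat.div_dvd_of_dvd hd)).2 hx, rfl⟩

theorem exists_of_mem_lev {d : ℕ} [NeZero (N / d)] (hd : d ∣ N) {z : Om F}
    (hz : z ∈ lev F N d) : ∃ x ∈ levelSub F (N / d), iotaK F N x = z := by
  rw [lev, IntermediateField.mem_map] at hz
  obtain ⟨y, hy, hyz⟩ := hz
  exact ⟨y, (mem_levK_iff (Nat.div_dvd_of_dvd hd)).1 hy, hyz⟩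

variable (F N)

/-- The inverse of the embedding on a level field. -/
noncomputable def levEquiv (d : ℕ) : levK F N (N / d) ≃ₐ[kN F N] lev F N d :=
  IntermediateField.equivMap (levK F N (N / d)) (iotaK F N)

/-- The inverse of the embedding on a level field, as a ring hom to `F((t))`. -/
noncomputable def levHom (d : ℕ) : lev F N d →+* LaurentSeries F :=
  (levK F N (N / d)).val.toRingHom.comp (levEquiv F N d).symm.toAlgHom.toRingHom

theorem levHom_apply (d : ℕ) (z : lev F N d) :
    levHom F N d z = (((levEquiv F N d).symm z : levK F N (N / d)) : LaurentSeries F) := rfl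

variable {F N}

theorem iotaK_levHom (d : ℕ) (z : lev F N d) : iotaK F N (levHom F N d z) = z := by
  have h := (levEquiv F N d).apply_symm_apply z
  exact congrArg Subtype.val h

theorem levHom_mem {d : ℕ} [NeZero (N / d)] (hd : d ∣ N) (z : lev F N d) :
    levHom F N d z ∈ levelSub F (N / d) :=
  (mem_levK_iff (Nat.div_dvd_of_dvd hd)).1 ((levEquiv F N d).symm z).2

theorem lev_mono {d d' : ℕ} (h : d ∣ d') (hd' : d' ∣ N) : lev F N d ≤ lev F N d' := by
  have hd : d ∣ N := h.trans hd'
  have hN : N ≠ 0 := NeZero.ne N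
  have : NeZero (N / d) := ⟨(Nat.div_ne_zero_iff_of_dvd hd).2 ⟨hN, ne_zero_of_dvd_ne_zero hN hd⟩⟩
  have : NeZero (N / d') :=
    ⟨(Nat.div_ne_zero_iff_of_dvd hd').2 ⟨hN, ne_zero_of_dvd_ne_zero hN hd'⟩⟩
  intro z hz
  obtain ⟨x, hx, rfl⟩ := exists_of_mem_lev hd hz
  rw [iotaK_mem_lev_iff hd']
  exact levelSub_mono (Nat.div_dvd_div_left hd' h) hx

end Model

end Fermat.Agent.Igusa
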