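/-
S28 / N-TOWER: root tracking (pure field theory).  If `v` is a root of `Φ(X, u)` then `v` is
integral over `k` as soon as `u` is, and every `k`-conjugate of `v` is a root of `Φ(X, w)` for some
`k`-conjugate `w` of `u`.
-/
import Fermat.Agent.Igusa.TowerAbstract

set_option autoImplicit false

open Polynomial IntermediateField

namespace Fermat.Agent.Igusa

variable {k Ω : Type*} [Field k] [Field Ω] [Algebra k Ω]

/-- A root of `Φ(X, u)`, `Φ` monic, is integral over `k` if `u` is. -/
theorem isIntegral_root_evInner {u v : Ω} (hu : IsIntegral k u)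
    {Φ : Polynomial (Polynomial k)} (hΦ : Φ.Monic) (h : (evInner u Φ).IsRoot v) :
    IsIntegral k v := by
  let A : Subalgebra k Ω := Algebra.adjoin k {u}
  have hA : Algebra.IsIntegral k A :=
    Algebra.IsIntegral.adjoin fun x hx => by
      rw [Set.mem_singleton_iff] at hx
      exact hx ▸ hu
  let u' : A := ⟨u, Algebra.self_mem_adjoin_singleton k u⟩
  have hQ : (evInner u' Φ).map (algebraMap A Ω) = evInner u Φ := evInner_map A.val u' Φ
  have hv : IsIntegral A v := by
    refine ⟨evInner u' Φ, evInner_monic u' hΦ, ?_⟩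
    rw [← eval_map, hQ]
    exact h
  exact isIntegral_trans v hv

/-- **Root tracking.** -/
theorem exists_root_minpoly_of_isRoot_evInner [IsAlgClosed Ω] {u v : Ω} (hu : IsIntegral k u)
    (hv : IsIntegral k v) {Φ : Polynomial (Polynomial k)} (h : (evInner u Φ).IsRoot v) {z : Ω}
    (hz : aeval z (minpoly k v) = 0) :
    ∃ w : Ω, aeval w (minpoly k u) = 0 ∧ (evInner w Φ).IsRoot z := by
  have hK : ∀ s ∈ ({u, v} : Set Ω),
      IsIntegral k s ∧ ((minpoly k s).map (algebraMap k Ω)).Splits := by
    intro s hs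
    rcases hs with rfl | hs
    · exact ⟨hu, IsAlgClosed.splits _⟩
    · rw [Set.mem_singleton_iff] at hs
      exact ⟨hs ▸ hv, IsAlgClosed.splits _⟩
  have hvM : v ∈ adjoin k ({u, v} : Set Ω) := subset_adjoin k _ (by simp)
  have huM : u ∈ adjoin k ({u, v} : Set Ω) := subset_adjoin k _ (by simp)
  obtain ⟨φ, hφ⟩ := exists_algHom_adjoin_of_splits_of_aeval hK hvM hz
  let u' : adjoin k ({u, v} : Set Ω) := ⟨u, huM⟩
  let v' : adjoin k ({u, v} : Set Ω) := ⟨v, hvM⟩
  refine ⟨φ u', ?_, ?_⟩
  · have h1 := minpoly.aeval_algHom k φ u'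
    rwa [IntermediateField.minpoly_eq] at h1
  · have hQ : (evInner u' Φ).map (algebraMap (adjoin k ({u, v} : Set Ω)) Ω) = evInner u Φ :=
      evInner_map (adjoin k ({u, v} : Set Ω)).val u' Φ
    have h0 : (evInner u' Φ).eval v' = 0 := by
      apply (algebraMap (adjoin k ({u, v} : Set Ω)) Ω).injective
      rw [← eval_map_apply, hQ, map_zero]
      exact h
    have h1 : (evInner (φ u') Φ).eval (φ v') = 0 := by
      rw [← evInner_map φ u' Φ]
      have := eval_map_apply (p := evInner u' Φ) φ.toRingHom v'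
      rw [AlgHom.toRingHom_eq_coe] at this ⊢
      erw [this, h0, map_zero]
    rw [← hφ]
    exact h1

end Fermat.Agent.Igusa
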