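/-
S28 / N-TOWER, instantiation part 2: the modular equation in `Ω`, the factor lemma, root tracking
and the `TowerData` of the Puiseux model.
-/
import Fermat.Agent.Igusa.TowerModel
import Fermat.Agent.Igusa.TowerRootLemmas
import Fermat.Agent.Igusa.ModEqData
import Fermat.Agent.Igusa.BaseCase

set_option autoImplicit false

open Polynomial IntermediateField ModularCurve

namespace Fermat.Agent.Igusa

section Identity

variable {F : Type*} [Field F] {N : ℕ} [NeZero N]

/-- The modular polynomial with coefficients moved to `k = F(J 1 N)`. -/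
noncomputable def PhiK (N : ℕ) [NeZero N] (Φ : F[X][X]) : (kN F N)[X][X] :=
  Φ.map (Polynomial.mapRingHom (algebraMap F (kN F N)))

theorem PhiK_monic {Φ : F[X][X]} (h : Φ.Monic) : (PhiK N Φ).Monic := h.map _

theorem PhiK_natDegree {Φ : F[X][X]} (h : Φ.Monic) : (PhiK N Φ).natDegree = Φ.natDegree :=
  h.natDegree_map _

theorem evInner_iotaK (z : LaurentSeries F) (Φ : F[X][X]) :
    evInner (iotaK F N z) (PhiK N Φ) = (evY z Φ).map (iotaK F N).toRingHom := by
  unfold evInner PhiK
  rw [evY_apply, Polynomial.map_map, Polynomial.map_map]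
  congr 1
  apply Polynomial.ringHom_ext
  · intro a
    simp only [RingHom.comp_apply, Polynomial.coe_mapRingHom, Polynomial.map_C,
      Polynomial.coe_eval₂RingHom, Polynomial.eval₂_C, AlgHom.toRingHom_eq_coe,
      RingHom.coe_coe, Polynomial.aeval_C]
    rw [← algebraMap_laurentSeries_eq_C, iotaK]
    simp only [IsScalarTower.coe_toAlgHom']
    rw [← IsScalarTower.algebraMap_apply, ← IsScalarTower.algebraMap_apply]
  · simp only [RingHom.comp_apply, Polynomial.coe_mapRingHom, Polynomial.map_X,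
      Polynomial.coe_eval₂RingHom, Polynomial.eval₂_X, AlgHom.toRingHom_eq_coe,
      RingHom.coe_coe, Polynomial.aeval_X]

variable {p : ℕ} [NeZero p] {ζ : Fˣ} {pinv : F} (d : ModEqData F p ζ pinv)

theorem me1_iotaK (c : Fˣ) (n : ℕ) [NeZero n] :
    evInner (iotaK F N (J (c ^ p) (n * p))) (PhiK N d.Phi) =
      (X - C (iotaK F N (J (c ^ (p * p)) (n * (p * p))))) *
        ∏ b ∈ Finset.range p, (X - C (iotaK F N (J (ζ ^ b * c) n))) := by
  rw [evInner_iotaK, d.me1_subst c n]
  simp only [Polynomial.map_mul, Polynomial.map_sub, Polynomial.map_X, Polynomial.map_C,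
    Polynomial.map_prod, AlgHom.toRingHom_eq_coe, RingHom.coe_coe]

/-- A root of `Φ(X, J(c^p, n p))` is `J(c^{p²}, n p²)` or some `J(ζ^b c, n)`. -/
theorem eq_of_isRoot_evInner (c : Fˣ) (n : ℕ) [NeZero n] {z : Om F}
    (hz : (evInner (iotaK F N (J (c ^ p) (n * p))) (PhiK N d.Phi)).IsRoot z) :
    z = iotaK F N (J (c ^ (p * p)) (n * (p * p))) ∨
      ∃ b ∈ Finset.range p, z = iotaK F N (J (ζ ^ b * c) n) := by
  rw [me1_iotaK, IsRoot.def, eval_mul, eval_sub, eval_X, eval_C, eval_prod] at hz
  rcases mul_eq_zero.1 hz with h | h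
  · exact Or.inl (sub_eq_zero.1 h)
  · obtain ⟨b, hb, hb0⟩ := Finset.prod_eq_zero_iff.1 h
    rw [eval_sub, eval_X, eval_C] at hb0
    exact Or.inr ⟨b, hb, sub_eq_zero.1 hb0⟩

theorem levelSub_congr {g g' : ℕ} [NeZero g] [NeZero g'] (h : g = g') {x : LaurentSeries F} :
    x ∈ levelSub F g ↔ x ∈ levelSub F g' := by
  subst h
  rfl

theorem neZero_div_of_dvd_T {D : ℕ} (hD : D ∣ N) : NeZero (N / D) :=
  ⟨(Nat.div_ne_zero_iff_of_dvd hD).2 ⟨NeZero.ne N, ne_zero_of_dvd_ne_zero (NeZero.ne N) hD⟩⟩

/-- The factorisation of `Φ(X, J(1, n p))` over the level `D` with `N / D = p n`: the cofactor of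
`X - J(1, n p²)` is irreducible over `lev D` and has the root `J(1, n)`. -/
theorem exists_factor (hp : p.Prime) (D n : ℕ) [NeZero n] (hD : D ∣ N) (hDn : N / D = p * n) :
    ∃ P : Polynomial (lev F N D), P.Monic ∧ Irreducible P ∧
      evInner (iotaK F N (J (1 : Fˣ) (n * p))) (PhiK N d.Phi) =
        (X - C (iotaK F N (J (1 : Fˣ) (n * (p * p))))) *
          P.map (algebraMap (lev F N D) (Om F)) ∧
      (P.map (algebraMap (lev F N D) (Om F))).IsRoot (iotaK F N (J (1 : Fˣ) n)) := by
  classical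
  have : NeZero (N / D) := neZero_div_of_dvd_T hD
  -- the product of the linear factors
  set Pr : Polynomial (Om F) :=
    ∏ b ∈ Finset.range p, (X - C (iotaK F N (J (ζ ^ b * 1) n))) with hPr
  have hme : evInner (iotaK F N (J (1 : Fˣ) (n * p))) (PhiK N d.Phi) =
      (X - C (iotaK F N (J (1 : Fˣ) (n * (p * p))))) * Pr := by
    have h := me1_iotaK (N := N) d (1 : Fˣ) n
    rw [one_pow, one_pow] at h
    exact h
  -- membership in the level field
  have hw : iotaK F N (J (1 : Fˣ) (n * p)) ∈ lev F N D := by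
    rw [iotaK_mem_lev_iff hD]
    exact J_mem_levelSub (by rw [hDn, mul_comm]) 1
  have hr : iotaK F N (J (1 : Fˣ) (n * (p * p))) ∈ lev F N D := by
    rw [iotaK_mem_lev_iff hD]
    exact J_mem_levelSub (by rw [hDn]; exact ⟨p, by ring⟩) 1
  let w' : lev F N D := ⟨_, hw⟩
  let r' : lev F N D := ⟨_, hr⟩
  set Q : Polynomial (lev F N D) := evInner w' (PhiK N d.Phi) with hQ
  have hQmonic : Q.Monic := evInner_monic w' (PhiK_monic d.Phi_monic)
  have hQΩ : Q.map (algebraMap (lev F N D) (Om F)) =
      evInner (iotaK F N (J (1 : Fˣ) (n * p))) (PhiK N d.Phi) :=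
    evInner_map (lev F N D).val w' (PhiK N d.Phi)
  have hQroot : Q.IsRoot r' := by
    rw [IsRoot.def]
    apply (algebraMap (lev F N D) (Om F)).injective
    rw [← eval_map_apply, hQΩ, hme, map_zero, eval_mul, eval_sub, eval_X, eval_C]
    show (iotaK F N (J (1 : Fˣ) (n * (p * p))) - iotaK F N (J (1 : Fˣ) (n * (p * p)))) * _ = 0
    rw [sub_self, zero_mul]
  set P : Polynomial (lev F N D) := Q /ₘ (X - C r') with hP
  have hQP : (X - C r') * P = Q := mul_divByMonic_eq_iff_isRoot.2 hQroot
  have hPmonic : P.Monic := by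
    have := hQmonic
    rw [← hQP] at this
    exact (monic_X_sub_C r').of_mul_monic_left this
  have hPΩ : P.map (algebraMap (lev F N D) (Om F)) = Pr := by
    have h1 : (X - C (iotaK F N (J (1 : Fˣ) (n * (p * p))))) *
        P.map (algebraMap (lev F N D) (Om F)) =
        (X - C (iotaK F N (J (1 : Fˣ) (n * (p * p))))) * Pr := by
      rw [← hme, ← hQΩ, ← hQP, Polynomial.map_mul, Polynomial.map_sub, Polynomial.map_X,
        Polynomial.map_C]
      rfl
    exact mul_left_cancel₀ (X_sub_C_ne_zero _) h1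
  refine ⟨P, hPmonic, ?_, ?_, ?_⟩
  · -- irreducibility from the order lemma
    let s : Multiset (LaurentSeries F) :=
      (Finset.range p).val.map fun b => J (ζ ^ b * 1) n
    have hcard : Multiset.card s = p := by
      rw [Multiset.card_map, Finset.card_val, Finset.card_range]
    have hi : ∀ x : lev F N D, levHom F N D x ∈ levelSub F (p * n) := fun x =>
      (levelSub_congr hDn).1 (levHom_mem hD x)
    have hs : ∀ y ∈ s, y ≠ 0 ∧ y.order = (-1 : ℤ) * (n : ℤ) := by
      intro y hy
      obtain ⟨b, -, rfl⟩ := Multiset.mem_map.1 hy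
      exact ⟨J_ne_zero _ n, by rw [order_J]; ring⟩
    have hpa : ¬ (p : ℤ) ∣ (-1 : ℤ) := by
      rw [Int.dvd_neg]
      intro h
      have := Int.natCast_dvd_natCast.1 (by simpa using h : ((p : ℕ) : ℤ) ∣ ((1 : ℕ) : ℤ))
      exact hp.one_lt.ne' (Nat.dvd_one.1 this)
    refine irreducible_of_levelSub hp hpa (levHom F N D) hi s hcard hs P hPmonic ?_
    apply Polynomial.map_injective (iotaK F N).toRingHom (iotaK F N).injective
    have hcomp : ((iotaK F N).toRingHom).comp (levHom F N D) = algebraMap (lev F N D) (Om F) := by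
      ext z
      exact iotaK_levHom D z
    rw [Polynomial.map_map, hcomp, hPΩ, hPr, Multiset.map_map, Polynomial.map_multiset_prod,
      Multiset.map_map, Finset.prod_eq_multiset_prod]
    congr 1
    refine Multiset.map_congr rfl fun b _ => ?_
    simp only [Function.comp_apply, Polynomial.map_sub, Polynomial.map_X, Polynomial.map_C,
      AlgHom.toRingHom_eq_coe, RingHom.coe_coe]
  · rw [hPΩ]
    exact hme
  · rw [hPΩ, hPr, IsRoot.def, eval_prod]
    refine Finset.prod_eq_zero (Finset.mem_range.2 hp.pos) ?_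
    rw [pow_zero, one_mul, eval_sub, eval_X, eval_C, sub_self]

end Identity

end Fermat.Agent.Igusa
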