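/-
S28 / N-TOWER, instantiation part 3: the `TowerData` of the Puiseux model and the degree bound
`∏_{p ∣ N} (p + 1) p^(v_p N - 1) ≤ [F(J 1 N)(J 1 (p^i N) : p^i ∣ N) : F(J 1 N)]`.
-/
import Fermat.Agent.Igusa.TowerIdentity

set_option autoImplicit false

open Polynomial IntermediateField ModularCurve

namespace Fermat.Agent.Igusa

section Arith

theorem div_pow_eq_mul_pow {N p i j : ℕ} (hp : 0 < p) (hij : j ≤ i) (hN : p ^ i ∣ N) :
    N / p ^ j = N / p ^ i * p ^ (i - j) := by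
  obtain ⟨q, rfl⟩ := hN
  have h1 : p ^ i = p ^ j * p ^ (i - j) := by rw [← pow_add, Nat.add_sub_cancel' hij]
  rw [Nat.mul_div_cancel_left _ (pow_pos hp i), h1, mul_assoc,
    Nat.mul_div_cancel_left _ (pow_pos hp j), mul_comm]

theorem dvd_of_div_dvd_div {N A p : ℕ} (hN : N ≠ 0) (hA : A ∣ N) (hp : p ∣ N)
    (h : N / A ∣ N / p) : p ∣ A := by
  obtain ⟨a, rfl⟩ := hA
  obtain ⟨b, hb⟩ := hp
  have hA0 : A ≠ 0 := fun h0 => hN (by rw [h0, zero_mul])
  have hp0 : p ≠ 0 := fun h0 => hN (by rw [hb, h0, zero_mul])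
  rw [Nat.mul_div_cancel_left _ (Nat.pos_of_ne_zero hA0)] at h
  have h2 : A * a / p = b := by
    rw [hb, Nat.mul_div_cancel_left _ (Nat.pos_of_ne_zero hp0)]
  rw [h2] at h
  obtain ⟨c, rfl⟩ := h
  have ha0 : a ≠ 0 := fun h0 => hN (by rw [h0, mul_zero])
  refine ⟨c, ?_⟩
  have h3 : A * a = p * c * a := by rw [hb]; ring
  exact Nat.eq_of_mul_eq_mul_right (Nat.pos_of_ne_zero ha0) h3

end Arith

section ModelFacts

variable {F : Type*} [Field F] {N : ℕ} [NeZero N]

theorem Jt_eq_J (c : Fˣ) {m m' : ℕ} [NeZero m'] (h : m = m') : Jt F c m = J c m' := by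
  subst h
  exact Jt_eq c m

/-- `x d = J(1, d N)` in `Ω`. -/
noncomputable def xT (F : Type*) [Field F] (N : ℕ) [NeZero N] (d : ℕ) : Om F :=
  iotaK F N (Jt F 1 (d * N))

/-- `y d = J(1, N / d)` in `Ω`. -/
noncomputable def yT (F : Type*) [Field F] (N : ℕ) [NeZero N] (d : ℕ) : Om F :=
  iotaK F N (Jt F 1 (N / d))

/-- The generator `J 1 N` of `k`. -/
noncomputable def j0T (F : Type*) [Field F] (N : ℕ) [NeZero N] : kN F N :=
  ⟨J (1 : Fˣ) N, mem_adjoin_simple_self F _⟩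

theorem xT_eq {d m : ℕ} [NeZero m] (h : d * N = m) : xT F N d = iotaK F N (J (1 : Fˣ) m) := by
  rw [xT, Jt_eq_J 1 h]

theorem yT_eq {d m : ℕ} [NeZero m] (h : N / d = m) : yT F N d = iotaK F N (J (1 : Fˣ) m) := by
  rw [yT, Jt_eq_J 1 h]

theorem xT_one : xT F N 1 = algebraMap (kN F N) (Om F) (j0T F N) := by
  rw [xT_eq (one_mul N)]
  rfl

theorem yT_one : yT F N 1 = xT F N 1 := by
  rw [xT_eq (one_mul N), yT_eq (Nat.div_one N)]

theorem xT_mem {d : ℕ} (hd : d ∣ N) : xT F N d ∈ lev F N 1 := by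
  have hd0 : d ≠ 0 := ne_zero_of_dvd_ne_zero (NeZero.ne N) hd
  have : NeZero d := ⟨hd0⟩
  have : NeZero (N / 1) := neZero_div_of_dvd_T (one_dvd N)
  rw [xT_eq rfl, iotaK_mem_lev_iff (one_dvd N)]
  exact J_mem_levelSub (by rw [Nat.div_one]; exact dvd_mul_left N d) 1

theorem yT_mem {d : ℕ} (hd : d ∣ N) : yT F N d ∈ lev F N d := by
  have : NeZero (N / d) := neZero_div_of_dvd_T hd
  rw [yT_eq rfl, iotaK_mem_lev_iff hd]
  exact J_mem_levelSub dvd_rfl 1

theorem yT_not_mem {p A : ℕ} (hpN : p ∣ N) (hA : A ∣ N) (hpA : ¬ p ∣ A) :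
    yT F N p ∉ lev F N A := by
  have : NeZero (N / p) := neZero_div_of_dvd_T hpN
  have : NeZero (N / A) := neZero_div_of_dvd_T hA
  rw [yT_eq rfl, iotaK_mem_lev_iff hA]
  intro h
  have h1 := dvd_order_of_mem_levelSub h
  rw [order_J, dvd_neg, Int.natCast_dvd_natCast] at h1
  exact hpA (dvd_of_div_dvd_div (NeZero.ne N) hA hpN h1)

end ModelFacts

section Base

variable {F : Type*} [Field F] {N : ℕ} [NeZero N]

theorem transcendental_J_one (N : ℕ) [NeZero N] : Transcendental F (J (1 : Fˣ) N) := by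
  rw [transcendental_iff_injective]
  have h := aeval_injective_of_one_lt_valuation (laurentOrdVal F)
    (fun c hc => by rw [baseCase_algebraMap_eq_hahnC]; exact laurentOrdVal_C hc) (J (1 : Fˣ) N)
    (one_lt_laurentOrdVal (J_ne_zero 1 N) (by
      rw [order_J]
      have : (0 : ℤ) < (N : ℤ) := by exact_mod_cast Nat.pos_of_ne_zero (NeZero.ne N)
      linarith))
  exact fun a b hab => h hab

theorem base_irreducible {p : ℕ} [NeZero p] (hp : 1 < p) {ζ : Fˣ} {pinv : F}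
    (d : ModEqData F p ζ pinv) :
    Irreducible ((PhiK N d.Phi).map (Polynomial.evalRingHom (j0T F N))) := by
  let e : RatFunc F ≃ₐ[F] kN F N :=
    RatFunc.algEquivOfTranscendental (J (1 : Fˣ) N) (transcendental_J_one N)
  have h0 := d.irreducible_Phi_map hp (RatFunc F)
  have hkey : (PhiK N d.Phi).map (Polynomial.evalRingHom (j0T F N)) =
      Polynomial.mapEquiv e.toRingEquiv (d.Phi.map (algebraMap F[X] (RatFunc F))) := by
    rw [Polynomial.mapEquiv_apply, PhiK, Polynomial.map_map, Polynomial.map_map]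
    congr 1
    refine RingHom.ext fun g => ?_
    simp only [RingHom.comp_apply, Polynomial.coe_mapRingHom, Polynomial.coe_evalRingHom]
    have h1 : (e.toRingEquiv : RatFunc F →+* kN F N) (algebraMap F[X] (RatFunc F) g) =
        aeval (AdjoinSimple.gen F (J (1 : Fˣ) N)) g :=
      RatFunc.algEquivOfTranscendental_algebraMap (J (1 : Fˣ) N) (transcendental_J_one N) g
    rw [h1, Polynomial.eval_map, ← Polynomial.aeval_def]
    rfl
  rw [hkey]
  exact (MulEquiv.irreducible_iff (Polynomial.mapEquiv e.toRingEquiv)).2 h0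

end Base

section Roots

variable {F : Type*} [Field F] {N : ℕ} [NeZero N]
variable {p : ℕ} [NeZero p] {ζ : Fˣ} {pinv : F} (d : ModEqData F p ζ pinv)

theorem root_succ_T (e : ℕ) (hpe : p ^ (e + 1) ∣ N) :
    (evInner (xT F N (p ^ e)) (PhiK N d.Phi)).IsRoot (xT F N (p ^ (e + 1))) := by
  have hpN : p ∣ N := (dvd_pow_self p (Nat.succ_ne_zero e)).trans hpe
  have : NeZero (N / p) := neZero_div_of_dvd_T hpN
  have h1 : p ^ e * N = p ^ e * (N / p) * p := by
    rw [mul_assoc, Nat.div_mul_cancel hpN]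
  have h2 : p ^ (e + 1) * N = p ^ e * (N / p) * (p * p) := by
    rw [pow_succ, mul_assoc (p ^ e) (N / p), ← mul_assoc (N / p), Nat.div_mul_cancel hpN]
    ring
  have hme := me1_iotaK (N := N) d (1 : Fˣ) (p ^ e * (N / p))
  rw [one_pow, one_pow] at hme
  rw [xT_eq h1, xT_eq h2, hme, IsRoot.def, eval_mul, eval_sub, eval_X, eval_C, sub_self, zero_mul]

theorem root_pred_T (hp : 0 < p) (e : ℕ) :
    (evInner (xT F N (p ^ (e + 1))) (PhiK N d.Phi)).IsRoot (xT F N (p ^ e)) := by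
  have h1 : p ^ (e + 1) * N = p ^ e * N * p := by rw [pow_succ]; ring
  have hme := me1_iotaK (N := N) d (1 : Fˣ) (p ^ e * N)
  rw [one_pow, one_pow] at hme
  rw [xT_eq h1, xT_eq rfl, hme, IsRoot.def, eval_mul, eval_prod]
  refine mul_eq_zero_of_right _ (Finset.prod_eq_zero (Finset.mem_range.2 hp) ?_)
  rw [pow_zero, one_mul, eval_sub, eval_X, eval_C, sub_self]

theorem x_ne_T (hp : 1 < p) (e : ℕ) : xT F N (p ^ (e + 2)) ≠ xT F N (p ^ e) := by
  rw [xT_eq rfl, xT_eq rfl]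
  intro h
  have h1 := congrArg HahnSeries.order (iotaK_injective F N h)
  rw [order_J, order_J, neg_inj, Nat.cast_inj] at h1
  have hN : 0 < N := Nat.pos_of_ne_zero (NeZero.ne N)
  have h2 : p ^ (e + 2) = p ^ e := Nat.eq_of_mul_eq_mul_right hN h1
  have h3 : e + 2 = e := Nat.pow_right_injective hp h2
  omega

theorem factor_zero_T (hp : p.Prime) (hpN : p ∣ N) :
    ∃ G : Polynomial (lev F N 1), G.Monic ∧ Irreducible G ∧
      evInner (xT F N 1) (PhiK N d.Phi) =
        (X - C (xT F N p)) * G.map (algebraMap (lev F N 1) (Om F)) ∧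
      (G.map (algebraMap (lev F N 1) (Om F))).IsRoot (yT F N p) := by
  have : NeZero (N / p) := neZero_div_of_dvd_T hpN
  have hDn : N / 1 = p * (N / p) := by rw [Nat.div_one, Nat.mul_div_cancel' hpN]
  obtain ⟨P, hPm, hPirr, hfac, hroot⟩ := exists_factor d hp 1 (N / p) (one_dvd N) hDn
  have h1 : 1 * N = N / p * p := by rw [one_mul, Nat.div_mul_cancel hpN]
  have h2 : p * N = N / p * (p * p) := by
    rw [← mul_assoc, Nat.div_mul_cancel hpN, mul_comm]
  refine ⟨P, hPm, hPirr, ?_, ?_⟩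
  · rw [xT_eq h1, xT_eq h2]
    exact hfac
  · rw [yT_eq rfl]
    exact hroot

theorem factor_succ_T (hp : p.Prime) (e : ℕ) (hpe : p ^ (e + 2) ∣ N) :
    ∃ P : Polynomial (lev F N (p ^ (e + 1))), Irreducible P ∧
      evInner (yT F N (p ^ (e + 1))) (PhiK N d.Phi) =
        (X - C (yT F N (p ^ e))) * P.map (algebraMap (lev F N (p ^ (e + 1))) (Om F)) ∧
      (P.map (algebraMap (lev F N (p ^ (e + 1))) (Om F))).IsRoot (yT F N (p ^ (e + 2))) := by
  have hD : p ^ (e + 1) ∣ N := (pow_dvd_pow p (Nat.le_succ _)).trans hpe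
  have : NeZero (N / p ^ (e + 2)) := neZero_div_of_dvd_T hpe
  have h1 : N / p ^ (e + 1) = N / p ^ (e + 2) * p := by
    have := div_pow_eq_mul_pow hp.pos (Nat.le_succ (e + 1)) hpe
    simpa using this
  have h2 : N / p ^ e = N / p ^ (e + 2) * (p * p) := by
    have := div_pow_eq_mul_pow hp.pos (by omega : e ≤ e + 2) hpe
    rw [this, show e + 2 - e = 2 by omega, pow_two]
  have hDn : N / p ^ (e + 1) = p * (N / p ^ (e + 2)) := by rw [h1, mul_comm]
  obtain ⟨P, -, hPirr, hfac, hroot⟩ := exists_factor d hp (p ^ (e + 1)) (N / p ^ (e + 2)) hD hDn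
  refine ⟨P, hPirr, ?_, ?_⟩
  · rw [yT_eq h1, yT_eq h2]
    exact hfac
  · rw [yT_eq rfl]
    exact hroot

end Roots

section Tracking

variable {F : Type*} [Field F] [IsAlgClosed F] {N : ℕ} [NeZero N]
variable {p : ℕ} [NeZero p] {ζ : Fˣ} {pinv : F} (d : ModEqData F p ζ pinv)

/-- `z` is the image in `Ω` of some `J(c, m)`. -/
def IsJ (N : ℕ) [NeZero N] (z : Om F) (m : ℕ) : Prop := ∃ c : Fˣ, z = iotaK F N (Jt F c m)

theorem isJ_step (hp : p.Prime) {w z : Om F} {m : ℕ} (hm0 : m ≠ 0) (hpm : p ∣ m)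
    (hw : IsJ N w m) (hz : (evInner w (PhiK N d.Phi)).IsRoot z) :
    IsJ N z (m * p) ∨ IsJ N z (m / p) := by
  obtain ⟨c, rfl⟩ := hw
  obtain ⟨n, rfl⟩ := hpm
  have hn0 : n ≠ 0 := fun h => hm0 (by rw [h, mul_zero])
  have : NeZero n := ⟨hn0⟩
  obtain ⟨c0, hc0⟩ := IsAlgClosed.exists_pow_nat_eq (c : F) hp.pos
  have hc0ne : c0 ≠ 0 := by
    intro h
    rw [h, zero_pow hp.ne_zero] at hc0
    exact c.ne_zero hc0.symm
  let c' : Fˣ := Units.mk0 c0 hc0ne
  have hc' : c' ^ p = c := Units.ext (by rw [Units.val_pow_eq_pow_val]; exact hc0)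
  have hJ : Jt F c (p * n) = J (c' ^ p) (n * p) := by
    rw [hc']
    exact Jt_eq_J c (mul_comm p n)
  rw [hJ] at hz
  rcases eq_of_isRoot_evInner d c' n hz with h | ⟨b, -, h⟩
  · refine Or.inl ⟨c' ^ (p * p), ?_⟩
    rw [h, Jt_eq_J _ (by ring : p * n * p = n * (p * p))]
  · refine Or.inr ⟨ζ ^ b * c', ?_⟩
    rw [h, Jt_eq_J _ (Nat.mul_div_cancel_left n hp.pos)]

omit [IsAlgClosed F] in
include d in
theorem isIntegral_xT (i : ℕ) (hpi : p ^ i ∣ N) : IsIntegral (kN F N) (xT F N (p ^ i)) := by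
  induction i with
  | zero =>
    rw [pow_zero, xT_one]
    exact isIntegral_algebraMap
  | succ i ih =>
    exact isIntegral_root_evInner (ih ((pow_dvd_pow p (Nat.le_succ i)).trans hpi))
      (PhiK_monic d.Phi_monic) (root_succ_T d i hpi)

include d in
theorem isJ_of_root (hp : p.Prime) (i : ℕ) (hpi : p ^ i ∣ N) {z : Om F}
    (hz : aeval z (minpoly (kN F N) (xT F N (p ^ i))) = 0) :
    ∃ j, j ≤ i ∧ IsJ N z (N / p ^ j * p ^ (i - j)) := by
  induction i generalizing z with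
  | zero =>
    refine ⟨0, le_rfl, 1, ?_⟩
    rw [pow_zero, xT_one, minpoly.eq_X_sub_C, map_sub, aeval_X, aeval_C, sub_eq_zero] at hz
    rw [hz, ← xT_one, xT]
    congr 2
    simp
  | succ i ih =>
    have hpi' : p ^ i ∣ N := (pow_dvd_pow p (Nat.le_succ i)).trans hpi
    obtain ⟨w, hw, hwz⟩ := exists_root_minpoly_of_isRoot_evInner (isIntegral_xT d i hpi')
      (isIntegral_xT d (i + 1) hpi) (root_succ_T d i hpi) hz
    obtain ⟨j, hj, hJ⟩ := ih hpi' hw
    have hpj : p ^ (j + 1) ∣ N := (pow_dvd_pow p (by omega : j + 1 ≤ i + 1)).trans hpi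
    have h1 : N / p ^ j = N / p ^ (j + 1) * p := by
      have := div_pow_eq_mul_pow hp.pos (Nat.le_succ j) hpj
      simpa using this
    have hm : N / p ^ j * p ^ (i - j) = N / p ^ (j + 1) * p ^ (i - j) * p := by
      rw [h1]
      ring
    have hm0 : N / p ^ j * p ^ (i - j) ≠ 0 := by
      have : NeZero (N / p ^ j) :=
        neZero_div_of_dvd_T ((pow_dvd_pow p (by omega : j ≤ i + 1)).trans hpi)
      exact mul_ne_zero (NeZero.ne _) (pow_ne_zero _ hp.ne_zero)
    rcases isJ_step d hp hm0 (hm ▸ dvd_mul_left p _) hJ hwz with h | h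
    · refine ⟨j, by omega, ?_⟩
      have : N / p ^ j * p ^ (i - j) * p = N / p ^ j * p ^ (i + 1 - j) := by
        rw [mul_assoc, ← pow_succ, show i - j + 1 = i + 1 - j by omega]
      rwa [this] at h
    · refine ⟨j + 1, by omega, ?_⟩
      have : N / p ^ j * p ^ (i - j) / p = N / p ^ (j + 1) * p ^ (i + 1 - (j + 1)) := by
        rw [hm, Nat.mul_div_cancel _ hp.pos, show i + 1 - (j + 1) = i - j by omega]
      rwa [this] at h

include d in
theorem conj_mem_T (hp : p.Prime) (i : ℕ) (hpi : p ^ i ∣ N) (z : Om F)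
    (hz : aeval z (minpoly (kN F N) (xT F N (p ^ i))) = 0) : z ∈ lev F N (p ^ i) := by
  obtain ⟨j, hj, c, rfl⟩ := isJ_of_root d hp i hpi hz
  have : NeZero (N / p ^ i) := neZero_div_of_dvd_T hpi
  have : NeZero (N / p ^ j) := neZero_div_of_dvd_T ((pow_dvd_pow p hj).trans hpi)
  have : NeZero (N / p ^ j * p ^ (i - j)) :=
    ⟨mul_ne_zero (NeZero.ne _) (pow_ne_zero _ hp.ne_zero)⟩
  rw [Jt_eq_J c rfl, iotaK_mem_lev_iff hpi]
  refine J_mem_levelSub ?_ c
  rw [div_pow_eq_mul_pow hp.pos hj hpi, mul_assoc]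
  exact dvd_mul_right _ _

end Tracking

end Fermat.Agent.Igusa
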