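/-
S28 / N-TOWER, instantiation part 4: assembly of the `TowerData` of the Puiseux model and the
final degree bound
`dedekindPsi N ≤ [F(J 1 N)(J 1 (d N) : d ∣ N) : F(J 1 N)]`.
-/
import Fermat.Agent.Igusa.Tower
import Fermat.Agent.X0.Count.CardP1

set_option autoImplicit false

open Polynomial IntermediateField ModularCurve

namespace Fermat.Agent.Igusa

section PsiProd

/-- `ψ(N) = ∏_{p ∣ N} (p + 1) p^(v_p(N) - 1)`. -/
theorem dedekindPsi_eq_prod_primeFactors {N : ℕ} (hN : N ≠ 0) :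
    dedekindPsi N = ∏ p ∈ N.primeFactors, (p + 1) * p ^ (N.factorization p - 1) := by
  rw [Nat.multiplicative_factorization dedekindPsi
    (fun x y h => Fermat.Agent.X0.Count.dedekindPsi_mul h) dedekindPsi_one hN]
  rw [Finsupp.prod, Nat.support_factorization]
  refine Finset.prod_congr rfl fun p hp => ?_
  have hpp := Nat.prime_of_mem_primeFactors hp
  have hk : 0 < N.factorization p :=
    hpp.factorization_pos_of_dvd hN (Nat.dvd_of_mem_primeFactors hp)
  rw [Fermat.Agent.X0.Count.dedekindPsi_prime_pow hpp hk]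
  obtain ⟨k, hk'⟩ := Nat.exists_eq_succ_of_ne_zero hk.ne'
  rw [hk', Nat.succ_sub_one, pow_succ]
  ring

end PsiProd

section Assemble

variable (F : Type*) [Field F] [IsAlgClosed F] (N : ℕ) [NeZero N]
variable (ζ : ℕ → Fˣ) (pinv : ℕ → F)
variable (dat : ∀ p (hp : p.Prime), p ∣ N → @ModEqData F _ p ⟨hp.ne_zero⟩ (ζ p) (pinv p))

open Classical in
/-- The family of modular polynomials over `k`. -/
noncomputable def PhiT (p : ℕ) : (kN F N)[X][X] :=
  if h : p.Prime ∧ p ∣ N then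
    PhiK N (@ModEqData.Phi F _ p ⟨h.1.ne_zero⟩ _ _ (dat p h.1 h.2)) else 1

variable {F N ζ pinv}

omit [IsAlgClosed F] in
theorem PhiT_eq {p : ℕ} (hp : p.Prime) (hpN : p ∣ N) :
    PhiT F N ζ pinv dat p = PhiK N (@ModEqData.Phi F _ p ⟨hp.ne_zero⟩ _ _ (dat p hp hpN)) := by
  unfold PhiT
  rw [dif_pos ⟨hp, hpN⟩]

variable (F N ζ pinv)

/-- **The tower data of the Puiseux model.** -/
noncomputable def towerData : TowerData (kN F N) (Om F) N where
  lev := lev F N
  x := xT F N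
  y := yT F N
  Φ := PhiT F N ζ pinv dat
  j₀ := j0T F N
  lev_mono _ _ h h' := lev_mono h h'
  x_mem _ hd := xT_mem hd
  y_mem _ hd := yT_mem hd
  x_one := xT_one
  y_one := yT_one
  y_not_mem _ _ _ hpN hA hpA := yT_not_mem hpN hA hpA
  Φ_monic p hp hpN := by
    have : NeZero p := ⟨hp.ne_zero⟩
    rw [PhiT_eq dat hp hpN]
    exact PhiK_monic (dat p hp hpN).Phi_monic
  Φ_natDegree p hp hpN := by
    have : NeZero p := ⟨hp.ne_zero⟩
    rw [PhiT_eq dat hp hpN, PhiK_natDegree (dat p hp hpN).Phi_monic]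
    exact (dat p hp hpN).Phi_natDegree
  base p hp hpN := by
    have : NeZero p := ⟨hp.ne_zero⟩
    rw [PhiT_eq dat hp hpN]
    exact base_irreducible hp.one_lt (dat p hp hpN)
  root_succ p e hp hpe := by
    have : NeZero p := ⟨hp.ne_zero⟩
    have hpN : p ∣ N := (dvd_pow_self p (Nat.succ_ne_zero e)).trans hpe
    rw [PhiT_eq dat hp hpN]
    exact root_succ_T (dat p hp hpN) e hpe
  root_pred p e hp hpe := by
    have : NeZero p := ⟨hp.ne_zero⟩
    have hpN : p ∣ N := (dvd_pow_self p (Nat.succ_ne_zero (e + 1))).trans hpe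
    rw [PhiT_eq dat hp hpN]
    exact root_pred_T (dat p hp hpN) hp.pos e
  x_ne p e hp _ := by
    have : NeZero p := ⟨hp.ne_zero⟩
    exact x_ne_T hp.one_lt e
  factor_zero p hp hpN := by
    have : NeZero p := ⟨hp.ne_zero⟩
    rw [PhiT_eq dat hp hpN]
    exact factor_zero_T (dat p hp hpN) hp hpN
  factor_succ p e hp hpe := by
    have : NeZero p := ⟨hp.ne_zero⟩
    have hpN : p ∣ N := (dvd_pow_self p (Nat.succ_ne_zero (e + 1))).trans hpe
    rw [PhiT_eq dat hp hpN]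
    exact factor_succ_T (dat p hp hpN) hp e hpe
  conj_mem p i hp hpi z hz := by
    have : NeZero p := ⟨hp.ne_zero⟩
    rcases Nat.eq_zero_or_pos i with rfl | hi
    · rw [pow_zero] at hz ⊢
      rw [xT_one, minpoly.eq_X_sub_C, map_sub, aeval_X, aeval_C, sub_eq_zero] at hz
      rw [hz, ← xT_one]
      exact xT_mem (one_dvd N)
    · have hpN : p ∣ N := (dvd_pow_self p hi.ne').trans hpi
      exact conj_mem_T (dat p hp hpN) hp i hpi z hz

end Assemble

section Integrality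

variable {F : Type*} [Field F] {N : ℕ} [NeZero N]

theorem root_mul_T {p : ℕ} [NeZero p] {ζ : Fˣ} {pinv : F} (d : ModEqData F p ζ pinv)
    (a : ℕ) [NeZero a] (hpN : p ∣ N) :
    (evInner (xT F N a) (PhiK N d.Phi)).IsRoot (xT F N (a * p)) := by
  have : NeZero (N / p) := neZero_div_of_dvd_T hpN
  have h1 : a * N = a * (N / p) * p := by
    rw [mul_assoc, Nat.div_mul_cancel hpN]
  have h2 : a * p * N = a * (N / p) * (p * p) := by
    rw [mul_assoc a (N / p), ← mul_assoc (N / p), Nat.div_mul_cancel hpN]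
    ring
  have hme := me1_iotaK (N := N) d (1 : Fˣ) (a * (N / p))
  rw [one_pow, one_pow] at hme
  rw [xT_eq h1, xT_eq h2, hme, IsRoot.def, eval_mul, eval_sub, eval_X, eval_C, sub_self, zero_mul]

/-- Every `J 1 (a N)`, `a ∣ N`, is integral over `k = F(J 1 N)`. -/
theorem isIntegral_xT_of_dvd
    (hdata : ∀ p (hp : p.Prime), p ∣ N →
      ∃ (ζ : Fˣ) (pinv : F), Nonempty (@ModEqData F _ p ⟨hp.ne_zero⟩ ζ pinv)) :
    ∀ a : ℕ, a ∣ N → IsIntegral (kN F N) (xT F N a) := by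
  intro a
  induction a using Nat.strong_induction_on with
  | _ a ih =>
    intro ha
    rcases eq_or_ne a 1 with rfl | h1
    · rw [xT_one]
      exact isIntegral_algebraMap
    · have hp := Nat.minFac_prime h1
      have hpa := Nat.minFac_dvd a
      have hpN := hpa.trans ha
      have : NeZero a.minFac := ⟨hp.ne_zero⟩
      obtain ⟨ζ, pinv, ⟨d⟩⟩ := hdata _ hp hpN
      have ha0 : a ≠ 0 := ne_zero_of_dvd_ne_zero (NeZero.ne N) ha
      have hq0 : a / a.minFac ≠ 0 := by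
        intro h0
        rw [Nat.div_eq_zero_iff] at h0
        rcases h0 with h0 | h0
        · exact hp.ne_zero h0
        · exact absurd (Nat.le_of_dvd (Nat.pos_of_ne_zero ha0) hpa) (not_le.2 h0)
      have : NeZero (a / a.minFac) := ⟨hq0⟩
      have hlt : a / a.minFac < a := Nat.div_lt_self (Nat.pos_of_ne_zero ha0) hp.one_lt
      have hq : a / a.minFac ∣ N := (Nat.div_dvd_of_dvd hpa).trans ha
      have h := root_mul_T (N := N) d (a / a.minFac) hpN
      rw [Nat.div_mul_cancel hpa] at h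
      exact isIntegral_root_evInner (ih _ hlt hq) (PhiK_monic d.Phi_monic) h

end Integrality

section Final

variable (F : Type*) [Field F] (N : ℕ) [NeZero N]

theorem finite_towerGens :
    {x : LaurentSeries F | ∃ d : ℕ, ∃ _ : NeZero d, d ∣ N ∧ x = J (1 : Fˣ) (d * N)}.Finite := by
  refine ((N.divisors.finite_toSet).image (fun d => Jt F 1 (d * N))).subset ?_
  rintro x ⟨d, hd0, hdN, rfl⟩
  refine ⟨d, ?_, Jt_eq _ _⟩
  rw [Finset.mem_coe, Nat.mem_divisors]
  exact ⟨hdN, NeZero.ne N⟩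

variable {F N}

theorem isIntegral_towerGens
    (hdata : ∀ p (hp : p.Prime), p ∣ N →
      ∃ (ζ : Fˣ) (pinv : F), Nonempty (@ModEqData F _ p ⟨hp.ne_zero⟩ ζ pinv)) :
    ∀ x ∈ {x : LaurentSeries F | ∃ d : ℕ, ∃ _ : NeZero d, d ∣ N ∧ x = J (1 : Fˣ) (d * N)},
      IsIntegral ↥(F⟮J (1 : Fˣ) N⟯) x := by
  rintro x ⟨d, hd0, hdN, rfl⟩
  have h := isIntegral_xT_of_dvd hdata d hdN
  rw [xT_eq rfl] at h
  exact (isIntegral_algHom_iff (iotaK F N) (iotaK_injective F N)).1 h

/-- **(α), finiteness**: the field generated over `F(J 1 N)` by all `J 1 (d N)`, `d ∣ N`, is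
finite over `F(J 1 N)`. -/
theorem finiteDimensional_towerField
    (hdata : ∀ p (hp : p.Prime), p ∣ N →
      ∃ (ζ : Fˣ) (pinv : F), Nonempty (@ModEqData F _ p ⟨hp.ne_zero⟩ ζ pinv)) :
    FiniteDimensional ↥(F⟮J (1 : Fˣ) N⟯)
      ↥(IntermediateField.adjoin ↥(F⟮J (1 : Fˣ) N⟯)
        {x : LaurentSeries F | ∃ d : ℕ, ∃ _ : NeZero d, d ∣ N ∧ x = J (1 : Fˣ) (d * N)}) := by
  have : Finite ↥{x : LaurentSeries F |
      ∃ d : ℕ, ∃ _ : NeZero d, d ∣ N ∧ x = J (1 : Fˣ) (d * N)} :=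
    (finite_towerGens F N).to_subtype
  exact IntermediateField.finiteDimensional_adjoin (isIntegral_towerGens hdata)

/-- **(α), the degree bound**: `ψ(N) ≤ [F(J 1 N)(J 1 (d N) : d ∣ N) : F(J 1 N)]` over an
algebraically closed field `F` carrying modular-equation data for every prime `p ∣ N`. -/
theorem tower_le_finrank [IsAlgClosed F]
    (hdata : ∀ p (hp : p.Prime), p ∣ N →
      ∃ (ζ : Fˣ) (pinv : F), Nonempty (@ModEqData F _ p ⟨hp.ne_zero⟩ ζ pinv)) :
    dedekindPsi N ≤ Module.finrank ↥(F⟮J (1 : Fˣ) N⟯)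
      ↥(IntermediateField.adjoin ↥(F⟮J (1 : Fˣ) N⟯)
        {x : LaurentSeries F | ∃ d : ℕ, ∃ _ : NeZero d, d ∣ N ∧ x = J (1 : Fˣ) (d * N)}) := by
  have hN : N ≠ 0 := NeZero.ne N
  have h' : ∀ p : ℕ, ∃ (ζ : Fˣ) (pinv : F), ∀ (hp : p.Prime), p ∣ N →
      Nonempty (@ModEqData F _ p ⟨hp.ne_zero⟩ ζ pinv) := by
    intro p
    by_cases h : p.Prime ∧ p ∣ N
    · obtain ⟨ζ, pinv, hd⟩ := hdata p h.1 h.2
      exact ⟨ζ, pinv, fun _ _ => hd⟩
    · exact ⟨1, 0, fun hp hpN => absurd ⟨hp, hpN⟩ h⟩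
  choose ζ pinv hd using h'
  have dat : ∀ p (hp : p.Prime), p ∣ N → @ModEqData F _ p ⟨hp.ne_zero⟩ (ζ p) (pinv p) :=
    fun p hp hpN => (hd p hp hpN).some
  have hfd := finiteDimensional_towerField hdata
  have hfdM : FiniteDimensional (kN F N)
      ↥((IntermediateField.adjoin (kN F N)
        {x : LaurentSeries F | ∃ d : ℕ, ∃ _ : NeZero d, d ∣ N ∧ x = J (1 : Fˣ) (d * N)}).map
          (iotaK F N)) :=
    LinearEquiv.finiteDimensional (IntermediateField.equivMap _ (iotaK F N)).toLinearEquiv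
  have h := (towerData F N ζ pinv dat).le_finrank hN
    ((IntermediateField.adjoin (kN F N)
        {x : LaurentSeries F | ∃ d : ℕ, ∃ _ : NeZero d, d ∣ N ∧ x = J (1 : Fˣ) (d * N)}).map
          (iotaK F N)) ?_
  · rw [← dedekindPsi_eq_prod_primeFactors hN] at h
    rw [(IntermediateField.equivMap _ (iotaK F N)).toLinearEquiv.finrank_eq]
    exact h
  · intro p i hp _ hpi
    have : NeZero (p ^ i) := ⟨pow_ne_zero i hp.ne_zero⟩
    refine (IntermediateField.mem_map _).2 ⟨Jt F 1 (p ^ i * N), ?_, rfl⟩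
    rw [Jt_eq]
    exact IntermediateField.subset_adjoin _ _ ⟨p ^ i, this, hpi, rfl⟩

end Final

end Fermat.Agent.Igusa
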