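/-
S28 (Igusa), node N-RED: the coefficient ring `C' = {z ∈ ℂ | N^k z is integral over ℤ for some k}`
of the modular equation data (simplification (S-a) of the plan), and its reduction to
characteristic `ℓ ∤ N`:

* `modEqCoeffRing N : Subring ℂ`; algebraic integers, `1/p` (`p ∣ N`) and roots of unity are in it;
* `ℓ` is not a unit of `C'` when `ℓ ∤ N`; hence a ring hom `C' → F` with `F` an algebraically
  closed field of characteristic `ℓ`;
* the image in `F` of a primitive `p`-th root of unity (`p` prime, `p ≠ 0` in `F`) is primitive;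
* elements of `C'` are integral over `ℤ_(ℓ)`.
-/
import Mathlib
import Fermat.Prelude.Def_GaloisRep_Flat

set_option autoImplicit false

namespace Fermat.Agent.Igusa

section CoeffRing

/-- The coefficient ring `C' = {z ∈ ℂ | ∃ k, N^k z integral over ℤ}`. -/
def modEqCoeffRing (N : ℕ) : Subring ℂ where
  carrier := {z | ∃ k : ℕ, IsIntegral ℤ ((N : ℂ) ^ k * z)}
  mul_mem' := by
    rintro a b ⟨k, hk⟩ ⟨m, hm⟩
    refine ⟨k + m, ?_⟩
    have h : (N : ℂ) ^ (k + m) * (a * b) = ((N : ℂ) ^ k * a) * ((N : ℂ) ^ m * b) := by ring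
    rw [h]
    exact hk.mul hm
  one_mem' := ⟨0, by simpa using isIntegral_one⟩
  add_mem' := by
    rintro a b ⟨k, hk⟩ ⟨m, hm⟩
    refine ⟨k + m, ?_⟩
    have h : (N : ℂ) ^ (k + m) * (a + b) =
        ((N : ℤ) : ℂ) ^ m * ((N : ℂ) ^ k * a) + ((N : ℤ) : ℂ) ^ k * ((N : ℂ) ^ m * b) := by
      push_cast; ring
    rw [h]
    exact ((isIntegral_algebraMap (R := ℤ) (x := (N : ℤ))).pow m |>.mul hk).add
      ((isIntegral_algebraMap (R := ℤ) (x := (N : ℤ))).pow k |>.mul hm)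
  zero_mem' := ⟨0, by simpa using isIntegral_zero⟩
  neg_mem' := by
    rintro a ⟨k, hk⟩
    refine ⟨k, ?_⟩
    rw [mul_neg]
    exact hk.neg

variable {N : ℕ}

theorem mem_modEqCoeffRing_iff {z : ℂ} :
    z ∈ modEqCoeffRing N ↔ ∃ k : ℕ, IsIntegral ℤ ((N : ℂ) ^ k * z) := Iff.rfl

/-- Algebraic integers lie in `C'`. -/
theorem mem_modEqCoeffRing_of_isIntegral {z : ℂ} (hz : IsIntegral ℤ z) : z ∈ modEqCoeffRing N :=
  ⟨0, by simpa using hz⟩

/-- Roots of unity lie in `C'`. -/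
theorem mem_modEqCoeffRing_of_pow_eq_one {z : ℂ} {n : ℕ} (hn : 0 < n) (hz : z ^ n = 1) :
    z ∈ modEqCoeffRing N :=
  mem_modEqCoeffRing_of_isIntegral (IsIntegral.of_pow hn (hz ▸ isIntegral_one))

/-- `1/p ∈ C'` for `p ∣ N`. -/
theorem natCast_inv_mem_modEqCoeffRing {p : ℕ} (hp : p ≠ 0) (hpN : p ∣ N) :
    ((p : ℂ))⁻¹ ∈ modEqCoeffRing N := by
  obtain ⟨m, rfl⟩ := hpN
  refine ⟨1, ?_⟩
  have hp' : (p : ℂ) ≠ 0 := Nat.cast_ne_zero.2 hp
  have h : ((p * m : ℕ) : ℂ) ^ 1 * ((p : ℂ))⁻¹ = ((m : ℤ) : ℂ) := by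
    push_cast
    field_simp
  rw [h]
  exact isIntegral_algebraMap (R := ℤ) (x := (m : ℤ))

/-- The unit of `C'` attached to a root of unity of `ℂ`. -/
noncomputable def rootOfUnityUnit (N : ℕ) (z : ℂˣ) {n : ℕ} (hn : 0 < n) (hz : z ^ n = 1) :
    (modEqCoeffRing N)ˣ where
  val := ⟨(z : ℂ), mem_modEqCoeffRing_of_pow_eq_one hn (by
    rw [← Units.val_pow_eq_pow_val, hz, Units.val_one])⟩
  inv := ⟨((z⁻¹ : ℂˣ) : ℂ), mem_modEqCoeffRing_of_pow_eq_one hn (by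
    rw [← Units.val_pow_eq_pow_val, inv_pow, hz, inv_one, Units.val_one])⟩
  val_inv := Subtype.ext (by simp)
  inv_val := Subtype.ext (by simp)

@[simp] theorem coe_rootOfUnityUnit (N : ℕ) (z : ℂˣ) {n : ℕ} (hn : 0 < n) (hz : z ^ n = 1) :
    (((rootOfUnityUnit N z hn hz : (modEqCoeffRing N)ˣ) : modEqCoeffRing N) : ℂ) = (z : ℂ) := rfl

theorem map_subtype_rootOfUnityUnit (N : ℕ) (z : ℂˣ) {n : ℕ} (hn : 0 < n) (hz : z ^ n = 1) :
    Units.map ((modEqCoeffRing N).subtype : modEqCoeffRing N →* ℂ) (rootOfUnityUnit N z hn hz) = z :=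
  Units.ext rfl

/-- A rational number which is integral over `ℤ` inside `ℂ` is an integer. -/
theorem exists_int_eq_of_isIntegral_ratCast {r : ℚ} (h : IsIntegral ℤ ((r : ℚ) : ℂ)) :
    ∃ m : ℤ, (m : ℚ) = r := by
  have h1 : IsIntegral ℤ r := by
    have h2 : IsIntegral ℤ (algebraMap ℚ ℂ r) := by simpa using h
    exact (isIntegral_algebraMap_iff (algebraMap ℚ ℂ).injective).1 h2
  obtain ⟨m, hm⟩ := IsIntegrallyClosed.isIntegral_iff.1 h1
  exact ⟨m, by simpa using hm⟩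

/-- `ℓ` is not a unit of `C'` when `ℓ ∤ N`. -/
theorem not_isUnit_natCast_modEqCoeffRing {ℓ : ℕ} (hℓ : ℓ.Prime) (hℓN : ¬ ℓ ∣ N) :
    ¬ IsUnit ((ℓ : ℕ) : modEqCoeffRing N) := by
  rintro ⟨u, hu⟩
  obtain ⟨k, hk⟩ := (u⁻¹ : (modEqCoeffRing N)ˣ).1.2
  have hℓ0 : (ℓ : ℂ) ≠ 0 := Nat.cast_ne_zero.2 hℓ.ne_zero
  have hinv : (((u⁻¹ : (modEqCoeffRing N)ˣ) : modEqCoeffRing N) : ℂ) = ((ℓ : ℂ))⁻¹ := by
    have h1 : ((u : modEqCoeffRing N) : ℂ) * (((u⁻¹ : (modEqCoeffRing N)ˣ) : modEqCoeffRing N) : ℂ)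
        = 1 := by
      rw [← Subring.coe_mul, Units.mul_inv, Subring.coe_one]
    rw [hu] at h1
    have h2 : (((ℓ : ℕ) : modEqCoeffRing N) : ℂ) = (ℓ : ℂ) := by simp
    rw [h2] at h1
    exact eq_inv_of_mul_eq_one_right h1
  rw [hinv] at hk
  have hrat : (N : ℂ) ^ k * ((ℓ : ℂ))⁻¹ = (((N : ℚ) ^ k / (ℓ : ℚ) : ℚ) : ℂ) := by
    push_cast
    rw [div_eq_mul_inv]
  rw [hrat] at hk
  obtain ⟨m, hm⟩ := exists_int_eq_of_isIntegral_ratCast hk
  have hℓq : (ℓ : ℚ) ≠ 0 := Nat.cast_ne_zero.2 hℓ.ne_zero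
  have h3 : (m : ℚ) * (ℓ : ℚ) = (N : ℚ) ^ k := by
    rw [hm, div_mul_cancel₀ _ hℓq]
  have h4 : m * (ℓ : ℤ) = (N : ℤ) ^ k := by exact_mod_cast h3
  have h5 : (ℓ : ℤ) ∣ (N : ℤ) ^ k := ⟨m, by rw [← h4, mul_comm]⟩
  have h6 : ℓ ∣ N ^ k := by exact_mod_cast h5
  exact hℓN (hℓ.dvd_of_dvd_pow h6)

/-- **Reduction to characteristic `ℓ`.** For `ℓ ∤ N` there is a ring homomorphism from `C'` to an
algebraically closed field of characteristic `ℓ`. -/
theorem exists_algClosed_charP_ringHom {ℓ : ℕ} (hℓ : ℓ.Prime) (hℓN : ¬ ℓ ∣ N) :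
    ∃ (F : Type) (_ : Field F) (_ : IsAlgClosed F) (_ : CharP F ℓ),
      Nonempty (modEqCoeffRing N →+* F) := by
  classical
  have hI : Ideal.span {((ℓ : ℕ) : modEqCoeffRing N)} ≠ ⊤ := by
    rw [Ne, Ideal.span_singleton_eq_top]
    exact not_isUnit_natCast_modEqCoeffRing hℓ hℓN
  obtain ⟨m, hm, hIm⟩ := Ideal.exists_le_maximal _ hI
  let _ : Field (modEqCoeffRing N ⧸ m) := Ideal.Quotient.field m
  let F := AlgebraicClosure (modEqCoeffRing N ⧸ m)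
  let ρ : modEqCoeffRing N →+* F :=
    (algebraMap (modEqCoeffRing N ⧸ m) F).comp (Ideal.Quotient.mk m)
  have hρ : ((ℓ : ℕ) : F) = 0 := by
    have h1 : ρ ((ℓ : ℕ) : modEqCoeffRing N) = 0 := by
      have h2 : Ideal.Quotient.mk m ((ℓ : ℕ) : modEqCoeffRing N) = 0 :=
        Ideal.Quotient.eq_zero_iff_mem.2 (hIm (Ideal.subset_span rfl))
      change algebraMap (modEqCoeffRing N ⧸ m) F (Ideal.Quotient.mk m _) = 0
      rw [h2, map_zero]
    rwa [map_natCast] at h1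
  have hchar : ringChar F = ℓ := by
    have h1 : ringChar F ∣ ℓ := ringChar.dvd hρ
    rcases (Nat.dvd_prime hℓ).1 h1 with h | h
    · exact absurd h (CharP.ringChar_ne_one)
    · exact h
  have hcharP : CharP F ℓ := ringChar.eq_iff.1 hchar
  exact ⟨F, inferInstance, inferInstance, hcharP, ⟨ρ⟩⟩

end CoeffRing

section PrimitiveRoot

/-- The image of a primitive `p`-th root of unity (`p` prime) under a ring homomorphism to a
domain in which `p ≠ 0` is again primitive. -/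
theorem isPrimitiveRoot_map_of_prime {A B : Type*} [CommRing A] [IsDomain A] [CommRing B]
    [IsDomain B] (ρ : A →+* B) {p : ℕ} (hp : p.Prime) (hpB : (p : B) ≠ 0) {ζ : A}
    (hζ : IsPrimitiveRoot ζ p) : IsPrimitiveRoot (ρ ζ) p := by
  have h1 : ρ ζ ^ p = 1 := by rw [← map_pow, hζ.pow_eq_one, map_one]
  have hne : ρ ζ ≠ 1 := by
    intro h
    have h2 := congrArg ρ (hζ.geom_sum_eq_zero hp.one_lt)
    rw [map_sum, map_zero] at h2
    simp only [map_pow, h, one_pow, Finset.sum_const, Finset.card_range, nsmul_eq_mul,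
      mul_one] at h2
    exact hpB h2
  refine IsPrimitiveRoot.mk_of_lt _ hp.pos h1 fun l hl0 hlp hl => hne ?_
  have hcop : Nat.gcd l p = 1 :=
    Nat.Coprime.symm ((Nat.Prime.coprime_iff_not_dvd hp).2 (Nat.not_dvd_of_pos_of_lt hl0 hlp))
  have := pow_gcd_eq_one.2 ⟨hl, h1⟩
  rwa [hcop, pow_one] at this

/-- Unit version. -/
theorem isPrimitiveRoot_unitsMap_of_prime {A B : Type*} [CommRing A] [IsDomain A] [CommRing B]
    [IsDomain B] (ρ : A →+* B) {p : ℕ} (hp : p.Prime) (hpB : (p : B) ≠ 0) {ζ : Aˣ}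
    (hζ : IsPrimitiveRoot ζ p) : IsPrimitiveRoot (Units.map (ρ : A →* B) ζ) p := by
  have h := isPrimitiveRoot_map_of_prime ρ hp hpB (hζ.map_of_injective Units.val_injective :
    IsPrimitiveRoot ((Units.coeHom A) ζ) p)
  have h' : IsPrimitiveRoot ((Units.coeHom B) (Units.map (ρ : A →* B) ζ)) p := h
  exact h'.of_map_of_injective Units.val_injective

/-- In characteristic `ℓ`, a prime `p ≠ ℓ` is nonzero. -/
theorem natCast_ne_zero_of_charP {F : Type*} [Field F] {ℓ : ℕ} [CharP F ℓ] {p : ℕ}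
    (hp : p.Prime) (hℓ : ℓ.Prime) (hne : p ≠ ℓ) : (p : F) ≠ 0 := by
  rw [Ne, CharP.cast_eq_zero_iff F ℓ p]
  intro h
  exact hne ((Nat.prime_dvd_prime_iff_eq hℓ hp).1 h).symm

/-- **Reduction package.** For `ℓ ∤ N`: an algebraically closed field `F` of characteristic `ℓ`
and a ring hom `ρ : C' → F` under which primitive `p`-th roots of unity, `p` prime dividing `N`,
stay primitive. -/
theorem exists_reduction_modEqCoeffRing {N ℓ : ℕ} (hℓ : ℓ.Prime) (hℓN : ¬ ℓ ∣ N) :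
    ∃ (F : Type) (_ : Field F) (_ : IsAlgClosed F) (_ : CharP F ℓ) (ρ : modEqCoeffRing N →+* F),
      ∀ p : ℕ, p.Prime → p ∣ N → ∀ ζ : (modEqCoeffRing N)ˣ, IsPrimitiveRoot ζ p →
        IsPrimitiveRoot (Units.map (ρ : modEqCoeffRing N →* F) ζ) p := by
  obtain ⟨F, hF, hac, hch, ⟨ρ⟩⟩ := exists_algClosed_charP_ringHom (N := N) hℓ hℓN
  refine ⟨F, hF, hac, hch, ρ, fun p hp hpN ζ hζ => ?_⟩
  have hne : p ≠ ℓ := fun h => hℓN (h ▸ hpN)
  exact isPrimitiveRoot_unitsMap_of_prime ρ hp (natCast_ne_zero_of_charP hp hℓ hne) hζ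

end PrimitiveRoot

section IntegralOverZl

/-- Elements of `C'` are integral over `ℤ_(ℓ)` when `ℓ ∤ N`. -/
theorem isIntegral_zl_of_mem_modEqCoeffRing {N ℓ : ℕ} (hN : N ≠ 0) (hℓN : Nat.Coprime N ℓ) {z : ℂ}
    (hz : z ∈ modEqCoeffRing N) : IsIntegral ↥(GaloisRep.ratLocalizedAt ℓ) z := by
  obtain ⟨k, hk⟩ := hz
  have hNinv : ((N : ℚ))⁻¹ ∈ GaloisRep.ratLocalizedAt ℓ := by
    change (((N : ℚ))⁻¹).den.Coprime ℓ
    rw [Rat.inv_natCast_den, if_neg hN]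
    exact hℓN
  let u : ↥(GaloisRep.ratLocalizedAt ℓ) := ⟨((N : ℚ))⁻¹, hNinv⟩
  have h1 : IsIntegral ↥(GaloisRep.ratLocalizedAt ℓ) ((N : ℂ) ^ k * z) := hk.tower_top
  have h2 : z = algebraMap ↥(GaloisRep.ratLocalizedAt ℓ) ℂ (u ^ k) * ((N : ℂ) ^ k * z) := by
    have hN' : (N : ℂ) ≠ 0 := Nat.cast_ne_zero.2 hN
    have h3 : algebraMap ↥(GaloisRep.ratLocalizedAt ℓ) ℂ (u ^ k) = ((N : ℂ))⁻¹ ^ k := by
      rw [map_pow]
      congr 1
      change algebraMap ℚ ℂ ((N : ℚ))⁻¹ = _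
      simp
    rw [h3, ← mul_assoc, ← mul_pow, inv_mul_cancel₀ hN', one_pow, one_mul]
  rw [h2]
  exact isIntegral_algebraMap.mul h1

end IntegralOverZl

end Fermat.Agent.Igusa
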