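/-
S28 (Igusa), node N-ME, part E (pure algebra): descent of coefficients.
If `P ∈ ℂ[Y]` and `P(j(s^p))` has all its Laurent coefficients in a subring `A ⊆ ℂ`, then
`P ∈ A[Y]` (because `j(s^p) = s^{-p} + …` is monic with integer coefficients).  Consequently a
polynomial `Φ ∈ ℂ[Y][X]` such that `Φ(X, j(s^p))` has coefficients in `A((s))` lies in `A[Y][X]`.
-/
import Mathlib
import Fermat.Agent.Igusa.ModEqData

set_option autoImplicit false

namespace Fermat.Agent.Igusa

open ModularCurve Polynomial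

section Range

variable {B : Type*} [CommRing B] (A : Subring B)

/-- Laurent series over `B` with all coefficients in the subring `A`. -/
theorem mem_range_coeffMap_subtype_iff {x : LaurentSeries B} :
    x ∈ (coeffMap A.subtype).range ↔ ∀ k : ℤ, x.coeff k ∈ A := by
  constructor
  · rintro ⟨t, rfl⟩ k
    rw [coeffMap_coeff]
    exact (t.coeff k).2
  · intro h
    classical
    refine ⟨⟨fun k => ⟨x.coeff k, h k⟩, ?_⟩, ?_⟩
    · refine x.isPWO_support.mono fun k hk => ?_
      rw [Function.mem_support] at hk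
      rw [HahnSeries.mem_support]
      intro h0
      apply hk
      exact Subtype.ext h0
    · ext k
      rw [coeffMap_coeff]
      rfl

theorem coeffMap_subtype_injective : Function.Injective (coeffMap A.subtype) := by
  intro x y h
  ext k
  have := congrArg (fun z => z.coeff k) h
  simp only [coeffMap_coeff] at this
  exact this

end Range

section Key

variable {B : Type*} [CommRing B] (p : ℕ) [NeZero p]

/-- Coefficients of powers of `j(s^p)`: monic of order `-p k`. -/
theorem coeff_J_pow_self (k : ℕ) :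
    ((J (1 : Bˣ) p) ^ k).coeff (-((p : ℤ) * k)) = 1 := by
  rw [J_one_unit, ← map_pow, show -((p : ℤ) * k) = (p : ℤ) * (-(k : ℤ)) by ring,
    qExpand_coeff_mul, jqModC_pow, coeff_single_mul_ofPowerSeries_self, map_pow,
    constantCoeff_map_intCast constantCoeff_jNum, one_pow]

theorem coeff_J_pow_of_lt {k : ℕ} {n : ℤ} (hn : n < -((p : ℤ) * k)) :
    ((J (1 : Bˣ) p) ^ k).coeff n = 0 := by
  rw [J_one_unit, ← map_pow]
  by_cases hd : (p : ℤ) ∣ n
  · obtain ⟨m, rfl⟩ := hd
    rw [qExpand_coeff_mul, jqModC_pow]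
    apply coeff_single_mul_ofPowerSeries_of_lt
    have hp : (0 : ℤ) < p := by exact_mod_cast Nat.pos_of_ne_zero (NeZero.ne p)
    nlinarith
  · exact qExpand_coeff_of_not_dvd p _ hd

theorem coeff_C_mul (a : B) (x : LaurentSeries B) (m : ℤ) :
    (HahnSeries.C a * x).coeff m = a * x.coeff m := by
  rw [HahnSeries.C_mul_eq_smul, HahnSeries.coeff_smul, smul_eq_mul]

/-- The coefficient of `s^{-p d}` in `P(j(s^p))` for `deg P ≤ d` is the `d`-th coefficient. -/
theorem coeff_eval₂_J (P : B[X]) {d : ℕ} (hd : P.natDegree ≤ d) :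
    (Polynomial.eval₂ (HahnSeries.C : B →+* LaurentSeries B) (J (1 : Bˣ) p) P).coeff
      (-((p : ℤ) * d)) = P.coeff d := by
  rw [Polynomial.eval₂_eq_sum_range' _ (Nat.lt_succ_of_le hd), HahnSeries.coeff_sum,
    Finset.sum_eq_single d]
  · rw [coeff_C_mul, coeff_J_pow_self, mul_one]
  · intro k hk hkd
    rw [coeff_C_mul, coeff_J_pow_of_lt, mul_zero]
    have hk' : k < d := lt_of_le_of_ne (Nat.lt_succ_iff.mp (Finset.mem_range.mp hk)) hkd
    have hp : (0 : ℤ) < p := by exact_mod_cast Nat.pos_of_ne_zero (NeZero.ne p)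
    have : (k : ℤ) < d := by exact_mod_cast hk'
    nlinarith
  · intro h
    exact absurd (Finset.mem_range.mpr (Nat.lt_succ_self d)) h

variable (A : Subring B)

theorem J_mem_range : J (1 : Bˣ) p ∈ (coeffMap A.subtype).range :=
  ⟨J (1 : Aˣ) p, by rw [coeffMap_J, map_one]⟩

theorem HC_mem_range {a : B} (ha : a ∈ A) : HahnSeries.C a ∈ (coeffMap A.subtype).range :=
  ⟨HahnSeries.C ⟨a, ha⟩, coeffMap_HC _ _⟩

/-- **Descent of coefficients.** If `P(j(s^p))` has coefficients in `A` then so has `P`. -/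
theorem coeff_mem_of_eval₂_J_mem (P : B[X])
    (h : Polynomial.eval₂ (HahnSeries.C : B →+* LaurentSeries B) (J (1 : Bˣ) p) P ∈
      (coeffMap A.subtype).range) : ∀ k, P.coeff k ∈ A := by
  suffices H : ∀ n : ℕ, ∀ P : B[X], P.natDegree ≤ n →
      Polynomial.eval₂ (HahnSeries.C : B →+* LaurentSeries B) (J (1 : Bˣ) p) P ∈
        (coeffMap A.subtype).range → ∀ k, P.coeff k ∈ A from H P.natDegree P le_rfl h
  intro n
  induction n with
  | zero =>
    intro P hP hmem k
    have h0 := coeff_eval₂_J p P hP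
    have h1 := (mem_range_coeffMap_subtype_iff A).mp hmem (-((p : ℤ) * (0 : ℕ)))
    rw [h0] at h1
    rcases Nat.eq_zero_or_pos k with rfl | hk
    · exact h1
    · rw [Polynomial.coeff_eq_zero_of_natDegree_lt (lt_of_le_of_lt hP hk)]
      exact A.zero_mem
  | succ n ih =>
    intro P hP hmem k
    have h0 := coeff_eval₂_J p P hP
    have ha : P.coeff (n + 1) ∈ A := by
      have h1 := (mem_range_coeffMap_subtype_iff A).mp hmem (-((p : ℤ) * (n + 1 : ℕ)))
      rwa [h0] at h1
    set P' : B[X] := P - Polynomial.C (P.coeff (n + 1)) * Polynomial.X ^ (n + 1) with hP'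
    have hdeg : P'.natDegree ≤ n := by
      rw [Polynomial.natDegree_le_iff_coeff_eq_zero]
      intro m hm
      rw [hP', Polynomial.coeff_sub, Polynomial.coeff_C_mul, Polynomial.coeff_X_pow]
      rcases (Nat.succ_le_of_lt hm).eq_or_lt with h | h
      · rw [← h]; simp
      · rw [if_neg (Nat.ne_of_gt h), mul_zero, sub_zero,
          Polynomial.coeff_eq_zero_of_natDegree_lt (lt_of_le_of_lt hP h)]
    have hmem' : Polynomial.eval₂ (HahnSeries.C : B →+* LaurentSeries B) (J (1 : Bˣ) p) P' ∈
        (coeffMap A.subtype).range := by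
      rw [hP', Polynomial.eval₂_sub, Polynomial.eval₂_mul, Polynomial.eval₂_C,
        Polynomial.eval₂_X_pow]
      exact sub_mem hmem (mul_mem (HC_mem_range A ha) (pow_mem (J_mem_range p A) _))
    have hk := ih P' hdeg hmem' k
    have : P.coeff k = P'.coeff k + (Polynomial.C (P.coeff (n + 1)) * Polynomial.X ^ (n + 1)).coeff k := by
      rw [hP', Polynomial.coeff_sub]; ring
    rw [this, Polynomial.coeff_C_mul, Polynomial.coeff_X_pow]
    refine A.add_mem hk ?_
    split_ifs
    · rw [mul_one]; exact ha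
    · rw [mul_zero]; exact A.zero_mem

/-- **Descent for two-variable polynomials.** -/
theorem mem_lifts_of_evY_coeff_mem (Φ : B[X][X])
    (h : ∀ n, (evY (J (1 : Bˣ) p) Φ).coeff n ∈ (coeffMap A.subtype).range) :
    Φ ∈ Polynomial.lifts (Polynomial.mapRingHom A.subtype) := by
  rw [Polynomial.lifts_iff_coeff_lifts]
  intro n
  have hn := h n
  rw [evY_apply, Polynomial.coeff_map, Polynomial.coe_eval₂RingHom] at hn
  have hk := coeff_mem_of_eval₂_J_mem p A (Φ.coeff n) hn
  have : Φ.coeff n ∈ Polynomial.lifts A.subtype := by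
    rw [Polynomial.lifts_iff_coeff_lifts]
    intro k
    exact ⟨⟨_, hk k⟩, rfl⟩
  obtain ⟨Q, hQ⟩ := this
  exact ⟨Q, hQ⟩

/-- Coefficients of a polynomial obtained by base change from a subring lie in the subring. -/
theorem coeff_mem_range_of_eq_map {R S : Type*} [CommRing R] [CommRing S] (f : R →+* S)
    {Q : S[X]} {Q' : R[X]} (h : Q = Q'.map f) (k : ℕ) : Q.coeff k ∈ f.range := by
  rw [h, Polynomial.coeff_map]
  exact ⟨_, rfl⟩

end Key

end Fermat.Agent.Igusa
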