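/-
S28 (Igusa), node N-ME, part A: the `p + 1` conjugate functions
`x_∞(τ) = j(pτ)`, `x_b(τ) = j((τ + b)/p)` and the modular units
`u_∞(τ) = Δ(pτ)/Δ(τ)`, `u_b(τ) = p^{-12} Δ((τ + b)/p)/Δ(τ)`,
and the fact that `SL(2, ℤ)` permutes the pairs `(x_i, u_i)` simultaneously.
-/
import Mathlib
import Fermat.Agent.X0.KRat
import Fermat.Agent.X0.QDict
import Fermat.Agent.X0.JFun
import Fermat.Agent.X0.Psi

set_option autoImplicit false

namespace Fermat.Agent.Igusa

open UpperHalfPlane ModularForm Fermat.Agent.X0 Fermat.Agent.S23 Fermat.Agent.S23.PrimEltQExp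
open scoped MatrixGroups ModularForm Manifold

local notation "Δ" => ModularForm.discriminant

section Sigma

variable (p : ℕ) [NeZero p]

/-- The point `(τ + b)/p` of the upper half plane. -/
noncomputable def sigmaH (b : ℤ) (τ : ℍ) : ℍ := unscaleH p (((b : ℤ) : ℝ) +ᵥ τ)

theorem coe_sigmaH (b : ℤ) (τ : ℍ) : (sigmaH p b τ : ℂ) = ((τ : ℂ) + b) / p := by
  change ((((b : ℤ) : ℝ) +ᵥ τ : ℍ) : ℂ) / p = _
  rw [coe_vadd]
  push_cast
  ring

theorem pC_ne_zero : (p : ℂ) ≠ 0 := Nat.cast_ne_zero.mpr (NeZero.ne p)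

theorem sigmaH_T_smul (b : ℤ) (τ : ℍ) : sigmaH p b (ModularGroup.T • τ) = sigmaH p (b + 1) τ := by
  apply UpperHalfPlane.ext
  rw [coe_sigmaH, coe_sigmaH, modular_T_smul, coe_vadd]
  push_cast
  ring

theorem sigmaH_add_mul (b m : ℤ) (τ : ℍ) :
    sigmaH p (b + p * m) τ = ModularGroup.T ^ m • sigmaH p b τ := by
  apply UpperHalfPlane.ext
  rw [modular_T_zpow_smul, coe_vadd, coe_sigmaH, coe_sigmaH]
  have := pC_ne_zero p
  push_cast
  field_simp
  ring

theorem scaleH_S_smul (τ : ℍ) :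
    scaleH p (ModularGroup.S • τ) = ModularGroup.S • sigmaH p 0 τ := by
  apply UpperHalfPlane.ext
  rw [coe_scaleH, modular_S_smul, modular_S_smul]
  change (p : ℂ) * (-(τ : ℂ))⁻¹ = (-(sigmaH p 0 τ : ℂ))⁻¹
  rw [coe_sigmaH, Int.cast_zero, add_zero]
  have := pC_ne_zero p
  have hτ := ne_zero τ
  field_simp

theorem sigmaH_zero_S_smul (τ : ℍ) :
    sigmaH p 0 (ModularGroup.S • τ) = ModularGroup.S • scaleH p τ := by
  apply UpperHalfPlane.ext
  rw [coe_sigmaH, modular_S_smul, modular_S_smul]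
  change ((-(τ : ℂ))⁻¹ + ((0 : ℤ) : ℂ)) / p = (-(scaleH p τ : ℂ))⁻¹
  rw [coe_scaleH, Int.cast_zero, add_zero]
  have := pC_ne_zero p
  have hτ := ne_zero τ
  field_simp

/-- The matrix `[b, -k; p, -b']` with `b b' + 1 = p k`. -/
def gammaS (b b' k : ℤ) (h : b * b' + 1 = p * k) : SL(2, ℤ) :=
  ⟨!![b, -k; (p : ℤ), -b'], by rw [Matrix.det_fin_two_of]; linarith⟩

theorem sigmaH_S_smul (b b' k : ℤ) (h : b * b' + 1 = p * k) (τ : ℍ) :
    sigmaH p b (ModularGroup.S • τ) = gammaS p b b' k h • sigmaH p b' τ := by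
  apply UpperHalfPlane.ext
  rw [coe_sigmaH, modular_S_smul, coe_specialLinearGroup_apply, coe_sigmaH]
  change ((-(τ : ℂ))⁻¹ + (b : ℂ)) / p = _
  have h00 : (gammaS p b b' k h) 0 0 = b := rfl
  have h01 : (gammaS p b b' k h) 0 1 = -k := rfl
  have h10 : (gammaS p b b' k h) 1 0 = (p : ℤ) := rfl
  have h11 : (gammaS p b b' k h) 1 1 = -b' := rfl
  rw [h00, h01, h10, h11]
  simp only [algebraMap_int_eq, eq_intCast, Int.cast_neg, Int.cast_natCast]
  have hp := pC_ne_zero p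
  have hτ := ne_zero τ
  have hk : (k : ℂ) = ((b : ℂ) * b' + 1) / p := by
    have : ((b * b' + 1 : ℤ) : ℂ) = ((p * k : ℤ) : ℂ) := by rw [h]
    push_cast at this
    rw [this]; field_simp
  have hden : (p : ℂ) * (((τ : ℂ) + b') / p) + -(b' : ℂ) = τ := by field_simp; ring
  push_cast
  rw [hden, hk]
  field_simp
  ring

theorem denom_gammaS (b b' k : ℤ) (h : b * b' + 1 = p * k) (τ : ℍ) :
    denom (Matrix.SpecialLinearGroup.toGL ((Matrix.SpecialLinearGroup.map (Int.castRingHom ℝ))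
      (gammaS p b b' k h))) (sigmaH p b' τ) = τ := by
  rw [ModularGroup.denom_apply, coe_sigmaH]
  have h10 : (gammaS p b b' k h) 1 0 = (p : ℤ) := rfl
  have h11 : (gammaS p b b' k h) 1 1 = -b' := rfl
  rw [h10, h11]
  have hp := pC_ne_zero p
  push_cast
  field_simp
  ring

end Sigma

section Disc

theorem disc_smul (γ : SL(2, ℤ)) (z : ℍ) :
    Δ (γ • z) = denom (Matrix.SpecialLinearGroup.toGL
      ((Matrix.SpecialLinearGroup.map (Int.castRingHom ℝ)) γ)) z ^ 12 * Δ z := by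
  have h := congrFun (discriminant_slash γ) z
  rw [SL_slash_apply] at h
  have hd : denom (Matrix.SpecialLinearGroup.toGL
      ((Matrix.SpecialLinearGroup.map (Int.castRingHom ℝ)) γ)) z ≠ 0 := denom_ne_zero _ z
  rw [← h, mul_comm, mul_assoc, zpow_neg, show ((12 : ℤ)) = ((12 : ℕ) : ℤ) from rfl, zpow_natCast,
    inv_mul_cancel₀ (pow_ne_zero 12 hd), mul_one]

theorem disc_T_zpow_smul (m : ℤ) (z : ℍ) : Δ (ModularGroup.T ^ m • z) = Δ z := by
  rw [disc_smul, ModularGroup.denom_apply, ModularGroup.coe_T_zpow]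
  simp

theorem disc_T_smul (z : ℍ) : Δ (ModularGroup.T • z) = Δ z := by
  simpa using disc_T_zpow_smul 1 z

theorem disc_S_smul (z : ℍ) : Δ (ModularGroup.S • z) = (z : ℂ) ^ 12 * Δ z := by
  rw [disc_smul, ModularGroup.denom_S]

theorem disc_ne_zero (z : ℍ) : Δ z ≠ 0 := ModularForm.discriminant_ne_zero z

end Disc

section Funs

variable (p : ℕ) [NeZero p]

/-- `x_∞(τ) = j(pτ)`. -/
noncomputable def xInf (τ : ℍ) : ℂ := jAn (scaleH p τ)

/-- `x_b(τ) = j((τ + b)/p)`. -/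
noncomputable def xInt (b : ℤ) (τ : ℍ) : ℂ := jAn (sigmaH p b τ)

/-- `u_∞(τ) = Δ(pτ)/Δ(τ)`. -/
noncomputable def uInf (τ : ℍ) : ℂ := Δ (scaleH p τ) / Δ τ

/-- `u_b(τ) = p^{-12} Δ((τ + b)/p)/Δ(τ)`. -/
noncomputable def uInt (b : ℤ) (τ : ℍ) : ℂ := ((p : ℂ)⁻¹) ^ 12 * Δ (sigmaH p b τ) / Δ τ

theorem xInt_add_mul (b m : ℤ) (τ : ℍ) : xInt p (b + p * m) τ = xInt p b τ := by
  rw [xInt, xInt, sigmaH_add_mul, jAn_smul]

theorem uInt_add_mul (b m : ℤ) (τ : ℍ) : uInt p (b + p * m) τ = uInt p b τ := by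
  rw [uInt, uInt, sigmaH_add_mul, disc_T_zpow_smul]

theorem scaleH_T_smul (τ : ℍ) :
    scaleH p (ModularGroup.T • τ) = ModularGroup.T ^ (p : ℤ) • scaleH p τ := by
  apply UpperHalfPlane.ext
  rw [modular_T_zpow_smul, coe_vadd, coe_scaleH, coe_scaleH, modular_T_smul, coe_vadd]
  push_cast
  ring

theorem xInf_T_smul (τ : ℍ) : xInf p (ModularGroup.T • τ) = xInf p τ := by
  rw [xInf, xInf, scaleH_T_smul, jAn_smul]

theorem uInf_T_smul (τ : ℍ) : uInf p (ModularGroup.T • τ) = uInf p τ := by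
  rw [uInf, uInf, scaleH_T_smul, disc_T_zpow_smul, disc_T_smul]

theorem xInt_T_smul (b : ℤ) (τ : ℍ) : xInt p b (ModularGroup.T • τ) = xInt p (b + 1) τ := by
  rw [xInt, xInt, sigmaH_T_smul]

theorem uInt_T_smul (b : ℤ) (τ : ℍ) : uInt p b (ModularGroup.T • τ) = uInt p (b + 1) τ := by
  rw [uInt, uInt, sigmaH_T_smul, disc_T_smul]

theorem xInf_S_smul (τ : ℍ) : xInf p (ModularGroup.S • τ) = xInt p 0 τ := by
  rw [xInf, xInt, scaleH_S_smul, jAn_smul]

theorem xInt_zero_S_smul (τ : ℍ) : xInt p 0 (ModularGroup.S • τ) = xInf p τ := by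
  rw [xInf, xInt, sigmaH_zero_S_smul, jAn_smul]

theorem xInt_S_smul (b b' k : ℤ) (h : b * b' + 1 = p * k) (τ : ℍ) :
    xInt p b (ModularGroup.S • τ) = xInt p b' τ := by
  rw [xInt, xInt, sigmaH_S_smul p b b' k h, jAn_smul]

theorem uInf_S_smul (τ : ℍ) : uInf p (ModularGroup.S • τ) = uInt p 0 τ := by
  rw [uInf, uInt, scaleH_S_smul, disc_S_smul, disc_S_smul, coe_sigmaH, Int.cast_zero, add_zero]
  have hp := pC_ne_zero p
  have hτ := ne_zero τ
  have hΔ := disc_ne_zero τ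
  field_simp

theorem uInt_zero_S_smul (τ : ℍ) : uInt p 0 (ModularGroup.S • τ) = uInf p τ := by
  rw [uInf, uInt, sigmaH_zero_S_smul, disc_S_smul, disc_S_smul, coe_scaleH]
  have hp := pC_ne_zero p
  have hτ := ne_zero τ
  have hΔ := disc_ne_zero τ
  field_simp

theorem uInt_S_smul (b b' k : ℤ) (h : b * b' + 1 = p * k) (τ : ℍ) :
    uInt p b (ModularGroup.S • τ) = uInt p b' τ := by
  rw [uInt, uInt, sigmaH_S_smul p b b' k h, disc_smul, denom_gammaS, disc_S_smul]
  have hτ := ne_zero τ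
  have hΔ := disc_ne_zero τ
  field_simp

end Funs

section Family

variable (p : ℕ) [hp : Fact p.Prime]

instance neZero_of_fact_prime : NeZero p := ⟨hp.out.ne_zero⟩

theorem xInt_eq_val (n : ℤ) (τ : ℍ) : xInt p n τ = xInt p ((n : ZMod p).val : ℤ) τ := by
  rw [ZMod.val_intCast]
  conv_lhs => rw [← Int.emod_add_mul_ediv n p]
  exact xInt_add_mul p _ _ τ

theorem uInt_eq_val (n : ℤ) (τ : ℍ) : uInt p n τ = uInt p ((n : ZMod p).val : ℤ) τ := by
  rw [ZMod.val_intCast]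
  conv_lhs => rw [← Int.emod_add_mul_ediv n p]
  exact uInt_add_mul p _ _ τ

/-- The index set of the `p + 1` conjugates: `none = ∞`, `some b = b mod p`. -/
abbrev Idx := Option (ZMod p)

/-- The family `x_i`. -/
noncomputable def xFam : Idx p → ℍ → ℂ
  | none => xInf p
  | some b => xInt p (b.val : ℤ)

/-- The family `u_i`. -/
noncomputable def uFam : Idx p → ℍ → ℂ
  | none => uInf p
  | some b => uInt p (b.val : ℤ)

theorem xFam_some_intCast (n : ℤ) (τ : ℍ) : xFam p (some (n : ZMod p)) τ = xInt p n τ :=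
  (xInt_eq_val p n τ).symm

theorem uFam_some_intCast (n : ℤ) (τ : ℍ) : uFam p (some (n : ZMod p)) τ = uInt p n τ :=
  (uInt_eq_val p n τ).symm

/-- The permutation induced by `T`. -/
def permT : Equiv.Perm (Idx p) := Equiv.optionCongr (Equiv.addRight (1 : ZMod p))

theorem fam_T_smul (i : Idx p) (τ : ℍ) :
    xFam p i (ModularGroup.T • τ) = xFam p (permT p i) τ ∧
      uFam p i (ModularGroup.T • τ) = uFam p (permT p i) τ := by
  cases i with
  | none => exact ⟨xInf_T_smul p τ, uInf_T_smul p τ⟩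
  | some b =>
    have e : permT p (some b) = some ((((b.val : ℤ) + 1 : ℤ)) : ZMod p) := by
      simp [permT]
    rw [e, xFam_some_intCast, uFam_some_intCast]
    exact ⟨xInt_T_smul p _ τ, uInt_T_smul p _ τ⟩

/-- The involution induced by `S`. -/
def funS : Idx p → Idx p
  | none => some 0
  | some b => if b = 0 then none else some (-b⁻¹)

theorem funS_involutive : Function.Involutive (funS p) := by
  intro i
  cases i with
  | none => simp [funS]
  | some b =>
    by_cases hb : b = 0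
    · simp [funS, hb]
    · have : -b⁻¹ ≠ 0 := neg_ne_zero.mpr (inv_ne_zero hb)
      simp [funS, hb, this]

/-- The permutation induced by `S`. -/
def permS : Equiv.Perm (Idx p) := (funS_involutive p).toPerm

theorem fam_S_smul (i : Idx p) (τ : ℍ) :
    xFam p i (ModularGroup.S • τ) = xFam p (permS p i) τ ∧
      uFam p i (ModularGroup.S • τ) = uFam p (permS p i) τ := by
  change _ = xFam p (funS p i) τ ∧ _ = uFam p (funS p i) τ
  cases i with
  | none =>
    have e : funS p none = some ((0 : ℤ) : ZMod p) := by simp [funS]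
    rw [e, xFam_some_intCast, uFam_some_intCast]
    exact ⟨xInf_S_smul p τ, uInf_S_smul p τ⟩
  | some b =>
    by_cases hb : b = 0
    · subst hb
      have e : funS p (some (0 : ZMod p)) = none := by simp [funS]
      rw [e]
      have : ((0 : ZMod p).val : ℤ) = 0 := by simp
      simp only [xFam, uFam, this]
      exact ⟨xInt_zero_S_smul p τ, uInt_zero_S_smul p τ⟩
    · have e : funS p (some b) = some (-b⁻¹) := by simp [funS, hb]
      rw [e]
      set b' : ZMod p := -b⁻¹ with hb'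
      have hmul : b * b' + 1 = 0 := by
        rw [hb', mul_neg, mul_inv_cancel₀ hb]; ring
      have hdvd : (p : ℤ) ∣ (b.val : ℤ) * (b'.val : ℤ) + 1 := by
        rw [← ZMod.intCast_zmod_eq_zero_iff_dvd]
        push_cast
        rw [ZMod.natCast_zmod_val, ZMod.natCast_zmod_val]
        exact hmul
      obtain ⟨k, hk⟩ := hdvd
      exact ⟨xInt_S_smul p _ _ k hk τ, uInt_S_smul p _ _ k hk τ⟩

/-- `SL(2, ℤ)` permutes the pairs `(x_i, u_i)` simultaneously. -/
theorem exists_perm (γ : SL(2, ℤ)) : ∃ π : Equiv.Perm (Idx p), ∀ (i : Idx p) (τ : ℍ),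
    xFam p i (γ • τ) = xFam p (π i) τ ∧ uFam p i (γ • τ) = uFam p (π i) τ := by
  have hγ : γ ∈ Subgroup.closure ({ModularGroup.S, ModularGroup.T} : Set SL(2, ℤ)) := by
    rw [SpecialLinearGroup.SL2Z_generators]; trivial
  induction hγ using Subgroup.closure_induction with
  | mem g hg =>
    rcases hg with rfl | rfl
    · exact ⟨permS p, fam_S_smul p⟩
    · exact ⟨permT p, fam_T_smul p⟩
  | one => exact ⟨1, fun i τ => by simp⟩
  | mul g h _ _ ihg ihh =>
    obtain ⟨π₁, h₁⟩ := ihg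
    obtain ⟨π₂, h₂⟩ := ihh
    refine ⟨π₁.trans π₂, fun i τ => ?_⟩
    rw [mul_smul]
    exact ⟨(h₁ i _).1.trans (h₂ _ τ).1, (h₁ i _).2.trans (h₂ _ τ).2⟩
  | inv g _ ih =>
    obtain ⟨π, h⟩ := ih
    refine ⟨π.symm, fun i τ => ?_⟩
    have h1 := h (π.symm i) (g⁻¹ • τ)
    rw [Equiv.apply_symm_apply, smul_inv_smul] at h1
    exact ⟨h1.1.symm, h1.2.symm⟩

end Family

end Fermat.Agent.Igusa
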