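/-
S28 (Igusa), node N-ME, part B: `q`-expansions of the conjugate functions after the substitution
`τ ↦ pτ` (honest `q`-series): `x_∞(pτ) = j(p²τ)`, `x_b(pτ) = j(τ + b/p)`, and the same for the
modular units.  All in the language `IsQExp` of `X0/QDict.lean` and the Puiseux model of
`Igusa/Subst.lean`.
-/
import Mathlib
import Fermat.Agent.Igusa.ModEqFun
import Fermat.Agent.Igusa.ModEqData

set_option autoImplicit false

namespace Fermat.Agent.Igusa

open UpperHalfPlane ModularForm Fermat.Agent.X0 Fermat.Agent.S23 Fermat.Agent.S23.PrimEltQExp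
open ModularCurve HahnSeries
open scoped MatrixGroups ModularForm Manifold

local notation "Δ" => ModularForm.discriminant

/-- `exp(2πi t)` as a unit of `ℂ`. -/
noncomputable def expUnit (t : ℝ) : ℂˣ :=
  Units.mk0 (Complex.exp (2 * Real.pi * Complex.I * t)) (Complex.exp_ne_zero _)

theorem coe_expUnit (t : ℝ) : (expUnit t : ℂ) = Complex.exp (2 * Real.pi * Complex.I * t) := rfl

theorem expUnit_add (s t : ℝ) : expUnit (s + t) = expUnit s * expUnit t := by
  apply Units.ext
  rw [Units.val_mul, coe_expUnit, coe_expUnit, coe_expUnit, ← Complex.exp_add]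
  congr 1
  push_cast
  ring

theorem expUnit_zero : expUnit 0 = 1 := by
  apply Units.ext
  rw [coe_expUnit]
  simp

theorem expUnit_nat_mul (n : ℕ) (t : ℝ) : expUnit (n * t) = expUnit t ^ n := by
  induction n with
  | zero => simp [expUnit_zero]
  | succ n ih =>
    rw [pow_succ, ← ih, ← expUnit_add]
    congr 1
    push_cast
    ring

theorem qParam_vadd (t : ℝ) (z : ℍ) :
    Function.Periodic.qParam 1 ((t +ᵥ z : ℍ) : ℂ) =
      (expUnit t : ℂ) * Function.Periodic.qParam 1 (z : ℂ) := by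
  rw [coe_vadd, Function.Periodic.qParam, Function.Periodic.qParam, coe_expUnit, ← Complex.exp_add]
  congr 1
  push_cast
  ring

/-- Translation `τ ↦ τ + t` twists the `q`-expansion by `q ↦ e^{2πit} q`. -/
theorem isQExp_vadd {s : LaurentSeries ℂ} {f : ℍ → ℂ} (hs : IsQExp s f) (t : ℝ) :
    IsQExp (scale (expUnit t) s) (fun z => f (t +ᵥ z)) := by
  intro z
  have h := hs (t +ᵥ z)
  rw [qParam_vadd] at h
  convert h using 2 with n
  rw [scale_coeff, mul_zpow, Units.val_zpow_eq_zpow_val]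
  ring

/-! ### Basic `q`-expansions -/

theorem isQExp_jAn' : IsQExp (jqModC ℂ) jAn := by
  have h := isQExp_jAn
  rwa [← jqModC_rat, coeffMap_jqModC] at h

theorem isQExp_disc : IsQExp (DeltaC ℂ) Δ := by
  have h := IsQExp.of_isNice L1Poly.isNice_discriminant
  rw [qExpansion_discriminant, map_mul, HahnSeries.ofPowerSeries_X] at h
  exact h

theorem isQExp_discInv : IsQExp (DeltaInvC ℂ) (fun z => (Δ z)⁻¹) := by
  have h1 : IsQExp (HahnSeries.single (-1 : ℤ) (1 : ℂ))
      (fun z : ℍ => (1 : ℂ) * Function.Periodic.qParam 1 (z : ℂ) ^ (-1 : ℤ)) :=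
    IsQExp.single (-1) 1
  have h2 := IsQExp.of_isNice isNice_etaInvFun
  rw [qExpansion_etaInvFun] at h2
  have h3 := h1.mul h2
  have e : ((fun z : ℍ => (1 : ℂ) * Function.Periodic.qParam 1 (z : ℂ) ^ (-1 : ℤ)) * etaInvFun) =
      fun z => (Δ z)⁻¹ := by
    funext z
    have hq : qFun z ≠ 0 := qFun_ne_zero z
    have he : etaFun z ^ 24 * etaInvFun z = 1 := congrFun etaFun_pow_mul_etaInvFun z
    have he0 : etaFun z ^ 24 ≠ 0 := left_ne_zero_of_mul_eq_one he
    simp only [Pi.mul_apply, one_mul, zpow_neg, zpow_one]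
    rw [discriminant_eq_qFun_mul, mul_inv, ← qFun_apply, eq_inv_of_mul_eq_one_right he]
  rw [e] at h3
  exact h3

/-! ### The scaled conjugates -/

section Scaled

variable (p : ℕ) [NeZero p]

theorem scaleH_scaleH (z : ℍ) : scaleH p (scaleH p z) = scaleH (p * p) z := by
  apply UpperHalfPlane.ext
  rw [coe_scaleH, coe_scaleH, coe_scaleH]
  push_cast
  ring

theorem sigmaH_scaleH (n : ℤ) (z : ℍ) : sigmaH p n (scaleH p z) = ((n : ℝ) / p) +ᵥ z := by
  apply UpperHalfPlane.ext
  rw [coe_sigmaH, coe_scaleH, coe_vadd]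
  have := pC_ne_zero p
  push_cast
  field_simp
  ring

theorem qExpand_qExpand {C : Type*} [CommRing C] (m n : ℕ) [NeZero m] [NeZero n]
    (f : LaurentSeries C) : qExpand C m (qExpand C n f) = qExpand C (m * n) f := by
  rw [← subst_one_unit, ← subst_one_unit, subst_subst, ← subst_one_unit]
  simp

/-- `ζ_p = exp(2πi/p)` as a unit of `ℂ`. -/
noncomputable def zetaC : ℂˣ := expUnit (1 / (p : ℝ))

omit [NeZero p] in
theorem expUnit_div (n : ℕ) : expUnit ((n : ℝ) / p) = zetaC p ^ n := by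
  rw [zetaC, ← expUnit_nat_mul]
  congr 1
  ring

theorem isQExp_xInf_scale : IsQExp (J (1 : ℂˣ) (p * p)) (fun z => xInf p (scaleH p z)) := by
  have h := isQExp_jAn'.scale (p * p)
  have e : J (1 : ℂˣ) (p * p) = qExpand ℂ (p * p) (jqModC ℂ) := J_one_unit (p * p)
  rw [e]
  intro z
  have : xInf p (scaleH p z) = jAn (scaleH (p * p) z) := by rw [xInf, scaleH_scaleH]
  change HasSum _ _
  simp only [this]
  exact h z

theorem isQExp_xInt_scale (n : ℕ) :
    IsQExp (J (zetaC p ^ n) 1) (fun z => xInt p (n : ℤ) (scaleH p z)) := by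
  have h := isQExp_vadd isQExp_jAn' ((n : ℝ) / p)
  rw [expUnit_div, ← subst_one_nat] at h
  intro z
  have : xInt p (n : ℤ) (scaleH p z) = jAn (((n : ℝ) / p) +ᵥ z) := by
    rw [xInt, sigmaH_scaleH, Int.cast_natCast]
  change HasSum _ _
  simp only [this]
  exact h z

theorem isQExp_uInf_scale : IsQExp (uInfS ℂ p) (fun z => uInf p (scaleH p z)) := by
  have h1 := isQExp_disc.scale (p * p)
  have h2 := isQExp_discInv.scale p
  have h := h1.mul h2
  intro z
  have : uInf p (scaleH p z) = Δ (scaleH (p * p) z) * (Δ (scaleH p z))⁻¹ := by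
    rw [uInf, scaleH_scaleH, div_eq_mul_inv]
  change HasSum _ _
  simp only [this]
  exact h z

theorem isQExp_uInt_scale (n : ℕ) :
    IsQExp (uFinS p (zetaC p) ((p : ℂ)⁻¹) n) (fun z => uInt p (n : ℤ) (scaleH p z)) := by
  have h1 := (IsQExp.const (((p : ℂ)⁻¹) ^ 12)).mul (isQExp_vadd isQExp_disc ((n : ℝ) / p))
  rw [expUnit_div] at h1
  have h := h1.mul (isQExp_discInv.scale p)
  intro z
  have : uInt p (n : ℤ) (scaleH p z) =
      ((p : ℂ)⁻¹) ^ 12 * Δ (((n : ℝ) / p) +ᵥ z) * (Δ (scaleH p z))⁻¹ := by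
    rw [uInt, sigmaH_scaleH, div_eq_mul_inv, Int.cast_natCast]
  change HasSum _ _
  simp only [this]
  exact h z

end Scaled

section FamilyQ

variable (p : ℕ) [hp : Fact p.Prime]

/-- The `q`-expansions of `x_i(pτ)`. -/
noncomputable def sX : Idx p → LaurentSeries ℂ
  | none => J (1 : ℂˣ) (p * p)
  | some b => J (zetaC p ^ b.val) 1

/-- The `q`-expansions of `u_i(pτ)`. -/
noncomputable def sU : Idx p → LaurentSeries ℂ
  | none => uInfS ℂ p
  | some b => uFinS p (zetaC p) ((p : ℂ)⁻¹) b.val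

theorem isQExp_xFam_scale (i : Idx p) : IsQExp (sX p i) (fun z => xFam p i (scaleH p z)) := by
  cases i with
  | none => exact isQExp_xInf_scale p
  | some b => exact isQExp_xInt_scale p b.val

theorem isQExp_uFam_scale (i : Idx p) : IsQExp (sU p i) (fun z => uFam p i (scaleH p z)) := by
  cases i with
  | none => exact isQExp_uInf_scale p
  | some b => exact isQExp_uInt_scale p b.val

end FamilyQ

end Fermat.Agent.Igusa
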