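/-
S28 (Igusa), node N-ME, part C: polynomials over the ring of functions `ℍ → ℂ` built from the
conjugates, their `SL(2, ℤ)`-invariance, and the lifting to `ℂ[j][X]` via the level one lemma
(`X0/KRat.lean`, `IsKRat.exists_poly`); then the transfer to formal `q`-expansions.
-/
import Mathlib
import Fermat.Agent.Igusa.ModEqQ

set_option autoImplicit false

namespace Fermat.Agent.Igusa

open UpperHalfPlane ModularForm Fermat.Agent.X0 Fermat.Agent.S23 Fermat.Agent.S23.PrimEltQExp
open ModularCurve Polynomial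
open scoped MatrixGroups ModularForm Manifold

local notation "Δ" => ModularForm.discriminant

/-! ### Holomorphy of compositions -/

theorem mdiff_comp_of_coe {g : ℍ → ℍ} {φ : ℂ → ℂ} (hφ : Differentiable ℂ φ)
    (hg : ∀ τ : ℍ, (g τ : ℂ) = φ τ) {F : ℍ → ℂ} (hF : MDiff F) : MDiff (fun τ => F (g τ)) := by
  rw [UpperHalfPlane.mdifferentiable_iff] at hF ⊢
  have hmaps : Set.MapsTo φ {z : ℂ | 0 < z.im} {z : ℂ | 0 < z.im} := by
    intro z hz
    have := (g ⟨z, hz⟩).im_pos
    rw [← UpperHalfPlane.coe_im, hg] at this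
    exact this
  refine (hF.comp hφ.differentiableOn hmaps).congr ?_
  intro z hz
  simp only [Function.comp_apply]
  rw [ofComplex_apply_of_im_pos hz]
  congr 1
  apply UpperHalfPlane.ext
  rw [hg, ofComplex_apply_of_im_pos (hmaps hz)]

section MDiffFuns

variable (p : ℕ) [NeZero p]

theorem mdiff_comp_scaleH {F : ℍ → ℂ} (hF : MDiff F) : MDiff (fun τ => F (scaleH p τ)) :=
  mdiff_comp_of_coe (φ := fun z => (p : ℂ) * z) (by fun_prop) (fun τ => coe_scaleH p τ) hF

theorem mdiff_comp_sigmaH (n : ℤ) {F : ℍ → ℂ} (hF : MDiff F) :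
    MDiff (fun τ => F (sigmaH p n τ)) :=
  mdiff_comp_of_coe (φ := fun z => (z + n) / p) (by fun_prop) (fun τ => coe_sigmaH p n τ) hF

theorem mdiff_jAn : MDiff jAn := jFun_mdiff

theorem mdiff_xInf : MDiff (xInf p) := mdiff_comp_scaleH p mdiff_jAn

theorem mdiff_xInt (n : ℤ) : MDiff (xInt p n) := mdiff_comp_sigmaH p n mdiff_jAn

theorem mdiff_uInf : MDiff (uInf p) :=
  (mdiff_comp_scaleH p discriminant_mdiff).div discriminant_mdiff disc_ne_zero

theorem mdiff_uInt (n : ℤ) : MDiff (uInt p n) := by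
  have h1 : MDiff (fun τ : ℍ => ((p : ℂ)⁻¹) ^ 12 * Δ (sigmaH p n τ)) :=
    mdifferentiable_const.mul (mdiff_comp_sigmaH p n discriminant_mdiff)
  exact h1.div discriminant_mdiff disc_ne_zero

end MDiffFuns

/-! ### Precomposition and the ring of regular functions -/

/-- Precomposition with a self-map of `ℍ`, as a ring hom of `ℍ → ℂ`. -/
def precomp (g : ℍ → ℍ) : (ℍ → ℂ) →+* (ℍ → ℂ) :=
  RingHom.pi fun τ => Pi.evalRingHom (fun _ : ℍ => ℂ) (g τ)

@[simp] theorem precomp_apply (g : ℍ → ℍ) (f : ℍ → ℂ) (τ : ℍ) : precomp g f τ = f (g τ) := rfl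

section Reg

variable (p : ℕ) [NeZero p]

/-- Holomorphic functions `f` such that `f(pτ)` is `1`-periodic and meromorphic at `i∞`. -/
def regSubring : Subring (ℍ → ℂ) where
  carrier := {f | MDiff f ∧ IsMerCusp (fun z => f (scaleH p z))}
  mul_mem' ha hb := ⟨ha.1.mul hb.1, ha.2.mul hb.2⟩
  one_mem' := ⟨mdifferentiable_const, isMerCusp_const 1⟩
  add_mem' ha hb := ⟨ha.1.add hb.1, ha.2.add hb.2⟩
  zero_mem' := ⟨mdifferentiable_const, isMerCusp_const 0⟩
  neg_mem' ha := ⟨ha.1.neg, ha.2.neg⟩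

theorem mem_regSubring {f : ℍ → ℂ} :
    f ∈ regSubring p ↔ MDiff f ∧ IsMerCusp (fun z => f (scaleH p z)) := Iff.rfl

/-- Evaluation of a complex polynomial at the function `j`. -/
noncomputable def evJ : ℂ[X] →+* (ℍ → ℂ) := (Polynomial.aeval jAn : ℂ[X] →ₐ[ℂ] (ℍ → ℂ)).toRingHom

theorem evJ_apply (P : ℂ[X]) (z : ℍ) : evJ P z = P.eval (jAn z) := by
  change (Polynomial.aeval jAn P) z = _
  have := Polynomial.aeval_algHom_apply (Pi.evalAlgHom ℂ (fun _ : ℍ => ℂ) z) jAn P
  simpa using this.symm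

/-- An invariant regular function is a polynomial in `j`. -/
theorem mem_range_evJ {φ : ℍ → ℂ} (hφ : φ ∈ regSubring p)
    (hinv : ∀ (γ : SL(2, ℤ)) (z : ℍ), φ (γ • z) = φ z) : φ ∈ Set.range evJ := by
  have hk : IsKRat (RingHom.id ℂ) p φ := by
    refine ⟨hφ.2, ?_⟩
    refine ⟨qexpL (fun z => φ (scaleH p z)), ?_⟩
    exact coeffMap_id _
  obtain ⟨P, hP⟩ := IsKRat.exists_poly hφ.1 hinv hk
  refine ⟨P, ?_⟩
  funext z
  rw [evJ_apply, hP z, Polynomial.map_id, jAn_apply]

/-- A polynomial over `ℍ → ℂ` with regular coefficients which is invariant under `SL(2, ℤ)`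
comes from `ℂ[j][X]`. -/
theorem mem_lifts_evJ (Q : (ℍ → ℂ)[X]) (hreg : ∀ k, Q.coeff k ∈ regSubring p)
    (hinv : ∀ γ : SL(2, ℤ), Q.map (precomp fun τ => γ • τ) = Q) :
    Q ∈ Polynomial.lifts evJ := by
  rw [Polynomial.lifts_iff_coeff_lifts]
  intro k
  refine mem_range_evJ p (hreg k) fun γ z => ?_
  have := congrArg (fun R => R.coeff k z) (hinv γ)
  simp only [Polynomial.coeff_map, precomp_apply] at this
  exact this

end Reg

/-! ### The three polynomials over the ring of functions -/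

section Fams

variable (p : ℕ) [hp : Fact p.Prime]

theorem xFam_mdiff (i : Idx p) : MDiff (xFam p i) := by
  cases i with
  | none => exact mdiff_xInf p
  | some b => exact mdiff_xInt p _

theorem uFam_mdiff (i : Idx p) : MDiff (uFam p i) := by
  cases i with
  | none => exact mdiff_uInf p
  | some b => exact mdiff_uInt p _

theorem xFam_mem (i : Idx p) : xFam p i ∈ regSubring p :=
  ⟨xFam_mdiff p i, (isQExp_xFam_scale p i).isMerCusp⟩

theorem uFam_mem (i : Idx p) : uFam p i ∈ regSubring p :=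
  ⟨uFam_mdiff p i, (isQExp_uFam_scale p i).isMerCusp⟩

/-- `∏ (X - x_i)` over the ring of functions. -/
noncomputable def PhiFun : (ℍ → ℂ)[X] := ∏ i : Idx p, (X - C (xFam p i))

/-- `∏ (X - u_i)` over the ring of functions. -/
noncomputable def PsiFun : (ℍ → ℂ)[X] := ∏ i : Idx p, (X - C (uFam p i))

/-- `∑ u_i ∏_{k ≠ i} (X - x_k)` over the ring of functions. -/
noncomputable def PFun : (ℍ → ℂ)[X] :=
  ∑ i : Idx p, C (uFam p i) * ∏ k ∈ Finset.univ.erase i, (X - C (xFam p k))

theorem coeff_mem_of_eq_map {S : Subring (ℍ → ℂ)} {Q : (ℍ → ℂ)[X]} {Q' : S[X]}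
    (h : Q = Q'.map S.subtype) (k : ℕ) : Q.coeff k ∈ S := by
  rw [h, Polynomial.coeff_map]
  exact (Q'.coeff k).2

theorem PhiFun_coeff_mem (k : ℕ) : (PhiFun p).coeff k ∈ regSubring p := by
  refine coeff_mem_of_eq_map (Q' := ∏ i : Idx p, (X - C ⟨xFam p i, xFam_mem p i⟩)) ?_ k
  rw [PhiFun, Polynomial.map_prod]
  simp

theorem PsiFun_coeff_mem (k : ℕ) : (PsiFun p).coeff k ∈ regSubring p := by
  refine coeff_mem_of_eq_map (Q' := ∏ i : Idx p, (X - C ⟨uFam p i, uFam_mem p i⟩)) ?_ k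
  rw [PsiFun, Polynomial.map_prod]
  simp

theorem PFun_coeff_mem (k : ℕ) : (PFun p).coeff k ∈ regSubring p := by
  refine coeff_mem_of_eq_map (Q' := ∑ i : Idx p, C ⟨uFam p i, uFam_mem p i⟩ *
    ∏ j ∈ Finset.univ.erase i, (X - C ⟨xFam p j, xFam_mem p j⟩)) ?_ k
  rw [PFun, Polynomial.map_sum]
  simp [Polynomial.map_prod]

theorem PhiFun_inv (γ : SL(2, ℤ)) : (PhiFun p).map (precomp fun τ => γ • τ) = PhiFun p := by
  obtain ⟨π, hπ⟩ := exists_perm p γ
  have hx : ∀ i, precomp (fun τ => γ • τ) (xFam p i) = xFam p (π i) :=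
    fun i => funext fun τ => (hπ i τ).1
  rw [PhiFun, Polynomial.map_prod]
  simp only [Polynomial.map_sub, Polynomial.map_X, Polynomial.map_C, hx]
  exact Equiv.prod_comp π fun i => X - C (xFam p i)

theorem PsiFun_inv (γ : SL(2, ℤ)) : (PsiFun p).map (precomp fun τ => γ • τ) = PsiFun p := by
  obtain ⟨π, hπ⟩ := exists_perm p γ
  have hu : ∀ i, precomp (fun τ => γ • τ) (uFam p i) = uFam p (π i) :=
    fun i => funext fun τ => (hπ i τ).2
  rw [PsiFun, Polynomial.map_prod]
  simp only [Polynomial.map_sub, Polynomial.map_X, Polynomial.map_C, hu]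
  exact Equiv.prod_comp π fun i => X - C (uFam p i)

theorem PFun_inv (γ : SL(2, ℤ)) : (PFun p).map (precomp fun τ => γ • τ) = PFun p := by
  obtain ⟨π, hπ⟩ := exists_perm p γ
  have hx : ∀ i, precomp (fun τ => γ • τ) (xFam p i) = xFam p (π i) :=
    fun i => funext fun τ => (hπ i τ).1
  have hu : ∀ i, precomp (fun τ => γ • τ) (uFam p i) = uFam p (π i) :=
    fun i => funext fun τ => (hπ i τ).2
  rw [PFun, Polynomial.map_sum]
  simp only [Polynomial.map_mul, Polynomial.map_prod, Polynomial.map_sub, Polynomial.map_X,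
    Polynomial.map_C, hx, hu]
  rw [← Equiv.sum_comp π fun i => C (uFam p i) * ∏ k ∈ Finset.univ.erase i, (X - C (xFam p k))]
  refine Finset.sum_congr rfl fun i _ => ?_
  congr 1
  exact Finset.prod_equiv π (by simp) (fun _ _ => rfl)

theorem PhiFun_monic : (PhiFun p).Monic :=
  Polynomial.monic_prod_of_monic _ _ fun _ _ => Polynomial.monic_X_sub_C _

theorem PsiFun_monic : (PsiFun p).Monic :=
  Polynomial.monic_prod_of_monic _ _ fun _ _ => Polynomial.monic_X_sub_C _

theorem card_Idx : Fintype.card (Idx p) = p + 1 := by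
  rw [Fintype.card_option, ZMod.card]

theorem PhiFun_natDegree : (PhiFun p).natDegree = p + 1 := by
  rw [PhiFun, Polynomial.natDegree_finsetProd_X_sub_C_eq_card, Finset.card_univ, card_Idx]

theorem PsiFun_natDegree : (PsiFun p).natDegree = p + 1 := by
  rw [PsiFun, Polynomial.natDegree_finsetProd_X_sub_C_eq_card, Finset.card_univ, card_Idx]

theorem exists_PhiC : ∃ Φ : ℂ[X][X], Φ.Monic ∧ Φ.natDegree = p + 1 ∧ Φ.map evJ = PhiFun p := by
  obtain ⟨Φ, h1, h2, h3⟩ := Polynomial.lifts_and_natDegree_eq_and_monic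
    (mem_lifts_evJ p (PhiFun p) (PhiFun_coeff_mem p) (PhiFun_inv p)) (PhiFun_monic p)
  exact ⟨Φ, h3, by rw [h2, PhiFun_natDegree], h1⟩

theorem exists_PsiC : ∃ Ψ : ℂ[X][X], Ψ.Monic ∧ Ψ.natDegree = p + 1 ∧ Ψ.map evJ = PsiFun p := by
  obtain ⟨Ψ, h1, h2, h3⟩ := Polynomial.lifts_and_natDegree_eq_and_monic
    (mem_lifts_evJ p (PsiFun p) (PsiFun_coeff_mem p) (PsiFun_inv p)) (PsiFun_monic p)
  exact ⟨Ψ, h3, by rw [h2, PsiFun_natDegree], h1⟩

theorem exists_PC : ∃ P : ℂ[X][X], P.map evJ = PFun p :=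
  mem_lifts_evJ p (PFun p) (PFun_coeff_mem p) (PFun_inv p)

end Fams

/-! ### Transfer to formal `q`-expansions -/

section Transfer

variable (p : ℕ) [NeZero p]

/-- Constant functions, as a ring hom into `merCuspSubring`. -/
noncomputable def constM : ℂ →+* merCuspSubring :=
  (algebraMap ℂ (ℍ → ℂ)).codRestrict merCuspSubring fun c => isMerCusp_const c

/-- The function `j(pτ)` as an element of `merCuspSubring`. -/
noncomputable def jS : merCuspSubring := ⟨fun z => jAn (scaleH p z), isMerCusp_jAn_scale p⟩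

/-- Evaluation at `j(pτ)` with values in `merCuspSubring`. -/
noncomputable def evJS : ℂ[X] →+* merCuspSubring := Polynomial.eval₂RingHom constM (jS p)

theorem precomp_comp_evJ :
    (precomp (scaleH p)).comp evJ = merCuspSubring.subtype.comp (evJS p) := by
  apply Polynomial.ringHom_ext
  · intro c
    funext z
    simp only [RingHom.comp_apply, evJ, evJS, constM, AlgHom.toRingHom_eq_coe, RingHom.coe_coe,
      Polynomial.aeval_C, precomp_apply, Polynomial.coe_eval₂RingHom, Polynomial.eval₂_C,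
      Subring.subtype_apply]
    rfl
  · funext z
    simp [evJ, evJS, jS]

theorem qexpL_jS : qexpL (fun z => jAn (scaleH p z)) = J (1 : ℂˣ) p := by
  rw [J_one_unit]
  exact (isQExp_jAn'.scale p).qexpL_eq

theorem qexpLHom_comp_evJS :
    qexpLHom.comp (evJS p) =
      Polynomial.eval₂RingHom (HahnSeries.C : ℂ →+* LaurentSeries ℂ) (J (1 : ℂˣ) p) := by
  apply Polynomial.ringHom_ext
  · intro c
    simp only [RingHom.comp_apply, evJS, Polynomial.coe_eval₂RingHom, Polynomial.eval₂_C,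
      qexpLHom_apply]
    exact qexpL_const c
  · simp only [RingHom.comp_apply, evJS, Polynomial.coe_eval₂RingHom, Polynomial.eval₂_X,
      qexpLHom_apply]
    exact qexpL_jS p

/-- **Transfer.** A polynomial identity over functions becomes, after `τ ↦ pτ`, an identity of
formal `q`-expansions. -/
theorem qexp_transfer (Φ : ℂ[X][X]) (Q : (ℍ → ℂ)[X]) (hΦ : Φ.map evJ = Q)
    (Q' : merCuspSubring[X])
    (hQ : Q.map (precomp (scaleH p)) = Q'.map merCuspSubring.subtype) :
    evY (J (1 : ℂˣ) p) Φ = Q'.map qexpLHom := by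
  have h1 : (Φ.map (evJS p)).map merCuspSubring.subtype = Q'.map merCuspSubring.subtype := by
    rw [Polynomial.map_map, ← precomp_comp_evJ, ← Polynomial.map_map, hΦ, hQ]
  have h2 : Φ.map (evJS p) = Q' :=
    Polynomial.map_injective _ Subtype.val_injective h1
  rw [evY_apply, ← qexpLHom_comp_evJS, ← Polynomial.map_map, h2]

end Transfer

/-! ### The modular equations over `ℂ` -/

section Complex

variable (p : ℕ) [hp : Fact p.Prime]

/-- `x_i(pτ)` as an element of `merCuspSubring`. -/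
noncomputable def xM (i : Idx p) : merCuspSubring :=
  ⟨fun z => xFam p i (scaleH p z), (isQExp_xFam_scale p i).isMerCusp⟩

/-- `u_i(pτ)` as an element of `merCuspSubring`. -/
noncomputable def uM (i : Idx p) : merCuspSubring :=
  ⟨fun z => uFam p i (scaleH p z), (isQExp_uFam_scale p i).isMerCusp⟩

theorem qexpLHom_xM (i : Idx p) : qexpLHom (xM p i) = sX p i := (isQExp_xFam_scale p i).qexpL_eq

theorem qexpLHom_uM (i : Idx p) : qexpLHom (uM p i) = sU p i := (isQExp_uFam_scale p i).qexpL_eq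

/-- **The modular equations over `ℂ`**, indexed by `Idx p = Option (ZMod p)`. -/
theorem exists_modEq_complex : ∃ Φ Ψ P : ℂ[X][X],
    Φ.Monic ∧ Φ.natDegree = p + 1 ∧ Ψ.Monic ∧ Ψ.natDegree = p + 1 ∧
    evY (J (1 : ℂˣ) p) Φ = ∏ i : Idx p, (X - C (sX p i)) ∧
    evY (J (1 : ℂˣ) p) Ψ = ∏ i : Idx p, (X - C (sU p i)) ∧
    evY (J (1 : ℂˣ) p) P =
      ∑ i : Idx p, C (sU p i) * ∏ k ∈ Finset.univ.erase i, (X - C (sX p k)) := by
  obtain ⟨Φ, hΦm, hΦd, hΦ⟩ := exists_PhiC p
  obtain ⟨Ψ, hΨm, hΨd, hΨ⟩ := exists_PsiC p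
  obtain ⟨P, hP⟩ := exists_PC p
  refine ⟨Φ, Ψ, P, hΦm, hΦd, hΨm, hΨd, ?_, ?_, ?_⟩
  · rw [qexp_transfer p Φ (PhiFun p) hΦ (∏ i : Idx p, (X - C (xM p i)))]
    · simp only [Polynomial.map_prod, Polynomial.map_sub, Polynomial.map_X, Polynomial.map_C,
        qexpLHom_xM]
    · rw [PhiFun, Polynomial.map_prod, Polynomial.map_prod]
      simp only [Polynomial.map_sub, Polynomial.map_X, Polynomial.map_C]
      rfl
  · rw [qexp_transfer p Ψ (PsiFun p) hΨ (∏ i : Idx p, (X - C (uM p i)))]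
    · simp only [Polynomial.map_prod, Polynomial.map_sub, Polynomial.map_X, Polynomial.map_C,
        qexpLHom_uM]
    · rw [PsiFun, Polynomial.map_prod, Polynomial.map_prod]
      simp only [Polynomial.map_sub, Polynomial.map_X, Polynomial.map_C]
      rfl
  · rw [qexp_transfer p P (PFun p) hP
      (∑ i : Idx p, C (uM p i) * ∏ k ∈ Finset.univ.erase i, (X - C (xM p k)))]
    · simp only [Polynomial.map_sum, Polynomial.map_mul, Polynomial.map_prod, Polynomial.map_sub,
        Polynomial.map_X, Polynomial.map_C, qexpLHom_xM, qexpLHom_uM]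
    · rw [PFun, Polynomial.map_sum, Polynomial.map_sum]
      simp only [Polynomial.map_mul, Polynomial.map_prod, Polynomial.map_sub, Polynomial.map_X,
        Polynomial.map_C]
      rfl

end Complex

end Fermat.Agent.Igusa
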