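/-
S28 (Igusa), node N-ME, final part: existence of `ModEqData` over every subring `A ⊆ ℂ`
containing `ζ_p = exp(2πi/p)` and `1/p`.
-/
import Mathlib
import Fermat.Agent.Igusa.ModEqPoly
import Fermat.Agent.Igusa.ModEqDescent

set_option autoImplicit false

namespace Fermat.Agent.Igusa

open ModularCurve Polynomial

/-! ### Reindexing -/

section Reindex

variable {M : Type*} [CommMonoid M]

theorem prod_zmod_val (p : ℕ) [NeZero p] (f : ℕ → M) :
    ∏ b : ZMod p, f b.val = ∏ b ∈ Finset.range p, f b := by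
  obtain ⟨n, rfl⟩ := Nat.exists_eq_succ_of_ne_zero (NeZero.ne p)
  exact Fin.prod_univ_eq_prod_range f (n + 1)

theorem prod_erase_none {α : Type*} [Fintype α] [DecidableEq α] (g : Option α → M) :
    ∏ k ∈ Finset.univ.erase (none : Option α), g k = ∏ a, g (some a) := by
  have h : (Finset.univ : Finset (Option α)).erase none =
      (Finset.univ : Finset α).map Function.Embedding.some := by
    ext k
    cases k <;> simp
  rw [h, Finset.prod_map]
  rfl

end Reindex

/-! ### From the `Idx p`-indexed identities to `ModEqData` -/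

section OfIdx

variable {C : Type*} [CommRing C] (p : ℕ) [hp : Fact p.Prime] (ζ : Cˣ) (pinv : C)

/-- The formal conjugates over `C`. -/
noncomputable def tX : Idx p → LaurentSeries C
  | none => J (1 : Cˣ) (p * p)
  | some b => J (ζ ^ b.val) 1

/-- The formal conjugate units over `C`. -/
noncomputable def tU : Idx p → LaurentSeries C
  | none => uInfS C p
  | some b => uFinS p ζ pinv b.val

/-- `ModEqData` from the identities indexed by `Idx p`. -/
noncomputable def ModEqData.ofIdx (Φ Ψ P : C[X][X]) (hΦm : Φ.Monic) (hΦd : Φ.natDegree = p + 1)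
    (hΨm : Ψ.Monic) (hΨd : Ψ.natDegree = p + 1)
    (h1 : evY (J (1 : Cˣ) p) Φ = ∏ i : Idx p, (X - Polynomial.C (tX p ζ i)))
    (h2 : evY (J (1 : Cˣ) p) Ψ = ∏ i : Idx p, (X - Polynomial.C (tU p ζ pinv i)))
    (h3 : evY (J (1 : Cˣ) p) P = ∑ i : Idx p, Polynomial.C (tU p ζ pinv i) *
      ∏ k ∈ Finset.univ.erase i, (X - Polynomial.C (tX p ζ k))) :
    ModEqData C p ζ pinv where
  Phi := Φ
  Psi := Ψ
  P := P
  Phi_monic := hΦm
  Phi_natDegree := hΦd
  Psi_monic := hΨm
  Psi_natDegree := hΨd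
  me1 := by
    rw [h1, Fintype.prod_option]
    congr 1
    exact prod_zmod_val p fun n => X - Polynomial.C (J (ζ ^ n) 1)
  psi_root := by
    rw [h2, Polynomial.eval_prod]
    refine Finset.prod_eq_zero (Finset.mem_univ none) ?_
    simp [tU]
  me3_eval := by
    rw [h3, Polynomial.eval_finsetSum, Finset.sum_eq_single none]
    · rw [Polynomial.eval_mul, Polynomial.eval_C, Polynomial.eval_prod, prod_erase_none]
      simp only [Polynomial.eval_sub, Polynomial.eval_X, Polynomial.eval_C]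
      change uInfS C p * ∏ b : ZMod p, (J (1 : Cˣ) (p * p) - J (ζ ^ b.val) 1) = _
      congr 1
      exact prod_zmod_val p fun n => J (1 : Cˣ) (p * p) - J (ζ ^ n) 1
    · intro i _ hi
      rw [Polynomial.eval_mul, Polynomial.eval_prod]
      have hmem : (none : Idx p) ∈ Finset.univ.erase i :=
        Finset.mem_erase.mpr ⟨fun h => hi h.symm, Finset.mem_univ _⟩
      rw [Finset.prod_eq_zero hmem, mul_zero]
      simp [tX]
    · intro h
      exact absurd (Finset.mem_univ _) h

end OfIdx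

/-! ### Existence over subrings of `ℂ` -/

section Exist

variable (p : ℕ) [hp : Fact p.Prime] (A : Subring ℂ)

theorem expUnit_one : expUnit 1 = 1 := by
  apply Units.ext
  rw [coe_expUnit]
  simp

theorem zetaC_pow_self : zetaC p ^ p = 1 := by
  rw [← expUnit_div, div_self (Nat.cast_ne_zero.mpr hp.out.ne_zero), expUnit_one]

theorem isPrimitiveRoot_zetaC : IsPrimitiveRoot (zetaC p) p := by
  rw [← IsPrimitiveRoot.coe_units_iff]
  have h := Complex.isPrimitiveRoot_exp p hp.out.ne_zero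
  convert h using 1
  rw [zetaC, coe_expUnit]
  congr 1
  push_cast
  ring

variable {A} (hζ : ((zetaC p : ℂˣ) : ℂ) ∈ A) (hpinv : ((p : ℂ)⁻¹) ∈ A)

/-- `ζ_p` as a unit of the subring `A`. -/
noncomputable def zetaA : Aˣ where
  val := ⟨zetaC p, hζ⟩
  inv := ⟨((zetaC p : ℂˣ) : ℂ) ^ (p - 1), pow_mem hζ _⟩
  val_inv := by
    apply Subtype.ext
    change ((zetaC p : ℂˣ) : ℂ) * ((zetaC p : ℂˣ) : ℂ) ^ (p - 1) = 1
    rw [← pow_succ', Nat.sub_add_cancel hp.out.one_le, ← Units.val_pow_eq_pow_val, zetaC_pow_self,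
      Units.val_one]
  inv_val := by
    apply Subtype.ext
    change ((zetaC p : ℂˣ) : ℂ) ^ (p - 1) * ((zetaC p : ℂˣ) : ℂ) = 1
    rw [← pow_succ, Nat.sub_add_cancel hp.out.one_le, ← Units.val_pow_eq_pow_val, zetaC_pow_self,
      Units.val_one]

theorem map_zetaA : Units.map (A.subtype : A →* ℂ) (zetaA p hζ) = zetaC p := Units.ext rfl

theorem isPrimitiveRoot_zetaA : IsPrimitiveRoot (zetaA p hζ) p := by
  have h := isPrimitiveRoot_zetaC p
  rw [← map_zetaA p hζ] at h
  refine IsPrimitiveRoot.of_map_of_injective (f := Units.map (A.subtype : A →* ℂ)) h ?_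
  exact Units.map_injective (f := (A.subtype : A →* ℂ)) Subtype.val_injective

theorem coeffMap_tX (i : Idx p) : coeffMap A.subtype (tX p (zetaA p hζ) i) = sX p i := by
  cases i with
  | none => simp only [tX, sX]; rw [coeffMap_J, map_one]
  | some b => simp only [tX, sX]; rw [coeffMap_J, map_pow, map_zetaA]

theorem coeffMap_tU (i : Idx p) :
    coeffMap A.subtype (tU p (zetaA p hζ) ⟨(p : ℂ)⁻¹, hpinv⟩ i) = sU p i := by
  cases i with
  | none => simp only [tU, sU]; exact coeffMap_uInfS _ p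
  | some b =>
    simp only [tU, sU]
    rw [coeffMap_uFinS, map_zetaA]
    rfl

/-- **N-ME.** Modular equation data exist over every subring of `ℂ` containing
`ζ_p = exp(2πi/p)` and `1/p`. -/
theorem nonempty_modEqData :
    Nonempty (ModEqData A p (zetaA p hζ) ⟨(p : ℂ)⁻¹, hpinv⟩) := by
  obtain ⟨Φ, Ψ, P, hΦm, hΦd, hΨm, hΨd, h1, h2, h3⟩ := exists_modEq_complex p
  set ι := coeffMap A.subtype with hι
  have hinj : Function.Injective (Polynomial.map ι) :=
    Polynomial.map_injective _ (coeffMap_subtype_injective A)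
  -- the right-hand sides come from `A`
  have e1 : ∏ i : Idx p, (X - Polynomial.C (sX p i)) =
      (∏ i : Idx p, (X - Polynomial.C (tX p (zetaA p hζ) i))).map ι := by
    rw [Polynomial.map_prod]
    simp only [Polynomial.map_sub, Polynomial.map_X, Polynomial.map_C, hι, coeffMap_tX]
  have e2 : ∏ i : Idx p, (X - Polynomial.C (sU p i)) =
      (∏ i : Idx p, (X - Polynomial.C (tU p (zetaA p hζ) ⟨(p : ℂ)⁻¹, hpinv⟩ i))).map ι := by
    rw [Polynomial.map_prod]
    simp only [Polynomial.map_sub, Polynomial.map_X, Polynomial.map_C, hι, coeffMap_tU]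
  have e3 : ∑ i : Idx p, Polynomial.C (sU p i) *
        ∏ k ∈ Finset.univ.erase i, (X - Polynomial.C (sX p k)) =
      (∑ i : Idx p, Polynomial.C (tU p (zetaA p hζ) ⟨(p : ℂ)⁻¹, hpinv⟩ i) *
        ∏ k ∈ Finset.univ.erase i, (X - Polynomial.C (tX p (zetaA p hζ) k))).map ι := by
    rw [Polynomial.map_sum]
    simp only [Polynomial.map_mul, Polynomial.map_prod, Polynomial.map_sub, Polynomial.map_X,
      Polynomial.map_C, hι, coeffMap_tX, coeffMap_tU]
  -- descent
  have hJ : ι (J (1 : Aˣ) p) = J (1 : ℂˣ) p := by rw [hι, coeffMap_J, map_one]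
  have key : ∀ (Θ : ℂ[X][X]) (R : (LaurentSeries A)[X]), evY (J (1 : ℂˣ) p) Θ = R.map ι →
      ∃ Θ' : A[X][X], Θ'.map (Polynomial.mapRingHom A.subtype) = Θ ∧
        evY (J (1 : Aˣ) p) Θ' = R := by
    intro Θ R hΘ
    have hl : Θ ∈ Polynomial.lifts (Polynomial.mapRingHom A.subtype) :=
      mem_lifts_of_evY_coeff_mem p A Θ fun n => by
        rw [hΘ, Polynomial.coeff_map]
        exact ⟨_, rfl⟩
    obtain ⟨Θ', hΘ'⟩ := hl
    refine ⟨Θ', hΘ', hinj ?_⟩
    rw [← hΘ, ← hΘ', ← hJ]
    exact (evY_map A.subtype (J (1 : Aˣ) p) Θ').symm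
  obtain ⟨Φ', hΦ', hΦ1⟩ := key Φ _ (h1.trans e1)
  obtain ⟨Ψ', hΨ', hΨ2⟩ := key Ψ _ (h2.trans e2)
  obtain ⟨P', -, hP3⟩ := key P _ (h3.trans e3)
  have hmapinj : Function.Injective (Polynomial.map (Polynomial.mapRingHom A.subtype)) :=
    Polynomial.map_injective _ (Polynomial.map_injective _ Subtype.val_injective)
  have hΦ'm : Φ'.Monic := by
    rw [← hΦ'] at hΦm
    exact Polynomial.monic_of_injective
      (Polynomial.map_injective _ Subtype.val_injective) hΦm
  have hΨ'm : Ψ'.Monic := by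
    rw [← hΨ'] at hΨm
    exact Polynomial.monic_of_injective
      (Polynomial.map_injective _ Subtype.val_injective) hΨm
  have hΦ'd : Φ'.natDegree = p + 1 := by
    rw [← hΦd, ← hΦ', hΦ'm.natDegree_map]
  have hΨ'd : Ψ'.natDegree = p + 1 := by
    rw [← hΨd, ← hΨ', hΨ'm.natDegree_map]
  exact ⟨ModEqData.ofIdx p _ _ Φ' Ψ' P' hΦ'm hΦ'd hΨ'm hΨ'd hΦ1 hΨ2 hP3⟩

end Exist

end Fermat.Agent.Igusa
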