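/-
S28 (Igusa), node N-RED, part 2: modular equation data over an algebraically closed field of
characteristic `ℓ ∤ N`, for every prime `p ∣ N` (with a primitive `p`-th root of unity), obtained
by reducing the analytic data over `C' = modEqCoeffRing N` (`Igusa/ModEqExist.lean`) modulo a
maximal ideal above `ℓ`.  This is the input of the tower (`Igusa/Tower.lean`) and of the base case.
-/
import Fermat.Agent.Igusa.ModEqExist
import Fermat.Agent.Igusa.CoeffRing

set_option autoImplicit false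

namespace Fermat.Agent.Igusa

section Reduction

/-- `ζ_p = exp(2πi/p)` lies in `C'`. -/
theorem zetaC_mem_modEqCoeffRing (N p : ℕ) [hp : Fact p.Prime] :
    ((zetaC p : ℂˣ) : ℂ) ∈ modEqCoeffRing N :=
  mem_modEqCoeffRing_of_pow_eq_one hp.out.pos (by
    rw [← Units.val_pow_eq_pow_val, zetaC_pow_self, Units.val_one])

/-- Modular equation data over `C'` for every prime `p ∣ N`. -/
theorem nonempty_modEqData_modEqCoeffRing (N p : ℕ) [hp : Fact p.Prime] (hpN : p ∣ N) :
    Nonempty (ModEqData (modEqCoeffRing N) p (zetaA p (zetaC_mem_modEqCoeffRing N p))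
      ⟨(p : ℂ)⁻¹, natCast_inv_mem_modEqCoeffRing hp.out.ne_zero hpN⟩) :=
  nonempty_modEqData p _ _

/-- **Modular equation data in characteristic `ℓ`.** For `ℓ ∤ N` there is an algebraically closed
field `F` of characteristic `ℓ` carrying, for every prime `p ∣ N`, modular equation data
`ModEqData F p ζ pinv` with `ζ` a primitive `p`-th root of unity. -/
theorem exists_modEqData_charP {N ℓ : ℕ} (hℓ : ℓ.Prime) (hℓN : ¬ ℓ ∣ N) :
    ∃ (F : Type) (_ : Field F) (_ : IsAlgClosed F) (_ : CharP F ℓ),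
      ∀ (p : ℕ) (hp : p.Prime), p ∣ N → ∃ (ζ : Fˣ) (pinv : F),
        IsPrimitiveRoot ζ p ∧ Nonempty (@ModEqData F _ p ⟨hp.ne_zero⟩ ζ pinv) := by
  obtain ⟨F, hF, hac, hch, ρ, hρ⟩ := exists_reduction_modEqCoeffRing (N := N) hℓ hℓN
  refine ⟨F, hF, hac, hch, fun p hp hpN => ?_⟩
  have : Fact p.Prime := ⟨hp⟩
  obtain ⟨d⟩ := nonempty_modEqData_modEqCoeffRing N p hpN
  exact ⟨_, _, hρ p hp hpN _ (isPrimitiveRoot_zetaA p _), ⟨d.map ρ⟩⟩

end Reduction

end Fermat.Agent.Igusa
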