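import Mathlib.Topology.Irreducible
import Mathlib.Topology.Sets.Opens

/-!
# S28 / Igusa, node N-GLUE (part 0): a topological gluing lemma

A space covered by two irreducible subsets whose intersection contains a nonempty open
piece is irreducible.  (Pure topology, Mathlib only.)
-/

namespace Fermat.Agent.Igusa

open Set

/-- If `X = A ∪ B` with `A`, `B` irreducible, `B` open... more precisely: `A` irreducible,
`B` preirreducible, `U ⊆ A` open in `X` meeting `B`.  Then `X` is irreducible. -/
theorem irreducibleSpace_of_union {X : Type*} [TopologicalSpace X] {A B U : Set X}
    (hA : IsIrreducible A) (hB : IsPreirreducible B) (hU : IsOpen U) (hUA : U ⊆ A)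
    (hBU : (B ∩ U).Nonempty) (hcov : A ∪ B = univ) : IrreducibleSpace X := by
  have hcl : IsIrreducible (closure A) := hA.closure
  have hBsub : B ⊆ closure A := by
    refine (subset_closure_inter_of_isPreirreducible_of_isOpen hB hU hBU).trans ?_
    exact closure_mono (inter_subset_right.trans hUA)
  have huniv : closure A = univ := by
    refine eq_univ_of_univ_subset ?_
    rw [← hcov]
    exact union_subset subset_closure hBsub
  rw [huniv] at hcl
  exact (irreducibleSpace_def X).mpr hcl

end Fermat.Agent.Igusa
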