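import Mathlib
import Fermat.Agent.Igusa.GlueTopology

/-!
# S28 / Igusa, node N-GLUE (part 1): integrality from an open cover by integral schemes
-/

set_option autoImplicit false
open AlgebraicGeometry CategoryTheory CategoryTheory.Limits

namespace Fermat.Agent.Igusa

/-- A scheme with an open cover by integral schemes, two of whose members already cover
everything and meet, is integral. -/
theorem isIntegral_of_openCover_of_two {P : Scheme} (𝒱 : P.OpenCover)
    [∀ i, IsIntegral (𝒱.X i)] (i₁ i₂ : 𝒱.I₀)
    (hcov : ∀ i, Set.range (𝒱.f i).base ⊆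
      Set.range (𝒱.f i₁).base ∪ Set.range (𝒱.f i₂).base)
    (hne : (Set.range (𝒱.f i₁).base ∩ Set.range (𝒱.f i₂).base).Nonempty) :
    IsIntegral P := by
  have : IsReduced P := IsReduced.of_openCover P 𝒱
  have hirr : ∀ i, IsIrreducible (Set.range (𝒱.f i).base) := by
    intro i
    rw [← Set.image_univ]
    exact (IrreducibleSpace.isIrreducible_univ (𝒱.X i)).image _
      (𝒱.f i).continuous.continuousOn
  have hopen : ∀ i, IsOpen (Set.range (𝒱.f i).base) := fun i =>
    (𝒱.f i).isOpenEmbedding.isOpen_range
  have : IrreducibleSpace P :=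
    irreducibleSpace_of_union (hirr i₁) (hirr i₂).isPreirreducible
      ((hopen i₁).inter (hopen i₂)) Set.inter_subset_left
      (by
        obtain ⟨x, hx₁, hx₂⟩ := hne
        exact ⟨x, hx₂, hx₁, hx₂⟩)
      (by
        refine Set.eq_univ_of_forall fun x => ?_
        obtain ⟨i, y, hy⟩ := 𝒱.exists_eq x
        exact hcov i ⟨y, hy⟩)
  exact isIntegral_of_irreducibleSpace_of_isReduced P

end Fermat.Agent.Igusa
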