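import Mathlib
import Fermat.Prelude.Def_ModularCurve_IgusaScheme
import Fermat.Agent.Igusa.GlueAbstract

/-!
# S28 / Igusa, node N-GLUE (I4): scheme gluing in hypothesis form

If the three chart algebras of the Igusa model, tensored with `K` over `ℤ_(ℓ)`, are domains,
then the base change of the Igusa scheme to `K` is an integral scheme.
This is the exact shape of the frozen S28 conclusion; no hypothesis on `ℓ`, `N` or the
characteristic of `K` is needed here.
-/

set_option autoImplicit false
open AlgebraicGeometry CategoryTheory CategoryTheory.Limits ModularCurve ModularCurve.IgusaScheme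
open TensorProduct

noncomputable section
namespace Fermat.Agent.Igusa

/-- Integrality transfers along an isomorphism of schemes. -/
theorem isIntegral_of_iso {X Y : Scheme} (e : X ≅ Y) [IsIntegral Y] : IsIntegral X := by
  have : Nonempty X := ⟨e.inv.base (Nonempty.some inferInstance)⟩
  exact isIntegral_of_isOpenImmersion e.hom

/-- A pullback of two affine morphisms `Spec S → Spec R ← Spec T` is integral as soon as
`S ⊗[R] T` is a domain; the left leg is allowed to be only propositionally a `Spec.map`. -/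
theorem isIntegral_pullback_of_eq_specMap {R S T : Type} [CommRing R] [CommRing S] [CommRing T]
    [Algebra R S] [Algebra R T] [IsDomain (S ⊗[R] T)] {X : Scheme}
    (e : X ≅ Spec (CommRingCat.of S)) (f : X ⟶ Spec (CommRingCat.of R))
    (hf : f = e.hom ≫ Spec.map (CommRingCat.ofHom (algebraMap R S))) :
    IsIntegral ↑(pullback f (Spec.map (CommRingCat.ofHom (algebraMap R T)))) := by
  have : IsIntegral (Spec (CommRingCat.of (S ⊗[R] T))) :=
    (affine_isIntegral_iff _).mpr (inferInstanceAs (IsDomain (S ⊗[R] T)))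
  have : IsIntegral ↑(pullback (Spec.map (CommRingCat.ofHom (algebraMap R S)))
      (Spec.map (CommRingCat.ofHom (algebraMap R T)))) :=
    isIntegral_of_iso (pullbackSpecIso R S T)
  subst hf
  let φ : pullback (e.hom ≫ Spec.map (CommRingCat.ofHom (algebraMap R S)))
        (Spec.map (CommRingCat.ofHom (algebraMap R T))) ⟶
      pullback (Spec.map (CommRingCat.ofHom (algebraMap R S)))
        (Spec.map (CommRingCat.ofHom (algebraMap R T))) :=
    pullback.map _ _ _ _ e.hom (𝟙 _) (𝟙 _) (by simp) (by simp)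
  have : IsIso φ := by
    dsimp only [φ]
    infer_instance
  exact isIntegral_of_iso (asIso φ)

set_option backward.isDefEq.respectTransparency false in
/-- If a member of an open cover factors through another member, the same holds for the
induced cover of a pullback; in particular the ranges are nested. -/
theorem range_openCoverOfLeft_subset {X Y Z : Scheme} (𝒰 : X.OpenCover) (f : X ⟶ Z) (g : Y ⟶ Z)
    (i j : 𝒰.I₀) (h : 𝒰.X i ⟶ 𝒰.X j) (hh : h ≫ 𝒰.f j = 𝒰.f i) :
    Set.range ((Scheme.Pullback.openCoverOfLeft 𝒰 f g).f i).base ⊆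
      Set.range ((Scheme.Pullback.openCoverOfLeft 𝒰 f g).f j).base := by
  have key : (Scheme.Pullback.openCoverOfLeft 𝒰 f g).f i =
      pullback.map (𝒰.f i ≫ f) g (𝒰.f j ≫ f) g h (𝟙 _) (𝟙 _)
        (by rw [Category.comp_id, ← hh, Category.assoc]) (by simp) ≫
        (Scheme.Pullback.openCoverOfLeft 𝒰 f g).f j := by
    apply pullback.hom_ext <;> simp [hh]
  rw [key]
  rintro _ ⟨x, rfl⟩
  exact ⟨_, rfl⟩

variable (N : ℕ) [NeZero N] (ℓ : ℕ) [Fact ℓ.Prime]

set_option quotPrecheck false in
local notation "ℤℓ" => ↥(GaloisRep.ratLocalizedAt ℓ)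

/-- The three-piece open cover (mid, fin, inf) of the Igusa scheme. -/
abbrev igusaCover3 : (ModularCurve.IgusaScheme N ℓ).OpenCover :=
  Scheme.IsLocallyDirected.openCover (span (fFin N ℓ) (fInf N ℓ))

theorem fFin_ιFin_igusaTo :
    (fFin N ℓ ≫ ιFin N ℓ) ≫ igusaTo N ℓ =
      Spec.map (CommRingCat.ofHom (algebraMap ℤℓ (chartAlgMid N ℓ))) := by
  rw [Category.assoc, ιFin_igusaTo, ← Spec.map_comp, ← CommRingCat.ofHom_comp]
  congr 2

/-- **N-GLUE (I4).** If the three chart algebras tensored with `K` are domains, the base change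
of the Igusa scheme along `Spec K → Spec ℤ_(ℓ)` is integral. -/
theorem isIntegral_pullback_igusaTo_of_isDomain
    (K : Type) [Field K] [Algebra ℤℓ K]
    [IsDomain (chartAlgFin N ℓ ⊗[ℤℓ] K)] [IsDomain (chartAlgInf N ℓ ⊗[ℤℓ] K)]
    [IsDomain (chartAlgMid N ℓ ⊗[ℤℓ] K)] :
    IsIntegral ↑(pullback (igusaTo N ℓ)
      (Spec.map (CommRingCat.ofHom (algebraMap ℤℓ K)))) := by
  set g := Spec.map (CommRingCat.ofHom (algebraMap ℤℓ K)) with hg
  let 𝒱 := Scheme.Pullback.openCoverOfLeft (igusaCover3 N ℓ) (igusaTo N ℓ) g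
  have hw : (igusaCover3 N ℓ).f none = fFin N ℓ ≫ ιFin N ℓ :=
    (colimit.w (span (fFin N ℓ) (fInf N ℓ)) WalkingSpan.Hom.fst).symm
  have hw' : (igusaCover3 N ℓ).f none = fInf N ℓ ≫ ιInf N ℓ :=
    (colimit.w (span (fFin N ℓ) (fInf N ℓ)) WalkingSpan.Hom.snd).symm
  have hint : ∀ i, IsIntegral (𝒱.X i) := by
    intro i
    rcases i with (_ | _ | _)
    · exact isIntegral_pullback_of_eq_specMap (Iso.refl _) _
        ((congrArg (· ≫ igusaTo N ℓ) hw).trans
          ((fFin_ιFin_igusaTo N ℓ).trans (Category.id_comp _).symm))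
    · exact isIntegral_pullback_of_eq_specMap (Iso.refl _) _
        (by rw [Iso.refl_hom, Category.id_comp]; exact ιFin_igusaTo N ℓ)
    · exact isIntegral_pullback_of_eq_specMap (Iso.refl _) _
        (by rw [Iso.refl_hom, Category.id_comp]; exact ιInf_igusaTo N ℓ)
  -- the middle piece factors through the two big charts
  have hL : Set.range (𝒱.f none).base ⊆ Set.range (𝒱.f WalkingSpan.left).base :=
    range_openCoverOfLeft_subset (igusaCover3 N ℓ) (igusaTo N ℓ) g none WalkingSpan.left
      (fFin N ℓ) hw.symm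
  have hR : Set.range (𝒱.f none).base ⊆ Set.range (𝒱.f WalkingSpan.right).base :=
    range_openCoverOfLeft_subset (igusaCover3 N ℓ) (igusaTo N ℓ) g none WalkingSpan.right
      (fInf N ℓ) hw'.symm
  have := hint
  refine isIntegral_of_openCover_of_two 𝒱 WalkingSpan.left WalkingSpan.right ?_ ?_
  · intro i
    rcases i with (_ | _ | _)
    · exact hL.trans Set.subset_union_left
    · exact Set.subset_union_left
    · exact Set.subset_union_right
  · obtain ⟨z⟩ : Nonempty (𝒱.X none) := (hint none).nonempty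
    exact ⟨(𝒱.f none).base z, hL ⟨z, rfl⟩, hR ⟨z, rfl⟩⟩

end Fermat.Agent.Igusa
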