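import Mathlib
import Fermat.Prelude.Def_ModularCurve_LaurentCoeff

/-!
# S28 / Igusa, node N-TENSOR: geometric integrality from a `q`-expansion embedding

Abstract form.  `R` a commutative ring, `k` a field which is a quotient of `R`, `B` an
`R`-algebra with a ring map `ρ : B → k((q))`, constant on `R`, whose kernel is
`ker(R → k) · B` ("`B / 𝔪B` embeds in `k((q))`").  Then for every field `K` over `k`,
`B ⊗[R] K` is a domain: it embeds in `K((q))`.
-/

set_option autoImplicit false
open TensorProduct ModularCurve

noncomputable section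
namespace Fermat.Agent.Igusa

/-- A private copy of `K((q))`, to carry clean algebra structures. -/
def LaurentCopy (K : Type*) [Field K] : Type _ := LaurentSeries K

namespace LaurentCopy

variable (R K : Type*) [CommRing R] [Field K] [Algebra R K]

instance : Field (LaurentCopy K) := inferInstanceAs (Field (LaurentSeries K))

/-- the identity map `K((q)) → LaurentCopy K` as a ring isomorphism -/
def of : LaurentSeries K ≃+* LaurentCopy K := RingEquiv.refl _

instance algK : Algebra K (LaurentCopy K) :=
  ((of K).toRingHom.comp (HahnSeries.C : K →+* LaurentSeries K)).toAlgebra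

instance algR : Algebra R (LaurentCopy K) :=
  ((algebraMap K (LaurentCopy K)).comp (algebraMap R K)).toAlgebra

instance : IsScalarTower R K (LaurentCopy K) := IsScalarTower.of_algebraMap_eq fun _ => rfl

theorem algebraMap_K_apply (c : K) :
    algebraMap K (LaurentCopy K) c = of K (HahnSeries.C c) := rfl

theorem algebraMap_R_apply (r : R) :
    algebraMap R (LaurentCopy K) r = of K (HahnSeries.C (algebraMap R K r)) := rfl

end LaurentCopy

variable {R B k K : Type*} [CommRing R] [CommRing B] [Algebra R B] [Field k] [Algebra R k]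
  [Field K] [Algebra R K] [Algebra k K] [IsScalarTower R k K]

/-- Elements of `𝔪 B` (with `𝔪 = ker (R → k)`) die in `B ⊗[R] K`. -/
theorem tmul_eq_zero_of_mem_map_ker {x : B}
    (hx : x ∈ Ideal.map (algebraMap R B) (RingHom.ker (algebraMap R k))) (c : K) :
    x ⊗ₜ[R] c = 0 := by
  revert c
  rw [Ideal.map] at hx
  refine Submodule.span_induction (p := fun x _ => ∀ c : K, x ⊗ₜ[R] c = 0)
    ?_ ?_ ?_ ?_ hx
  · rintro _ ⟨r, hr, rfl⟩ c
    have hr0 : algebraMap R K r = 0 := by
      rw [IsScalarTower.algebraMap_apply R k K, (RingHom.mem_ker).mp hr, map_zero]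
    rw [Algebra.algebraMap_eq_smul_one, TensorProduct.smul_tmul, Algebra.smul_def, hr0,
      zero_mul, tmul_zero]
  · intro c; exact zero_tmul _ _
  · intro x y _ _ hx hy c
    rw [add_tmul, hx c, hy c, add_zero]
  · intro y x _ hx c
    have := congrArg (TensorProduct.map (LinearMap.mulLeft R y) (LinearMap.id : K →ₗ[R] K)) (hx c)
    simpa using this

variable (K) in
/-- `ρ` followed by extension of coefficients, as an `R`-algebra map into the private copy. -/
def rhoK (ρ : B →+* LaurentSeries k)
    (hρ : ∀ r : R, ρ (algebraMap R B r) = HahnSeries.C (algebraMap R k r)) :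
    B →ₐ[R] LaurentCopy K where
  toRingHom := (LaurentCopy.of K).toRingHom.comp ((coeffMap (algebraMap k K)).comp ρ)
  commutes' r := by
    show LaurentCopy.of K (coeffMap (algebraMap k K) (ρ (algebraMap R B r))) = _
    rw [hρ, LaurentCopy.algebraMap_R_apply, HahnSeries.C_apply, coeffMap_single,
      ← IsScalarTower.algebraMap_apply, HahnSeries.C_apply]

variable (K) in
/-- The comparison homomorphism `B ⊗[R] K → K((q))`, `b ⊗ c ↦ c • ρ(b)`. -/
def tensorToLaurent (ρ : B →+* LaurentSeries k)
    (hρ : ∀ r : R, ρ (algebraMap R B r) = HahnSeries.C (algebraMap R k r)) :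
    B ⊗[R] K →ₐ[R] LaurentCopy K :=
  Algebra.TensorProduct.lift (rhoK K ρ hρ)
    ((Algebra.ofId K (LaurentCopy K)).restrictScalars R)
    (fun _ _ => Commute.all _ _)

theorem tensorToLaurent_tmul (ρ : B →+* LaurentSeries k)
    (hρ : ∀ r : R, ρ (algebraMap R B r) = HahnSeries.C (algebraMap R k r)) (x : B) (c : K) :
    tensorToLaurent K ρ hρ (x ⊗ₜ c) =
      LaurentCopy.of K (coeffMap (algebraMap k K) (ρ x) * HahnSeries.C c) := by
  simp [tensorToLaurent, rhoK, Algebra.ofId_apply, LaurentCopy.algebraMap_K_apply]


/-- Every element of `B ⊗[R] K` is a finite sum `∑ xᵢ ⊗ bᵢ` over a `k`-basis `b` of `K`,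
as soon as `R → k` is surjective. -/
theorem exists_finsupp_sum_tmul (hsurj : Function.Surjective (algebraMap R k))
    {ι : Type*} (b : Module.Basis ι k K) (z : B ⊗[R] K) :
    ∃ f : ι →₀ B, z = f.sum fun i x => x ⊗ₜ[R] b i := by
  classical
  induction z using TensorProduct.induction_on with
  | zero => exact ⟨0, by simp⟩
  | tmul x c =>
    refine ⟨∑ i ∈ (b.repr c).support,
      Finsupp.single i (Function.surjInv hsurj (b.repr c i) • x), ?_⟩
    have hc : c = ∑ i ∈ (b.repr c).support, Function.surjInv hsurj (b.repr c i) • b i := by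
      conv_lhs => rw [← b.linearCombination_repr c, Finsupp.linearCombination_apply,
        Finsupp.sum]
      refine Finset.sum_congr rfl fun i _ => ?_
      conv_lhs => rw [← Function.surjInv_eq hsurj (b.repr c i)]
      rw [algebraMap_smul]
    conv_lhs => rw [hc, tmul_sum]
    rw [← Finsupp.sum_finsetSum_index (by simp) (by intros; rw [add_tmul])]
    refine Finset.sum_congr rfl fun i _ => ?_
    rw [Finsupp.sum_single_index (h := fun i x => x ⊗ₜ[R] b i) (zero_tmul _ _),
      TensorProduct.smul_tmul]
  | add z w hz hw =>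
    obtain ⟨f, rfl⟩ := hz
    obtain ⟨g, rfl⟩ := hw
    refine ⟨f + g, ?_⟩
    rw [Finsupp.sum_add_index' (by simp) (by intros; rw [add_tmul])]

/-- **N-TENSOR, injectivity.** -/
theorem tensorToLaurent_injective (hsurj : Function.Surjective (algebraMap R k))
    (ρ : B →+* LaurentSeries k)
    (hρ : ∀ r : R, ρ (algebraMap R B r) = HahnSeries.C (algebraMap R k r))
    (hker : ∀ x : B, ρ x = 0 →
      x ∈ Ideal.map (algebraMap R B) (RingHom.ker (algebraMap R k))) :
    Function.Injective (tensorToLaurent K ρ hρ) := by
  classical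
  rw [injective_iff_map_eq_zero]
  intro z hz
  let b := Module.Basis.ofVectorSpace k K
  obtain ⟨f, rfl⟩ := exists_finsupp_sum_tmul (B := B) hsurj b z
  rw [Finsupp.sum, map_sum] at hz
  simp only [tensorToLaurent_tmul] at hz
  -- coefficientwise linear independence
  have hcoef : ∀ n : ℤ, ∀ i ∈ f.support, (ρ (f i)).coeff n = 0 := by
    intro n
    have hlin := (linearIndependent_iff'.mp b.linearIndependent) f.support
      (fun i => (ρ (f i)).coeff n)
    apply hlin
    have h0 := congrArg (fun y : LaurentCopy K => ((LaurentCopy.of K).symm y).coeff n) hz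
    simp only [map_sum, RingEquiv.symm_apply_apply, map_zero, HahnSeries.coeff_zero] at h0
    rw [← h0, HahnSeries.coeff_sum]
    refine Finset.sum_congr rfl fun i _ => ?_
    rw [HahnSeries.C_apply, HahnSeries.coeff_mul_single_zero, coeffMap_coeff, Algebra.smul_def]
  rw [Finsupp.sum]
  refine Finset.sum_eq_zero fun i hi => ?_
  refine tmul_eq_zero_of_mem_map_ker (k := k) (hker _ ?_) _
  ext n
  exact hcoef n i hi

/-- **N-TENSOR.** If `B / 𝔪B` embeds in `k((q))` (via `ρ`), then `B ⊗[R] K` is a domain for
every field `K` over `k`. -/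
theorem isDomain_tensor_of_laurent (hsurj : Function.Surjective (algebraMap R k))
    (ρ : B →+* LaurentSeries k)
    (hρ : ∀ r : R, ρ (algebraMap R B r) = HahnSeries.C (algebraMap R k r))
    (hker : ∀ x : B, ρ x = 0 →
      x ∈ Ideal.map (algebraMap R B) (RingHom.ker (algebraMap R k))) :
    IsDomain (B ⊗[R] K) :=
  Function.Injective.isDomain (tensorToLaurent K ρ hρ).toRingHom
    (tensorToLaurent_injective hsurj ρ hρ hker)

end Fermat.Agent.Igusa
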