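import Mathlib
import Fermat.Agent.Igusa.TensorDomain
import Fermat.Agent.Igusa.ZlBasics

/-!
# S28 / Igusa, node N-TENSOR specialised to `ℤ_(ℓ) → 𝔽_ℓ`

If a `ℤ_(ℓ)`-algebra `B` has a ring map `ρ : B → 𝔽_ℓ((q))`, equal to the residue map on
constants, with `ρ x = 0 → x ∈ ℓ B`, then `B ⊗[ℤ_(ℓ)] K` is a domain for every field `K`
of characteristic `ℓ` (with any `ℤ_(ℓ)`-algebra structure).
-/

set_option autoImplicit false
open TensorProduct

noncomputable section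
namespace Fermat.Agent.Igusa

variable (ℓ : ℕ) [Fact ℓ.Prime]

set_option quotPrecheck false in
local notation "ℤℓ" => ↥(GaloisRep.ratLocalizedAt ℓ)

/-- **N-TENSOR for `ℤ_(ℓ)`.** -/
theorem isDomain_tensor_of_zl (B : Type*) [CommRing B] [Algebra ℤℓ B]
    (K : Type*) [Field K] [CharP K ℓ] [Algebra ℤℓ K]
    (ρ : B →+* LaurentSeries (ZMod ℓ))
    (hρ : ∀ r : ℤℓ, ρ (algebraMap ℤℓ B r) = HahnSeries.C (zlResidue ℓ r))
    (hker : ∀ x : B, ρ x = 0 → ∃ y : B, x = algebraMap ℤℓ B (zlPrime ℓ) * y) :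
    IsDomain (B ⊗[ℤℓ] K) := by
  letI : Algebra ℤℓ (ZMod ℓ) := (zlResidue ℓ).toAlgebra
  letI : Algebra (ZMod ℓ) K := ZMod.algebra K ℓ
  haveI : IsScalarTower ℤℓ (ZMod ℓ) K :=
    IsScalarTower.of_algebraMap_eq fun r =>
      congrFun (congrArg DFunLike.coe (zl_algebraMap_eq ℓ K)) r
  refine isDomain_tensor_of_laurent (k := ZMod ℓ) (zlResidue_surjective ℓ) ρ hρ ?_
  intro x hx
  obtain ⟨y, rfl⟩ := hker x hx
  refine Ideal.mul_mem_right _ _ (Ideal.mem_map_of_mem _ ?_)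
  show zlPrime ℓ ∈ RingHom.ker (zlResidue ℓ)
  rw [RingHom.mem_ker]
  exact zlResidue_zlPrime ℓ

end Fermat.Agent.Igusa
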