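import Mathlib
import Fermat.Agent.Igusa.Glue
import Fermat.Agent.Igusa.TensorDomainZl

/-!
# S28 / Igusa: final assembly in hypothesis form

The frozen S28 conclusion follows from *reduction data* on the three chart algebras:
a ring map `ρ : chartAlg → 𝔽_ℓ((q))` (reduction of `q`-expansions), equal to the residue map
on constants, whose kernel is `ℓ · chartAlg` (the `q`-expansion principle).
What remains for S28 is to construct such data for `chartAlgFin`, `chartAlgInf`,
`chartAlgMid` when `ℓ ∤ N` (nodes N-VAL, N-DED, N-TOWER, N-BASE, N-ME of findings 122).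
-/

set_option autoImplicit false
open AlgebraicGeometry CategoryTheory CategoryTheory.Limits ModularCurve ModularCurve.IgusaScheme
open TensorProduct

noncomputable section
namespace Fermat.Agent.Igusa

variable (N : ℕ) [NeZero N] (ℓ : ℕ) [Fact ℓ.Prime]

set_option quotPrecheck false in
local notation "ℤℓ" => ↥(GaloisRep.ratLocalizedAt ℓ)

/-- Reduction data on a `ℤ_(ℓ)`-algebra `B`: a `q`-expansion-mod-`ℓ` map with kernel `ℓ B`. -/
structure ReductionData (B : Type*) [CommRing B] [Algebra ℤℓ B] where
  /-- reduction of `q`-expansions -/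
  ρ : B →+* LaurentSeries (ZMod ℓ)
  /-- on constants it is the residue map -/
  map_algebraMap : ∀ r : ℤℓ, ρ (algebraMap ℤℓ B r) = HahnSeries.C (zlResidue ℓ r)
  /-- `q`-expansion principle: the kernel is `ℓ B` -/
  ker_le : ∀ x : B, ρ x = 0 → ∃ y : B, x = algebraMap ℤℓ B (zlPrime ℓ) * y

theorem ReductionData.isDomain_tensor {B : Type*} [CommRing B] [Algebra ℤℓ B]
    (D : ReductionData ℓ B) (K : Type*) [Field K] [CharP K ℓ] [Algebra ℤℓ K] :
    IsDomain (B ⊗[ℤℓ] K) :=
  isDomain_tensor_of_zl ℓ B K D.ρ D.map_algebraMap D.ker_le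

/-- **S28 from reduction data** (exact frozen conclusion). -/
theorem isIntegral_pullback_igusaTo_of_reductionData
    (DFin : ReductionData ℓ (chartAlgFin N ℓ)) (DInf : ReductionData ℓ (chartAlgInf N ℓ))
    (DMid : ReductionData ℓ (chartAlgMid N ℓ))
    (K : Type) [Field K] [CharP K ℓ] [Algebra ℤℓ K] :
    IsIntegral ↑(pullback (igusaTo N ℓ)
      (Spec.map (CommRingCat.ofHom (algebraMap ℤℓ K)))) := by
  haveI := DFin.isDomain_tensor ℓ K
  haveI := DInf.isDomain_tensor ℓ K
  haveI := DMid.isDomain_tensor ℓ K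
  exact isIntegral_pullback_igusaTo_of_isDomain N ℓ K

end Fermat.Agent.Igusa
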