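import Mathlib

/-!
# S28 / Igusa, node N-DED (abstract core): the `q`-expansion principle from a degree count

Setting: `A` an integrally closed domain (for us `ℤ_(ℓ)[j]`, `ℤ_(ℓ)[1/j]`, `ℤ_(ℓ)[j,1/j]`),
`ℓ ∈ A` a prime element, `K = Frac A`, `L/K` a finite extension of degree `n`, `B` the integral
closure of `A` in `L`, and `φ : B → E` a ring map into a domain killing `ℓ`.
If `B` contains `n` elements whose images stay "independent modulo `ℓ`", then `ker φ = ℓ B`.

No Dedekind theory: a basis/denominator argument plus scaling of minimal polynomials.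
-/

set_option autoImplicit false
open Polynomial

namespace Fermat.Agent.Igusa

section Denominators

variable {A K : Type*} [CommRing A] [IsDomain A] [Field K] [Algebra A K] [IsFractionRing A K]

omit [IsDomain A] in
/-- If `ℓ^m c ∈ A` and `s c ∈ A` with `ℓ` prime not dividing `s`, then `c ∈ A`. -/
theorem mem_range_of_pow_mul_of_mul {ℓ s : A} (hℓ : Prime ℓ) (hs : ¬ ℓ ∣ s) (c : K) (m : ℕ)
    (h1 : ∃ a : A, algebraMap A K a = algebraMap A K ℓ ^ m * c)
    (h2 : ∃ a : A, algebraMap A K a = algebraMap A K s * c) :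
    ∃ a : A, algebraMap A K a = c := by
  have hinj : Function.Injective (algebraMap A K) := IsFractionRing.injective A K
  induction m with
  | zero => simpa using h1
  | succ m ih =>
    obtain ⟨a, ha⟩ := h1
    obtain ⟨a', ha'⟩ := h2
    have hrel : s * a = ℓ ^ (m + 1) * a' := by
      apply hinj
      rw [map_mul, map_mul, map_pow, ha, ha']
      ring
    have hdvd : ℓ ∣ s * a := ⟨ℓ ^ m * a', by rw [hrel]; ring⟩
    obtain ⟨a'', rfl⟩ := (hℓ.dvd_or_dvd hdvd).resolve_left hs
    refine ih ⟨a'', ?_⟩
    have hℓ0 : algebraMap A K ℓ ≠ 0 := by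
      rw [Ne, map_eq_zero_iff _ hinj]; exact hℓ.ne_zero
    apply mul_left_cancel₀ hℓ0
    rw [← map_mul, ha]
    ring

end Denominators

section Scaling

variable {A K L : Type*} [CommRing A] [IsDomain A] [IsIntegrallyClosed A] [Field K] [Algebra A K]
  [IsFractionRing A K] [Field L] [Algebra A L] [Algebra K L] [IsScalarTower A K L]

/-- Minimal polynomial of a scaled element. -/
theorem minpoly_smul_eq_scaleRoots {c : K} (hc : c ≠ 0) {y : L} (hy : IsIntegral K y) :
    minpoly K (algebraMap K L c * y) = (minpoly K y).scaleRoots c := by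
  symm
  refine minpoly.unique K _ ((monic_scaleRoots_iff c).mpr (minpoly.monic hy))
    (scaleRoots_aeval_eq_zero (minpoly.aeval K y)) ?_
  intro q hq hq0
  rw [degree_scaleRoots]
  -- scale back
  have hroot : aeval y (q.scaleRoots c⁻¹) = 0 := by
    have := scaleRoots_aeval_eq_zero (r := c⁻¹) hq0
    rwa [← mul_assoc, ← map_mul, inv_mul_cancel₀ hc, map_one, one_mul] at this
  have hmon : (q.scaleRoots c⁻¹).Monic := (monic_scaleRoots_iff c⁻¹).mpr hq
  calc degree (minpoly K y) ≤ degree (q.scaleRoots c⁻¹) := minpoly.min K y hmon hroot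
    _ = degree q := degree_scaleRoots q

/-- If `u y` is integral over `A` (`u ∈ A` nonzero), then the coefficients of the minimal
polynomial of `y` over `K`, scaled by the appropriate powers of `u`, lie in `A`. -/
theorem exists_coeff_minpoly_mul_pow {u : A} (hu : u ≠ 0) {y : L}
    (hy : IsIntegral A (algebraMap A L u * y)) (i : ℕ) :
    ∃ a : A, algebraMap A K a =
      algebraMap A K u ^ ((minpoly K y).natDegree - i) * (minpoly K y).coeff i := by
  have hinj : Function.Injective (algebraMap A K) := IsFractionRing.injective A K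
  have hc : algebraMap A K u ≠ 0 := by rwa [Ne, map_eq_zero_iff _ hinj]
  have hxK : IsIntegral K (algebraMap K L (algebraMap A K u) * y) := by
    rw [← IsScalarTower.algebraMap_apply]
    exact hy.tower_top
  have hyK : IsIntegral K y := by
    have h := (isIntegral_algebraMap (R := K) (A := L)
      (x := (algebraMap A K u)⁻¹)).mul hxK
    rwa [← mul_assoc, ← map_mul, inv_mul_cancel₀ hc, map_one, one_mul] at h
  have h1 := minpoly_smul_eq_scaleRoots (L := L) hc hyK
  rw [← IsScalarTower.algebraMap_apply] at h1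
  have h2 := minpoly.isIntegrallyClosed_eq_field_fractions' K hy
  refine ⟨(minpoly A (algebraMap A L u * y)).coeff i, ?_⟩
  rw [← coeff_map, ← h2, h1, coeff_scaleRoots, mul_comm]

/-- **Normality trick.** If `ℓ y` and `s y` are integral over the integrally closed domain `A`,
with `ℓ` prime and `ℓ ∤ s`, then `y` is integral over `A`. -/
theorem isIntegral_of_mul_isIntegral (K : Type*) [Field K] [Algebra A K] [IsFractionRing A K]
    [Algebra K L] [IsScalarTower A K L] {ℓ s : A} (hℓ : Prime ℓ) (hs : ¬ ℓ ∣ s) {y : L}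
    (h1 : IsIntegral A (algebraMap A L ℓ * y)) (h2 : IsIntegral A (algebraMap A L s * y)) :
    IsIntegral A y := by
  have hinj : Function.Injective (algebraMap A K) := IsFractionRing.injective A K
  have hs0 : s ≠ 0 := fun h => hs (h ▸ dvd_zero ℓ)
  have hc : algebraMap A K ℓ ≠ 0 := by
    rw [Ne, map_eq_zero_iff _ hinj]; exact hℓ.ne_zero
  have hyK : IsIntegral K y := by
    have hxK : IsIntegral K (algebraMap K L (algebraMap A K ℓ) * y) := by
      rw [← IsScalarTower.algebraMap_apply]
      exact h1.tower_top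
    have h := (isIntegral_algebraMap (R := K) (A := L)
      (x := (algebraMap A K ℓ)⁻¹)).mul hxK
    rwa [← mul_assoc, ← map_mul, inv_mul_cancel₀ hc, map_one, one_mul] at h
  -- all coefficients of the minimal polynomial lie in `A`
  have hcoeff : ∀ i, ∃ a : A, algebraMap A K a = (minpoly K y).coeff i := by
    intro i
    obtain ⟨a, ha⟩ := exists_coeff_minpoly_mul_pow (K := K) hℓ.ne_zero h1 i
    obtain ⟨a', ha'⟩ := exists_coeff_minpoly_mul_pow (K := K) hs0 h2 i
    refine mem_range_of_pow_mul_of_mul hℓ
      (fun h => hs (hℓ.dvd_of_dvd_pow h) : ¬ ℓ ∣ s ^ ((minpoly K y).natDegree - i)) _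
      ((minpoly K y).natDegree - i) ⟨a, ha⟩ ⟨a', ?_⟩
    rw [ha', map_pow]
  -- lift the minimal polynomial to `A[X]`
  have hlifts : minpoly K y ∈ Polynomial.lifts (algebraMap A K) :=
    (Polynomial.lifts_iff_coeff_lifts _).mpr fun i => by
      obtain ⟨a, ha⟩ := hcoeff i
      exact ⟨a, ha⟩
  obtain ⟨P, hP, -, hPmonic⟩ :=
    Polynomial.lifts_and_natDegree_eq_and_monic hlifts (minpoly.monic hyK)
  refine ⟨P, hPmonic, ?_⟩
  have := minpoly.aeval K y
  rw [← hP, aeval_map_algebraMap] at this
  exact this

end Scaling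

section Kernel

variable {A K L B E ι : Type*} [CommRing A] [IsDomain A] [IsIntegrallyClosed A] [WfDvdMonoid A]
  [Field K] [Algebra A K] [IsFractionRing A K] [Field L] [Algebra A L] [Algebra K L]
  [IsScalarTower A K L] [CommRing B] [Algebra A B] [Algebra B L] [IsScalarTower A B L]
  [IsIntegralClosure B A L] [CommRing E] [Fintype ι]

/-- **Kernel principle, spanning form.**  `φ : B → E` a ring map on the integral closure `B`
of `A` in `L`, `b : ι → B` a family spanning `L` over `K = Frac A` (up to denominators in `A`)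
whose `A`-combinations are killed by `φ` only if all coefficients are divisible by the prime
`ℓ`.  Then `φ x = 0` implies `x ∈ ℓ B`. -/
theorem exists_eq_mul_of_map_eq_zero_of_span (K : Type*) [Field K] [Algebra A K]
    [IsFractionRing A K] [Algebra K L] [IsScalarTower A K L]
    {ℓ : A} (hℓ : Prime ℓ) (φ : B →+* E) (b : ι → B)
    (hspan : ∀ x : B, ∃ (d : A) (a : ι → A), d ≠ 0 ∧
      algebraMap A B d * x = ∑ i, algebraMap A B (a i) * b i)
    (hind : ∀ a : ι → A, φ (∑ i, algebraMap A B (a i) * b i) = 0 → ∀ i, ℓ ∣ a i)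
    (x : B) (hx : φ x = 0) : ∃ y : B, x = algebraMap A B ℓ * y := by
  have hBL : Function.Injective (algebraMap B L) := IsIntegralClosure.algebraMap_injective B A L
  have hAL : Function.Injective (algebraMap A L) :=
    (IsScalarTower.algebraMap_eq A K L) ▸
      (algebraMap K L).injective.comp (IsFractionRing.injective A K)
  have hAB : Function.Injective (algebraMap A B) := by
    intro u v huv
    apply hAL
    rw [IsScalarTower.algebraMap_apply A B L, huv, ← IsScalarTower.algebraMap_apply A B L]
  have : IsDomain B := hBL.isDomain _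
  obtain ⟨d, a, hd, hda⟩ := hspan x
  obtain ⟨m, s, hs, rfl⟩ := WfDvdMonoid.max_power_factor hd hℓ.irreducible
  -- remove the powers of `ℓ` from the denominator
  have key : ∀ m : ℕ, ∀ a : ι → A,
      algebraMap A B (ℓ ^ m * s) * x = ∑ i, algebraMap A B (a i) * b i →
      ∃ a' : ι → A, algebraMap A B s * x = ∑ i, algebraMap A B (a' i) * b i := by
    intro m
    induction m with
    | zero => intro a ha; exact ⟨a, by simpa using ha⟩
    | succ m ih =>
      intro a ha
      have h0 : φ (∑ i, algebraMap A B (a i) * b i) = 0 := by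
        rw [← ha, map_mul, hx, mul_zero]
      have hdiv := hind a h0
      choose a' ha' using hdiv
      refine ih a' ?_
      have hℓB : algebraMap A B ℓ ≠ 0 := by
        rw [Ne, map_eq_zero_iff _ hAB]; exact hℓ.ne_zero
      apply mul_left_cancel₀ hℓB
      rw [← mul_assoc, ← map_mul, ← mul_assoc, ← pow_succ', ha, Finset.mul_sum]
      refine Finset.sum_congr rfl fun i _ => ?_
      rw [ha' i, map_mul, mul_assoc]
  obtain ⟨a₁, ha₁⟩ := key m a hda
  have h0 : φ (∑ i, algebraMap A B (a₁ i) * b i) = 0 := by
    rw [← ha₁, map_mul, hx, mul_zero]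
  have hdiv := hind a₁ h0
  choose a₂ ha₂ using hdiv
  set z : B := ∑ i, algebraMap A B (a₂ i) * b i with hz
  have hsz : algebraMap A B s * x = algebraMap A B ℓ * z := by
    rw [ha₁, hz, Finset.mul_sum]
    refine Finset.sum_congr rfl fun i _ => ?_
    rw [ha₂ i, map_mul, mul_assoc]
  -- the candidate quotient `y = x / ℓ` in `L`
  have hℓL : algebraMap A L ℓ ≠ 0 := by
    rw [Ne, map_eq_zero_iff _ hAL]; exact hℓ.ne_zero
  set y : L := (algebraMap A L ℓ)⁻¹ * algebraMap B L x with hy
  have h1 : algebraMap A L ℓ * y = algebraMap B L x := by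
    rw [hy, ← mul_assoc, mul_inv_cancel₀ hℓL, one_mul]
  have h2 : algebraMap A L s * y = algebraMap B L z := by
    apply mul_left_cancel₀ hℓL
    rw [← mul_assoc, mul_comm (algebraMap A L ℓ), mul_assoc, h1,
      IsScalarTower.algebraMap_apply A B L s, IsScalarTower.algebraMap_apply A B L ℓ,
      ← map_mul, ← map_mul, hsz]
  have hint : IsIntegral A y := by
    refine isIntegral_of_mul_isIntegral K hℓ hs ?_ ?_
    · rw [h1]; exact IsIntegralClosure.isIntegral_iff (A := B) |>.mpr ⟨x, rfl⟩
    · rw [h2]; exact IsIntegralClosure.isIntegral_iff (A := B) |>.mpr ⟨z, rfl⟩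
  obtain ⟨y', hy'⟩ := IsIntegralClosure.isIntegral_iff (A := B) |>.mp hint
  refine ⟨y', hBL ?_⟩
  rw [map_mul, hy', ← IsScalarTower.algebraMap_apply A B L, h1]


omit [IsIntegrallyClosed A] in
/-- Descent: a relation `∑ aᵢ bᵢ = 0` forces all `aᵢ = 0` under the independence hypothesis. -/
theorem eq_zero_of_sum_eq_zero_of_ind (K : Type*) [Field K] [Algebra A K]
    [IsFractionRing A K] [Algebra K L] [IsScalarTower A K L]
    {ℓ : A} (hℓ : Prime ℓ) (φ : B →+* E) (b : ι → B)
    (hind : ∀ a : ι → A, φ (∑ i, algebraMap A B (a i) * b i) = 0 → ∀ i, ℓ ∣ a i)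
    (a : ι → A) (ha : ∑ i, algebraMap A B (a i) * b i = 0) : ∀ i, a i = 0 := by
  have hBL : Function.Injective (algebraMap B L) := IsIntegralClosure.algebraMap_injective B A L
  have hAL : Function.Injective (algebraMap A L) :=
    (IsScalarTower.algebraMap_eq A K L) ▸
      (algebraMap K L).injective.comp (IsFractionRing.injective A K)
  have hAB : Function.Injective (algebraMap A B) := by
    intro u v huv
    apply hAL
    rw [IsScalarTower.algebraMap_apply A B L, huv, ← IsScalarTower.algebraMap_apply A B L]
  have : IsDomain B := hBL.isDomain _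
  have hℓB : algebraMap A B ℓ ≠ 0 := by
    rw [Ne, map_eq_zero_iff _ hAB]; exact hℓ.ne_zero
  have key : ∀ m : ℕ, ∀ a : ι → A, ∑ i, algebraMap A B (a i) * b i = 0 →
      ∀ i, ℓ ^ m ∣ a i := by
    intro m
    induction m with
    | zero => intro a _ i; simp
    | succ m ih =>
      intro a ha i
      have hdiv := hind a (by rw [ha, map_zero])
      choose a' ha' using hdiv
      have h' : ∑ i, algebraMap A B (a' i) * b i = 0 := by
        apply mul_left_cancel₀ hℓB
        rw [mul_zero, Finset.mul_sum, ← ha]
        refine Finset.sum_congr rfl fun i _ => ?_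
        rw [ha' i, map_mul, mul_assoc]
      obtain ⟨c, hc⟩ := ih a' h' i
      exact ⟨c, by rw [ha' i, hc, pow_succ']; ring⟩
  intro i
  by_contra hi
  obtain ⟨k, r, hr, hkr⟩ := WfDvdMonoid.max_power_factor hi hℓ.irreducible
  obtain ⟨c, hc⟩ := key (k + 1) a ha i
  apply hr
  refine ⟨c, ?_⟩
  have hpow : ℓ ^ k ≠ 0 := pow_ne_zero _ hℓ.ne_zero
  apply mul_left_cancel₀ hpow
  rw [← hkr, hc, pow_succ]; ring

/-- **Kernel principle, degree form.**  As `exists_eq_mul_of_map_eq_zero_of_span`, with the
spanning hypothesis replaced by `[L : K] = #ι`. -/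
theorem exists_eq_mul_of_map_eq_zero_of_finrank (K : Type*) [Field K] [Algebra A K]
    [IsFractionRing A K] [Algebra K L] [IsScalarTower A K L] [FiniteDimensional K L]
    (hn : Module.finrank K L = Fintype.card ι)
    {ℓ : A} (hℓ : Prime ℓ) (φ : B →+* E) (b : ι → B)
    (hind : ∀ a : ι → A, φ (∑ i, algebraMap A B (a i) * b i) = 0 → ∀ i, ℓ ∣ a i)
    (x : B) (hx : φ x = 0) : ∃ y : B, x = algebraMap A B ℓ * y := by
  classical
  have hBL : Function.Injective (algebraMap B L) := IsIntegralClosure.algebraMap_injective B A L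
  have hAK : Function.Injective (algebraMap A K) := IsFractionRing.injective A K
  -- clearing denominators of a finite family in `K`
  have hclear : ∀ g : ι → K, ∃ (d : A) (a : ι → A), d ≠ 0 ∧
      ∀ i, algebraMap A K (a i) = algebraMap A K d * g i := by
    intro g
    obtain ⟨d, hd⟩ := IsLocalization.exist_integer_multiples (nonZeroDivisors A) Finset.univ g
    choose a ha using fun i => hd i (Finset.mem_univ i)
    refine ⟨d, a, nonZeroDivisors.ne_zero d.2, fun i => ?_⟩
    rw [ha i, Algebra.smul_def]
  -- from `A`-combinations in `K` to `B`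
  have hsum : ∀ (d : A) (a : ι → A) (g : ι → K),
      (∀ i, algebraMap A K (a i) = algebraMap A K d * g i) →
      algebraMap B L (∑ i, algebraMap A B (a i) * b i) =
        algebraMap A L d * ∑ i, g i • algebraMap B L (b i) := by
    intro d a g h
    rw [map_sum, Finset.mul_sum]
    refine Finset.sum_congr rfl fun i _ => ?_
    rw [map_mul, ← IsScalarTower.algebraMap_apply A B L, IsScalarTower.algebraMap_apply A K L,
      h i, map_mul, Algebra.smul_def, ← IsScalarTower.algebraMap_apply A K L, mul_assoc]
  -- linear independence over `K`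
  have hli : LinearIndependent K fun i => algebraMap B L (b i) := by
    rw [Fintype.linearIndependent_iff]
    intro g hg i
    obtain ⟨d, a, hd, ha⟩ := hclear g
    have h0 : ∑ i, algebraMap A B (a i) * b i = 0 := by
      apply hBL
      rw [hsum d a g ha, hg, mul_zero, map_zero]
    have hai := eq_zero_of_sum_eq_zero_of_ind (L := L) K hℓ φ b hind a h0 i
    have := ha i
    rw [hai, map_zero] at this
    rcases mul_eq_zero.mp this.symm with h | h
    · exact absurd ((map_eq_zero_iff _ hAK).mp h) hd
    · exact h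
  have : Nonempty ι := by
    by_contra h
    rw [not_nonempty_iff] at h
    have h1 : Fintype.card ι = 0 := Fintype.card_eq_zero
    have h2 := Module.finrank_pos (R := K) (M := L)
    omega
  let bas : Module.Basis ι K L := basisOfLinearIndependentOfCardEqFinrank hli hn.symm
  have hbas : ∀ i, bas i = algebraMap B L (b i) := fun i => by
    simp [bas]
  refine exists_eq_mul_of_map_eq_zero_of_span (L := L) K hℓ φ b ?_ hind x hx
  intro x
  obtain ⟨d, a, hd, ha⟩ := hclear (fun i => bas.repr (algebraMap B L x) i)
  refine ⟨d, a, hd, hBL ?_⟩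
  rw [hsum d a _ ha, map_mul, ← IsScalarTower.algebraMap_apply A B L]
  congr 1
  conv_lhs => rw [← bas.sum_repr (algebraMap B L x)]
  exact Finset.sum_congr rfl fun i _ => by rw [hbas]

end Kernel

end Fermat.Agent.Igusa
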