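import Mathlib
import Fermat.Agent.Igusa.KernelPrinciple

/-!
# S28 / Igusa, node N-CHART: the kernel principle with a second model `Kj` of the fraction field

Abstract form of the argument of `ChartKer.lean`, in which the field `Kj` (for us `ℚ(j)`) is only
known to consist of fractions of elements of `A` (no `IsFractionRing A Kj` instance needed), the
degree bound is `[L : Kj] ≤ #ι`, and `FractionRing A` is used internally.
-/

set_option autoImplicit false

namespace Fermat.Agent.Igusa

section

variable {A Kj L B E ι : Type*} [CommRing A] [IsDomain A] [IsIntegrallyClosed A] [WfDvdMonoid A]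
  [Field Kj] [Field L] [Algebra Kj L] [FiniteDimensional Kj L] [Algebra A L] [FaithfulSMul A L]
  [CommRing B] [Algebra A B] [Algebra B L] [IsScalarTower A B L] [IsIntegralClosure B A L]
  [CommRing E] [Fintype ι]

omit [IsIntegrallyClosed A] [WfDvdMonoid A] [FiniteDimensional Kj L] [FaithfulSMul A L] in
/-- clearing denominators of a finite family in `Kj` -/
theorem exists_clear_family
    (hclear : ∀ g : Kj, ∃ a d : A, d ≠ 0 ∧
      algebraMap A L d * algebraMap Kj L g = algebraMap A L a) (g : ι → Kj) :
    ∃ (d : A) (a : ι → A), d ≠ 0 ∧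
      ∀ i, algebraMap A L d * algebraMap Kj L (g i) = algebraMap A L (a i) := by
  classical
  choose a d hd had using fun i => hclear (g i)
  refine ⟨∏ i, d i, fun i => a i * ∏ k ∈ Finset.univ.erase i, d k,
    Finset.prod_ne_zero_iff.mpr fun i _ => hd i, fun i => ?_⟩
  rw [← Finset.mul_prod_erase Finset.univ d (Finset.mem_univ i), map_mul, map_mul,
    mul_right_comm, had i]

/-- **Kernel principle, second-model form.** -/
theorem exists_eq_mul_of_map_eq_zero_of_clear
    (hfin : Module.finrank Kj L ≤ Fintype.card ι)
    {ℓ : A} (hℓ : Prime ℓ) (φ : B →+* E) (b : ι → B)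
    (hclear : ∀ g : Kj, ∃ a d : A, d ≠ 0 ∧
      algebraMap A L d * algebraMap Kj L g = algebraMap A L a)
    (hind : ∀ a : ι → A, φ (∑ i, algebraMap A B (a i) * b i) = 0 → ∀ i, ℓ ∣ a i)
    (x : B) (hx : φ x = 0) : ∃ y : B, x = algebraMap A B ℓ * y := by
  classical
  letI : Algebra (FractionRing A) L := FractionRing.liftAlgebra A L
  haveI : IsScalarTower A (FractionRing A) L := FractionRing.isScalarTower_liftAlgebra A L
  have hBL : Function.Injective (algebraMap B L) := IsIntegralClosure.algebraMap_injective B A L
  have hAL : Function.Injective (algebraMap A L) := FaithfulSMul.algebraMap_injective A L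
  -- `b` is linearly independent over `Kj`
  have hli : LinearIndependent Kj (fun i => algebraMap B L (b i)) := by
    rw [Fintype.linearIndependent_iff]
    intro g hg i
    obtain ⟨d, a, hd, ha⟩ := exists_clear_family (A := A) (L := L) hclear g
    have h0 : ∑ i, algebraMap A B (a i) * b i = 0 := by
      apply hBL
      rw [map_sum, map_zero]
      have h3 : ∀ i, algebraMap B L (algebraMap A B (a i) * b i) =
          algebraMap A L d * (g i • algebraMap B L (b i)) := by
        intro i
        rw [map_mul, ← IsScalarTower.algebraMap_apply A B L, ← ha i, Algebra.smul_def, mul_assoc]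
      rw [Finset.sum_congr rfl fun i _ => h3 i, ← Finset.mul_sum, hg, mul_zero]
    have hai := eq_zero_of_sum_eq_zero_of_ind (L := L) (FractionRing A) hℓ φ b hind a h0 i
    have h4 := ha i
    rw [hai, map_zero] at h4
    rcases mul_eq_zero.mp h4 with h | h
    · exact absurd (hAL (by rw [h, map_zero])) hd
    · exact (map_eq_zero _).mp h
  have hcard : Fintype.card ι = Module.finrank Kj L :=
    le_antisymm hli.fintype_card_le_finrank hfin
  have hne : Nonempty ι := by
    by_contra h
    rw [not_nonempty_iff] at h
    have h1 : Fintype.card ι = 0 := Fintype.card_eq_zero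
    have h2 := Module.finrank_pos (R := Kj) (M := L)
    omega
  let bas : Module.Basis ι Kj L := basisOfLinearIndependentOfCardEqFinrank hli hcard
  have hbas : ∀ i, bas i = algebraMap B L (b i) := fun i => by simp [bas]
  refine exists_eq_mul_of_map_eq_zero_of_span (L := L) (FractionRing A) hℓ φ b ?_ hind x hx
  intro x
  obtain ⟨d, a, hd, ha⟩ := exists_clear_family (A := A) (L := L) hclear
    (fun i => bas.repr (algebraMap B L x) i)
  refine ⟨d, a, hd, hBL ?_⟩
  rw [map_mul, ← IsScalarTower.algebraMap_apply A B L, map_sum]
  conv_lhs => rw [← bas.sum_repr (algebraMap B L x), Finset.mul_sum]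
  refine Finset.sum_congr rfl fun i _ => ?_
  rw [map_mul, ← IsScalarTower.algebraMap_apply A B L, ← ha i, hbas, Algebra.smul_def, mul_assoc]

end

end Fermat.Agent.Igusa
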