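import Mathlib
import Fermat.Prelude.Def_ModularCurve_IgusaScheme
import Fermat.Agent.Igusa.ChartBaseDef
import Fermat.Agent.Igusa.ChartKerAbstract
import Fermat.Agent.Igusa.Assembly
import Fermat.Agent.Igusa.DegQ

/-!
# S28 / Igusa, node N-CHART (part 2): the `q`-expansion principle on a chart `ℤ_(ℓ)[t]`-closure

For `t = j` or `1/j`: given `ChartBase N ℓ t` and `ψ(N)` elements of `chartAlg N ℓ {t}` whose
reductions are linearly independent over `𝔽_ℓ(j̄)`, the kernel of `chartRes` is `ℓ · chartAlg`.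
-/

set_option autoImplicit false
set_option linter.unusedSectionVars false
open ModularCurve ModularCurve.IgusaScheme IntermediateField

noncomputable section
namespace Fermat.Agent.Igusa

variable (N : ℕ) [NeZero N] (ℓ : ℕ) [Fact ℓ.Prime]

set_option quotPrecheck false in
local notation "ℤℓ" => ↥(GaloisRep.ratLocalizedAt ℓ)

set_option quotPrecheck false in
local notation "F" => ↥(modularFunctionFieldFull N)

/-- Constants lie in every subfield of `𝔽_ℓ((q))`. -/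
theorem C_zmod_mem_subfield (T : Subfield (LaurentSeries (ZMod ℓ))) (c : ZMod ℓ) :
    (HahnSeries.C c : LaurentSeries (ZMod ℓ)) ∈ T := by
  have : NeZero ℓ := ⟨(Fact.out : ℓ.Prime).ne_zero⟩
  have h : (HahnSeries.C c : LaurentSeries (ZMod ℓ)) = ((c.val : ℕ) : LaurentSeries (ZMod ℓ)) := by
    rw [← map_natCast (HahnSeries.C : ZMod ℓ →+* LaurentSeries (ZMod ℓ)), ZMod.natCast_zmod_val]
  rw [h]
  exact natCast_mem T _

/-- The residue function field `𝔽_ℓ(j̄) ⊆ 𝔽_ℓ((q))`, as a subfield. -/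
abbrev resField : Subfield (LaurentSeries (ZMod ℓ)) :=
  Subfield.closure ({jqModC (ZMod ℓ)} : Set (LaurentSeries (ZMod ℓ)))

section Base

/-- `ℤ_(ℓ)[S] → chartAlg N ℓ S`. -/
@[instance_reducible]
def chartBaseAlgebra (S : Set F) : Algebra ↥(Algebra.adjoin ℤℓ S) ↥(chartAlg N ℓ S) :=
  (Subalgebra.inclusion (adjoin_le_chartAlg N ℓ S)).toRingHom.toAlgebra

attribute [local instance] chartBaseAlgebra

/-- shortcut instance (the generic search times out) -/
@[instance_reducible]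
def chartBaseSMul (S : Set F) : SMul ↥(Algebra.adjoin ℤℓ S) ↥(chartAlg N ℓ S) :=
  (chartBaseAlgebra N ℓ S).toSMul

attribute [local instance 2000] chartBaseSMul

theorem coe_chartBaseAlgebraMap (S : Set F) (a : ↥(Algebra.adjoin ℤℓ S)) :
    ((algebraMap ↥(Algebra.adjoin ℤℓ S) ↥(chartAlg N ℓ S) a : ↥(chartAlg N ℓ S)) : F) = (a : F) :=
  rfl

instance chartBase_isScalarTower (S : Set F) :
    IsScalarTower ↥(Algebra.adjoin ℤℓ S) ↥(chartAlg N ℓ S) F :=
  IsScalarTower.of_algebraMap_eq fun _ => rfl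

instance chartBase_isIntegralClosure (S : Set F) :
    IsIntegralClosure ↥(chartAlg N ℓ S) ↥(Algebra.adjoin ℤℓ S) F where
  algebraMap_injective := Subtype.val_injective
  isIntegral_iff := fun {x} =>
    ⟨fun h => ⟨⟨x, (mem_chartAlg_iff N ℓ).mpr h⟩, rfl⟩,
      fun ⟨y, hy⟩ => hy ▸ (mem_chartAlg_iff N ℓ).mp y.2⟩

instance chartBase_faithfulSMul (S : Set F) : FaithfulSMul ↥(Algebra.adjoin ℤℓ S) F :=
  (faithfulSMul_iff_algebraMap_injective ↥(Algebra.adjoin ℤℓ S) F).mpr Subtype.val_injective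

end Base

attribute [local instance] chartBaseAlgebra
attribute [local instance 2000] chartBaseSMul

/-- Reductions of elements of the base ring `ℤ_(ℓ)[t]` lie in `𝔽_ℓ(j̄)` if that of `t` does. -/
theorem chartRes_base_mem_resField (t : F)
    (hS : ∀ s ∈ ({t} : Set F), ((s : F) : LaurentSeries ℚ) ∈ gaussSubring ℓ)
    (htres : chartRes N ℓ hS ⟨t, subset_chartAlg N ℓ _ rfl⟩ ∈ resField ℓ)
    (a : ↥(Algebra.adjoin ℤℓ ({t} : Set F))) :
    chartRes N ℓ hS (algebraMap ↥(Algebra.adjoin ℤℓ ({t} : Set F)) ↥(chartAlg N ℓ {t}) a) ∈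
      resField ℓ := by
  obtain ⟨a, ha⟩ := a
  induction ha using Algebra.adjoin_induction with
  | mem y hy =>
    have hyt : y = t := hy
    subst hyt
    exact htres
  | algebraMap r =>
    have h : (algebraMap ↥(Algebra.adjoin ℤℓ ({t} : Set F)) ↥(chartAlg N ℓ {t})
        ⟨algebraMap ℤℓ F r, Subalgebra.algebraMap_mem _ r⟩) =
        algebraMap ℤℓ ↥(chartAlg N ℓ {t}) r := rfl
    rw [h, chartRes_algebraMap]
    exact C_zmod_mem_subfield ℓ _ _
  | add y z hy hz ihy ihz =>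
    have h : (algebraMap ↥(Algebra.adjoin ℤℓ ({t} : Set F)) ↥(chartAlg N ℓ {t})
        ⟨y + z, Subalgebra.add_mem _ hy hz⟩) =
        algebraMap ↥(Algebra.adjoin ℤℓ ({t} : Set F)) ↥(chartAlg N ℓ {t}) ⟨y, hy⟩ +
        algebraMap ↥(Algebra.adjoin ℤℓ ({t} : Set F)) ↥(chartAlg N ℓ {t}) ⟨z, hz⟩ := rfl
    rw [h, RingHom.map_add]
    exact (resField ℓ).add_mem ihy ihz
  | mul y z hy hz ihy ihz =>
    have h : (algebraMap ↥(Algebra.adjoin ℤℓ ({t} : Set F)) ↥(chartAlg N ℓ {t})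
        ⟨y * z, Subalgebra.mul_mem _ hy hz⟩) =
        algebraMap ↥(Algebra.adjoin ℤℓ ({t} : Set F)) ↥(chartAlg N ℓ {t}) ⟨y, hy⟩ *
        algebraMap ↥(Algebra.adjoin ℤℓ ({t} : Set F)) ↥(chartAlg N ℓ {t}) ⟨z, hz⟩ := rfl
    rw [h, RingHom.map_mul]
    exact (resField ℓ).mul_mem ihy ihz

/-- **The `q`-expansion principle on the chart `chartAlg N ℓ {t}`** (`t = j` or `1/j`),
from `ChartBase` and `ψ(N)` elements with `𝔽_ℓ(j̄)`-independent reductions. -/
theorem chartRes_ker_le_of_chartBase (t : F)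
    (hS : ∀ s ∈ ({t} : Set F), ((s : F) : LaurentSeries ℚ) ∈ gaussSubring ℓ)
    (hbase : ChartBase N ℓ t)
    (htres : chartRes N ℓ hS ⟨t, subset_chartAlg N ℓ _ rfl⟩ ∈ resField ℓ)
    (b : Fin (dedekindPsi N) → ↥(chartAlg N ℓ {t}))
    (hb : ∀ g : Fin (dedekindPsi N) → LaurentSeries (ZMod ℓ), (∀ i, g i ∈ resField ℓ) →
      ∑ i, g i * chartRes N ℓ hS (b i) = 0 → ∀ i, g i = 0)
    (x : ↥(chartAlg N ℓ {t})) (hx : chartRes N ℓ hS x = 0) :
    ∃ y : ↥(chartAlg N ℓ {t}), x = algebraMap ℤℓ ↥(chartAlg N ℓ {t}) (zlPrime ℓ) * y := by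
  classical
  have := hbase.isIntegrallyClosed
  have := hbase.wfDvdMonoid
  have := finiteDimensional_full N
  -- the independence hypothesis of the kernel principle
  have hind : ∀ a : Fin (dedekindPsi N) → ↥(Algebra.adjoin ℤℓ ({t} : Set F)),
      chartRes N ℓ hS (∑ i, algebraMap ↥(Algebra.adjoin ℤℓ ({t} : Set F)) ↥(chartAlg N ℓ {t})
        (a i) * b i) = 0 →
      ∀ i, algebraMap ℤℓ ↥(Algebra.adjoin ℤℓ ({t} : Set F)) (zlPrime ℓ) ∣ a i := by
    intro a h i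
    have h1 : ∑ i, chartRes N ℓ hS (algebraMap ↥(Algebra.adjoin ℤℓ ({t} : Set F))
        ↥(chartAlg N ℓ {t}) (a i)) * chartRes N ℓ hS (b i) = 0 := by
      rw [← h, map_sum]
      exact Finset.sum_congr rfl fun i _ => (RingHom.map_mul _ _ _).symm
    have h2 := hb _ (fun i => chartRes_base_mem_resField N ℓ t hS htres (a i)) h1 i
    rw [chartRes_eq_zero_iff] at h2
    exact hbase.gauss (a i) h2
  have hclear : ∀ g : ↥ℚ⟮jFull N⟯, ∃ a d : ↥(Algebra.adjoin ℤℓ ({t} : Set F)), d ≠ 0 ∧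
      algebraMap ↥(Algebra.adjoin ℤℓ ({t} : Set F)) F d * algebraMap ↥ℚ⟮jFull N⟯ F g =
        algebraMap ↥(Algebra.adjoin ℤℓ ({t} : Set F)) F a := fun g => hbase.clear g g.2
  have hfin : Module.finrank ↥ℚ⟮jFull N⟯ F ≤ Fintype.card (Fin (dedekindPsi N)) := by
    rw [Fintype.card_fin]
    exact finrank_full_le_dedekindPsi N
  exact exists_eq_mul_of_map_eq_zero_of_clear (A := ↥(Algebra.adjoin ℤℓ ({t} : Set F)))
    (Kj := ↥ℚ⟮jFull N⟯) (L := F) (B := ↥(chartAlg N ℓ {t})) hfin hbase.prime (chartRes N ℓ hS) b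
    hclear hind x hx

/-- The reduction data on the chart `chartAlg N ℓ {t}`. -/
def reductionDataOfChartBase (t : F)
    (hS : ∀ s ∈ ({t} : Set F), ((s : F) : LaurentSeries ℚ) ∈ gaussSubring ℓ)
    (hbase : ChartBase N ℓ t)
    (htres : chartRes N ℓ hS ⟨t, subset_chartAlg N ℓ _ rfl⟩ ∈ resField ℓ)
    (b : Fin (dedekindPsi N) → ↥(chartAlg N ℓ {t}))
    (hb : ∀ g : Fin (dedekindPsi N) → LaurentSeries (ZMod ℓ), (∀ i, g i ∈ resField ℓ) →
      ∑ i, g i * chartRes N ℓ hS (b i) = 0 → ∀ i, g i = 0) :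
    ReductionData ℓ ↥(chartAlg N ℓ {t}) where
  ρ := chartRes N ℓ hS
  map_algebraMap := chartRes_algebraMap N ℓ hS
  ker_le := chartRes_ker_le_of_chartBase N ℓ t hS hbase htres b hb

end Fermat.Agent.Igusa
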