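import Mathlib
import Fermat.Prelude.Def_ModularCurve_IgusaScheme
import Fermat.Agent.Igusa.ChartKer

/-!
# S28 / Igusa, node N-CHART (part 3): the three charts, and S28 in hypothesis form

Inputs: `ChartBase N ℓ j`, `ChartBase N ℓ (1/j)` (N-CHART-A), integrality of the `j(q^d)` over
`ℤ_(ℓ)[j]` (N-INT) and `ψ(N)` monomials in the `j̄(q^d)` independent over `𝔽_ℓ(j̄)` (N-TOWER-cor).
Output: the frozen S28 conclusion.
-/

set_option autoImplicit false
set_option linter.unusedSectionVars false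
open AlgebraicGeometry CategoryTheory CategoryTheory.Limits
open ModularCurve ModularCurve.IgusaScheme IntermediateField

noncomputable section
namespace Fermat.Agent.Igusa

variable (N : ℕ) [NeZero N] (ℓ : ℕ) [Fact ℓ.Prime]

set_option quotPrecheck false in
local notation "ℤℓ" => ↥(GaloisRep.ratLocalizedAt ℓ)

set_option quotPrecheck false in
local notation "F" => ↥(modularFunctionFieldFull N)

/-! ### Gauss integrality of `j` and `1/j` -/

theorem jq_mem_gaussSubring : (jq : LaurentSeries ℚ) ∈ gaussSubring ℓ := by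
  obtain ⟨h, -⟩ := gaussRes_jqN ℓ 1
  rwa [qExpand_one_apply] at h

theorem gaussRes_jq : gaussRes ℓ ⟨jq, jq_mem_gaussSubring ℓ⟩ = jqModC (ZMod ℓ) := by
  obtain ⟨h, h2⟩ := gaussRes_jqN ℓ 1
  rw [jqNModC_one] at h2
  rw [← h2]
  congr 1
  exact Subtype.ext (qExpand_one_apply _).symm

theorem gaussRes_jq_ne_zero : gaussRes ℓ ⟨jq, jq_mem_gaussSubring ℓ⟩ ≠ 0 := by
  rw [gaussRes_jq]
  exact jqModC_ne_zero_of_nontrivial (ZMod ℓ)

theorem jq_inv_mem_gaussSubring : (jq : LaurentSeries ℚ)⁻¹ ∈ gaussSubring ℓ :=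
  inv_mem_gaussSubring_of_gaussRes_ne_zero ℓ ⟨jq, jq_mem_gaussSubring ℓ⟩ (gaussRes_jq_ne_zero ℓ)

theorem hSFin : ∀ s ∈ ({jFull N} : Set F), ((s : F) : LaurentSeries ℚ) ∈ gaussSubring ℓ := by
  intro s hs
  rw [Set.mem_singleton_iff.mp hs]
  exact jq_mem_gaussSubring ℓ

theorem hSInf : ∀ s ∈ ({(jFull N)⁻¹} : Set F), ((s : F) : LaurentSeries ℚ) ∈ gaussSubring ℓ := by
  intro s hs
  rw [Set.mem_singleton_iff.mp hs]
  exact jq_inv_mem_gaussSubring ℓ

theorem hSMid : ∀ s ∈ ({jFull N, (jFull N)⁻¹} : Set F),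
    ((s : F) : LaurentSeries ℚ) ∈ gaussSubring ℓ := by
  intro s hs
  rcases hs with hs | hs
  · rw [hs]; exact jq_mem_gaussSubring ℓ
  · rw [Set.mem_singleton_iff.mp hs]; exact jq_inv_mem_gaussSubring ℓ

/-- `chartRes` only depends on the `q`-expansion. -/
theorem chartRes_congr {S S' : Set F}
    (hS : ∀ s ∈ S, ((s : F) : LaurentSeries ℚ) ∈ gaussSubring ℓ)
    (hS' : ∀ s ∈ S', ((s : F) : LaurentSeries ℚ) ∈ gaussSubring ℓ)
    (x : ↥(chartAlg N ℓ S)) (y : ↥(chartAlg N ℓ S')) (h : (x : F) = (y : F)) :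
    chartRes N ℓ hS x = chartRes N ℓ hS' y := by
  rw [chartRes_apply, chartRes_apply]
  congr 1
  exact Subtype.ext (congrArg (fun z : F => (z : LaurentSeries ℚ)) h)

theorem chartRes_jFull {S : Set F}
    (hS : ∀ s ∈ S, ((s : F) : LaurentSeries ℚ) ∈ gaussSubring ℓ)
    (x : ↥(chartAlg N ℓ S)) (hx : (x : F) = jFull N) :
    chartRes N ℓ hS x = jqModC (ZMod ℓ) := by
  rw [chartRes_apply, ← gaussRes_jq]
  congr 1
  exact Subtype.ext (congrArg (fun z : F => (z : LaurentSeries ℚ)) hx)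

theorem chartRes_jFull_inv {S : Set F}
    (hS : ∀ s ∈ S, ((s : F) : LaurentSeries ℚ) ∈ gaussSubring ℓ)
    (x : ↥(chartAlg N ℓ S)) (hx : (x : F) = (jFull N)⁻¹) :
    chartRes N ℓ hS x = (jqModC (ZMod ℓ))⁻¹ := by
  rw [chartRes_apply, ← gaussRes_jq, ← gaussRes_inv ℓ _ (gaussRes_jq_ne_zero ℓ)]
  congr 1
  exact Subtype.ext (congrArg (fun z : F => (z : LaurentSeries ℚ)) hx)

/-! ### Lifting the monomials -/

/-- the set of generators `j̄(q^d)`, `d ∣ N` -/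
def jbarGens : Set (LaurentSeries (ZMod ℓ)) :=
  {x | ∃ d : ℕ, ∃ _ : NeZero d, d ∣ N ∧ x = jqNModC (ZMod ℓ) d}

/-- Monomials in the `j̄(q^d)` lift to the finite chart algebra, given N-INT. -/
theorem exists_chartRes_eq_of_mem_closure
    (hint : ∀ (d : ℕ) [NeZero d] (hd : d ∣ N),
      (⟨qExpand ℚ d jq, jqd_mem_full N hd⟩ : F) ∈ chartAlgFin N ℓ)
    {y : LaurentSeries (ZMod ℓ)} (hy : y ∈ Submonoid.closure (jbarGens N ℓ)) :
    ∃ b : ↥(chartAlgFin N ℓ), chartRes N ℓ (hSFin N ℓ) b = y := by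
  have hle : Submonoid.closure (jbarGens N ℓ) ≤
      MonoidHom.mrange ((chartRes N ℓ (hSFin N ℓ) : ↥(chartAlgFin N ℓ) →+* _) :
        ↥(chartAlgFin N ℓ) →* LaurentSeries (ZMod ℓ)) := by
    rw [Submonoid.closure_le]
    rintro x ⟨d, hd0, hd, rfl⟩
    refine ⟨⟨⟨qExpand ℚ d jq, jqd_mem_full N hd⟩, hint d hd⟩, ?_⟩
    obtain ⟨hmem, hres⟩ := gaussRes_jqN ℓ d
    exact hres
  exact hle hy

/-! ### The finite chart -/

/-- Reduction data on the finite chart. -/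
def reductionDataFin (hbase : ChartBase N ℓ (jFull N))
    (b : Fin (dedekindPsi N) → ↥(chartAlgFin N ℓ))
    (hb : ∀ g : Fin (dedekindPsi N) → LaurentSeries (ZMod ℓ), (∀ i, g i ∈ resField ℓ) →
      ∑ i, g i * chartRes N ℓ (hSFin N ℓ) (b i) = 0 → ∀ i, g i = 0) :
    ReductionData ℓ ↥(chartAlgFin N ℓ) :=
  reductionDataOfChartBase N ℓ (jFull N) (hSFin N ℓ) hbase
    (by rw [chartRes_jFull N ℓ _ _ rfl]; exact Subfield.subset_closure rfl) b hb

/-! ### The chart at infinity -/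

theorem jqModC_inv_mem_resField : (jqModC (ZMod ℓ))⁻¹ ∈ resField ℓ :=
  (resField ℓ).inv_mem (Subfield.subset_closure rfl)

/-- Reduction data on the chart at infinity. -/
def reductionDataInf (hbase : ChartBase N ℓ (jFull N)⁻¹)
    (b : Fin (dedekindPsi N) → ↥(chartAlgInf N ℓ))
    (hb : ∀ g : Fin (dedekindPsi N) → LaurentSeries (ZMod ℓ), (∀ i, g i ∈ resField ℓ) →
      ∑ i, g i * chartRes N ℓ (hSInf N ℓ) (b i) = 0 → ∀ i, g i = 0) :
    ReductionData ℓ ↥(chartAlgInf N ℓ) :=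
  reductionDataOfChartBase N ℓ (jFull N)⁻¹ (hSInf N ℓ) hbase
    (by rw [chartRes_jFull_inv N ℓ _ _ rfl]; exact jqModC_inv_mem_resField ℓ) b hb

/-- From a family in the finite chart to a family in the chart at infinity, scaling by powers
of `1/j`. -/
theorem exists_family_inf (b : Fin (dedekindPsi N) → ↥(chartAlgFin N ℓ))
    (hb : ∀ g : Fin (dedekindPsi N) → LaurentSeries (ZMod ℓ), (∀ i, g i ∈ resField ℓ) →
      ∑ i, g i * chartRes N ℓ (hSFin N ℓ) (b i) = 0 → ∀ i, g i = 0) :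
    ∃ b' : Fin (dedekindPsi N) → ↥(chartAlgInf N ℓ),
      ∀ g : Fin (dedekindPsi N) → LaurentSeries (ZMod ℓ), (∀ i, g i ∈ resField ℓ) →
        ∑ i, g i * chartRes N ℓ (hSInf N ℓ) (b' i) = 0 → ∀ i, g i = 0 := by
  have hex : ∀ i, ∃ n : ℕ, (jFull N)⁻¹ ^ n * ((b i : ↥(chartAlgFin N ℓ)) : F) ∈ chartAlgInf N ℓ := by
    intro i
    have hz : ((b i : ↥(chartAlgFin N ℓ)) : F) ∈
        chartAlg N ℓ (insert (jFull N)⁻¹⁻¹ {(jFull N)⁻¹}) := by
      rw [inv_inv]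
      exact chartAlg_mono N ℓ (sFin_subset N) (b i).2
    exact exists_pow_mul_mem_chartAlg (Set.mem_singleton _) (inv_ne_zero (jFull_ne_zero N)) hz
  choose n hn using hex
  refine ⟨fun i => ⟨(jFull N)⁻¹ ^ n i * ((b i : ↥(chartAlgFin N ℓ)) : F), hn i⟩, ?_⟩
  -- the reduction of the scaled family
  have hres : ∀ i, chartRes N ℓ (hSInf N ℓ)
      ⟨(jFull N)⁻¹ ^ n i * ((b i : ↥(chartAlgFin N ℓ)) : F), hn i⟩ =
      (jqModC (ZMod ℓ))⁻¹ ^ n i * chartRes N ℓ (hSFin N ℓ) (b i) := by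
    intro i
    have h1 : chartRes N ℓ (hSInf N ℓ)
        ⟨(jFull N)⁻¹ ^ n i * ((b i : ↥(chartAlgFin N ℓ)) : F), hn i⟩ =
        chartRes N ℓ (hSMid N ℓ) (inclInf N ℓ (jInvChartInf N ℓ) ^ n i * inclFin N ℓ (b i)) :=
      chartRes_congr N ℓ _ _ _ _ rfl
    rw [h1, RingHom.map_mul, RingHom.map_pow,
      chartRes_jFull_inv N ℓ (hSMid N ℓ) (inclInf N ℓ (jInvChartInf N ℓ)) rfl,
      chartRes_congr N ℓ (hSMid N ℓ) (hSFin N ℓ) (inclFin N ℓ (b i)) (b i) rfl]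
  intro g hg hsum i
  have hu : (jqModC (ZMod ℓ))⁻¹ ≠ 0 := inv_ne_zero (jqModC_ne_zero_of_nontrivial (ZMod ℓ))
  have h2 : ∑ i, (g i * (jqModC (ZMod ℓ))⁻¹ ^ n i) * chartRes N ℓ (hSFin N ℓ) (b i) = 0 := by
    rw [← hsum]
    refine Finset.sum_congr rfl fun i _ => ?_
    rw [hres i, mul_assoc]
  have h3 := hb (fun i => g i * (jqModC (ZMod ℓ))⁻¹ ^ n i)
    (fun i => (resField ℓ).mul_mem (hg i) ((resField ℓ).pow_mem (jqModC_inv_mem_resField ℓ) _)) h2 i
  rcases mul_eq_zero.mp h3 with h | h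
  · exact h
  · exact absurd h (pow_ne_zero _ hu)

/-! ### The middle chart, by localisation from the finite chart -/

/-- Reduction data on the middle chart, from the `q`-expansion principle on the finite chart. -/
def reductionDataMid
    (hFin : ∀ x : ↥(chartAlgFin N ℓ), chartRes N ℓ (hSFin N ℓ) x = 0 →
      ∃ y : ↥(chartAlgFin N ℓ), x = algebraMap ℤℓ ↥(chartAlgFin N ℓ) (zlPrime ℓ) * y) :
    ReductionData ℓ ↥(chartAlgMid N ℓ) where
  ρ := chartRes N ℓ (hSMid N ℓ)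
  map_algebraMap := chartRes_algebraMap N ℓ (hSMid N ℓ)
  ker_le := by
    intro x hx
    have hz : (x : F) ∈ chartAlg N ℓ (insert (jFull N)⁻¹ {jFull N}) := by
      rw [show insert (jFull N)⁻¹ ({jFull N} : Set F) = {jFull N, (jFull N)⁻¹}
        from Set.pair_comm _ _]
      exact x.2
    obtain ⟨n, hn⟩ := exists_pow_mul_mem_chartAlg (Set.mem_singleton _) (jFull_ne_zero N) hz
    have h1 : chartRes N ℓ (hSFin N ℓ) ⟨(jFull N) ^ n * (x : F), hn⟩ =
        chartRes N ℓ (hSMid N ℓ) (inclFin N ℓ (jChartFin N ℓ) ^ n * x) :=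
      chartRes_congr N ℓ _ _ _ _ rfl
    rw [RingHom.map_mul, hx, mul_zero] at h1
    obtain ⟨y, hy⟩ := hFin _ h1
    refine ⟨inclInf N ℓ (jInvChartInf N ℓ) ^ n * inclFin N ℓ y, Subtype.ext ?_⟩
    have hy' : (jFull N) ^ n * (x : F) =
        algebraMap ℤℓ F (zlPrime ℓ) * (y : F) := congrArg Subtype.val hy
    have hj := jFull_ne_zero N
    show (x : F) = algebraMap ℤℓ F (zlPrime ℓ) * ((jFull N)⁻¹ ^ n * (y : F))
    rw [mul_left_comm, ← hy', ← mul_assoc, ← mul_pow, inv_mul_cancel₀ hj, one_pow, one_mul]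

/-! ### S28 in hypothesis form -/

/-- **S28 from the four inputs** N-CHART-A (twice), N-INT, N-TOWER-cor. -/
theorem isIntegral_pullback_igusaTo_of_inputs
    (hbaseFin : ChartBase N ℓ (jFull N)) (hbaseInf : ChartBase N ℓ (jFull N)⁻¹)
    (hint : ∀ (d : ℕ) [NeZero d] (hd : d ∣ N),
      (⟨qExpand ℚ d jq, jqd_mem_full N hd⟩ : F) ∈ chartAlgFin N ℓ)
    (m : Fin (dedekindPsi N) → LaurentSeries (ZMod ℓ))
    (hm : ∀ i, m i ∈ Submonoid.closure (jbarGens N ℓ))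
    (hli : ∀ g : Fin (dedekindPsi N) → LaurentSeries (ZMod ℓ), (∀ i, g i ∈ resField ℓ) →
      ∑ i, g i * m i = 0 → ∀ i, g i = 0)
    (K : Type) [Field K] [CharP K ℓ] [Algebra ℤℓ K] :
    IsIntegral ↑(pullback (igusaTo N ℓ)
      (Spec.map (CommRingCat.ofHom (algebraMap ℤℓ K)))) := by
  choose b hb using fun i => exists_chartRes_eq_of_mem_closure N ℓ hint (hm i)
  have hbli : ∀ g : Fin (dedekindPsi N) → LaurentSeries (ZMod ℓ), (∀ i, g i ∈ resField ℓ) →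
      ∑ i, g i * chartRes N ℓ (hSFin N ℓ) (b i) = 0 → ∀ i, g i = 0 := by
    intro g hg hsum
    refine hli g hg ?_
    rw [← hsum]
    exact Finset.sum_congr rfl fun i _ => by rw [hb i]
  obtain ⟨b', hb'⟩ := exists_family_inf N ℓ b hbli
  let DFin := reductionDataFin N ℓ hbaseFin b hbli
  let DInf := reductionDataInf N ℓ hbaseInf b' hb'
  let DMid := reductionDataMid N ℓ DFin.ker_le
  exact isIntegral_pullback_igusaTo_of_reductionData N ℓ DFin DInf DMid K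

end Fermat.Agent.Igusa
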