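import Mathlib
import Fermat.Agent.Igusa.ChartAssemble

/-!
# S28 / Igusa: adapter between the two forms of the independence statement of N-TOWER-cor

`ChartAssemble.isIntegral_pullback_igusaTo_of_inputs` wants independence against coefficient
families in the subfield `resField ℓ = Subfield.closure {j̄}`; N-TOWER-cor delivers
`LinearIndependent` over an intermediate field containing `j̄`.  The adapter is generic in the
`Algebra (ZMod ℓ) (LaurentSeries (ZMod ℓ))` instance used to form the intermediate field.
-/

set_option autoImplicit false
open ModularCurve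

namespace Fermat.Agent.Igusa

/-- From `LinearIndependent` over an intermediate field `T ∋ j̄` (any algebra instance) to the
subfield form used in `ChartAssemble`. -/
theorem hli_of_linearIndependent (ℓ : ℕ) [Fact ℓ.Prime] {ι : Type*} [Fintype ι]
    {inst : Algebra (ZMod ℓ) (LaurentSeries (ZMod ℓ))}
    (T : @IntermediateField (ZMod ℓ) (LaurentSeries (ZMod ℓ)) _ _ inst)
    (hT : jqModC (ZMod ℓ) ∈ T)
    (m : ι → LaurentSeries (ZMod ℓ)) (h : LinearIndependent ↥T m) :
    ∀ g : ι → LaurentSeries (ZMod ℓ), (∀ i, g i ∈ resField ℓ) →
      ∑ i, g i * m i = 0 → ∀ i, g i = 0 := by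
  intro g hg hsum i
  have hle : resField ℓ ≤ T.toSubfield := by
    rw [resField, Subfield.closure_le]
    intro x hx
    rw [Set.mem_singleton_iff.mp hx]
    exact hT
  rw [Fintype.linearIndependent_iff] at h
  have h1 := h (fun i => (⟨g i, hle (hg i)⟩ : ↥T)) (by
    rw [← hsum]
    exact Finset.sum_congr rfl fun i _ => rfl) i
  exact congrArg Subtype.val h1

end Fermat.Agent.Igusa
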