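/-
S28 (Igusa), node N-TOWER-glue: from the degree bound (α) over a big field `F ⊇ 𝔽_ℓ`
  `ψ(N) ≤ [F(j(t^N))(j(t^{dN}) : d ∣ N) : F(j(t^N))]`  (inside `F((t))`)
to the statement consumed by the kernel principle:
there are `ψ(N)` monomials in the `j(q^d)`, `d ∣ N`, inside `𝔽_ℓ((q))` which are linearly
independent over the field `𝔽_ℓ(j(q))`.
-/
import Mathlib
import Fermat.Agent.Igusa.SubstLevel

set_option autoImplicit false

namespace Fermat.Agent.Igusa

open ModularCurve IntermediateField

/-! ### Lemma A: a finite extension generated by a set has a basis of monomials -/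

section Monomials

variable {K L : Type*} [Field K] [Field L] [Algebra K L]

/-- If `K(S)/K` is finite of degree `≥ n`, then there are `n` monomials in the elements of `S`
which are linearly independent over `K`. -/
theorem exists_linearIndependent_monomials (S : Set L)
    [FiniteDimensional K ↥(IntermediateField.adjoin K S)] {n : ℕ}
    (hn : n ≤ Module.finrank K ↥(IntermediateField.adjoin K S)) :
    ∃ m : Fin n → L, (∀ i, m i ∈ Submonoid.closure S) ∧ LinearIndependent K m := by
  classical
  have halg : ∀ x ∈ S, IsAlgebraic K x := by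
    intro x hx
    have hxE : x ∈ IntermediateField.adjoin K S := IntermediateField.subset_adjoin K S hx
    have := IsAlgebraic.of_finite K (⟨x, hxE⟩ : ↥(IntermediateField.adjoin K S))
    exact IntermediateField.isAlgebraic_iff.mp this
  have hE : (IntermediateField.adjoin K S).toSubalgebra = Algebra.adjoin K S :=
    IntermediateField.adjoin_toSubalgebra_of_isAlgebraic halg
  have hspan : Subalgebra.toSubmodule (IntermediateField.adjoin K S).toSubalgebra =
      Submodule.span K (Submonoid.closure S : Set L) := by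
    rw [hE, Algebra.adjoin_eq_span]
  obtain ⟨b, hbS, hbspan, hbli⟩ := exists_linearIndependent K (Submonoid.closure S : Set L)
  -- `b` is a basis of the submodule `W`
  have hrange : Set.range (Subtype.val : b → L) = b := Subtype.range_coe
  let B := Module.Basis.span hbli
  have hW : Submodule.span K (Set.range (Subtype.val : b → L)) =
      Subalgebra.toSubmodule (IntermediateField.adjoin K S).toSubalgebra := by
    rw [hrange, hbspan, hspan]
  have hfr : Module.finrank K ↥(Submodule.span K (Set.range (Subtype.val : b → L))) =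
      Module.finrank K ↥(IntermediateField.adjoin K S) := by
    rw [hW]
    rfl
  have hcard : Nat.card b = Module.finrank K ↥(IntermediateField.adjoin K S) := by
    rw [← hfr]
    exact (Module.finrank_eq_nat_card_basis B).symm
  rcases Nat.eq_zero_or_pos n with rfl | hnpos
  · exact ⟨Fin.elim0, fun i => i.elim0, linearIndependent_empty_type⟩
  have hfin : Finite b := by
    apply Nat.finite_of_card_ne_zero
    rw [hcard]
    omega
  have := Fintype.ofFinite b
  have hle : Fintype.card (Fin n) ≤ Fintype.card b := by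
    rw [Fintype.card_fin, ← Nat.card_eq_fintype_card, hcard]
    exact hn
  obtain ⟨e⟩ := Function.Embedding.nonempty_of_card_le hle
  refine ⟨fun i => (e i : L), fun i => hbS (e i).2, ?_⟩
  exact hbli.comp e e.injective

end Monomials

/-! ### Lemma B: transfer of linear independence along an injective ring hom -/

section TransferLI

variable {A B : Type*} [Field A] [Field B] {k₀ : Type*} [Field k₀] [Algebra k₀ A]
  {k₁ : Type*} [Field k₁] [Algebra k₁ B]

/-- Let `φ : A → B` be a ring hom sending the subfield `kA` into the subfield `kB`.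
A family whose image is linearly independent over `kB` is linearly independent over `kA`. -/
theorem linearIndependent_of_map (φ : A →+* B) (kA : IntermediateField k₀ A)
    (kB : IntermediateField k₁ B) (hk : ∀ c : kA, φ (c : A) ∈ kB) {ι : Type*} [Fintype ι]
    (m : ι → A) (h : LinearIndependent ↥kB fun i => φ (m i)) : LinearIndependent ↥kA m := by
  rw [Fintype.linearIndependent_iff] at h ⊢
  intro g hg i
  have h1 := h (fun i => ⟨φ (g i : A), hk (g i)⟩) ?_
  · have h2 := h1 i
    have h3 : φ (g i : A) = 0 := congrArg Subtype.val h2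
    have h4 : (g i : A) = 0 := (map_eq_zero φ).mp h3
    exact Subtype.ext h4
  · have := congrArg φ hg
    rw [map_zero, map_sum] at this
    rw [← this]
    refine Finset.sum_congr rfl fun i _ => ?_
    rw [IntermediateField.smul_def, IntermediateField.smul_def, smul_eq_mul, smul_eq_mul, map_mul]

end TransferLI

/-! ### The corollary of the tower theorem -/

section Main

variable (ℓ N : ℕ) [Fact ℓ.Prime] [NeZero N] (F : Type*) [Field F] [Algebra (ZMod ℓ) F]

/-- The comparison map `𝔽_ℓ((q)) → F((t))`, `q ↦ t^N`. -/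
noncomputable def towerPhi : LaurentSeries (ZMod ℓ) →+* LaurentSeries F :=
  (qExpand F N).comp (coeffMap (algebraMap (ZMod ℓ) F))

theorem towerPhi_jqNModC (d : ℕ) [NeZero d] :
    towerPhi ℓ N F (jqNModC (ZMod ℓ) d) = J (1 : Fˣ) (d * N) := by
  rw [towerPhi, RingHom.comp_apply, coeffMap_jqNModC, ← J_one_unit_eq_jqNModC, qExpand_J]
  exact J_congr _ (mul_comm N d)

theorem towerPhi_jqModC : towerPhi ℓ N F (jqModC (ZMod ℓ)) = J (1 : Fˣ) N := by
  rw [towerPhi, RingHom.comp_apply, coeffMap_jqModC, J_one_unit]

theorem towerPhi_algebraMap (c : ZMod ℓ) :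
    towerPhi ℓ N F (algebraMap (ZMod ℓ) (LaurentSeries (ZMod ℓ)) c) =
      algebraMap F (LaurentSeries F) (algebraMap (ZMod ℓ) F c) := by
  rw [algebraMap_laurentSeries_eq_single, algebraMap_laurentSeries_eq_single, towerPhi,
    RingHom.comp_apply, coeffMap_single, qExpand_single, mul_zero]

/-- `towerPhi` maps `𝔽_ℓ(j(q))` into `F(j(t^N))`. -/
theorem towerPhi_mem (c : ↥(IntermediateField.adjoin (ZMod ℓ) ({jqModC (ZMod ℓ)} :
    Set (LaurentSeries (ZMod ℓ))))) :
    towerPhi ℓ N F (c : LaurentSeries (ZMod ℓ)) ∈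
      IntermediateField.adjoin F ({J (1 : Fˣ) N} : Set (LaurentSeries F)) := by
  let T : IntermediateField (ZMod ℓ) (LaurentSeries (ZMod ℓ)) :=
    { (IntermediateField.adjoin F ({J (1 : Fˣ) N} : Set (LaurentSeries F))).toSubfield.comap
        (towerPhi ℓ N F) with
      algebraMap_mem' := fun r => by
        change towerPhi ℓ N F _ ∈ IntermediateField.adjoin F _
        rw [towerPhi_algebraMap]
        exact IntermediateField.algebraMap_mem _ _ }
  have hle : IntermediateField.adjoin (ZMod ℓ) ({jqModC (ZMod ℓ)} :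
      Set (LaurentSeries (ZMod ℓ))) ≤ T := by
    rw [IntermediateField.adjoin_le_iff, Set.singleton_subset_iff]
    change towerPhi ℓ N F _ ∈ IntermediateField.adjoin F _
    rw [towerPhi_jqModC]
    exact IntermediateField.subset_adjoin F _ (Set.mem_singleton _)
  exact hle c.2

theorem towerPhi_injective : Function.Injective (towerPhi ℓ N F) :=
  (towerPhi ℓ N F).injective

/-- **N-TOWER-cor** (hypothesis form over the tower degree bound (α)).  If, over some field
`F ⊇ 𝔽_ℓ`, the field generated over `F(j(t^N))` by the `j(t^{dN})`, `d ∣ N`, is finite of degree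
at least `ψ(N)`, then there are `ψ(N)` monomials in the `j(q^d)`, `d ∣ N`, in `𝔽_ℓ((q))` which are
linearly independent over `𝔽_ℓ(j(q))`. -/
theorem exists_monomials_of_tower
    [hfin : FiniteDimensional
      ↥(IntermediateField.adjoin F ({J (1 : Fˣ) N} : Set (LaurentSeries F)))
      ↥(IntermediateField.adjoin
        ↥(IntermediateField.adjoin F ({J (1 : Fˣ) N} : Set (LaurentSeries F)))
        {x : LaurentSeries F | ∃ d : ℕ, ∃ _ : NeZero d, d ∣ N ∧ x = J (1 : Fˣ) (d * N)})]
    (hα : dedekindPsi N ≤ Module.finrank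
      ↥(IntermediateField.adjoin F ({J (1 : Fˣ) N} : Set (LaurentSeries F)))
      ↥(IntermediateField.adjoin
        ↥(IntermediateField.adjoin F ({J (1 : Fˣ) N} : Set (LaurentSeries F)))
        {x : LaurentSeries F | ∃ d : ℕ, ∃ _ : NeZero d, d ∣ N ∧ x = J (1 : Fˣ) (d * N)})) :
    ∃ m : Fin (dedekindPsi N) → LaurentSeries (ZMod ℓ),
      (∀ i, m i ∈ Submonoid.closure
        {x : LaurentSeries (ZMod ℓ) | ∃ d : ℕ, ∃ _ : NeZero d, d ∣ N ∧ x = jqNModC (ZMod ℓ) d}) ∧
      LinearIndependent
        ↥(IntermediateField.adjoin (ZMod ℓ) ({jqModC (ZMod ℓ)} : Set (LaurentSeries (ZMod ℓ)))) m := by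
  obtain ⟨m', hm', hli⟩ := exists_linearIndependent_monomials
    (K := ↥(IntermediateField.adjoin F ({J (1 : Fˣ) N} : Set (LaurentSeries F))))
    {x : LaurentSeries F | ∃ d : ℕ, ∃ _ : NeZero d, d ∣ N ∧ x = J (1 : Fˣ) (d * N)} hα
  -- the generators upstairs are the images of the generators downstairs
  have hS : {x : LaurentSeries F | ∃ d : ℕ, ∃ _ : NeZero d, d ∣ N ∧ x = J (1 : Fˣ) (d * N)} =
      (towerPhi ℓ N F) '' {x : LaurentSeries (ZMod ℓ) |
        ∃ d : ℕ, ∃ _ : NeZero d, d ∣ N ∧ x = jqNModC (ZMod ℓ) d} := by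
    ext x
    constructor
    · rintro ⟨d, hd, hdN, rfl⟩
      exact ⟨jqNModC (ZMod ℓ) d, ⟨d, hd, hdN, rfl⟩, towerPhi_jqNModC ℓ N F d⟩
    · rintro ⟨y, ⟨d, hd, hdN, rfl⟩, rfl⟩
      exact ⟨d, hd, hdN, towerPhi_jqNModC ℓ N F d⟩
  have hcl : ∀ i, ∃ y ∈ Submonoid.closure {x : LaurentSeries (ZMod ℓ) |
      ∃ d : ℕ, ∃ _ : NeZero d, d ∣ N ∧ x = jqNModC (ZMod ℓ) d}, towerPhi ℓ N F y = m' i := by
    intro i
    have := hm' i
    rw [hS, ← MonoidHom.map_mclosure] at this
    exact this
  choose m hm hφm using hcl
  refine ⟨m, hm, ?_⟩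
  refine linearIndependent_of_map (towerPhi ℓ N F) _ _ (towerPhi_mem ℓ N F) m ?_
  simp only [hφm]
  exact hli

end Main

end Fermat.Agent.Igusa
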