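/-
S28 (Igusa): final wiring of the tower side.  Given the tower degree bound (α) of
`Igusa/Tower.lean` as a hypothesis `TowerBound N`, the analytic modular equation data reduced to
characteristic `ℓ ∤ N` (`Igusa/CoeffRingModEq.lean`) give the independence input of
`ChartAssemble.isIntegral_pullback_igusaTo_of_inputs` unconditionally.
-/
import Mathlib
import Fermat.Agent.Igusa.TowerCor
import Fermat.Agent.Igusa.CoeffRingModEq
import Fermat.Agent.Igusa.TowerAdapter
import Fermat.Agent.Igusa.Integrality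

set_option autoImplicit false

namespace Fermat.Agent.Igusa

open ModularCurve ModularCurve.IgusaScheme IntermediateField
open AlgebraicGeometry CategoryTheory CategoryTheory.Limits

/-- The tower degree bound (α): over every algebraically closed field `F` carrying modular
equation data for all primes `p ∣ N`, the field generated over `F(j(t^N))` by the `j(t^{dN})`,
`d ∣ N`, inside `F((t))` is finite of degree at least `ψ(N)`. -/
def TowerBound (N : ℕ) [NeZero N] : Prop :=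
  ∀ (F : Type) [Field F] [IsAlgClosed F],
    (∀ (p : ℕ) (hp : p.Prime), p ∣ N → ∃ (ζ : Fˣ) (pinv : F),
      Nonempty (@ModEqData F _ p ⟨hp.ne_zero⟩ ζ pinv)) →
    FiniteDimensional
      ↥(IntermediateField.adjoin F ({J (1 : Fˣ) N} : Set (LaurentSeries F)))
      ↥(IntermediateField.adjoin
        ↥(IntermediateField.adjoin F ({J (1 : Fˣ) N} : Set (LaurentSeries F)))
        {x : LaurentSeries F | ∃ d : ℕ, ∃ _ : NeZero d, d ∣ N ∧ x = J (1 : Fˣ) (d * N)}) ∧
    dedekindPsi N ≤ Module.finrank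
      ↥(IntermediateField.adjoin F ({J (1 : Fˣ) N} : Set (LaurentSeries F)))
      ↥(IntermediateField.adjoin
        ↥(IntermediateField.adjoin F ({J (1 : Fˣ) N} : Set (LaurentSeries F)))
        {x : LaurentSeries F | ∃ d : ℕ, ∃ _ : NeZero d, d ∣ N ∧ x = J (1 : Fˣ) (d * N)})

/-- **N-TOWER-cor, unconditional modulo (α).** For `ℓ ∤ N` there are `ψ(N)` monomials in the
`j̄(q^d)`, `d ∣ N`, independent over `𝔽_ℓ(j̄)` — in the exact shape consumed by
`isIntegral_pullback_igusaTo_of_inputs`. -/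
theorem exists_monomials_of_towerBound (N ℓ : ℕ) [NeZero N] [hℓ : Fact ℓ.Prime] (hℓN : ¬ ℓ ∣ N)
    (H : TowerBound N) :
    ∃ m : Fin (dedekindPsi N) → LaurentSeries (ZMod ℓ),
      (∀ i, m i ∈ Submonoid.closure (jbarGens N ℓ)) ∧
      ∀ g : Fin (dedekindPsi N) → LaurentSeries (ZMod ℓ), (∀ i, g i ∈ resField ℓ) →
        ∑ i, g i * m i = 0 → ∀ i, g i = 0 := by
  obtain ⟨F, hF, hac, hch, hdata⟩ := exists_modEqData_charP (N := N) hℓ.out hℓN
  let _ := ZMod.algebra F ℓ
  obtain ⟨hfin, hα⟩ := H F fun p hp hpN => by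
    obtain ⟨ζ, pinv, -, hd⟩ := hdata p hp hpN
    exact ⟨ζ, pinv, hd⟩
  obtain ⟨m, hm, hli⟩ := exists_monomials_of_tower ℓ N F hα
  refine ⟨m, hm, hli_of_linearIndependent ℓ _ ?_ m hli⟩
  exact IntermediateField.subset_adjoin _ _ (Set.mem_singleton _)

/-- **N-INT, unconditional.** For `ℓ ∤ N` and `d ∣ N`, `j(q^d)` lies in the finite chart algebra
(is integral over `ℤ_(ℓ)[j]`). -/
theorem jqd_mem_chartAlgFin (N ℓ : ℕ) [NeZero N] [Fact ℓ.Prime] (hℓN : ¬ ℓ ∣ N)
    (d : ℕ) [NeZero d] (hd : d ∣ N) :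
    (⟨qExpand ℚ d jq, jqd_mem_full N hd⟩ : ↥(modularFunctionFieldFull N)) ∈ chartAlgFin N ℓ := by
  rw [mem_chartAlg_iff]
  refine isIntegral_jqd_of_modEq_subring N ℓ (E := ℂ) (modEqCoeffRing N)
    (fun z hz => mem_modEqCoeffRing_iff.mp hz) hℓN (fun p _ hp hpN => ?_) d hd
  have : Fact p.Prime := ⟨hp⟩
  exact ⟨_, _, nonempty_modEqData_modEqCoeffRing N p hpN⟩

/-- **S28 from the two base-ring inputs and the tower bound.** -/
theorem isIntegral_pullback_igusaTo_of_chartBase_of_towerBound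
    (N ℓ : ℕ) [NeZero N] [Fact ℓ.Prime] (hℓN : ¬ ℓ ∣ N)
    (hbaseFin : ChartBase N ℓ (jFull N)) (hbaseInf : ChartBase N ℓ (jFull N)⁻¹)
    (H : TowerBound N)
    (K : Type) [Field K] [CharP K ℓ] [Algebra ↥(GaloisRep.ratLocalizedAt ℓ) K] :
    IsIntegral ↑(pullback (igusaTo N ℓ)
      (Spec.map (CommRingCat.ofHom (algebraMap ↥(GaloisRep.ratLocalizedAt ℓ) K)))) := by
  obtain ⟨m, hm, hli⟩ := exists_monomials_of_towerBound N ℓ hℓN H
  exact isIntegral_pullback_igusaTo_of_inputs N ℓ hbaseFin hbaseInf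
    (fun d _ hd => jqd_mem_chartAlgFin N ℓ hℓN d hd) m hm hli K

end Fermat.Agent.Igusa
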