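/-
S28 / N-TOWER: the tower degree bound `TowerBound N` of `Igusa/TowerFinal.lean` holds for every
`N ≠ 0` (`Igusa/TowerDegree.lean`), hence S28 follows from the two base-ring inputs alone.
-/
import Fermat.Agent.Igusa.TowerDegree
import Fermat.Agent.Igusa.TowerFinal

set_option autoImplicit false

namespace Fermat.Agent.Igusa

open ModularCurve ModularCurve.IgusaScheme IntermediateField
open AlgebraicGeometry CategoryTheory CategoryTheory.Limits

/-- **The tower degree bound (α) holds.** -/
theorem towerBound_holds (N : ℕ) [NeZero N] : TowerBound N := by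
  intro F _ _ hdata
  exact ⟨finiteDimensional_towerField hdata, tower_le_finrank hdata⟩

/-- **S28 from the two base-ring inputs alone.** -/
theorem isIntegral_pullback_igusaTo_of_chartBase
    (N ℓ : ℕ) [NeZero N] [Fact ℓ.Prime] (hℓN : ¬ ℓ ∣ N)
    (hbaseFin : ChartBase N ℓ (jFull N)) (hbaseInf : ChartBase N ℓ (jFull N)⁻¹)
    (K : Type) [Field K] [CharP K ℓ] [Algebra ↥(GaloisRep.ratLocalizedAt ℓ) K] :
    IsIntegral ↑(pullback (igusaTo N ℓ)
      (Spec.map (CommRingCat.ofHom (algebraMap ↥(GaloisRep.ratLocalizedAt ℓ) K)))) :=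
  isIntegral_pullback_igusaTo_of_chartBase_of_towerBound N ℓ hℓN hbaseFin hbaseInf
    (towerBound_holds N) K

end Fermat.Agent.Igusa
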