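import Mathlib
import Fermat.Agent.Igusa.ModEqData

/-!
# S28 / N-ME: descent of the coefficients of a polynomial in `j` from a field to a subring

`f : C →+* K` a ring hom into a field, `y : LaurentSeries C` a series whose image
`Y := coeffMap f y` has a pole of order `m > 0` with leading coefficient `1`.

* `coeff_eval₂_of_order` : for `P : K[X]` of degree `≤ n` the coefficient of `s^{-mn}` in `P(Y)` is
  the `n`-th coefficient of `P`;
* `exists_map_eq_of_eval₂_eq` : if `P(Y)` has coefficients in `f(C)` then so has `P`;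
* `exists_map_eq_of_evY_eq` : two-variable version for `evY`: if `Φ(X, Y) = Ψ^f` with
  `Ψ ∈ C((s))[X]` then `Φ = Φ'^f` with `Φ' ∈ C[Y][X]` and (for `f` injective) `Φ'(X, y) = Ψ`,
  preserving monicity and degree.
-/

set_option autoImplicit false

noncomputable section

namespace Fermat.Agent.Igusa

open Polynomial HahnSeries ModularCurve

section OneVariable

variable {K : Type*} [Field K]

theorem order_pow_of_order {Y : LaurentSeries K} {m : ℕ} (hord : Y.order = -(m : ℤ))
    (hlead : Y.leadingCoeff = 1) (i : ℕ) :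
    (Y ^ i).order = -((m : ℤ) * i) ∧ (Y ^ i).leadingCoeff = 1 := by
  induction i with
  | zero =>
    simp
  | succ i ih =>
    have h : (Y ^ i).leadingCoeff * Y.leadingCoeff ≠ 0 := by
      rw [ih.2, hlead, one_mul]
      exact one_ne_zero
    rw [pow_succ, HahnSeries.order_mul_of_ne_zero h, HahnSeries.leadingCoeff_mul_of_ne_zero h,
      ih.1, ih.2, hord, hlead]
    refine ⟨?_, one_mul 1⟩
    push_cast
    ring

/-- For `P` of degree at most `n`, the coefficient of `s^{-mn}` in `P(Y)` is `P.coeff n`. -/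
theorem coeff_eval₂_of_order {Y : LaurentSeries K} {m : ℕ} (hm : 0 < m)
    (hord : Y.order = -(m : ℤ)) (hlead : Y.leadingCoeff = 1) (P : K[X]) (n : ℕ)
    (hn : P.natDegree ≤ n) :
    (P.eval₂ (HahnSeries.C : K →+* LaurentSeries K) Y).coeff (-((m : ℤ) * n)) = P.coeff n := by
  rw [Polynomial.eval₂_eq_sum_range' _ (Nat.lt_succ_of_le hn), HahnSeries.coeff_sum,
    Finset.sum_eq_single n]
  · rw [HahnSeries.C_apply, HahnSeries.coeff_single_mul, sub_zero]
    have h := order_pow_of_order hord hlead n
    have h2 : (Y ^ n).coeff (-((m : ℤ) * n)) = 1 := by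
      rw [← h.1, ← HahnSeries.leadingCoeff_eq, h.2]
    rw [h2, mul_one]
  · intro i hi hin
    have hlt : i < n := lt_of_le_of_ne (Nat.lt_succ_iff.mp (Finset.mem_range.mp hi)) hin
    rw [HahnSeries.C_apply, HahnSeries.coeff_single_mul, sub_zero]
    have h := order_pow_of_order hord hlead i
    have h2 : (Y ^ i).coeff (-((m : ℤ) * n)) = 0 := by
      apply HahnSeries.coeff_eq_zero_of_lt_order
      rw [h.1]
      have h3 : (m : ℤ) * i < (m : ℤ) * n := by
        have hm' : (0 : ℤ) < m := by exact_mod_cast hm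
        have hi' : (i : ℤ) < n := by exact_mod_cast hlt
        exact mul_lt_mul_of_pos_left hi' hm'
      linarith
    rw [h2, mul_zero]
  · intro h
    exact absurd (Finset.mem_range.mpr (Nat.lt_succ_self n)) h

variable {C : Type*} [CommRing C] (f : C →+* K)

theorem coeffMap_eval₂_C (y : LaurentSeries C) (Q : C[X]) :
    coeffMap f (Q.eval₂ (HahnSeries.C : C →+* LaurentSeries C) y) =
      (Q.map f).eval₂ (HahnSeries.C : K →+* LaurentSeries K) (coeffMap f y) := by
  rw [Polynomial.hom_eval₂, Polynomial.eval₂_map, coeffMap_comp_C]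

/-- **Descent of coefficients (one variable).** If `P(Y)` has coefficients in the image of `f`,
so has `P`. -/
theorem exists_map_eq_of_eval₂_eq (y : LaurentSeries C) {m : ℕ} (hm : 0 < m)
    (hord : (coeffMap f y).order = -(m : ℤ)) (hlead : (coeffMap f y).leadingCoeff = 1) :
    ∀ (n : ℕ) (P : K[X]), P.natDegree ≤ n → ∀ z : LaurentSeries C,
      P.eval₂ (HahnSeries.C : K →+* LaurentSeries K) (coeffMap f y) = coeffMap f z →
      ∃ Q : C[X], Q.map f = P := by
  intro n
  induction n with
  | zero =>
    intro P hP z hz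
    have h := coeff_eval₂_of_order hm hord hlead P 0 hP
    rw [hz, coeffMap_coeff] at h
    refine ⟨Polynomial.C (z.coeff (-((m : ℤ) * (0 : ℕ)))), ?_⟩
    rw [Polynomial.map_C, h]
    exact (Polynomial.eq_C_of_natDegree_le_zero hP).symm
  | succ n ih =>
    intro P hP z hz
    have h := coeff_eval₂_of_order hm hord hlead P (n + 1) hP
    rw [hz, coeffMap_coeff] at h
    set a : C := z.coeff (-((m : ℤ) * ((n + 1 : ℕ) : ℤ))) with ha
    -- remove the top term
    set P' : K[X] := P - Polynomial.monomial (n + 1) (P.coeff (n + 1)) with hP'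
    have hdeg : P'.natDegree ≤ n := by
      rw [Polynomial.natDegree_le_iff_coeff_eq_zero]
      intro k hk
      rw [hP', Polynomial.coeff_sub, Polynomial.coeff_monomial]
      by_cases hkn : n + 1 = k
      · subst hkn
        simp
      · rw [if_neg hkn, sub_zero]
        exact Polynomial.coeff_eq_zero_of_natDegree_lt (by omega)
    have hz' : P'.eval₂ (HahnSeries.C : K →+* LaurentSeries K) (coeffMap f y) =
        coeffMap f (z - HahnSeries.C a * y ^ (n + 1)) := by
      rw [hP', Polynomial.eval₂_sub, Polynomial.eval₂_monomial, hz, map_sub, map_mul, map_pow,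
        coeffMap_HC, h]
    obtain ⟨Q', hQ'⟩ := ih P' hdeg _ hz'
    refine ⟨Q' + Polynomial.monomial (n + 1) a, ?_⟩
    rw [Polynomial.map_add, hQ', Polynomial.map_monomial, h, hP']
    ring

end OneVariable

section TwoVariables

variable {K : Type*} [Field K] {C : Type*} [CommRing C] (f : C →+* K)

/-- **Descent of coefficients (two variables).** If `Φ(X, Y) ∈ K((s))[X]` is the image of
`Ψ ∈ C((s))[X]`, then `Φ ∈ K[Y][X]` is the image of some `Φ' ∈ C[Y][X]`, of the same degree, monic if
`Φ` is. -/
theorem exists_map_eq_of_evY_eq (y : LaurentSeries C) {m : ℕ} (hm : 0 < m)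
    (hord : (coeffMap f y).order = -(m : ℤ)) (hlead : (coeffMap f y).leadingCoeff = 1)
    (Φ : K[X][X]) (Ψ : (LaurentSeries C)[X])
    (h : evY (coeffMap f y) Φ = Ψ.map (coeffMap f)) :
    ∃ Φ' : C[X][X], Φ'.map (Polynomial.mapRingHom f) = Φ ∧ Φ'.degree = Φ.degree ∧
      (Φ.Monic → Φ'.Monic) := by
  have hl : Φ ∈ Polynomial.lifts (Polynomial.mapRingHom f) := by
    rw [Polynomial.lifts_iff_coeff_lifts]
    intro k
    have hk := congrArg (fun R : (LaurentSeries K)[X] => R.coeff k) h
    simp only [evY_apply, Polynomial.coeff_map, Polynomial.coe_eval₂RingHom] at hk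
    obtain ⟨Q, hQ⟩ := exists_map_eq_of_eval₂_eq f y hm hord hlead (Φ.coeff k).natDegree
      (Φ.coeff k) le_rfl (Ψ.coeff k) hk
    exact ⟨Q, hQ⟩
  by_cases hmonic : Φ.Monic
  · obtain ⟨Φ', h1, h2, h3⟩ := Polynomial.lifts_and_degree_eq_and_monic hl hmonic
    exact ⟨Φ', h1, h2, fun _ => h3⟩
  · obtain ⟨Φ', h1, h2⟩ := Polynomial.exists_degree_eq_of_mem_lifts hl
    exact ⟨Φ', h1, h2, fun h => absurd h hmonic⟩

/-- For `f` injective the descended polynomial satisfies the identity over `C`. -/
theorem evY_eq_of_map_eq (hf : Function.Injective f) (y : LaurentSeries C)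
    (Φ : K[X][X]) (Ψ : (LaurentSeries C)[X])
    (h : evY (coeffMap f y) Φ = Ψ.map (coeffMap f))
    (Φ' : C[X][X]) (hΦ' : Φ'.map (Polynomial.mapRingHom f) = Φ) : evY y Φ' = Ψ := by
  have hinj : Function.Injective (coeffMap f) := by
    intro a b hab
    ext k
    have := congrArg (fun z : LaurentSeries K => z.coeff k) hab
    simp only [coeffMap_coeff] at this
    exact hf this
  apply Polynomial.map_injective (coeffMap f) hinj
  rw [← evY_map, hΦ', h]

end TwoVariables

end Fermat.Agent.Igusa
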