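import Mathlib
import Fermat.Agent.Igusa.SubstLevel

/-!
# S28 / Igusa, tower cores (L2): order arguments in the Puiseux model

Elementary facts about `J c m = j(c · s^m)` and the level fields `levelSub F g = F((s^g))`
needed by any instantiation of `TowerData` (`lev d = F((s^{N/d}))`, `x d = J 1 (d N)`,
`y d = J 1 (N / d)`):

* `J_not_mem_levelSub` : `¬ g ∣ m → J c m ∉ levelSub F g` (order of `J c m` is `-m`);
* `J_ne_J_of_ne` : `m ≠ m' → J c m ≠ J c' m'`;
* arithmetic of `N / d` and the `TowerData`-shaped cores `towerCore_lev_mono`, `towerCore_x_mem`,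
  `towerCore_y_mem`, `towerCore_y_one`, `towerCore_y_not_mem`, `towerCore_x_ne`.

All statements take the `NeZero` instances as instance arguments, so they apply to whatever
instances the consumer has in scope.
-/

set_option autoImplicit false
set_option linter.unusedSectionVars false

noncomputable section
namespace Fermat.Agent.Igusa

open ModularCurve

section Cores

variable {F : Type*} [Field F]

/-- `J c m` has order `-m`, so it lies in `F((s^g))` only if `g ∣ m`. -/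
theorem J_not_mem_levelSub {g m : ℕ} [NeZero g] [NeZero m] (c : Fˣ) (h : ¬ g ∣ m) :
    J c m ∉ levelSub F g := by
  intro hmem
  have h1 := dvd_order_of_mem_levelSub hmem
  rw [order_J, dvd_neg] at h1
  exact h (Int.natCast_dvd_natCast.mp h1)

theorem J_mem_levelSub_iff {g m : ℕ} [NeZero g] [NeZero m] (c : Fˣ) :
    J c m ∈ levelSub F g ↔ g ∣ m :=
  ⟨fun h => by_contra fun hn => J_not_mem_levelSub c hn h, fun h => J_mem_levelSub h c⟩

/-- Series `J c m`, `J c' m'` with different exponents are different (orders). -/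
theorem J_ne_J_of_ne {m m' : ℕ} [NeZero m] [NeZero m'] (c c' : Fˣ) (h : m ≠ m') :
    J c m ≠ J c' m' := by
  intro heq
  have h1 := congrArg HahnSeries.order heq
  rw [order_J, order_J, neg_inj] at h1
  exact h (by exact_mod_cast h1)

/-- Transport along any ring hom out of the field `F((s))` (automatically injective). -/
theorem map_J_ne_map_J_of_ne {Ω : Type*} [Field Ω] (ι : LaurentSeries F →+* Ω)
    {m m' : ℕ} [NeZero m] [NeZero m'] (c c' : Fˣ) (h : m ≠ m') : ι (J c m) ≠ ι (J c' m') :=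
  fun heq => J_ne_J_of_ne c c' h (ι.injective heq)

/-- Transport of non-membership along any ring hom out of `F((s))`. -/
theorem map_J_not_mem_map_levelSub {Ω : Type*} [Field Ω] (ι : LaurentSeries F →+* Ω)
    {g m : ℕ} [NeZero g] [NeZero m] (c : Fˣ) (h : ¬ g ∣ m) :
    ι (J c m) ∉ (levelSub F g).map ι := by
  rintro ⟨x, hx, hxy⟩
  rw [ι.injective hxy] at hx
  exact J_not_mem_levelSub c h hx

end Cores

section Arithmetic

/-- `N / d ≠ 0` for a divisor `d` of `N ≠ 0`. -/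
theorem neZero_div_of_dvd {N d : ℕ} [NeZero N] (h : d ∣ N) : NeZero (N / d) := by
  refine ⟨?_⟩
  obtain ⟨e, rfl⟩ := h
  have hd : d ≠ 0 := fun h0 => NeZero.ne (d * e) (by rw [h0, zero_mul])
  have he : e ≠ 0 := fun h0 => NeZero.ne (d * e) (by rw [h0, mul_zero])
  rwa [Nat.mul_div_cancel_left e (Nat.pos_of_ne_zero hd)]

/-- `d ∣ d' ∣ N ⟹ N / d' ∣ N / d`. -/
theorem div_dvd_div_of_dvd {N d d' : ℕ} (h : d ∣ d') (h' : d' ∣ N) : N / d' ∣ N / d := by
  rcases Nat.eq_zero_or_pos d' with rfl | hd'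
  · rw [Nat.zero_dvd] at h'
    subst h'
    simp
  · obtain ⟨a, rfl⟩ := h
    obtain ⟨b, rfl⟩ := h'
    have hd : 0 < d := Nat.pos_of_ne_zero fun h0 => by simp [h0] at hd'
    rw [Nat.mul_div_cancel_left b hd', mul_assoc, Nat.mul_div_cancel_left (a * b) hd]
    exact Dvd.intro_left a rfl

/-- If `p` is prime, `p ∣ N`, `A ∣ N`, `p ∤ A`, then `N / A ∤ N / p`. -/
theorem not_div_dvd_div {N p A : ℕ} [NeZero N] (hp : p.Prime) (hpN : p ∣ N) (hA : A ∣ N)
    (hpA : ¬ p ∣ A) : ¬ (N / A) ∣ (N / p) := by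
  intro hdiv
  obtain ⟨a, ha⟩ := hA
  obtain ⟨b, hb⟩ := hpN
  have hN : N ≠ 0 := NeZero.ne N
  have hA0 : 0 < A := Nat.pos_of_ne_zero fun h0 => hN (by rw [ha, h0, zero_mul])
  have hp0 : 0 < p := hp.pos
  have h1 : N / A = a := by rw [ha, Nat.mul_div_cancel_left a hA0]
  have h2 : N / p = b := by rw [hb, Nat.mul_div_cancel_left b hp0]
  rw [h1, h2] at hdiv
  obtain ⟨k, hk⟩ := hdiv
  -- `A a = p b = p a k`, so `A = p k`
  have ha0 : 0 < a := Nat.pos_of_ne_zero fun h0 => hN (by rw [ha, h0, mul_zero])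
  have h3 : A * a = (p * k) * a := by
    calc A * a = N := ha.symm
      _ = p * b := hb
      _ = p * (a * k) := by rw [hk]
      _ = (p * k) * a := by ring
  have h4 : A = p * k := Nat.eq_of_mul_eq_mul_right ha0 h3
  exact hpA ⟨k, h4⟩

end Arithmetic

section TowerShapes

variable {F : Type*} [Field F] (N : ℕ) [NeZero N]

/-- `TowerData.lev_mono` core: `d ∣ d' ∣ N ⟹ F((s^{N/d})) ≤ F((s^{N/d'}))`. -/
theorem towerCore_lev_mono {d d' : ℕ} (h : d ∣ d') (h' : d' ∣ N)
    [NeZero (N / d)] [NeZero (N / d')] : levelSub F (N / d) ≤ levelSub F (N / d') :=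
  levelSub_mono (div_dvd_div_of_dvd h h')

/-- `TowerData.x_mem` core: `J 1 (d N) ∈ F((s^N))` (and for any unit `c`). -/
theorem towerCore_x_mem (c : Fˣ) (d : ℕ) [NeZero (d * N)] : J c (d * N) ∈ levelSub F N :=
  J_mem_levelSub (Dvd.intro_left d rfl) c

/-- The same with `lev 1 = F((s^{N/1}))`. -/
theorem towerCore_x_mem' (c : Fˣ) (d : ℕ) [NeZero (d * N)] [NeZero (N / 1)] :
    J c (d * N) ∈ levelSub F (N / 1) :=
  J_mem_levelSub (by rw [Nat.div_one]; exact Dvd.intro_left d rfl) c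

/-- `TowerData.y_mem` core: `J 1 (N / d) ∈ F((s^{N/d}))`. -/
theorem towerCore_y_mem (c : Fˣ) (d : ℕ) [NeZero (N / d)] : J c (N / d) ∈ levelSub F (N / d) :=
  J_mem_levelSub dvd_rfl c

/-- `TowerData.y_one` core: `J c (N / 1) = J c (1 * N)`. -/
theorem towerCore_y_one (c : Fˣ) [NeZero (N / 1)] [NeZero (1 * N)] :
    J c (N / 1) = J c (1 * N) :=
  J_congr c (by rw [Nat.div_one, one_mul])

/-- `TowerData.y_not_mem` core: for `p` prime, `p ∣ N`, `A ∣ N`, `p ∤ A`:
`J c (N / p) ∉ F((s^{N/A}))`. -/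
theorem towerCore_y_not_mem (c : Fˣ) {p A : ℕ} (hp : p.Prime) (hpN : p ∣ N) (hA : A ∣ N)
    (hpA : ¬ p ∣ A) [NeZero (N / p)] [NeZero (N / A)] : J c (N / p) ∉ levelSub F (N / A) :=
  J_not_mem_levelSub c (not_div_dvd_div hp hpN hA hpA)

/-- `TowerData.x_ne` core: `J c (p^(e+2) m) ≠ J c' (p^e m)` for `p ≥ 2`, `m ≠ 0`. -/
theorem towerCore_x_ne (c c' : Fˣ) {p : ℕ} (hp : p.Prime) (e m : ℕ) [NeZero m]
    [NeZero (p ^ (e + 2) * m)] [NeZero (p ^ e * m)] :
    J c (p ^ (e + 2) * m) ≠ J c' (p ^ e * m) := by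
  refine J_ne_J_of_ne c c' ?_
  intro h
  have hm : 0 < m := Nat.pos_of_ne_zero (NeZero.ne m)
  have h1 : p ^ (e + 2) = p ^ e := Nat.eq_of_mul_eq_mul_right hm h
  have h2 := Nat.pow_right_injective hp.two_le h1
  omega

end TowerShapes

end Fermat.Agent.Igusa
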