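/-
S28 (Igusa), node N-BASE, abstract form (Mathlib + the order lemma only).

`F ⊆ K ⊆ L` fields, `v` a valuation on `L` trivial on `Fˣ`, `y ∈ K` with `1 < v y` (a pole; then `y`
is transcendental over `F`), `k` a fraction field of `F[X]` (embedded in `L` by `X ↦ y`).
`Φ Ψ P : F[X][X]`, `Φ, Ψ` monic, and in `L[X]`:
  (ME1)  `Φ(X, y) = (X - x∞) * ∏_{a ∈ xs} (X - a)`, all `a ∈ xs` of the same value `γ`, and `γ ^ j`
         is not the value of an element of `K` for `0 < j < card xs`; `x∞ ∈ K`;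
  (ME2') `Ψ(u∞, y) = 0`;
  (ME3') `P(x∞, y) = u∞ * ∏_{a ∈ xs} (x∞ - a)`, `x∞ ≠ a`;
  `u∞ ≠ 0`, `v u∞ < 1` (a zero).
Then `Φ(X, j)` is irreducible over `k = F(j)`.

Proof: if `x∞ ∈ F(y)` then `u∞ ∈ F(y)` by (ME3'); `u∞` is integral over `F[y]` by (ME2'), hence
`u∞ ∈ F[y]` (integrally closed), hence `1 ≤ v u∞`: contradiction. So `x∞ ∉ F(y)`, and the order
lemma shows that a proper monic factor of `Φ(X, y)` over `F(y)` would be `X - x∞`.
-/
import Fermat.Agent.Igusa.OrderLemma

set_option autoImplicit false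

namespace Fermat.Agent.Igusa

open Polynomial

section Dichotomy

variable {k L Γ₀ : Type*} [Field k] [Field L] [LinearOrderedCommGroupWithZero Γ₀]

/-- One half of the dichotomy: if `f * g = Φ`, `Φ = (X - a) ∏ (X - b)` over `L`, and `a` is a root
of `f`, then `g = 1`, unless `a` comes from `k`. -/
theorem natDegree_eq_zero_of_isRoot_of_mul_eq (i : k →+* L) (v : Valuation L Γ₀) (K : Subfield L)
    (hiK : ∀ c : k, i c ∈ K) (a : L) (haK : a ∈ K) (hai : ∀ c : k, i c ≠ a)
    (s : Multiset L) {γ : Γ₀} (hγ : ∀ b ∈ s, v b = γ)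
    (hK : ∀ j : ℕ, 0 < j → j < Multiset.card s → ∀ z : K, v (z : L) ≠ γ ^ j)
    (Φ : k[X]) (hΦ : Φ.map i = (X - C a) * (s.map fun b => X - C b).prod)
    (f g : k[X]) (hf : f.Monic) (hg : g.Monic) (hfg : f * g = Φ) (hroot : (f.map i).IsRoot a) :
    g.natDegree = 0 := by
  classical
  set S : L[X] := (s.map fun b => X - C b).prod with hS
  have hSmonic : S.Monic := monic_multiset_prod_of_monic _ _ fun b _ => monic_X_sub_C b
  have hSdeg : S.natDegree = Multiset.card s := by
    rw [hS, natDegree_multiset_prod_of_monic _ fun f hf => by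
        obtain ⟨b, -, rfl⟩ := Multiset.mem_map.1 hf
        exact monic_X_sub_C b]
    simp
  -- the corestriction of `i` to `K`
  let iK : k →+* K := i.codRestrict K hiK
  have hiK' : K.subtype.comp iK = i := by
    ext c; rfl
  let aK : K := ⟨a, haK⟩
  have hrootK : (f.map iK).IsRoot aK := by
    have h1 : (f.map i).eval a = 0 := hroot
    rw [← hiK', ← Polynomial.map_map, eval_map] at h1
    have h2 : K.subtype ((f.map iK).eval aK) = 0 := by
      rw [← h1, ← eval₂_hom]
      rfl
    exact (map_eq_zero_iff K.subtype K.subtype_injective).1 h2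
  obtain ⟨f0, hf0⟩ := dvd_iff_isRoot.2 hrootK
  -- over `L`
  have hfL : f.map i = (X - C a) * f0.map K.subtype := by
    rw [← hiK', ← Polynomial.map_map, hf0, Polynomial.map_mul, Polynomial.map_sub, map_X, map_C]
    rfl
  have hcancel : f0.map K.subtype * g.map i = S := by
    have h1 : (X - C a) * (f0.map K.subtype * g.map i) = (X - C a) * S := by
      rw [← mul_assoc, ← hfL, ← Polynomial.map_mul, hfg, hΦ]
    exact mul_left_cancel₀ (X_sub_C_ne_zero a) h1
  have hdvd : (g.map iK).map K.subtype ∣ S := by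
    rw [Polynomial.map_map, hiK', ← hcancel]
    exact dvd_mul_left _ _
  have hgK : (g.map iK).Monic := hg.map iK
  rcases natDegree_eq_zero_or_eq_card_of_map_dvd K.subtype v s hγ hK (g.map iK) hgK hdvd with
    h | h
  · rwa [hg.natDegree_map] at h
  · exfalso
    rw [hg.natDegree_map] at h
    -- then `f` has degree one
    have hdegΦ : Φ.natDegree = 1 + Multiset.card s := by
      have hΦmonic : Φ.Monic := hfg ▸ hf.mul hg
      rw [← hΦmonic.natDegree_map i, hΦ, (monic_X_sub_C a).natDegree_mul hSmonic,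
        natDegree_X_sub_C, hSdeg]
    have hdegf : f.natDegree = 1 := by
      have := hf.natDegree_mul hg
      rw [hfg, hdegΦ, h] at this
      omega
    have hfX : f = X + C (f.coeff 0) := hf.eq_X_add_C hdegf
    have h1 : (f.map i).eval a = 0 := hroot
    rw [hfX, Polynomial.map_add, map_X, map_C, eval_add, eval_X, eval_C] at h1
    refine hai (-(f.coeff 0)) ?_
    rw [map_neg]
    exact (eq_neg_of_add_eq_zero_left h1).symm

/-- **Dichotomy.** If `Φ = (X - a) ∏_{b ∈ s} (X - b)` over `L`, where the `b ∈ s` all have value `γ`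
with `γ ^ j` not a value of the intermediate field `K ∋ a` (`0 < j < card s`), then `Φ` is
irreducible over `k` unless `a` comes from `k`. -/
theorem irreducible_of_map_eq_X_sub_C_mul_prod (i : k →+* L) (v : Valuation L Γ₀) (K : Subfield L)
    (hiK : ∀ c : k, i c ∈ K) (a : L) (haK : a ∈ K) (hai : ∀ c : k, i c ≠ a)
    (s : Multiset L) {γ : Γ₀} (hγ : ∀ b ∈ s, v b = γ)
    (hK : ∀ j : ℕ, 0 < j → j < Multiset.card s → ∀ z : K, v (z : L) ≠ γ ^ j)
    (Φ : k[X]) (hΦmonic : Φ.Monic) (hΦ : Φ.map i = (X - C a) * (s.map fun b => X - C b).prod) :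
    Irreducible Φ := by
  rw [hΦmonic.irreducible_iff_natDegree]
  refine ⟨fun h1 => ?_, fun f g hf hg hfg => ?_⟩
  · -- `Φ ≠ 1` since `a` is a root
    have h2 : (Φ.map i).eval a = 0 := by
      rw [hΦ, eval_mul, eval_sub, eval_X, eval_C, sub_self, zero_mul]
    rw [h1, Polynomial.map_one, eval_one] at h2
    exact one_ne_zero h2
  · have hroot : ((f.map i) * (g.map i)).IsRoot a := by
      rw [← Polynomial.map_mul, hfg, hΦ, IsRoot.def, eval_mul, eval_sub, eval_X, eval_C, sub_self,
        zero_mul]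
    rcases root_mul.1 hroot with h | h
    · exact Or.inr (natDegree_eq_zero_of_isRoot_of_mul_eq i v K hiK a haK hai s hγ hK Φ hΦ f g hf hg
        hfg h)
    · exact Or.inl (natDegree_eq_zero_of_isRoot_of_mul_eq i v K hiK a haK hai s hγ hK Φ hΦ g f hg hf
        (by rw [mul_comm, hfg]) h)

end Dichotomy

section PolyValue

variable {F L Γ₀ : Type*} [Field F] [Field L] [Algebra F L] [LinearOrderedCommGroupWithZero Γ₀]

/-- The value of a polynomial in a pole `y` (`1 < v y`, `v` trivial on `Fˣ`). -/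
theorem valuation_aeval_eq_pow_natDegree (v : Valuation L Γ₀)
    (hvF : ∀ c : F, c ≠ 0 → v (algebraMap F L c) = 1) (y : L) (hy : 1 < v y)
    (f : F[X]) (hf : f ≠ 0) : v (aeval y f) = v y ^ f.natDegree := by
  have hy0 : v y ≠ 0 := ne_of_gt (lt_trans zero_lt_one hy)
  rw [aeval_eq_sum_range, Finset.sum_range_succ]
  have hlead : v (f.coeff f.natDegree • y ^ f.natDegree) = v y ^ f.natDegree := by
    rw [Algebra.smul_def, map_mul, map_pow,
      hvF _ (by simpa using hf), one_mul]
  have hlt : v (∑ n ∈ Finset.range f.natDegree, f.coeff n • y ^ n) <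
      v (f.coeff f.natDegree • y ^ f.natDegree) := by
    rw [hlead]
    refine Valuation.map_sum_lt v (pow_ne_zero _ hy0) fun n hn => ?_
    have hn' : n < f.natDegree := Finset.mem_range.1 hn
    rw [Algebra.smul_def, map_mul, map_pow]
    by_cases hc : f.coeff n = 0
    · rw [hc, map_zero, map_zero, zero_mul]
      exact pow_pos (lt_trans zero_lt_one hy) _
    · rw [hvF _ hc, one_mul]
      exact pow_lt_pow_right₀ hy hn'
  rw [Valuation.map_add_eq_of_lt_right v hlt, hlead]

theorem one_le_valuation_aeval (v : Valuation L Γ₀)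
    (hvF : ∀ c : F, c ≠ 0 → v (algebraMap F L c) = 1) (y : L) (hy : 1 < v y)
    (f : F[X]) (hf : f ≠ 0) : 1 ≤ v (aeval y f) := by
  rw [valuation_aeval_eq_pow_natDegree v hvF y hy f hf]
  exact one_le_pow₀ hy.le

/-- A pole is transcendental: `aeval y` is injective. -/
theorem aeval_injective_of_one_lt_valuation (v : Valuation L Γ₀)
    (hvF : ∀ c : F, c ≠ 0 → v (algebraMap F L c) = 1) (y : L) (hy : 1 < v y) :
    Function.Injective ((aeval y : F[X] →ₐ[F] L) : F[X] →+* L) := by
  rw [injective_iff_map_eq_zero]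
  intro f hf
  by_contra hne
  have h1 := one_le_valuation_aeval v hvF y hy f hne
  have h2 : (aeval y : F[X] →ₐ[F] L) f = 0 := hf
  rw [h2, map_zero] at h1
  exact not_le.2 zero_lt_one h1

end PolyValue

section BaseCase

variable {F L Γ₀ : Type*} [Field F] [Field L] [Algebra F L] [LinearOrderedCommGroupWithZero Γ₀]
variable (k : Type*) [Field k] [Algebra F[X] k] [IsFractionRing F[X] k]

/-- **Base case, core form** (with a given embedding `i : k → L`, `X ↦ y`). -/
theorem irreducible_map_of_modEq_core (v : Valuation L Γ₀)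
    (hvF : ∀ c : F, c ≠ 0 → v (algebraMap F L c) = 1) (K : Subfield L)
    (hFK : ∀ c : F, algebraMap F L c ∈ K) (y : L) (hyK : y ∈ K) (hy : 1 < v y)
    (i : k →+* L) (hi : ∀ f : F[X], i (algebraMap F[X] k f) = aeval y f)
    (Φ Ψ P : F[X][X]) (hΦ : Φ.Monic) (hΨ : Ψ.Monic)
    (xinf uinf : L) (xs : Multiset L) (hxinfK : xinf ∈ K)
    {γ : Γ₀} (hγ : ∀ b ∈ xs, v b = γ)
    (hK : ∀ j : ℕ, 0 < j → j < Multiset.card xs → ∀ z : K, v (z : L) ≠ γ ^ j)
    (hxne : ∀ b ∈ xs, xinf ≠ b) (hu0 : uinf ≠ 0) (hu1 : v uinf < 1)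
    (ME1 : Φ.map ((aeval y : F[X] →ₐ[F] L) : F[X] →+* L) =
      (X - C xinf) * (xs.map fun b => X - C b).prod)
    (ME2 : (Ψ.map ((aeval y : F[X] →ₐ[F] L) : F[X] →+* L)).eval uinf = 0)
    (ME3 : (P.map ((aeval y : F[X] →ₐ[F] L) : F[X] →+* L)).eval xinf =
      uinf * (xs.map fun b => xinf - b).prod) :
    Irreducible (Φ.map (algebraMap F[X] k)) := by
  classical
  have hcomp : i.comp (algebraMap F[X] k) = ((aeval y : F[X] →ₐ[F] L) : F[X] →+* L) :=
    RingHom.ext fun f => hi f
  -- `K` contains the image of `i`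
  have hiK : ∀ c : k, i c ∈ K := by
    intro c
    obtain ⟨a, b, -, rfl⟩ := IsFractionRing.div_surjective F[X] c
    have haev : ∀ f : F[X], aeval y f ∈ K := by
      intro f
      rw [aeval_eq_sum_range]
      refine Subfield.sum_mem K fun n _ => ?_
      rw [Algebra.smul_def]
      exact K.mul_mem (hFK _) (K.pow_mem hyK n)
    rw [map_div₀, hi, hi]
    exact K.div_mem (haev a) (haev b)
  -- Step 1: `uinf` does not come from `k`
  have hu : ∀ c : k, i c ≠ uinf := by
    intro c hc
    have hint : IsIntegral F[X] c := by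
      refine ⟨Ψ, hΨ, ?_⟩
      have h1 : i (eval₂ (algebraMap F[X] k) c Ψ) = 0 := by
        rw [hom_eval₂, hcomp, hc, ← eval_map]
        exact ME2
      exact (map_eq_zero_iff i i.injective).1 h1
    obtain ⟨f, rfl⟩ := IsIntegrallyClosed.isIntegral_iff.1 hint
    rw [hi] at hc
    have hf0 : f ≠ 0 := by
      rintro rfl
      rw [map_zero] at hc
      exact hu0 hc.symm
    have := one_le_valuation_aeval v hvF y hy f hf0
    rw [hc] at this
    exact not_le.2 hu1 this
  -- Step 2: `xinf` does not come from `k`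
  have hΦk : (Φ.map (algebraMap F[X] k)).map i =
      (X - C xinf) * (xs.map fun b => X - C b).prod := by
    rw [Polynomial.map_map, hcomp, ME1]
  have hx : ∀ c : k, i c ≠ xinf := by
    intro c hc
    -- `c` is a root of `Φ_k`
    have hroot : (Φ.map (algebraMap F[X] k)).IsRoot c := by
      have h1 : i ((Φ.map (algebraMap F[X] k)).eval c) = 0 := by
        rw [← eval₂_hom, ← eval_map, hΦk, hc, eval_mul, eval_sub, eval_X, eval_C, sub_self,
          zero_mul]
      exact (map_eq_zero_iff i i.injective).1 h1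
    obtain ⟨Q, hQ⟩ := dvd_iff_isRoot.2 hroot
    have hQL : Q.map i = (xs.map fun b => X - C b).prod := by
      have h1 : (X - C xinf) * Q.map i = (X - C xinf) * (xs.map fun b => X - C b).prod := by
        rw [← hΦk, hQ, Polynomial.map_mul, Polynomial.map_sub, map_X, map_C, hc]
      exact mul_left_cancel₀ (X_sub_C_ne_zero xinf) h1
    have hprod : (xs.map fun b => xinf - b).prod = i (Q.eval c) := by
      rw [← eval₂_hom, ← eval_map, hQL, hc, eval_multiset_prod, Multiset.map_map]
      congr 1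
      refine Multiset.map_congr rfl fun b _ => ?_
      simp
    have hprod0 : (xs.map fun b => xinf - b).prod ≠ 0 := by
      rw [Ne, Multiset.prod_eq_zero_iff]
      intro h0
      obtain ⟨b, hb, hb0⟩ := Multiset.mem_map.1 h0
      exact hxne b hb (sub_eq_zero.1 hb0)
    have hP : i ((P.map (algebraMap F[X] k)).eval c) = uinf * i (Q.eval c) := by
      rw [← eval₂_hom, ← eval_map, Polynomial.map_map, hcomp, hc, ME3, hprod]
    have hQ0 : i (Q.eval c) ≠ 0 := hprod ▸ hprod0
    refine hu ((P.map (algebraMap F[X] k)).eval c / Q.eval c) ?_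
    rw [map_div₀, hP, mul_div_assoc, div_self hQ0, mul_one]
  -- Step 3: the dichotomy
  exact irreducible_of_map_eq_X_sub_C_mul_prod i v K hiK xinf hxinfK hx xs hγ hK _
    (hΦ.map _) hΦk

/-- **Base case, abstract form**: `Φ(X, j)` is irreducible over `k = F(j)`. -/
theorem irreducible_map_of_modEq (v : Valuation L Γ₀)
    (hvF : ∀ c : F, c ≠ 0 → v (algebraMap F L c) = 1) (K : Subfield L)
    (hFK : ∀ c : F, algebraMap F L c ∈ K) (y : L) (hyK : y ∈ K) (hy : 1 < v y)
    (Φ Ψ P : F[X][X]) (hΦ : Φ.Monic) (hΨ : Ψ.Monic)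
    (xinf uinf : L) (xs : Multiset L) (hxinfK : xinf ∈ K)
    {γ : Γ₀} (hγ : ∀ b ∈ xs, v b = γ)
    (hK : ∀ j : ℕ, 0 < j → j < Multiset.card xs → ∀ z : K, v (z : L) ≠ γ ^ j)
    (hxne : ∀ b ∈ xs, xinf ≠ b) (hu0 : uinf ≠ 0) (hu1 : v uinf < 1)
    (ME1 : Φ.map ((aeval y : F[X] →ₐ[F] L) : F[X] →+* L) =
      (X - C xinf) * (xs.map fun b => X - C b).prod)
    (ME2 : (Ψ.map ((aeval y : F[X] →ₐ[F] L) : F[X] →+* L)).eval uinf = 0)
    (ME3 : (P.map ((aeval y : F[X] →ₐ[F] L) : F[X] →+* L)).eval xinf =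
      uinf * (xs.map fun b => xinf - b).prod) :
    Irreducible (Φ.map (algebraMap F[X] k)) :=
  irreducible_map_of_modEq_core k v hvF K hFK y hyK hy
    (IsFractionRing.lift (aeval_injective_of_one_lt_valuation v hvF y hy))
    (fun f => IsFractionRing.lift_algebraMap _ f) Φ Ψ P hΦ hΨ xinf uinf xs hxinfK hγ hK hxne hu0 hu1
    ME1 ME2 ME3

end BaseCase

end Fermat.Agent.Igusa
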