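/-
S28 (Igusa), node N-BASE: the base case in the shape consumed by `TowerData.base`
(`Igusa/TowerAbstract.lean`): for a field `k ⊇ F` which is `F`-isomorphic to `F(X)` with `X ↦ j₀`,
`(Φ.map (mapRingHom (algebraMap F k))).map (evalRingHom j₀)` is irreducible; in particular for
`k = RatFunc F`, `j₀ = X`, and for `k = F⟮f⟯`, `j₀ = f` transcendental.
-/
import Fermat.Agent.Igusa.BaseCase

set_option autoImplicit false

namespace Fermat.Agent.Igusa

open Polynomial

section BaseCaseField

variable {F : Type*} [Field F] {p : ℕ} [NeZero p] {ζ : Fˣ} {pinv : F}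

/-- Evaluating the inner variable at `j₀ = e X` is `algebraMap F[X] (RatFunc F)` followed by `e`. -/
theorem evalRingHom_comp_mapRingHom_eq {k : Type*} [Field k] [Algebra F k]
    (e : RatFunc F ≃ₐ[F] k) :
    (Polynomial.evalRingHom (e RatFunc.X)).comp (Polynomial.mapRingHom (algebraMap F k)) =
      (e : RatFunc F →+* k).comp (algebraMap F[X] (RatFunc F)) := by
  refine Polynomial.ringHom_ext (fun c => ?_) ?_
  · simp only [RingHom.comp_apply, coe_mapRingHom, map_C, coe_evalRingHom, eval_C]
    rw [← Polynomial.algebraMap_eq, ← IsScalarTower.algebraMap_apply F F[X] (RatFunc F)]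
    exact (e.commutes c).symm
  · simp only [RingHom.comp_apply, coe_mapRingHom, map_X, coe_evalRingHom, eval_X,
      RatFunc.algebraMap_X]
    rfl

/-- **Base case, field form.** -/
theorem ModEqData.irreducible_base (d : ModEqData F p ζ pinv) (hp : 1 < p)
    {k : Type*} [Field k] [Algebra F k] (e : RatFunc F ≃ₐ[F] k) :
    Irreducible ((d.Phi.map (Polynomial.mapRingHom (algebraMap F k))).map
      (Polynomial.evalRingHom (e RatFunc.X))) := by
  rw [Polynomial.map_map, evalRingHom_comp_mapRingHom_eq e, ← Polynomial.map_map]
  have h := d.irreducible_Phi_map hp (RatFunc F)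
  exact (MulEquiv.irreducible_iff (Polynomial.mapEquiv (e : RatFunc F ≃+* k))).2 h

/-- The base case over `k = RatFunc F`, `j₀ = X`. -/
theorem ModEqData.irreducible_base_ratFunc (d : ModEqData F p ζ pinv) (hp : 1 < p) :
    Irreducible ((d.Phi.map (Polynomial.mapRingHom (algebraMap F (RatFunc F)))).map
      (Polynomial.evalRingHom (RatFunc.X : RatFunc F))) :=
  d.irreducible_base hp AlgEquiv.refl

/-- The base case over `k = F⟮f⟯`, `f` transcendental over `F`. -/
theorem ModEqData.irreducible_base_adjoin (d : ModEqData F p ζ pinv) (hp : 1 < p)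
    {L : Type*} [Field L] [Algebra F L] (f : L) (hf : Transcendental F f) :
    Irreducible ((d.Phi.map (Polynomial.mapRingHom (algebraMap F (IntermediateField.adjoin F {f})))).map
      (Polynomial.evalRingHom (IntermediateField.AdjoinSimple.gen F f))) := by
  have h := d.irreducible_base hp (RatFunc.algEquivOfTranscendental f hf)
  have hX : RatFunc.algEquivOfTranscendental f hf RatFunc.X =
      IntermediateField.AdjoinSimple.gen F f := by
    apply Subtype.ext
    rw [RatFunc.algEquivOfTranscendental_X]
    rfl
  rwa [hX] at h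

end BaseCaseField

end Fermat.Agent.Igusa
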