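/-
S28 (Igusa), node N-BASE: the abstract base case specialised to `L = F((s))` with the `s`-adic
order (`HahnSeries.order`), so that the instantiation only has to supply orders.

`K ⊆ F((s))` a subfield containing the constants, all of whose nonzero elements have order
divisible by `p` (for us `K = F((s^p))`); `y ∈ K` a pole; the roots `b ∈ xs` all have order `a`
with `p ∤ j * a` for `0 < j < card xs`; `u∞ ≠ 0` has positive order.
-/
import Fermat.Agent.Igusa.BaseCaseAbstract

set_option autoImplicit false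

namespace Fermat.Agent.Igusa

open Polynomial

section LaurentVal

variable (F : Type*) [Field F]

/-- The `s`-adic valuation of `F((s))`, multiplicatively written: `v x = ofAdd (toDual (order x))`
(so a pole has value `> 1`). -/
noncomputable def laurentOrdVal :
    Valuation (LaurentSeries F) (Multiplicative (WithTop ℤ)ᵒᵈ) := HahnSeries.addVal ℤ F

variable {F}

theorem laurentOrdVal_apply (x : LaurentSeries F) :
    laurentOrdVal F x = Multiplicative.ofAdd (OrderDual.toDual x.orderTop) := rfl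

theorem laurentOrdVal_of_ne_zero {x : LaurentSeries F} (hx : x ≠ 0) :
    laurentOrdVal F x = Multiplicative.ofAdd (OrderDual.toDual (x.order : WithTop ℤ)) := by
  rw [laurentOrdVal_apply, HahnSeries.order_eq_orderTop_of_ne_zero hx]

theorem baseCase_algebraMap_eq_hahnC (c : F) :
    algebraMap F (LaurentSeries F) c = HahnSeries.C c := by
  rw [HahnSeries.algebraMap_apply', PowerSeries.algebraMap_apply, Algebra.algebraMap_self_apply,
    HahnSeries.ofPowerSeries_C]

theorem laurentOrdVal_C {c : F} (hc : c ≠ 0) : laurentOrdVal F (HahnSeries.C c) = 1 := by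
  rw [laurentOrdVal_apply, HahnSeries.C_apply, HahnSeries.orderTop_single hc]
  rfl

theorem one_lt_laurentOrdVal {x : LaurentSeries F} (hx0 : x ≠ 0) (hx : x.order < 0) :
    1 < laurentOrdVal F x := by
  rw [laurentOrdVal_of_ne_zero hx0, ← ofAdd_zero, Multiplicative.ofAdd_lt]
  change ((x.order : ℤ) : WithTop ℤ) < ((0 : ℤ) : WithTop ℤ)
  exact WithTop.coe_lt_coe.2 hx

theorem laurentOrdVal_lt_one {x : LaurentSeries F} (hx0 : x ≠ 0) (hx : 0 < x.order) :
    laurentOrdVal F x < 1 := by
  rw [laurentOrdVal_of_ne_zero hx0, ← ofAdd_zero, Multiplicative.ofAdd_lt]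
  change ((0 : ℤ) : WithTop ℤ) < ((x.order : ℤ) : WithTop ℤ)
  exact WithTop.coe_lt_coe.2 hx

theorem laurentOrdVal_pow_coe (a : ℤ) (j : ℕ) :
    (Multiplicative.ofAdd (OrderDual.toDual (a : WithTop ℤ))) ^ j =
      Multiplicative.ofAdd (OrderDual.toDual (((j * a : ℤ)) : WithTop ℤ)) := by
  have h : j • (a : WithTop ℤ) = ((j * a : ℤ) : WithTop ℤ) := by
    rw [← WithTop.coe_nsmul]; simp
  rw [← h]
  rfl

end LaurentVal

section BaseCaseLaurent

variable {F : Type*} [Field F]
variable (k : Type*) [Field k] [Algebra F[X] k] [IsFractionRing F[X] k]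

/-- **Base case over `F((s))`, order form.** -/
theorem irreducible_map_of_modEq_laurent (K : Subfield (LaurentSeries F))
    (hCK : ∀ c : F, HahnSeries.C c ∈ K) (p : ℕ)
    (hKp : ∀ z : LaurentSeries F, z ∈ K → z ≠ 0 → (p : ℤ) ∣ z.order)
    (y : LaurentSeries F) (hyK : y ∈ K) (hy0 : y ≠ 0) (hy : y.order < 0)
    (Φ Ψ P : F[X][X]) (hΦ : Φ.Monic) (hΨ : Ψ.Monic)
    (xinf uinf : LaurentSeries F) (xs : Multiset (LaurentSeries F)) (hxinfK : xinf ∈ K)
    (a : ℤ) (hxs : ∀ b ∈ xs, b ≠ 0 ∧ b.order = a)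
    (hpa : ∀ j : ℕ, 0 < j → j < Multiset.card xs → ¬ (p : ℤ) ∣ j * a)
    (hxne : ∀ b ∈ xs, xinf ≠ b) (hu0 : uinf ≠ 0) (hu1 : 0 < uinf.order)
    (ME1 : Φ.map ((aeval y : F[X] →ₐ[F] LaurentSeries F) : F[X] →+* LaurentSeries F) =
      (X - C xinf) * (xs.map fun b => X - C b).prod)
    (ME2 : (Ψ.map ((aeval y : F[X] →ₐ[F] LaurentSeries F) : F[X] →+* LaurentSeries F)).eval uinf
      = 0)
    (ME3 : (P.map ((aeval y : F[X] →ₐ[F] LaurentSeries F) : F[X] →+* LaurentSeries F)).eval xinf =
      uinf * (xs.map fun b => xinf - b).prod) :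
    Irreducible (Φ.map (algebraMap F[X] k)) := by
  refine irreducible_map_of_modEq k (laurentOrdVal F) (fun c hc => ?_) K (fun c => ?_) y hyK
    (one_lt_laurentOrdVal hy0 hy) Φ Ψ P hΦ hΨ xinf uinf xs hxinfK
    (γ := Multiplicative.ofAdd (OrderDual.toDual (a : WithTop ℤ)))
    (fun b hb => ?_) (fun j hj0 hj z => ?_) hxne hu0 (laurentOrdVal_lt_one hu0 hu1) ME1 ME2 ME3
  · rw [baseCase_algebraMap_eq_hahnC]
    exact laurentOrdVal_C hc
  · rw [baseCase_algebraMap_eq_hahnC]
    exact hCK c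
  · rw [laurentOrdVal_of_ne_zero (hxs b hb).1, (hxs b hb).2]
  · rw [laurentOrdVal_pow_coe]
    by_cases hz : (z : LaurentSeries F) = 0
    · rw [hz, map_zero]
      intro h
      have h' : (⊤ : WithTop ℤ) = ((j * a : ℤ) : WithTop ℤ) := h
      exact WithTop.top_ne_coe h'
    · rw [laurentOrdVal_of_ne_zero hz]
      intro h
      have h' : (((z : LaurentSeries F).order : ℤ) : WithTop ℤ) = ((j * a : ℤ) : WithTop ℤ) := h
      have h'' : (z : LaurentSeries F).order = j * a := WithTop.coe_injective h'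
      exact hpa j hj0 hj (h'' ▸ hKp z z.2 hz)

end BaseCaseLaurent

end Fermat.Agent.Igusa
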