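import Mathlib
import Fermat.Agent.Igusa.ChartAssemble
import Fermat.Agent.Igusa.ChartClear
import Fermat.Agent.Igusa.ModEqCoeff

/-!
# S28 / N-CHART-A: the `gauss` field of `ChartBase` for `t = j` and `t = 1/j`

If the `q`-expansion of `a ∈ ℤ_(ℓ)[t]` is `ℓ` times a Gauss-integral series, then `ℓ ∣ a` in
`ℤ_(ℓ)[t]`: write `a = P(t)`; reducing mod `ℓ` gives `P̄(t̄) = 0` in `𝔽_ℓ((q))`, and `t̄ = j̄` or
`1/j̄` is transcendental over `𝔽_ℓ`, so `P̄ = 0`, i.e. `ℓ` divides all coefficients of `P`.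
-/

set_option autoImplicit false
set_option linter.unusedSectionVars false

noncomputable section

namespace Fermat.Agent.Igusa

open ModularCurve ModularCurve.IgusaScheme IntermediateField Polynomial

/-! ### Transcendence of `j̄` and `1/j̄` -/

section Transcendence

variable {K : Type*} [Field K]

theorem order_jqModC_field : (jqModC K).order = -((1 : ℕ) : ℤ) := by
  rw [← J_one_one, order_J]

theorem leadingCoeff_jqModC_field : (jqModC K).leadingCoeff = 1 := by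
  rw [← J_one_one, leadingCoeff_J, inv_one, Units.val_one]

/-- `j̄` is transcendental over the coefficient field. -/
theorem eq_zero_of_eval₂_jqModC_eq_zero (Q : K[X])
    (h : Q.eval₂ (HahnSeries.C : K →+* LaurentSeries K) (jqModC K) = 0) : Q = 0 := by
  have h1 := coeff_eval₂_of_order (m := 1) Nat.one_pos order_jqModC_field
    leadingCoeff_jqModC_field Q Q.natDegree le_rfl
  rw [h, HahnSeries.coeff_zero] at h1
  exact Polynomial.leadingCoeff_eq_zero.mp h1.symm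

/-- `1/j̄` is transcendental over the coefficient field. -/
theorem eq_zero_of_eval₂_jqModC_inv_eq_zero (Q : K[X])
    (h : Q.eval₂ (HahnSeries.C : K →+* LaurentSeries K) (jqModC K)⁻¹ = 0) : Q = 0 := by
  have hne : jqModC K ≠ 0 := jqModC_ne_zero_of_nontrivial K
  let _ : Invertible (jqModC K)⁻¹ := invertibleOfNonzero (inv_ne_zero hne)
  have h1 := Polynomial.eval₂_reverse_mul_pow (HahnSeries.C : K →+* LaurentSeries K)
    (jqModC K)⁻¹ Q
  rw [h, invOf_eq_inv, inv_inv] at h1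
  have h2 : Q.reverse.eval₂ (HahnSeries.C : K →+* LaurentSeries K) (jqModC K) = 0 := by
    rcases mul_eq_zero.1 h1 with h3 | h3
    · exact h3
    · exact absurd h3 (pow_ne_zero _ (inv_ne_zero hne))
  exact Polynomial.reverse_eq_zero.1 (eq_zero_of_eval₂_jqModC_eq_zero _ h2)

end Transcendence

variable (N : ℕ) [NeZero N] (ℓ : ℕ) [Fact ℓ.Prime]

/-! ### The generic Gauss lemma -/

section Generic

variable (t : ↥(modularFunctionFieldFull N))

theorem singleton_subset_gauss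
    (ht : ((t : ↥(modularFunctionFieldFull N)) : LaurentSeries ℚ) ∈ gaussSubring ℓ) :
    ∀ s ∈ ({t} : Set ↥(modularFunctionFieldFull N)),
      ((s : ↥(modularFunctionFieldFull N)) : LaurentSeries ℚ) ∈ gaussSubring ℓ := by
  intro s hs
  rw [Set.mem_singleton_iff.mp hs]
  exact ht

/-- `P ↦ q`-expansion of `P(t)`, as a ring hom into the Gauss ring. -/
def polyToGauss
    (ht : ((t : ↥(modularFunctionFieldFull N)) : LaurentSeries ℚ) ∈ gaussSubring ℓ) :
    (↥(GaloisRep.ratLocalizedAt ℓ))[X] →+* gaussSubring ℓ :=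
  RingHom.codRestrict
    ((fullVal N).comp ((aeval t : (↥(GaloisRep.ratLocalizedAt ℓ))[X] →ₐ[_]
      ↥(modularFunctionFieldFull N)) : (↥(GaloisRep.ratLocalizedAt ℓ))[X] →+*
        ↥(modularFunctionFieldFull N)))
    (gaussSubring ℓ)
    (fun _ => coe_mem_gaussSubring_of_mem_adjoin N ℓ (singleton_subset_gauss N ℓ t ht)
      (Polynomial.aeval_mem_adjoin_singleton _ t))

theorem coe_polyToGauss
    (ht : ((t : ↥(modularFunctionFieldFull N)) : LaurentSeries ℚ) ∈ gaussSubring ℓ)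
    (P : (↥(GaloisRep.ratLocalizedAt ℓ))[X]) :
    ((polyToGauss N ℓ t ht P : gaussSubring ℓ) : LaurentSeries ℚ) =
      ((aeval t P : ↥(modularFunctionFieldFull N)) : LaurentSeries ℚ) := rfl

/-- Reduction of `P(t)` is `P̄(t̄)`. -/
theorem gaussRes_polyToGauss
    (ht : ((t : ↥(modularFunctionFieldFull N)) : LaurentSeries ℚ) ∈ gaussSubring ℓ)
    (P : (↥(GaloisRep.ratLocalizedAt ℓ))[X]) :
    gaussRes ℓ (polyToGauss N ℓ t ht P) =
      (P.map (zlResidue ℓ)).eval₂ (HahnSeries.C : ZMod ℓ →+* LaurentSeries (ZMod ℓ))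
        (gaussRes ℓ ⟨_, ht⟩) := by
  have key : (gaussRes ℓ).comp (polyToGauss N ℓ t ht) =
      (Polynomial.eval₂RingHom (HahnSeries.C : ZMod ℓ →+* LaurentSeries (ZMod ℓ))
        (gaussRes ℓ ⟨_, ht⟩)).comp (Polynomial.mapRingHom (zlResidue ℓ)) := by
    apply Polynomial.ringHom_ext
    · intro r
      obtain ⟨hmem, hC⟩ := gaussRes_C ℓ r
      have h1 : polyToGauss N ℓ t ht (Polynomial.C r) =
          ⟨HahnSeries.C ((r : ↥(GaloisRep.ratLocalizedAt ℓ)) : ℚ), hmem⟩ := by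
        apply Subtype.ext
        rw [coe_polyToGauss, Polynomial.aeval_C]
        exact coe_algebraMap_zl N ℓ r
      rw [RingHom.comp_apply, h1, hC, RingHom.comp_apply, Polynomial.coe_mapRingHom,
        Polynomial.map_C, Polynomial.coe_eval₂RingHom, Polynomial.eval₂_C]
    · have h1 : polyToGauss N ℓ t ht Polynomial.X = ⟨_, ht⟩ := by
        apply Subtype.ext
        rw [coe_polyToGauss, Polynomial.aeval_X]
      rw [RingHom.comp_apply, h1, RingHom.comp_apply, Polynomial.coe_mapRingHom,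
        Polynomial.map_X, Polynomial.coe_eval₂RingHom, Polynomial.eval₂_X]
  exact congrArg (fun g : (↥(GaloisRep.ratLocalizedAt ℓ))[X] →+* LaurentSeries (ZMod ℓ) => g P) key

/-- **Gauss lemma** for `ℤ_(ℓ)[t]`, `t` Gauss integral with transcendental reduction. -/
theorem chartGauss_of_transcendental
    (ht : ((t : ↥(modularFunctionFieldFull N)) : LaurentSeries ℚ) ∈ gaussSubring ℓ)
    (hinj : ∀ Q : (ZMod ℓ)[X],
      Q.eval₂ (HahnSeries.C : ZMod ℓ →+* LaurentSeries (ZMod ℓ)) (gaussRes ℓ ⟨_, ht⟩) = 0 → Q = 0)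
    (a : ↥(Algebra.adjoin ↥(GaloisRep.ratLocalizedAt ℓ)
      ({t} : Set ↥(modularFunctionFieldFull N))))
    (h : ∃ y ∈ gaussSubring ℓ, (((a : ↥(Algebra.adjoin ↥(GaloisRep.ratLocalizedAt ℓ)
        ({t} : Set ↥(modularFunctionFieldFull N)))) : ↥(modularFunctionFieldFull N)) :
          LaurentSeries ℚ) = HahnSeries.C (ℓ : ℚ) * y) :
    algebraMap ↥(GaloisRep.ratLocalizedAt ℓ) ↥(Algebra.adjoin ↥(GaloisRep.ratLocalizedAt ℓ)
      ({t} : Set ↥(modularFunctionFieldFull N))) (zlPrime ℓ) ∣ a := by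
  obtain ⟨y, hy, hay⟩ := h
  have ha : (a : ↥(modularFunctionFieldFull N)) ∈
      (aeval t : (↥(GaloisRep.ratLocalizedAt ℓ))[X] →ₐ[_] ↥(modularFunctionFieldFull N)).range := by
    rw [← Algebra.adjoin_singleton_eq_range_aeval]
    exact a.2
  obtain ⟨P, hP⟩ := ha
  have hP' : aeval t P = (a : ↥(modularFunctionFieldFull N)) := hP
  -- the reduction of `P(t)` vanishes
  have h0 : gaussRes ℓ (polyToGauss N ℓ t ht P) = 0 := by
    rw [gaussRes_eq_zero_iff]
    refine ⟨⟨y, hy⟩, Subtype.ext ?_⟩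
    rw [coe_polyToGauss, hP', Subring.coe_mul, coe_gaussPrime]
    exact hay
  rw [gaussRes_polyToGauss] at h0
  have hQ : P.map (zlResidue ℓ) = 0 := hinj _ h0
  -- all coefficients are divisible by `ℓ`
  have hdvd : Polynomial.C (zlPrime ℓ) ∣ P := by
    rw [Polynomial.C_dvd_iff_dvd_coeff]
    intro n
    have hn : zlResidue ℓ (P.coeff n) = 0 := by
      rw [← Polynomial.coeff_map, hQ, Polynomial.coeff_zero]
    obtain ⟨r, hr⟩ := exists_eq_mul_of_zlResidue_eq_zero ℓ hn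
    exact ⟨r, hr⟩
  obtain ⟨P', hPP'⟩ := hdvd
  refine ⟨⟨aeval t P', Polynomial.aeval_mem_adjoin_singleton _ t⟩, Subtype.ext ?_⟩
  rw [Subalgebra.coe_mul, Subalgebra.coe_algebraMap, ← hP', hPP', map_mul, Polynomial.aeval_C]

end Generic

/-! ### The two charts -/

theorem coe_jFull_inv :
    (((jFull N)⁻¹ : ↥(modularFunctionFieldFull N)) : LaurentSeries ℚ) = (jq : LaurentSeries ℚ)⁻¹ :=
  rfl

/-- The `gauss` field of `ChartBase N ℓ (jFull N)`. -/
theorem chartGauss_j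
    (a : ↥(Algebra.adjoin ↥(GaloisRep.ratLocalizedAt ℓ)
      ({jFull N} : Set ↥(modularFunctionFieldFull N))))
    (h : ∃ y ∈ gaussSubring ℓ, (((a : ↥(Algebra.adjoin ↥(GaloisRep.ratLocalizedAt ℓ)
        ({jFull N} : Set ↥(modularFunctionFieldFull N)))) : ↥(modularFunctionFieldFull N)) :
          LaurentSeries ℚ) = HahnSeries.C (ℓ : ℚ) * y) :
    algebraMap ↥(GaloisRep.ratLocalizedAt ℓ) ↥(Algebra.adjoin ↥(GaloisRep.ratLocalizedAt ℓ)
      ({jFull N} : Set ↥(modularFunctionFieldFull N))) (zlPrime ℓ) ∣ a := by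
  refine chartGauss_of_transcendental N ℓ (jFull N) (jq_mem_gaussSubring ℓ) ?_ a h
  intro Q hQ
  have h1 : gaussRes ℓ ⟨((jFull N : ↥(modularFunctionFieldFull N)) : LaurentSeries ℚ),
      jq_mem_gaussSubring ℓ⟩ = jqModC (ZMod ℓ) := gaussRes_jq ℓ
  rw [h1] at hQ
  exact eq_zero_of_eval₂_jqModC_eq_zero Q hQ

/-- The `gauss` field of `ChartBase N ℓ (jFull N)⁻¹`. -/
theorem chartGauss_jInv
    (a : ↥(Algebra.adjoin ↥(GaloisRep.ratLocalizedAt ℓ)
      ({(jFull N)⁻¹} : Set ↥(modularFunctionFieldFull N))))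
    (h : ∃ y ∈ gaussSubring ℓ, (((a : ↥(Algebra.adjoin ↥(GaloisRep.ratLocalizedAt ℓ)
        ({(jFull N)⁻¹} : Set ↥(modularFunctionFieldFull N)))) : ↥(modularFunctionFieldFull N)) :
          LaurentSeries ℚ) = HahnSeries.C (ℓ : ℚ) * y) :
    algebraMap ↥(GaloisRep.ratLocalizedAt ℓ) ↥(Algebra.adjoin ↥(GaloisRep.ratLocalizedAt ℓ)
      ({(jFull N)⁻¹} : Set ↥(modularFunctionFieldFull N))) (zlPrime ℓ) ∣ a := by
  refine chartGauss_of_transcendental N ℓ (jFull N)⁻¹ (jq_inv_mem_gaussSubring ℓ) ?_ a h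
  intro Q hQ
  have h1 : gaussRes ℓ ⟨(((jFull N)⁻¹ : ↥(modularFunctionFieldFull N)) : LaurentSeries ℚ),
      jq_inv_mem_gaussSubring ℓ⟩ = (jqModC (ZMod ℓ))⁻¹ := by
    have h2 := gaussRes_inv ℓ ⟨jq, jq_mem_gaussSubring ℓ⟩ (gaussRes_jq_ne_zero ℓ)
    rw [gaussRes_jq] at h2
    exact h2
  rw [h1] at hQ
  exact eq_zero_of_eval₂_jqModC_inv_eq_zero Q hQ

/-! ### Assembling `ChartBase` from the three ring-theoretic fields -/

/-- `ChartBase N ℓ (jFull N)` from the ring-theoretic facts about `ℤ_(ℓ)[j]`. -/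
theorem chartBase_j_of_ring
    (h1 : IsIntegrallyClosed ↥(Algebra.adjoin ↥(GaloisRep.ratLocalizedAt ℓ)
      ({jFull N} : Set ↥(modularFunctionFieldFull N))))
    (h2 : WfDvdMonoid ↥(Algebra.adjoin ↥(GaloisRep.ratLocalizedAt ℓ)
      ({jFull N} : Set ↥(modularFunctionFieldFull N))))
    (h3 : Prime (algebraMap ↥(GaloisRep.ratLocalizedAt ℓ) ↥(Algebra.adjoin
      ↥(GaloisRep.ratLocalizedAt ℓ) ({jFull N} : Set ↥(modularFunctionFieldFull N)))
        (zlPrime ℓ))) :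
    ChartBase N ℓ (jFull N) :=
  chartBase_of_clear_j N ℓ h1 h2 h3 (chartGauss_j N ℓ)

/-- `ChartBase N ℓ (jFull N)⁻¹` from the ring-theoretic facts about `ℤ_(ℓ)[1/j]`. -/
theorem chartBase_jInv_of_ring
    (h1 : IsIntegrallyClosed ↥(Algebra.adjoin ↥(GaloisRep.ratLocalizedAt ℓ)
      ({(jFull N)⁻¹} : Set ↥(modularFunctionFieldFull N))))
    (h2 : WfDvdMonoid ↥(Algebra.adjoin ↥(GaloisRep.ratLocalizedAt ℓ)
      ({(jFull N)⁻¹} : Set ↥(modularFunctionFieldFull N))))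
    (h3 : Prime (algebraMap ↥(GaloisRep.ratLocalizedAt ℓ) ↥(Algebra.adjoin
      ↥(GaloisRep.ratLocalizedAt ℓ) ({(jFull N)⁻¹} : Set ↥(modularFunctionFieldFull N)))
        (zlPrime ℓ))) :
    ChartBase N ℓ (jFull N)⁻¹ :=
  chartBase_of_clear_jInv N ℓ h1 h2 h3 (chartGauss_jInv N ℓ)

end Fermat.Agent.Igusa
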