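/-
S28 (Igusa), node N-INT: `j(q^d)` is integral over `ℤ_(ℓ)[j]` for `d ∣ N` (`ℓ ∤ N`).

* `IntRel g y x`: "`x` is integral over `R[y]`" for a structure map `g : R →+* L`, as a monic
  two-variable relation (no algebra instances): `∃ P ∈ R[Y][X]` monic in `X` with `P(x, y) = 0`;
  reflexivity, transitivity, functoriality, descent along injective maps;
* `intRel_of_root`: the prime step.  If a monic `Φ ∈ E[Y][X]` over a field `E ⊇ ℚ` with
  coefficients integral over `R` satisfies `Φ(j(s^{p²}), j(s^p)) = 0` in `E((s))` (a consequence of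
  the modular equation (ME1)), then `j(q^p)` is integral over `R[j]` in `ℚ((q))`;
* `intRel_qExpand`: induction on `d` along prime factors;
* `isIntegral_jqd`: the final statement in the function field `F_N`, in hypothesis form, and
  `isIntegral_jqd_of_modEq`: from modular equation data with integral coefficients.
-/
import Fermat.Agent.Igusa.ModEqData
import Fermat.Agent.Igusa.ChartRes

set_option autoImplicit false

noncomputable section

namespace Fermat.Agent.Igusa

open Polynomial ModularCurve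

/-! ### Integrality for ring homomorphisms: two lemmas -/

section IsIntegralElem

variable {A S T : Type*} [CommRing A] [CommRing S] [CommRing T]

theorem isIntegralElem_pow (f : A →+* S) {y : S} (hy : f.IsIntegralElem y) (n : ℕ) :
    f.IsIntegralElem (y ^ n) := by
  induction n with
  | zero => rw [pow_zero]; exact f.isIntegralElem_one
  | succ n ih => rw [pow_succ]; exact RingHom.IsIntegralElem.mul f ih hy

theorem isIntegralElem_sum (f : A →+* S) {ι : Type*} (s : Finset ι) (u : ι → S)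
    (h : ∀ i ∈ s, f.IsIntegralElem (u i)) : f.IsIntegralElem (∑ i ∈ s, u i) := by
  classical
  induction s using Finset.induction_on with
  | empty => rw [Finset.sum_empty]; exact f.isIntegralElem_zero
  | insert a s ha ih =>
    rw [Finset.sum_insert ha]
    exact RingHom.IsIntegralElem.add f (h a (Finset.mem_insert_self a s))
      (ih fun i hi => h i (Finset.mem_insert_of_mem hi))

/-- A polynomial expression in an integral element with integral coefficients is integral. -/
theorem isIntegralElem_eval₂ (f : A →+* S) (h : T →+* S) {y : S} (hy : f.IsIntegralElem y)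
    (c : T[X]) (hc : ∀ k, f.IsIntegralElem (h (c.coeff k))) :
    f.IsIntegralElem (Polynomial.eval₂ h y c) := by
  rw [Polynomial.eval₂_eq_sum_range]
  exact isIntegralElem_sum f _ _ fun i _ =>
    RingHom.IsIntegralElem.mul f (hc i) (isIntegralElem_pow f hy i)

/-- A root of a monic polynomial with integral coefficients is integral. -/
theorem isIntegralElem_of_root (f : A →+* S) {Q : S[X]} (hQ : Q.Monic)
    (hcoeff : ∀ i, f.IsIntegralElem (Q.coeff i)) {x : S} (hx : Q.eval x = 0) :
    f.IsIntegralElem x := by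
  rcases subsingleton_or_nontrivial S with hS | hS
  · exact ⟨X, monic_X, Subsingleton.elim _ _⟩
  · let _ : Algebra A S := f.toAlgebra
    have hdeg : Q.natDegree ≠ 0 := by
      intro h0
      have h1 : Q = 1 := (Polynomial.Monic.natDegree_eq_zero hQ).1 h0
      rw [h1, Polynomial.eval_one] at hx
      exact one_ne_zero hx
    have h : IsIntegral A x :=
      IsIntegral.of_aeval_monic_of_isIntegral_coeff hQ hdeg (by rw [hx]; exact isIntegral_zero)
        hcoeff
    exact h

end IsIntegralElem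

/-! ### The relation "`x` is integral over `R[y]`" -/

section IntRel

variable {R L L' : Type*} [CommRing R] [CommRing L] [CommRing L']

/-- `x` is integral over `R[y]` (structure map `g : R →+* L`): there is `P ∈ R[Y][X]`, monic in
`X`, with `P(x, y) = 0`. -/
def IntRel (g : R →+* L) (y x : L) : Prop :=
  (Polynomial.eval₂RingHom g y).IsIntegralElem x

theorem intRel_iff {g : R →+* L} {y x : L} :
    IntRel g y x ↔
      ∃ P : R[X][X], P.Monic ∧ (P.map (Polynomial.eval₂RingHom g y)).eval x = 0 := by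
  unfold IntRel RingHom.IsIntegralElem
  simp only [Polynomial.eval_map]

theorem IntRel.refl (g : R →+* L) (y : L) : IntRel g y y := by
  have h := (Polynomial.eval₂RingHom g y).isIntegralElem_map (x := (X : R[X]))
  rwa [Polynomial.coe_eval₂RingHom, Polynomial.eval₂_X] at h

theorem IntRel.of_const (g : R →+* L) (y : L) (r : R) : IntRel g y (g r) := by
  have h := (Polynomial.eval₂RingHom g y).isIntegralElem_map (x := (Polynomial.C r : R[X]))
  rwa [Polynomial.coe_eval₂RingHom, Polynomial.eval₂_C] at h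

theorem eval₂RingHom_comp (φ : L →+* L') (g : R →+* L) (y : L) :
    φ.comp (Polynomial.eval₂RingHom g y) = Polynomial.eval₂RingHom (φ.comp g) (φ y) := by
  refine Polynomial.ringHom_ext (fun a => ?_) ?_
  · simp
  · simp

/-- Functoriality. -/
theorem IntRel.map {g : R →+* L} {y x : L} (φ : L →+* L') (h : IntRel g y x) :
    IntRel (φ.comp g) (φ y) (φ x) := by
  obtain ⟨P, hP, hx⟩ := h
  refine ⟨P, hP, ?_⟩
  rw [← eval₂RingHom_comp, ← Polynomial.hom_eval₂, hx, map_zero]

/-- Descent along an injective homomorphism. -/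
theorem IntRel.of_map {g : R →+* L} {y x : L} (φ : L →+* L') (hφ : Function.Injective φ)
    (h : IntRel (φ.comp g) (φ y) (φ x)) : IntRel g y x := by
  obtain ⟨P, hP, hx⟩ := h
  refine ⟨P, hP, hφ ?_⟩
  rw [Polynomial.hom_eval₂, eval₂RingHom_comp, hx, map_zero]

/-- Transitivity: `y` integral over `R[z]` and `x` integral over `R[y]` ⟹ `x` integral over
`R[z]`. -/
theorem IntRel.trans {g : R →+* L} {z y x : L} (h₁ : IntRel g z y) (h₂ : IntRel g y x) :
    IntRel g z x := by
  obtain ⟨P, hP, hx⟩ := intRel_iff.1 h₂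
  refine isIntegralElem_of_root (Polynomial.eval₂RingHom g z) (hP.map _) (fun i => ?_) hx
  rw [Polynomial.coeff_map, Polynomial.coe_eval₂RingHom]
  refine isIntegralElem_eval₂ _ g h₁ _ fun k => ?_
  have h := (Polynomial.eval₂RingHom g z).isIntegralElem_map
    (x := (Polynomial.C ((P.coeff i).coeff k) : R[X]))
  rwa [Polynomial.coe_eval₂RingHom, Polynomial.eval₂_C] at h

end IntRel

/-! ### The prime step -/

section PrimeStep

variable {R : Type*} [CommRing R] (r : R →+* ℚ)

/-- The structure map `R → ℚ → ℚ((q))`. -/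
def constL : R →+* LaurentSeries ℚ := (HahnSeries.C : ℚ →+* LaurentSeries ℚ).comp r

variable {E : Type*} [Field E] [Algebra ℚ E]

theorem coeffMap_algebraMap_injective :
    Function.Injective (coeffMap (algebraMap ℚ E)) := by
  intro x y h
  ext k
  have := congrArg (fun z => z.coeff k) h
  simp only [coeffMap_coeff] at this
  exact (algebraMap ℚ E).injective this

theorem coeffMap_comp_constL :
    (coeffMap (algebraMap ℚ E)).comp (constL r) =
      (HahnSeries.C : E →+* LaurentSeries E).comp ((algebraMap ℚ E).comp r) := by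
  refine RingHom.ext fun a => ?_
  simp only [RingHom.comp_apply, constL]
  exact coeffMap_HC _ _

/-- **The prime step.** Let `Φ ∈ E[Y][X]` be monic with coefficients integral over `R`, such that
`Φ(j(s^{p²}), j(s^p)) = 0` in `E((s))`.  Then `j(q^p)` is integral over `R[j]` in `ℚ((q))`. -/
theorem intRel_of_root (p : ℕ) [NeZero p] (Φ : E[X][X]) (hΦ : Φ.Monic)
    (hint : ∀ i k, ((algebraMap ℚ E).comp r).IsIntegralElem ((Φ.coeff i).coeff k))
    (hroot : (evY (J (1 : Eˣ) p) Φ).eval (J (1 : Eˣ) (p * p)) = 0) :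
    IntRel (constL r) jq (qExpand ℚ p jq) := by
  set ι := coeffMap (algebraMap ℚ E) with hι
  -- descend from `E((q))`
  refine IntRel.of_map ι coeffMap_algebraMap_injective ?_
  have hj : ι jq = jqModC E := by
    rw [← jqModC_rat]
    exact coeffMap_jqModC _
  have hjp : ι (qExpand ℚ p jq) = J (1 : Eˣ) p := by
    rw [hι, coeffMap_qExpand, ← hι, hj, J_one_unit]
  rw [hj, hjp, coeffMap_comp_constL]
  -- remove the substitution `s ↦ s^p`
  have hroot' : (evY (jqModC E) Φ).eval (J (1 : Eˣ) p) = 0 := by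
    have h1 : J (1 : Eˣ) p = subst (1 : Eˣ) p (jqModC E) := rfl
    have h2 : J (1 : Eˣ) (p * p) = subst (1 : Eˣ) p (J (1 : Eˣ) p) := by
      rw [subst_J, one_pow, mul_one]
    rw [h2, h1, ← evY_subst, ← h1, Polynomial.eval_map_apply] at hroot
    exact (map_eq_zero_iff _ (subst_injective (1 : Eˣ) p)).1 hroot
  -- `J 1 p` is a root of the monic polynomial `Φ(X, j)` with integral coefficients
  set g : R →+* LaurentSeries E :=
    (HahnSeries.C : E →+* LaurentSeries E).comp ((algebraMap ℚ E).comp r) with hg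
  refine isIntegralElem_of_root (Polynomial.eval₂RingHom g (jqModC E)) (evY_monic _ hΦ)
    (fun i => ?_) hroot'
  rw [evY_apply, Polynomial.coeff_map, Polynomial.coe_eval₂RingHom]
  refine isIntegralElem_eval₂ _ _ (IntRel.refl g (jqModC E)) _ fun k => ?_
  obtain ⟨m, hm, hmr⟩ := hint i k
  refine ⟨m.map Polynomial.C, hm.map _, ?_⟩
  rw [Polynomial.eval₂_map]
  have hcomp : (Polynomial.eval₂RingHom g (jqModC E)).comp (Polynomial.C : R →+* R[X]) =
      (HahnSeries.C : E →+* LaurentSeries E).comp ((algebraMap ℚ E).comp r) := by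
    refine RingHom.ext fun a => ?_
    simp [hg]
  rw [hcomp, ← Polynomial.hom_eval₂, hmr, map_zero]

end PrimeStep

/-! ### Induction on `d` -/

section Induction

variable {R : Type*} [CommRing R] (r : R →+* ℚ)

theorem qExpand_comp_constL (d : ℕ) [NeZero d] :
    (qExpand ℚ d).comp (constL r) = constL r := by
  refine RingHom.ext fun a => ?_
  simp only [RingHom.comp_apply, constL]
  exact qExpand_C d _

theorem intRel_qExpand_aux (d : ℕ) : ∀ (hd : d ≠ 0),
    (∀ (p : ℕ) (hp : p.Prime), p ∣ d →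
      IntRel (constL r) jq (@qExpand ℚ _ p ⟨hp.ne_zero⟩ jq)) →
    IntRel (constL r) jq (@qExpand ℚ _ d ⟨hd⟩ jq) := by
  induction d using Nat.strong_induction_on with
  | _ d ih =>
    intro hd H
    by_cases h1 : d = 1
    · subst h1
      rw [qExpand_one_apply]
      exact IntRel.refl _ _
    · obtain ⟨p, hp, hpd⟩ := Nat.exists_prime_and_dvd h1
      obtain ⟨d', rfl⟩ := hpd
      have hd' : d' ≠ 0 := fun h => hd (by rw [h, mul_zero])
      have hlt : d' < p * d' := by
        have := hp.one_lt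
        nlinarith [Nat.pos_of_ne_zero hd']
      have : NeZero d' := ⟨hd'⟩
      have : NeZero p := ⟨hp.ne_zero⟩
      have h₁ : IntRel (constL r) jq (qExpand ℚ d' jq) :=
        ih d' hlt hd' fun q hq hqd => H q hq (hqd.mul_left p)
      have h₂ : IntRel (constL r) jq (qExpand ℚ p jq) := H p hp (dvd_mul_right p d')
      have h₃ := h₂.map (qExpand ℚ d')
      rw [qExpand_comp_constL, qExpand_qExpand] at h₃
      have h₄ := h₁.trans h₃
      rw [qExpand_congr (mul_comm d' p)] at h₄
      exact h₄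

/-- `j(q^d)` is integral over `R[j]` as soon as `j(q^p)` is for all primes `p ∣ d`. -/
theorem intRel_qExpand (d : ℕ) [NeZero d]
    (H : ∀ (p : ℕ) [NeZero p], p.Prime → p ∣ d → IntRel (constL r) jq (qExpand ℚ p jq)) :
    IntRel (constL r) jq (qExpand ℚ d jq) :=
  intRel_qExpand_aux r d (NeZero.ne d) fun p hp hpd =>
    @H p ⟨hp.ne_zero⟩ hp hpd

end Induction

/-! ### The statement in the function field `F_N` -/

section Final

open ModularCurve.IgusaScheme

variable (N : ℕ) [NeZero N] (ℓ : ℕ) [Fact ℓ.Prime]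

set_option quotPrecheck false in
local notation "ℤℓ" => ↥(GaloisRep.ratLocalizedAt ℓ)

set_option quotPrecheck false in
local notation "F" => ↥(modularFunctionFieldFull N)

/-- The inclusion `ℤ_(ℓ) → ℚ`. -/
def zlToRat : ℤℓ →+* ℚ := (GaloisRep.ratLocalizedAt ℓ).subtype

/-- From the two-variable relation in `ℚ((q))` to integrality over `ℤ_(ℓ)[j]` in `F_N`. -/
theorem isIntegral_of_intRel (x : F)
    (h : IntRel (constL (zlToRat ℓ)) jq (x : LaurentSeries ℚ)) :
    IsIntegral (Algebra.adjoin ℤℓ ({jFull N} : Set F)) x := by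
  obtain ⟨P, hP, hx⟩ := h
  set jA : ↥(Algebra.adjoin ℤℓ ({jFull N} : Set F)) :=
    ⟨jFull N, Algebra.subset_adjoin (Set.mem_singleton _)⟩ with hjA
  set φ : ℤℓ[X] →+* ↥(Algebra.adjoin ℤℓ ({jFull N} : Set F)) :=
    Polynomial.eval₂RingHom (algebraMap ℤℓ ↥(Algebra.adjoin ℤℓ ({jFull N} : Set F))) jA with hφ
  refine ⟨P.map φ, hP.map _, ?_⟩
  rw [Polynomial.eval₂_map]
  have hinj : Function.Injective (fullVal N) := fun a b hab => Subtype.ext hab
  apply hinj
  rw [Polynomial.hom_eval₂, map_zero]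
  have hcomp : (fullVal N).comp
      ((algebraMap ↥(Algebra.adjoin ℤℓ ({jFull N} : Set F)) F).comp φ) =
      Polynomial.eval₂RingHom (constL (zlToRat ℓ)) jq := by
    refine Polynomial.ringHom_ext (fun a => ?_) ?_
    · simp only [RingHom.comp_apply, hφ, Polynomial.coe_eval₂RingHom, Polynomial.eval₂_C]
      exact coe_algebraMap_zl N ℓ a
    · simp only [RingHom.comp_apply, hφ, Polynomial.coe_eval₂RingHom, Polynomial.eval₂_X]
      rfl
  rw [hcomp]
  exact hx

/-- **N-INT, hypothesis form.** If `j(q^p)` is integral over `ℤ_(ℓ)[j]` (two-variable relation in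
`ℚ((q))`) for every prime `p ∣ N`, then `j(q^d) ∈ F_N` is integral over `ℤ_(ℓ)[j]` for all
`d ∣ N`. -/
theorem isIntegral_jqd
    (H : ∀ (p : ℕ) [NeZero p], p.Prime → p ∣ N →
      IntRel (constL (zlToRat ℓ)) jq (qExpand ℚ p jq))
    (d : ℕ) (hd : d ∣ N) [NeZero d] :
    IsIntegral (Algebra.adjoin ℤℓ ({jFull N} : Set F))
      (⟨qExpand ℚ d jq, jqd_mem_full N hd⟩ : F) :=
  isIntegral_of_intRel N ℓ _
    (intRel_qExpand (zlToRat ℓ) d fun p _ hp hpd => H p hp (hpd.trans hd))

/-- `j(q^d)` lies in the chart algebra `chartAlg N ℓ {j}`. -/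
theorem jqd_mem_chartAlg
    (H : ∀ (p : ℕ) [NeZero p], p.Prime → p ∣ N →
      IntRel (constL (zlToRat ℓ)) jq (qExpand ℚ p jq))
    (d : ℕ) (hd : d ∣ N) [NeZero d] :
    (⟨qExpand ℚ d jq, jqd_mem_full N hd⟩ : F) ∈ chartAlg N ℓ ({jFull N} : Set F) :=
  (mem_chartAlg_iff N ℓ).2 (isIntegral_jqd N ℓ H d hd)

/-- **N-INT from modular equation data.** `E ⊇ ℚ` a field; for every prime `p ∣ N` modular
equation data over `E` whose polynomial `Φ_p` has coefficients integral over `ℤ_(ℓ)`. -/
theorem isIntegral_jqd_of_modEq {E : Type*} [Field E] [Algebra ℚ E]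
    (H : ∀ (p : ℕ) [NeZero p], p.Prime → p ∣ N →
      ∃ (ζ : Eˣ) (pinv : E) (D : ModEqData E p ζ pinv), ∀ i k,
        ((algebraMap ℚ E).comp (zlToRat ℓ)).IsIntegralElem ((D.Phi.coeff i).coeff k))
    (d : ℕ) (hd : d ∣ N) [NeZero d] :
    IsIntegral (Algebra.adjoin ℤℓ ({jFull N} : Set F))
      (⟨qExpand ℚ d jq, jqd_mem_full N hd⟩ : F) := by
  refine isIntegral_jqd N ℓ (fun p _ hp hpN => ?_) d hd
  obtain ⟨ζ, pinv, D, hint⟩ := H p hp hpN
  refine intRel_of_root (zlToRat ℓ) p D.Phi D.Phi_monic hint ?_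
  rw [D.me1, Polynomial.eval_mul, Polynomial.eval_sub, Polynomial.eval_X, Polynomial.eval_C,
    sub_self, zero_mul]

/-- Elements `z` of a field `E ⊇ ℚ` with `N^k z` integral over `ℤ` are integral over `ℤ_(ℓ)` when
`ℓ ∤ N`. -/
theorem isIntegralElem_of_pow_mul_isIntegral {E : Type*} [Field E] [Algebra ℚ E]
    (hℓN : ¬ ℓ ∣ N) (z : E) (k : ℕ) (h : IsIntegral ℤ ((N : E) ^ k * z)) :
    ((algebraMap ℚ E).comp (zlToRat ℓ)).IsIntegralElem z := by
  set f : ℤℓ →+* E := (algebraMap ℚ E).comp (zlToRat ℓ) with hf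
  have hN0 : (N : E) ≠ 0 := by
    have : CharZero E := algebraRat.charZero E
    exact_mod_cast NeZero.ne N
  -- integral over `ℤ` ⟹ integral over `ℤ_(ℓ)`
  have hw : f.IsIntegralElem ((N : E) ^ k * z) := by
    obtain ⟨m, hm, hmw⟩ := h
    refine ⟨m.map (Int.castRingHom ℤℓ), hm.map _, ?_⟩
    rw [Polynomial.eval₂_map, RingHom.ext_int (f.comp (Int.castRingHom ℤℓ)) (algebraMap ℤ E)]
    exact hmw
  -- `1 / N^k ∈ ℤ_(ℓ)`
  have hmem : (((N ^ k : ℕ) : ℚ))⁻¹ ∈ GaloisRep.ratLocalizedAt ℓ := by
    show ((((N ^ k : ℕ) : ℚ))⁻¹).den.Coprime ℓ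
    rw [Rat.inv_natCast_den_of_pos (Nat.pos_of_ne_zero (pow_ne_zero k (NeZero.ne N)))]
    exact Nat.Coprime.pow_left k
      ((Nat.Prime.coprime_iff_not_dvd (Fact.out : ℓ.Prime)).2 hℓN).symm
  have hu : f ⟨_, hmem⟩ * ((N : E) ^ k * z) = z := by
    show algebraMap ℚ E ((((N ^ k : ℕ) : ℚ))⁻¹) * ((N : E) ^ k * z) = z
    rw [map_inv₀, map_natCast, Nat.cast_pow, ← mul_assoc, inv_mul_cancel₀ (pow_ne_zero k hN0),
      one_mul]
  rw [← hu]
  exact RingHom.IsIntegralElem.mul f f.isIntegralElem_map hw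

/-- **N-INT from modular equation data over a subring** `S ⊆ E` all of whose elements become
integral over `ℤ` after multiplication by a power of `N` (e.g. `E = ℂ`,
`S = {z | ∃ k, N^k z integral over ℤ}`), for `ℓ ∤ N`. -/
theorem isIntegral_jqd_of_modEq_subring {E : Type*} [Field E] [Algebra ℚ E] (S : Subring E)
    (hS : ∀ z ∈ S, ∃ k : ℕ, IsIntegral ℤ ((N : E) ^ k * z)) (hℓN : ¬ ℓ ∣ N)
    (H : ∀ (p : ℕ) [NeZero p], p.Prime → p ∣ N →
      ∃ (ζ : (↥S)ˣ) (pinv : ↥S), Nonempty (ModEqData ↥S p ζ pinv))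
    (d : ℕ) (hd : d ∣ N) [NeZero d] :
    IsIntegral (Algebra.adjoin ℤℓ ({jFull N} : Set F))
      (⟨qExpand ℚ d jq, jqd_mem_full N hd⟩ : F) := by
  refine isIntegral_jqd_of_modEq N ℓ (E := E) (fun p _ hp hpN => ?_) d hd
  obtain ⟨ζ, pinv, ⟨D⟩⟩ := H p hp hpN
  refine ⟨_, _, D.map S.subtype, fun i k => ?_⟩
  have hc : (((D.map S.subtype).Phi.coeff i).coeff k) = ((D.Phi.coeff i).coeff k : E) := by
    show ((D.Phi.map (Polynomial.mapRingHom S.subtype)).coeff i).coeff k = _
    rw [Polynomial.coeff_map, Polynomial.coe_mapRingHom, Polynomial.coeff_map]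
    rfl
  rw [hc]
  obtain ⟨m, hm⟩ := hS _ ((D.Phi.coeff i).coeff k).2
  exact isIntegralElem_of_pow_mul_isIntegral N ℓ hℓN _ m hm

end Final

end Fermat.Agent.Igusa

end
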