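/-
S28 (Igusa), node N-TOWER, factorisation lemmas in the Puiseux model (no algebraic closure):
for modular equation data `d : ModEqData F p ζ pinv`, `c : Fˣ`, `n ≥ 1`,
  `Φ_p(X, J(c^p, n p)) = (X - J(c^{p^2}, n p^2)) * G`,
where `G = ∏_{b<p} (X - J(ζ^b c, n))` has coefficients in the level field `F((s^{p n}))` and is
IRREDUCIBLE over it (order lemma: its roots have order `-n`).
-/
import Fermat.Agent.Igusa.SubstLevel
import Fermat.Agent.Igusa.ModEqData

set_option autoImplicit false

namespace Fermat.Agent.Igusa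

open Polynomial ModularCurve

section TowerFactor

variable {F : Type*} [Field F]

/-- The constants `F → F((s^g))`. -/
noncomputable def levelC (g : ℕ) [NeZero g] : F →+* levelSub F g :=
  (HahnSeries.C : F →+* LaurentSeries F).codRestrict (levelSub F g) (C_mem_levelSub g)

/-- The ring hom `F[Y] → F((s^g))`, `Y ↦ y`. -/
noncomputable def evLevel (g : ℕ) [NeZero g] (y : levelSub F g) : F[X] →+* levelSub F g :=
  Polynomial.eval₂RingHom (levelC g) y

theorem subtype_comp_evLevel (g : ℕ) [NeZero g] (y : levelSub F g) :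
    (levelSub F g).subtype.comp (evLevel g y) =
      Polynomial.eval₂RingHom (HahnSeries.C : F →+* LaurentSeries F) (y : LaurentSeries F) := by
  refine Polynomial.ringHom_ext (fun a => ?_) ?_
  · simp only [RingHom.comp_apply, evLevel, coe_eval₂RingHom, eval₂_C]
    rfl
  · simp only [RingHom.comp_apply, evLevel, coe_eval₂RingHom, eval₂_X]
    rfl

/-- `evY y Φ` has coefficients in the level field containing `y`. -/
theorem map_evLevel_map_subtype (g : ℕ) [NeZero g] (y : levelSub F g) (Φ : F[X][X]) :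
    (Φ.map (evLevel g y)).map (levelSub F g).subtype = evY (y : LaurentSeries F) Φ := by
  rw [Polynomial.map_map, subtype_comp_evLevel, evY_apply]

variable {p : ℕ} [NeZero p] {ζ : Fˣ} {pinv : F}

/-- **Factorisation with irreducible cofactor.** -/
theorem ModEqData.exists_irreducible_factor (hp : p.Prime) (d : ModEqData F p ζ pinv) (c : Fˣ)
    (n : ℕ) [NeZero n] :
    ∃ G : Polynomial ↥(levelSub F (p * n)), G.Monic ∧ Irreducible G ∧
      evY (J (c ^ p) (n * p)) d.Phi =
        (X - C (J (c ^ (p * p)) (n * (p * p)))) * G.map (levelSub F (p * n)).subtype ∧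
      G.map (levelSub F (p * n)).subtype =
        ∏ b ∈ Finset.range p, (X - C (J (ζ ^ b * c) n)) := by
  classical
  set K := levelSub F (p * n) with hK
  have hy : J (c ^ p) (n * p) ∈ K := J_mem_levelSub (dvd_of_eq (mul_comm p n)) _
  have hx : J (c ^ (p * p)) (n * (p * p)) ∈ K := J_mem_levelSub ⟨p, by ring⟩ _
  set yK : K := ⟨_, hy⟩ with hyK
  set xK : K := ⟨_, hx⟩ with hxK
  set ΦK : K[X] := d.Phi.map (evLevel (p * n) yK) with hΦK
  have hΦKmap : ΦK.map K.subtype = evY (J (c ^ p) (n * p)) d.Phi :=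
    map_evLevel_map_subtype (p * n) yK d.Phi
  have hΦKmonic : ΦK.Monic := d.Phi_monic.map _
  have hme := d.me1_subst c n
  set S : (LaurentSeries F)[X] := ∏ b ∈ Finset.range p, (X - C (J (ζ ^ b * c) n)) with hS
  have hroot : ΦK.IsRoot xK := by
    have h1 : K.subtype (ΦK.eval xK) = 0 := by
      rw [← eval₂_hom, ← eval_map, hΦKmap, hme]
      change eval (J (c ^ (p * p)) (n * (p * p))) _ = 0
      rw [eval_mul, eval_sub, eval_X, eval_C, sub_self, zero_mul]
    exact (map_eq_zero_iff K.subtype K.subtype_injective).1 h1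
  obtain ⟨G, hG⟩ := dvd_iff_isRoot.2 hroot
  have hGmonic : G.Monic := (monic_X_sub_C xK).of_mul_monic_left (hG ▸ hΦKmonic)
  have hGmap : G.map K.subtype = S := by
    have h1 : (X - C (J (c ^ (p * p)) (n * (p * p)))) * G.map K.subtype =
        (X - C (J (c ^ (p * p)) (n * (p * p)))) * S := by
      rw [← hme, ← hΦKmap, hG, Polynomial.map_mul, Polynomial.map_sub, map_X, map_C]
      rfl
    exact mul_left_cancel₀ (X_sub_C_ne_zero _) h1
  refine ⟨G, hGmonic, ?_, ?_, hGmap⟩
  · -- irreducibility by the order lemma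
    set s : Multiset (LaurentSeries F) :=
      (Finset.range p).val.map fun b => J (ζ ^ b * c) n with hs
    have hcard : Multiset.card s = p := by
      rw [hs, Multiset.card_map, Finset.card_val, Finset.card_range]
    have hpa : ¬ (p : ℤ) ∣ (-1 : ℤ) := by
      rw [dvd_neg]
      intro h
      have : p ∣ 1 := by exact_mod_cast h
      exact hp.one_lt.ne' (Nat.dvd_one.1 this)
    refine irreducible_of_levelSub hp hpa K.subtype (fun x => x.2) s hcard (fun y hy => ?_) G
      hGmonic ?_
    · obtain ⟨b, -, rfl⟩ := Multiset.mem_map.1 hy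
      refine ⟨J_ne_zero _ n, ?_⟩
      rw [order_J]
      ring
    · rw [hGmap, hS, hs, Multiset.map_map, Finset.prod_eq_multiset_prod]
      rfl
  · rw [hme, hGmap]

/-- **Root list.** In any domain `Ω` receiving `F((s))`, the roots of `Φ_p(X, J(c^p, n p))` are
`J(c^{p^2}, n p^2)` and the `J(ζ^b c, n)`, `b < p`. -/
theorem ModEqData.eq_or_exists_of_isRoot (d : ModEqData F p ζ pinv) (c : Fˣ) (n : ℕ) [NeZero n]
    {Ω : Type*} [CommRing Ω] [IsDomain Ω] (ι : LaurentSeries F →+* Ω) (w : Ω)
    (hw : ((evY (J (c ^ p) (n * p)) d.Phi).map ι).IsRoot w) :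
    w = ι (J (c ^ (p * p)) (n * (p * p))) ∨ ∃ b < p, w = ι (J (ζ ^ b * c) n) := by
  rw [d.me1_subst c n, IsRoot.def, Polynomial.map_mul, Polynomial.map_sub, map_X, map_C,
    Polynomial.map_prod, eval_mul, eval_sub, eval_X, eval_C, eval_prod, mul_eq_zero] at hw
  rcases hw with h | h
  · exact Or.inl (sub_eq_zero.1 h)
  · right
    obtain ⟨b, hb, hb0⟩ := Finset.prod_eq_zero_iff.1 h
    refine ⟨b, Finset.mem_range.1 hb, ?_⟩
    rw [Polynomial.map_sub, map_X, map_C, eval_sub, eval_X, eval_C] at hb0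
    exact sub_eq_zero.1 hb0

end TowerFactor

end Fermat.Agent.Igusa
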