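/-
S28 (Igusa), helper lemmas for the instantiation of the tower (`Igusa/Tower.lean`):
the ROOT LIST of the modular equation.  Over an algebraically closed field `F` carrying modular
equation data for `p`, every root (in any field extension `Ω` of `F((t))`) of
`Φ_p(X, J(c₀, n p))` is of the form `J(c, n p²)` or `J(c, n)`.
-/
import Mathlib
import Fermat.Agent.Igusa.ModEqData

set_option autoImplicit false

namespace Fermat.Agent.Igusa

open ModularCurve Polynomial

section RootList

variable {F : Type*} [Field F] [IsAlgClosed F] {p : ℕ} [NeZero p] {ζ : Fˣ} {pinv : F}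
  (d : ModEqData F p ζ pinv) {Ω : Type*} [Field Ω] [Algebra (LaurentSeries F) Ω]

/-- `p`-th roots of units in an algebraically closed field. -/
theorem exists_unit_pow_eq (c₀ : Fˣ) : ∃ c : Fˣ, c ^ p = c₀ := by
  obtain ⟨z, hz⟩ := IsAlgClosed.exists_pow_nat_eq (c₀ : F) (Nat.pos_of_ne_zero (NeZero.ne p))
  have hz0 : z ≠ 0 := by
    rintro rfl
    rw [zero_pow (NeZero.ne p)] at hz
    exact c₀.ne_zero hz.symm
  exact ⟨Units.mk0 z hz0, Units.ext (by simpa using hz)⟩

/-- **Root list.** Every root of `Φ_p(X, J(c₀, n p))` in an extension of `F((t))` is the image of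
some `J(c, n p²)` or of some `J(c, n)`. -/
theorem exists_J_of_isRoot_evY (c₀ : Fˣ) (n : ℕ) [NeZero n] (z : Ω)
    (hz : ((evY (J c₀ (n * p)) d.Phi).map (algebraMap (LaurentSeries F) Ω)).IsRoot z) :
    (∃ c : Fˣ, z = algebraMap (LaurentSeries F) Ω (J c (n * (p * p)))) ∨
      ∃ c : Fˣ, z = algebraMap (LaurentSeries F) Ω (J c n) := by
  obtain ⟨c, rfl⟩ := exists_unit_pow_eq (p := p) c₀
  rw [d.me1_subst c n, Polynomial.map_mul, Polynomial.IsRoot.def, Polynomial.eval_mul,
    mul_eq_zero] at hz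
  rcases hz with h | h
  · left
    refine ⟨c ^ (p * p), ?_⟩
    rw [Polynomial.map_sub, Polynomial.map_X, Polynomial.map_C, Polynomial.eval_sub,
      Polynomial.eval_X, Polynomial.eval_C, sub_eq_zero] at h
    exact h
  · right
    rw [Polynomial.map_prod, Polynomial.eval_prod, Finset.prod_eq_zero_iff] at h
    obtain ⟨b, -, hb⟩ := h
    refine ⟨ζ ^ b * c, ?_⟩
    rw [Polynomial.map_sub, Polynomial.map_X, Polynomial.map_C, Polynomial.eval_sub,
      Polynomial.eval_X, Polynomial.eval_C, sub_eq_zero] at hb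
    exact hb

omit [IsAlgClosed F] in
/-- The listed elements are indeed roots. -/
theorem isRoot_evY_J_mul (c : Fˣ) (n : ℕ) [NeZero n] :
    (evY (J (c ^ p) (n * p)) d.Phi).IsRoot (J (c ^ (p * p)) (n * (p * p))) := by
  rw [d.me1_subst c n, Polynomial.IsRoot.def, Polynomial.eval_mul, Polynomial.eval_sub,
    Polynomial.eval_X, Polynomial.eval_C, sub_self, zero_mul]

omit [IsAlgClosed F] in
theorem isRoot_evY_J_div (c : Fˣ) (n : ℕ) [NeZero n] {b : ℕ} (hb : b < p) :
    (evY (J (c ^ p) (n * p)) d.Phi).IsRoot (J (ζ ^ b * c) n) := by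
  rw [d.me1_subst c n, Polynomial.IsRoot.def, Polynomial.eval_mul, Polynomial.eval_prod,
    Finset.prod_eq_zero (Finset.mem_range.mpr hb), mul_zero]
  rw [Polynomial.eval_sub, Polynomial.eval_X, Polynomial.eval_C, sub_self]

end RootList

end Fermat.Agent.Igusa
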