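/-
S28 (Igusa), helper lemma for the instantiation of the tower (`Igusa/Tower.lean`):
ROOT TRACKING (`TowerData.conj_mem` in concrete form).  If `x 0 = J(1, M p^i)` lies in `k`, and
`x (e+1)` is a root of `Φ_p(X, x e)` for `e < i`, then every `k`-conjugate of `x i` (in an
algebraically closed `Ω ⊇ F((t))`) is of the form `J(c, M p^t)`; in particular it lies in the level
field `F((t^M))`.
-/
import Mathlib
import Fermat.Agent.Igusa.TowerAbstract
import Fermat.Agent.Igusa.TowerRoots
import Fermat.Agent.Igusa.SubstLevel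

set_option autoImplicit false

namespace Fermat.Agent.Igusa

open ModularCurve Polynomial IntermediateField

section Track

variable {F : Type*} [Field F] [IsAlgClosed F] {p : ℕ} [NeZero p] {ζ : Fˣ} {pinv : F}
  (d : ModEqData F p ζ pinv)
  {k Ω : Type*} [Field k] [Field Ω] [Algebra k Ω] [Algebra (LaurentSeries F) Ω]

omit [IsAlgClosed F] in
/-- A root of a monic polynomial `Φ(X, w)` with `w` integral over `k` is integral over `k`. -/
theorem isIntegral_of_isRoot_evInner {Φ : Polynomial (Polynomial k)} (hΦm : Φ.Monic) {w u : Ω}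
    (hw : IsIntegral k w) (hu : (evInner w Φ).IsRoot u) : IsIntegral k u := by
  have halg0 : Algebra.IsAlgebraic k k⟮w⟯ := IntermediateField.isAlgebraic_adjoin_simple hw
  have halg : Algebra.IsIntegral k k⟮w⟯ := Algebra.IsAlgebraic.isIntegral
  let w' : k⟮w⟯ := ⟨w, mem_adjoin_simple_self k w⟩
  have hmap : (evInner w' Φ).map (algebraMap k⟮w⟯ Ω) = evInner w Φ :=
    evInner_map (k⟮w⟯).val w' Φ
  have hint : IsIntegral k⟮w⟯ u := by
    refine ⟨evInner w' Φ, evInner_monic w' hΦm, ?_⟩
    rw [← eval_map, hmap]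
    exact hu
  exact isIntegral_trans u hint

/-- **Root tracking.** -/
theorem exists_J_of_aeval_minpoly_eq_zero [IsAlgClosed Ω] (M : ℕ) [NeZero M]
    (Φ : Polynomial (Polynomial k)) (hΦm : Φ.Monic)
    (hΦ : ∀ y : LaurentSeries F, evInner (algebraMap (LaurentSeries F) Ω y) Φ =
      (evY y d.Phi).map (algebraMap (LaurentSeries F) Ω))
    (i : ℕ) (x : ℕ → Ω) (hx0 : x 0 ∈ Set.range (algebraMap k Ω))
    (hx0' : x 0 = algebraMap (LaurentSeries F) Ω (J (1 : Fˣ) (M * p ^ i)))
    (hroot : ∀ e, e < i → (evInner (x e) Φ).IsRoot (x (e + 1)))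
    (z : Ω) (hz : aeval z (minpoly k (x i)) = 0) :
    ∃ (c : Fˣ) (t : ℕ), z = algebraMap (LaurentSeries F) Ω (J c (M * p ^ t)) := by
  classical
  -- integrality of the `x e`
  have hint : ∀ e, e ≤ i → IsIntegral k (x e) := by
    intro e
    induction e with
    | zero =>
      intro _
      obtain ⟨a, ha⟩ := hx0
      rw [← ha]
      exact isIntegral_algebraMap
    | succ e ih =>
      intro he
      exact isIntegral_of_isRoot_evInner hΦm (ih (by omega)) (hroot e (by omega))
  set S : Set Ω := {u | ∃ e, e ≤ i ∧ u = x e} with hS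
  have hK : ∀ s ∈ S, IsIntegral k s ∧ ((minpoly k s).map (algebraMap k Ω)).Splits := by
    rintro s ⟨e, he, rfl⟩
    exact ⟨hint e he, IsAlgClosed.splits _⟩
  have hmem : ∀ e, e ≤ i → x e ∈ adjoin k S := fun e he =>
    subset_adjoin k S ⟨e, he, rfl⟩
  obtain ⟨τ, hτ⟩ := exists_algHom_adjoin_of_splits_of_aeval hK (hmem i le_rfl) hz
  -- the invariant
  have key : ∀ e (he : e ≤ i), ∃ (c : Fˣ) (t : ℕ), i ≤ t + e ∧
      τ ⟨x e, hmem e he⟩ = algebraMap (LaurentSeries F) Ω (J c (M * p ^ t)) := by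
    intro e
    induction e with
    | zero =>
      intro he
      refine ⟨1, i, le_rfl, ?_⟩
      obtain ⟨a, ha⟩ := hx0
      have h1 : τ ⟨x 0, hmem 0 he⟩ = algebraMap k Ω a :=
        algHom_mk_eq_algebraMap τ (hmem 0 he) ha.symm
      rw [h1, ha, hx0']
    | succ e ih =>
      intro he
      obtain ⟨c, t, hte, hc⟩ := ih (by omega)
      have ht : 1 ≤ t := by omega
      let xe : adjoin k S := ⟨x e, hmem e (by omega)⟩
      let xs : adjoin k S := ⟨x (e + 1), hmem (e + 1) he⟩
      -- the root relation inside `E`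
      have hQΩ : (evInner xe Φ).map (algebraMap (adjoin k S) Ω) = evInner (x e) Φ :=
        evInner_map (adjoin k S).val xe Φ
      have hQroot : (evInner xe Φ).IsRoot xs := by
        rw [IsRoot.def]
        apply (algebraMap (adjoin k S) Ω).injective
        rw [← eval_map_apply, hQΩ, map_zero]
        exact hroot e (by omega)
      have hQτ : (evInner xe Φ).map τ.toRingHom = evInner (τ xe) Φ := evInner_map τ xe Φ
      have hτroot : (evInner (τ xe) Φ).IsRoot (τ xs) := by
        rw [← hQτ]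
        exact hQroot.map
      -- rewrite the level
      have hlev : M * p ^ t = M * p ^ (t - 1) * p := by
        obtain ⟨t, rfl⟩ := Nat.exists_eq_add_of_le' ht
        rw [Nat.add_sub_cancel, pow_succ, mul_assoc]
      have hc' : τ xe = algebraMap (LaurentSeries F) Ω (J c (M * p ^ (t - 1) * p)) := by
        rw [← J_congr c hlev]
        exact hc
      rw [hc', hΦ] at hτroot
      rcases exists_J_of_isRoot_evY d c (M * p ^ (t - 1)) (τ xs) hτroot with ⟨c', h⟩ | ⟨c', h⟩
      · refine ⟨c', t + 1, by omega, ?_⟩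
        have hlev' : M * p ^ (t - 1) * (p * p) = M * p ^ (t + 1) := by
          obtain ⟨t, rfl⟩ := Nat.exists_eq_add_of_le' ht
          rw [Nat.add_sub_cancel, pow_succ, pow_succ]
          ring
        rw [← J_congr c' hlev']
        exact h
      · exact ⟨c', t - 1, by omega, h⟩
  obtain ⟨c, t, -, hc⟩ := key i le_rfl
  exact ⟨c, t, hτ ▸ hc⟩

/-- **Root tracking, level form**: every `k`-conjugate of `x i` lies in the image of the level
field `F((t^M))`. -/
theorem exists_mem_levelSub_of_aeval_minpoly_eq_zero [IsAlgClosed Ω] (M : ℕ) [NeZero M]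
    (Φ : Polynomial (Polynomial k)) (hΦm : Φ.Monic)
    (hΦ : ∀ y : LaurentSeries F, evInner (algebraMap (LaurentSeries F) Ω y) Φ =
      (evY y d.Phi).map (algebraMap (LaurentSeries F) Ω))
    (i : ℕ) (x : ℕ → Ω) (hx0 : x 0 ∈ Set.range (algebraMap k Ω))
    (hx0' : x 0 = algebraMap (LaurentSeries F) Ω (J (1 : Fˣ) (M * p ^ i)))
    (hroot : ∀ e, e < i → (evInner (x e) Φ).IsRoot (x (e + 1)))
    (z : Ω) (hz : aeval z (minpoly k (x i)) = 0) :
    ∃ w ∈ levelSub F M, z = algebraMap (LaurentSeries F) Ω w := by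
  obtain ⟨c, t, h⟩ := exists_J_of_aeval_minpoly_eq_zero d M Φ hΦm hΦ i x hx0 hx0' hroot z hz
  exact ⟨_, J_mem_levelSub (dvd_mul_right M (p ^ t)) c, h⟩

end Track

end Fermat.Agent.Igusa
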